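/-
S58 wave, [MULT-FIX] sub-leaf (2) (helper2, prefix `s58n_`): THE NODE OF A WEIERSTRASS CUBIC WITH
`Δ = 0`, `c₄ ≠ 0` OVER A FIELD OF ANY CHARACTERISTIC, AND THE NORMAL FORM `y² + a₁xy = x³ + a₂x²`.

For `W` in long Weierstrass form over a field `k` with `Δ = 0` and `c₄ ≠ 0` the point
`(x₀, y₀) = ((18 b₆ − b₂ b₄)/c₄, (b₂ b₅ + 3 b₇)/c₄)`, `b₅ = a₁a₄ − 2a₂a₃`, `b₇ = a₁(a₃² − 12a₆) + 8a₃a₄`,
is singular: with `F = y² + a₁xy + a₃y − x³ − a₂x² − a₄x − a₆` one has the integral identities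
`c₄ F_y(x₀,y₀) = 0`, `c₄² F_x(x₀,y₀) = 36 Δ`, `c₄³ F(x₀,y₀) = −c₆ Δ` (so `−F = c₆ Δ / c₄³`).
Translating it to the origin (`C = (1, x₀, 0, y₀)`) gives `a₃' = a₄' = a₆' = 0` and
`(a₁'² + 4a₂')² = c₄' = c₄ ≠ 0`.

* `s58n_C W`               : the variable change;
* `s58n_a₃`, `s58n_a₄`, `s58n_a₆` : the three vanishing coefficients of `s58n_C W • W`;
* `s58n_disc_ne_zero`      : `a₁'² + 4 a₂' ≠ 0` (the two tangent slopes at the node are distinct);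
* `s58n_exists_node_form`  : the existential form;
* `s58n_pointEquiv`        : `(s58n_C W • W).Point ≃+ W.Point` (helper4's `fvc_pointEquiv`).
-/
import Mathlib
import Fermat.Agent.Lib.Frey.VarChange

set_option autoImplicit false
set_option linter.unusedSectionVars false

noncomputable section

namespace Fermat.Agent.Lib.S58

open WeierstrassCurve Fermat.Agent.Lib.Frey

variable {k : Type*} [Field k] (W : WeierstrassCurve k)

/-- the abscissa of the node. -/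
def s58n_x₀ : k := (18 * W.b₆ - W.b₂ * W.b₄) / W.c₄

/-- the ordinate of the node. -/
def s58n_y₀ : k :=
  (W.b₂ * (W.a₁ * W.a₄ - 2 * W.a₂ * W.a₃) +
    3 * (W.a₁ * (W.a₃ ^ 2 - 12 * W.a₆) + 8 * W.a₃ * W.a₄)) / W.c₄

/-- the translation of the node to the origin. -/
def s58n_C : VariableChange k := ⟨1, s58n_x₀ W, 0, s58n_y₀ W⟩

@[simp] theorem s58n_C_u : (s58n_C W).u = 1 := rfl
@[simp] theorem s58n_C_r : (s58n_C W).r = s58n_x₀ W := rfl
@[simp] theorem s58n_C_s : (s58n_C W).s = 0 := rfl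
@[simp] theorem s58n_C_t : (s58n_C W).t = s58n_y₀ W := rfl

/-- `F_y` vanishes at the node (an identity, no hypothesis on `Δ`). -/
theorem s58n_a₃ (hc₄ : W.c₄ ≠ 0) : (s58n_C W • W).a₃ = 0 := by
  rw [variableChange_a₃]
  simp only [s58n_C_u, s58n_C_r, s58n_C_t, inv_one, Units.val_one, one_pow, one_mul]
  unfold s58n_x₀ s58n_y₀
  have h : W.c₄ = W.b₂ ^ 2 - 24 * W.b₄ := rfl
  field_simp
  simp only [c₄, b₂, b₄, b₆]
  ring

/-- `F_x` vanishes at the node. -/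
theorem s58n_a₄ (hΔ : W.Δ = 0) (hc₄ : W.c₄ ≠ 0) : (s58n_C W • W).a₄ = 0 := by
  rw [variableChange_a₄]
  simp only [s58n_C_u, s58n_C_r, s58n_C_t, s58n_C_s, inv_one, Units.val_one, one_pow, one_mul,
    zero_mul, mul_zero, sub_zero, add_zero]
  have key : W.a₄ + 2 * s58n_x₀ W * W.a₂ - s58n_y₀ W * W.a₁ + 3 * s58n_x₀ W ^ 2 =
      -36 * W.Δ / W.c₄ ^ 2 := by
    unfold s58n_x₀ s58n_y₀
    field_simp
    simp only [Δ, c₄, b₂, b₄, b₆, b₈]
    ring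
  rw [key, hΔ, mul_zero, zero_div]

/-- `F` vanishes at the node. -/
theorem s58n_a₆ (hΔ : W.Δ = 0) (hc₄ : W.c₄ ≠ 0) : (s58n_C W • W).a₆ = 0 := by
  rw [variableChange_a₆]
  simp only [s58n_C_u, s58n_C_r, s58n_C_t, inv_one, Units.val_one, one_pow, one_mul]
  have key : W.a₆ + s58n_x₀ W * W.a₄ + s58n_x₀ W ^ 2 * W.a₂ + s58n_x₀ W ^ 3 - s58n_y₀ W * W.a₃ -
      s58n_y₀ W ^ 2 - s58n_x₀ W * s58n_y₀ W * W.a₁ = W.c₆ * W.Δ / W.c₄ ^ 3 := by
    unfold s58n_x₀ s58n_y₀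
    field_simp
    simp only [Δ, c₄, c₆, b₂, b₄, b₆, b₈]
    ring
  rw [key, hΔ, mul_zero, zero_div]

/-- the two tangent directions at the node are distinct. -/
theorem s58n_disc_ne_zero (hΔ : W.Δ = 0) (hc₄ : W.c₄ ≠ 0) :
    (s58n_C W • W).a₁ ^ 2 + 4 * (s58n_C W • W).a₂ ≠ 0 := by
  intro h0
  have hc : (s58n_C W • W).c₄ = W.c₄ := by
    rw [variableChange_c₄]
    simp
  have h3 := s58n_a₃ W hc₄
  have h4 := s58n_a₄ W hΔ hc₄
  have hc' : (s58n_C W • W).c₄ = ((s58n_C W • W).a₁ ^ 2 + 4 * (s58n_C W • W).a₂) ^ 2 := by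
    simp only [c₄, b₂, b₄, h3, h4]
    ring
  rw [h0] at hc'
  apply hc₄
  rw [← hc, hc']
  ring

/-- **The normal form at the node.** -/
theorem s58n_exists_node_form (hΔ : W.Δ = 0) (hc₄ : W.c₄ ≠ 0) :
    ∃ C : VariableChange k, C.u = 1 ∧ C.s = 0 ∧ (C • W).a₃ = 0 ∧ (C • W).a₄ = 0 ∧
      (C • W).a₆ = 0 ∧ (C • W).a₁ ^ 2 + 4 * (C • W).a₂ ≠ 0 :=
  ⟨s58n_C W, rfl, rfl, s58n_a₃ W hc₄, s58n_a₄ W hΔ hc₄, s58n_a₆ W hΔ hc₄,
    s58n_disc_ne_zero W hΔ hc₄⟩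

/-- the induced isomorphism on the groups of nonsingular points. -/
def s58n_pointEquiv [DecidableEq k] : (s58n_C W • W).toAffine.Point ≃+ W.toAffine.Point :=
  fvc_pointEquiv W (s58n_C W)

theorem s58n_pointEquiv_some [DecidableEq k] {x y : k}
    (h : (s58n_C W • W).toAffine.Nonsingular x y) :
    ∃ h', s58n_pointEquiv W (.some x y h) =
      (.some (x + s58n_x₀ W) (y + s58n_y₀ W) h' : W.toAffine.Point) := by
  have hX : fvc_X (s58n_C W) x = x + s58n_x₀ W := by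
    simp [fvc_X]
  have hY : fvc_Y (s58n_C W) x y = y + s58n_y₀ W := by
    simp [fvc_Y]
  have h' := (fvc_nonsingular W (s58n_C W) x y).mp h
  refine ⟨by rw [← hX, ← hY]; exact h', ?_⟩
  show fvc_pointEquiv W (s58n_C W) (.some x y h) = _
  rw [fvc_pointEquiv_some]
  exact fvc_some_congr hX hY _ _

end Fermat.Agent.Lib.S58
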