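/-
S58 wave, [MULT-FIX] leaf (1) (helper1): THE NODAL CUBIC.

`W : y² + a₁ x y = x³ + a₂ x²` over a field `k`, `a₁ = -(α + β)`, `a₂ = -αβ`, `α ≠ β`
(`s58x_Node W α β`), i.e. `(y - αx)(y - βx) = x³`.  The map
`u ↦ (u d² / (1 - u)², (α - β u) u d² / (1 - u)³)`, `d = α - β`, `1 ↦ 0`,
is an injective homomorphism `kˣ → W_ns(k)` (`s58x_pt`, `s58x_pt_mul`, `s58x_nodeHom`,
`s58x_nodeHom_injective`, `s58x_pt_eq_zero_iff`, `s58x_pt_pow`); the parameter is
`u = (y - αx) / (y - βx)`.  Consequently, over an algebraically closed field in which the prime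
`λ` is invertible, `W_ns(k)` has points of exact order `λ ^ (n + 1)` (`s58x_node_exact`).
No hypothesis on the characteristic (`2`, `3` allowed).
-/
import Mathlib

set_option autoImplicit false

namespace Fermat.Agent.Lib.S58

open WeierstrassCurve WeierstrassCurve.Affine

variable {k : Type*} [Field k]

/-- the `X`-coordinate of the point with parameter `u` on the nodal cubic
`(y - α x)(y - β x) = x ^ 3`. -/
def s58x_X (α β u : k) : k := u * (α - β) ^ 2 / (1 - u) ^ 2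

/-- the `Y`-coordinate of the point with parameter `u`. -/
def s58x_Y (α β u : k) : k := (α - β * u) * u * (α - β) ^ 2 / (1 - u) ^ 3

/-- the nodal normal form: `y² - (α+β) x y = x³ - αβ x²`, `α ≠ β`. -/
structure s58x_Node (W : WeierstrassCurve k) (α β : k) : Prop where
  h₁ : W.a₁ = -(α + β)
  h₂ : W.a₂ = -(α * β)
  h₃ : W.a₃ = 0
  h₄ : W.a₄ = 0
  h₆ : W.a₆ = 0
  hne : α ≠ β

variable {W : WeierstrassCurve k} {α β : k}

theorem s58x_equation (h : s58x_Node W α β) {u : k} (hu : 1 - u ≠ 0) :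
    W.toAffine.Equation (s58x_X α β u) (s58x_Y α β u) := by
  rw [Affine.equation_iff, h.h₁, h.h₂, h.h₃, h.h₄, h.h₆, s58x_X, s58x_Y]
  field_simp
  ring

theorem s58x_nonsingular (h : s58x_Node W α β) {u : k} (hu : 1 - u ≠ 0) (hu0 : u ≠ 0) :
    W.toAffine.Nonsingular (s58x_X α β u) (s58x_Y α β u) := by
  rw [Affine.nonsingular_iff']
  refine ⟨s58x_equation h hu, ?_⟩
  have hd : α - β ≠ 0 := sub_ne_zero.mpr h.hne
  by_contra hcon
  push Not at hcon
  obtain ⟨hx, hy⟩ := hcon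
  rw [h.h₁, h.h₂, h.h₄] at hx
  rw [h.h₁, h.h₃] at hy
  -- 4 x F_x + 3 F_y² + 2 s x F_y = x² d², with a sign: F_x here is a₁ y - (3x²+2a₂x)
  have key : (s58x_X α β u) ^ 2 * (α - β) ^ 2 = 0 := by
    have e : (s58x_X α β u) ^ 2 * (α - β) ^ 2 =
        4 * s58x_X α β u * (-(α + β) * s58x_Y α β u -
          (3 * s58x_X α β u ^ 2 + 2 * -(α * β) * s58x_X α β u + 0)) +
        (2 * s58x_Y α β u + -(α + β) * s58x_X α β u + 0) ^ 2 +
        4 * s58x_Y α β u * (2 * s58x_Y α β u + -(α + β) * s58x_X α β u + 0) -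
        12 * ((s58x_Y α β u) ^ 2 + -(α + β) * s58x_X α β u * s58x_Y α β u + 0 * s58x_Y α β u -
          ((s58x_X α β u) ^ 3 + -(α * β) * (s58x_X α β u) ^ 2 + 0 * s58x_X α β u + 0)) := by ring
    have heq := s58x_equation h hu
    rw [Affine.equation_iff', h.h₁, h.h₂, h.h₃, h.h₄, h.h₆] at heq
    rw [e, hx, hy]
    rw [heq]; ring
  have hX : s58x_X α β u ≠ 0 := by
    rw [s58x_X]
    exact div_ne_zero (mul_ne_zero hu0 (pow_ne_zero 2 hd)) (pow_ne_zero 2 hu)
  exact mul_ne_zero (pow_ne_zero 2 hX) (pow_ne_zero 2 hd) key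


theorem s58x_X_ne_zero (h : s58x_Node W α β) {u : k} (hu : 1 - u ≠ 0) (hu0 : u ≠ 0) :
    s58x_X α β u ≠ 0 := by
  have hd : α - β ≠ 0 := sub_ne_zero.mpr h.hne
  rw [s58x_X]
  exact div_ne_zero (mul_ne_zero hu0 (pow_ne_zero 2 hd)) (pow_ne_zero 2 hu)

theorem s58x_X_inv {u : k} (hu : 1 - u ≠ 0) (hu0 : u ≠ 0) :
    s58x_X α β u⁻¹ = s58x_X α β u := by
  have h2 : u - 1 ≠ 0 := by
    intro h0; apply hu; rw [← neg_sub, h0, neg_zero]
  rw [s58x_X, s58x_X]
  have e : 1 - u⁻¹ = (u - 1) / u := by field_simp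
  rw [e]
  have e2 : 1 - u = -(u - 1) := by ring
  rw [e2]
  field_simp

theorem s58x_negY (h : s58x_Node W α β) {u : k} (hu : 1 - u ≠ 0) (hu0 : u ≠ 0) :
    W.toAffine.negY (s58x_X α β u) (s58x_Y α β u) = s58x_Y α β u⁻¹ := by
  have h1 : 1 - u⁻¹ ≠ 0 := by
    intro h0
    apply hu
    have : u⁻¹ = 1 := (sub_eq_zero.mp h0).symm
    rw [inv_eq_one] at this
    rw [this, sub_self]
  have h2 : u - 1 ≠ 0 := by
    intro h0; apply hu; rw [← neg_sub, h0, neg_zero]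
  rw [Affine.negY, h.h₁, h.h₃, s58x_X, s58x_Y, s58x_Y]
  have e : 1 - u⁻¹ = (u - 1) / u := by field_simp
  rw [e]
  have e2 : 1 - u = -(u - 1) := by ring
  rw [e2]
  field_simp
  ring

theorem s58x_X_sub {u v : k} (hu : 1 - u ≠ 0) (hv : 1 - v ≠ 0) :
    s58x_X α β u - s58x_X α β v =
      (α - β) ^ 2 * (u - v) * (1 - u * v) / ((1 - u) ^ 2 * (1 - v) ^ 2) := by
  rw [s58x_X, s58x_X]
  field_simp
  ring

theorem s58x_X_ne (h : s58x_Node W α β) {u v : k} (hu : 1 - u ≠ 0) (hv : 1 - v ≠ 0)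
    (huv : u ≠ v) (huv1 : 1 - u * v ≠ 0) : s58x_X α β u ≠ s58x_X α β v := by
  have hd : α - β ≠ 0 := sub_ne_zero.mpr h.hne
  rw [← sub_ne_zero, s58x_X_sub hu hv]
  exact div_ne_zero (mul_ne_zero (mul_ne_zero (pow_ne_zero 2 hd) (sub_ne_zero.mpr huv)) huv1)
    (mul_ne_zero (pow_ne_zero 2 hu) (pow_ne_zero 2 hv))

/-- the slope of the chord, closed form. -/
theorem s58x_slope_chord (h : s58x_Node W α β) {u v : k} (hu : 1 - u ≠ 0) (hv : 1 - v ≠ 0)
    (huv : u ≠ v) (huv1 : 1 - u * v ≠ 0) :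
    (s58x_Y α β u - s58x_Y α β v) / (s58x_X α β u - s58x_X α β v) =
      2 * β - α + (α - β) * (1 / (1 - u) + 1 / (1 - v) - u * v / (1 - u * v)) := by
  have hd : α - β ≠ 0 := sub_ne_zero.mpr h.hne
  have hne : s58x_X α β u - s58x_X α β v ≠ 0 := sub_ne_zero.mpr (s58x_X_ne h hu hv huv huv1)
  rw [div_eq_iff hne, s58x_X_sub hu hv, s58x_Y, s58x_Y]
  field_simp
  ring


theorem s58x_addX_chord (h : s58x_Node W α β) {u v : k} (hu : 1 - u ≠ 0) (hv : 1 - v ≠ 0)
    (huv1 : 1 - u * v ≠ 0) (L : k)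
    (hL : L = 2 * β - α + (α - β) * (1 / (1 - u) + 1 / (1 - v) - u * v / (1 - u * v))) :
    W.toAffine.addX (s58x_X α β u) (s58x_X α β v) L = s58x_X α β (u * v) := by
  rw [Affine.addX, h.h₁, h.h₂, hL, s58x_X, s58x_X, s58x_X]
  field_simp
  ring

theorem s58x_addY_chord (h : s58x_Node W α β) {u v : k} (hu : 1 - u ≠ 0) (hv : 1 - v ≠ 0)
    (huv1 : 1 - u * v ≠ 0) (L : k)
    (hL : L = 2 * β - α + (α - β) * (1 / (1 - u) + 1 / (1 - v) - u * v / (1 - u * v))) :
    W.toAffine.addY (s58x_X α β u) (s58x_X α β v) (s58x_Y α β u) L = s58x_Y α β (u * v) := by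
  rw [Affine.addY, Affine.negAddY, s58x_addX_chord h hu hv huv1 L hL, Affine.negY, h.h₁, h.h₃, hL,
    s58x_X, s58x_X, s58x_Y, s58x_Y]
  field_simp
  ring


theorem s58x_Y_sub_negY (h : s58x_Node W α β) {u : k} (hu : 1 - u ≠ 0) :
    s58x_Y α β u - W.toAffine.negY (s58x_X α β u) (s58x_Y α β u) =
      u * (α - β) ^ 3 * (1 + u) / (1 - u) ^ 3 := by
  rw [Affine.negY, h.h₁, h.h₃, s58x_X, s58x_Y]
  field_simp
  ring

theorem s58x_Y_ne_negY (h : s58x_Node W α β) {u : k} (hu : 1 - u ≠ 0) (hu0 : u ≠ 0)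
    (hu1 : 1 + u ≠ 0) :
    s58x_Y α β u ≠ W.toAffine.negY (s58x_X α β u) (s58x_Y α β u) := by
  have hd : α - β ≠ 0 := sub_ne_zero.mpr h.hne
  rw [← sub_ne_zero, s58x_Y_sub_negY h hu]
  exact div_ne_zero (mul_ne_zero (mul_ne_zero hu0 (pow_ne_zero 3 hd)) hu1) (pow_ne_zero 3 hu)

/-- the slope of the tangent, closed form. -/
theorem s58x_slope_tangent (h : s58x_Node W α β) {u : k} (hu : 1 - u ≠ 0) (hu0 : u ≠ 0)
    (hu1 : 1 + u ≠ 0) :
    (3 * s58x_X α β u ^ 2 + 2 * W.a₂ * s58x_X α β u + W.a₄ - W.a₁ * s58x_Y α β u) /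
        (s58x_Y α β u - W.toAffine.negY (s58x_X α β u) (s58x_Y α β u)) =
      2 * β - α + (α - β) * (1 / (1 - u) + 1 / (1 - u) - u * u / (1 - u * u)) := by
  have hd : α - β ≠ 0 := sub_ne_zero.mpr h.hne
  have hne := sub_ne_zero.mpr (s58x_Y_ne_negY h hu hu0 hu1)
  have huu : 1 - u * u ≠ 0 := by
    have e : 1 - u * u = (1 - u) * (1 + u) := by ring
    rw [e]; exact mul_ne_zero hu hu1
  have huu' : 1 - u ^ 2 ≠ 0 := by rw [pow_two]; exact huu
  rw [div_eq_iff hne, s58x_Y_sub_negY h hu, h.h₁, h.h₂, h.h₄, s58x_X, s58x_Y]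
  field_simp
  ring


section Hom

variable [DecidableEq k]

omit [DecidableEq k] in
theorem s58x_some_eq {x y x' y' : k} (h : W.toAffine.Nonsingular x y)
    (h' : W.toAffine.Nonsingular x' y') (hx : x = x') (hy : y = y') :
    Affine.Point.some x y h = Affine.Point.some x' y' h' := by
  subst hx hy
  rfl

/-- the point with parameter `u ∈ kˣ` (`u = 1 ↦ 0`). -/
noncomputable def s58x_pt (h : s58x_Node W α β) (u : kˣ) : W.toAffine.Point :=
  if hu : (u : k) = 1 then 0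
  else Affine.Point.some _ _ (s58x_nonsingular h (sub_ne_zero.mpr (Ne.symm hu)) u.ne_zero)

theorem s58x_pt_of_eq (h : s58x_Node W α β) {u : kˣ} (hu : (u : k) = 1) : s58x_pt h u = 0 :=
  dif_pos hu

theorem s58x_pt_of_ne (h : s58x_Node W α β) {u : kˣ} (hu : (u : k) ≠ 1) :
    s58x_pt h u = Affine.Point.some _ _
      (s58x_nonsingular h (sub_ne_zero.mpr (Ne.symm hu)) u.ne_zero) :=
  dif_neg hu

theorem s58x_pt_eq_zero_iff (h : s58x_Node W α β) (u : kˣ) : s58x_pt h u = 0 ↔ u = 1 := by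
  constructor
  · intro h0
    by_contra hu
    have hu' : (u : k) ≠ 1 := fun e => hu (Units.ext e)
    rw [s58x_pt_of_ne h hu'] at h0
    exact Affine.Point.some_ne_zero _ h0
  · rintro rfl
    exact s58x_pt_of_eq h rfl

theorem s58x_pt_mul (h : s58x_Node W α β) (u v : kˣ) :
    s58x_pt h (u * v) = s58x_pt h u + s58x_pt h v := by
  by_cases hu : (u : k) = 1
  · have : u = 1 := Units.ext hu
    subst this
    rw [one_mul, s58x_pt_of_eq h (u := 1) Units.val_one, zero_add]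
  by_cases hv : (v : k) = 1
  · have : v = 1 := Units.ext hv
    subst this
    rw [mul_one, s58x_pt_of_eq h (u := 1) Units.val_one, add_zero]
  have hu1 : 1 - (u : k) ≠ 0 := sub_ne_zero.mpr (Ne.symm hu)
  have hv1 : 1 - (v : k) ≠ 0 := sub_ne_zero.mpr (Ne.symm hv)
  rw [s58x_pt_of_ne h hu, s58x_pt_of_ne h hv]
  by_cases huv : ((u * v : kˣ) : k) = 1
  · -- inverse points
    rw [s58x_pt_of_eq h huv]
    rw [Units.val_mul] at huv
    have hvu : (u : k) = (v : k)⁻¹ := eq_inv_of_mul_eq_one_left huv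
    symm
    apply Affine.Point.add_of_Y_eq
    · rw [hvu, s58x_X_inv hv1 v.ne_zero]
    · rw [s58x_negY h hv1 v.ne_zero, hvu]
  have huv1 : 1 - (u : k) * (v : k) ≠ 0 := by
    rw [Units.val_mul] at huv
    exact sub_ne_zero.mpr (Ne.symm huv)
  rw [s58x_pt_of_ne h huv]
  by_cases heq : u = v
  · -- tangent
    subst heq
    have hu2 : 1 + (u : k) ≠ 0 := by
      intro h0
      apply huv1
      have e : 1 - (u : k) * (u : k) = (1 - u) * (1 + u) := by ring
      rw [e, h0, mul_zero]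
    have hy := s58x_Y_ne_negY h hu1 u.ne_zero hu2
    rw [Affine.Point.add_self_of_Y_ne hy]
    symm
    have hL := s58x_slope_tangent h hu1 u.ne_zero hu2
    rw [← Affine.slope_of_Y_ne rfl hy] at hL
    apply s58x_some_eq
    · rw [Units.val_mul]; exact s58x_addX_chord h hu1 hu1 huv1 _ hL
    · rw [Units.val_mul]; exact s58x_addY_chord h hu1 hu1 huv1 _ hL
  · -- chord
    have hne : (u : k) ≠ (v : k) := fun e => heq (Units.ext e)
    have hx := s58x_X_ne h hu1 hv1 hne huv1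
    rw [Affine.Point.add_of_X_ne hx]
    symm
    have hL := s58x_slope_chord h hu1 hv1 hne huv1
    rw [← Affine.slope_of_X_ne (W := W.toAffine) hx] at hL
    apply s58x_some_eq
    · rw [Units.val_mul]; exact s58x_addX_chord h hu1 hv1 huv1 _ hL
    · rw [Units.val_mul]; exact s58x_addY_chord h hu1 hv1 huv1 _ hL

theorem s58x_pt_one (h : s58x_Node W α β) : s58x_pt h 1 = 0 :=
  s58x_pt_of_eq h Units.val_one

/-- the additive map `kˣ → W_ns(k)` of the nodal cubic, as a monoid homomorphism. -/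
noncomputable def s58x_nodeHom (h : s58x_Node W α β) : kˣ →* Multiplicative W.toAffine.Point where
  toFun u := Multiplicative.ofAdd (s58x_pt h u)
  map_one' := by rw [s58x_pt_one]; rfl
  map_mul' u v := by rw [s58x_pt_mul]; rfl

theorem s58x_nodeHom_injective (h : s58x_Node W α β) : Function.Injective (s58x_nodeHom h) := by
  rw [injective_iff_map_eq_one]
  intro u hu
  exact (s58x_pt_eq_zero_iff h u).mp hu

theorem s58x_pt_pow (h : s58x_Node W α β) (u : kˣ) (m : ℕ) :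
    s58x_pt h (u ^ m) = m • s58x_pt h u := by
  induction m with
  | zero => rw [pow_zero, zero_smul, s58x_pt_one]
  | succ m ih => rw [pow_succ, s58x_pt_mul, ih, succ_nsmul]

/-- points of exact prime-power order on the nodal cubic in normal form. -/
theorem s58x_node_exact_of_node [IsSepClosed k] (h : s58x_Node W α β) (lam : ℕ)
    (hlam : lam.Prime) (hlk : (lam : k) ≠ 0) (n : ℕ) :
    ∃ P : W.toAffine.Point, lam ^ (n + 1) • P = 0 ∧ lam ^ n • P ≠ 0 := by
  have : NeZero (lam : k) := ⟨hlk⟩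
  obtain ⟨ζ, hζ⟩ := HasEnoughRootsOfUnity.exists_primitiveRoot k (lam ^ (n + 1))
  have hζ0 : ζ ≠ 0 := by
    intro h0
    have h1 := hζ.pow_eq_one
    rw [h0, zero_pow (pow_ne_zero _ hlam.ne_zero)] at h1
    exact zero_ne_one h1
  set u : kˣ := Units.mk0 ζ hζ0 with hu
  refine ⟨s58x_pt h u, ?_, ?_⟩
  · rw [← s58x_pt_pow, s58x_pt_eq_zero_iff]
    apply Units.ext
    rw [Units.val_pow_eq_pow_val, hu, Units.val_mk0, hζ.pow_eq_one, Units.val_one]
  · rw [← s58x_pt_pow, Ne, s58x_pt_eq_zero_iff]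
    intro h1
    have h2 : ζ ^ lam ^ n = 1 := by
      have := congrArg Units.val h1
      rwa [Units.val_pow_eq_pow_val, hu, Units.val_mk0, Units.val_one] at this
    have h3 := hζ.dvd_of_pow_eq_one _ h2
    rw [pow_succ] at h3
    have h4 : lam ^ n * lam ≤ lam ^ n := Nat.le_of_dvd (pow_pos hlam.pos n) h3
    have h5 : lam ^ n * 2 ≤ lam ^ n * lam := Nat.mul_le_mul_left _ hlam.two_le
    have h6 : 0 < lam ^ n := pow_pos hlam.pos n
    omega

omit [DecidableEq k] in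
/-- the tangent slopes at the node. -/
theorem s58x_exists_node [IsAlgClosed k] (W : WeierstrassCurve k) (h₃ : W.a₃ = 0) (h₄ : W.a₄ = 0)
    (h₆ : W.a₆ = 0) (hd : W.a₁ ^ 2 + 4 * W.a₂ ≠ 0) : ∃ α β : k, s58x_Node W α β := by
  obtain ⟨α, hα⟩ := IsAlgClosed.exists_root
    (Polynomial.X ^ 2 + Polynomial.C W.a₁ * Polynomial.X - Polynomial.C W.a₂ : Polynomial k)
    (by
      have hdeg : (Polynomial.X ^ 2 + Polynomial.C W.a₁ * Polynomial.X - Polynomial.C W.a₂ :
          Polynomial k).degree = 2 := by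
        compute_degree!
      rw [hdeg]; norm_num)
  have hα' : α ^ 2 + W.a₁ * α - W.a₂ = 0 := by
    simpa [Polynomial.IsRoot] using hα
  refine ⟨α, -W.a₁ - α, ⟨by ring, by linear_combination (-1 : k) * hα', h₃, h₄, h₆, ?_⟩⟩
  intro hαβ
  apply hd
  have e : W.a₁ ^ 2 + 4 * W.a₂ =
      (α - (-W.a₁ - α)) ^ 2 - 4 * (α ^ 2 + W.a₁ * α - W.a₂) := by ring
  rw [e, hα', ← hαβ]
  ring

/-- **[MULT-FIX] leaf (1).**  The nodal cubic `y² + a₁ x y = x³ + a₂ x²` (`a₁² + 4 a₂ ≠ 0`) over an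
algebraically closed field has points of exact order `λ ^ (n + 1)` for every prime `λ` invertible
in the field. -/
theorem s58x_node_exact [IsAlgClosed k] (W : WeierstrassCurve k) (h₃ : W.a₃ = 0) (h₄ : W.a₄ = 0)
    (h₆ : W.a₆ = 0) (hd : W.a₁ ^ 2 + 4 * W.a₂ ≠ 0) (lam : ℕ) (hlam : lam.Prime)
    (hlk : (lam : k) ≠ 0) (n : ℕ) :
    ∃ P : W.toAffine.Point, lam ^ (n + 1) • P = 0 ∧ lam ^ n • P ≠ 0 := by
  obtain ⟨α, β, h⟩ := s58x_exists_node W h₃ h₄ h₆ hd
  exact s58x_node_exact_of_node h lam hlam hlk n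

end Hom

end Fermat.Agent.Lib.S58
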