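/-
S58 wave, shared library [E1-GEN] (helper4, prefix `s58e_`), part 1: THE KERNEL OF REDUCTION `E₁` OF A
WEIERSTRASS CURVE IN LONG FORM OVER A VALUED FIELD, ANY RESIDUE CHARACTERISTIC.

`K` a field with a valuation `v`, `W : WeierstrassCurve K` with integral `b₂, b₄, b₆, b₈`
(e.g. integral `a_i`).  `E₁ = {O} ∪ {P : 1 < v (x P)}` (`fe1_E1` of `Lib/Frey/E1.lean`).

* `s58e_pair`  : for `P, Q ∈ E₁` affine with `x P ≠ x Q`: `P ± Q` affine, `u (P ± Q) ≠ 0`,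
  `v (u (P ± Q)) ≤ max (v (u P)) (v (u Q))`, `u (P+Q) + u (P-Q) ≡ 2 (u P + u Q)` mod `u P · u Q`
  (`u = 1/x`), from the `b`-form of the addition law (`ent_addsub_X`, `Lib/EN/PointAdd.lean`): the pair
  `u (P ± Q)` is the root pair of `E T² - N T + (u₁ - u₂)²` with `E ≡ 1`;
* `s58e_dbl`   : doubling, `u (2P) = u G / H` with `H ≡ 1`, `G ≡ 4`;
* `s58e_E1_add`, `s58e_E1_sub` : `E₁` is a subgroup;
* `s58e_E1_torsion_free` : `E₁` has no `p`-torsion for an odd prime `p` with `v p = 1`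
  (NO hypothesis on `v 2`: residue characteristic `2` allowed);
* `s58e_E1_torsion_free_pow` : no `pⁿ`-torsion.

This is `Lib/Frey/E1.lean` (short form, `v 2 = 1`) redone in the `b`-form, characteristic-free.
-/
import Mathlib
import Fermat.Agent.Lib.Frey.E1
import Fermat.Agent.Lib.EN.PointAdd

set_option autoImplicit false
set_option linter.unusedSectionVars false

namespace Fermat.Agent.Lib.S58

open WeierstrassCurve WeierstrassCurve.Affine Fermat.Agent.Lib.Frey Fermat.Agent.Lib.EN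

section valuation

variable {K : Type*} [Field K] {Γ₀ : Type*} [LinearOrderedCommGroupWithZero Γ₀] (v : Valuation K Γ₀)

/-- the denominator `E = 1 - b₄ u₁u₂ - b₆ u₁u₂(u₁+u₂) - b₈ (u₁u₂)²` is a unit. -/
theorem s58e_pair_E {u1 u2 b4 b6 b8 : K} (hu1 : v u1 < 1) (hu2 : v u2 < 1)
    (hb4 : v b4 ≤ 1) (hb6 : v b6 ≤ 1) (hb8 : v b8 ≤ 1) :
    v (1 - b4 * (u1 * u2) - b6 * (u1 * u2) * (u1 + u2) - b8 * (u1 * u2) ^ 2) = 1 := by
  have m1 := fe1_mem_of_lt v hu1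
  have m2 := fe1_mem_of_lt v hu2
  have k4 : b4 ∈ v.integer := hb4
  have k6 : b6 ∈ v.integer := hb6
  have k8 : b8 ∈ v.integer := hb8
  have e : 1 - b4 * (u1 * u2) - b6 * (u1 * u2) * (u1 + u2) - b8 * (u1 * u2) ^ 2 =
      1 - u1 * (b4 * u2 + b6 * u2 * (u1 + u2) + b8 * u1 * u2 ^ 2) := by ring
  rw [e]
  apply Valuation.map_one_sub_of_lt
  refine lt_of_le_of_lt (fe1_mul_int_le v ?_) hu1
  apply_rules (maxDepth := 200) [Subring.add_mem, Subring.sub_mem, Subring.mul_mem,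
    Subring.pow_mem, m1, m2, k4, k6, k8]

theorem s58e_pair_le {u1 u2 b2 b4 b6 b8 U1 U2 : K} (hu1 : v u1 < 1) (hu2 : v u2 < 1)
    (hb2 : v b2 ≤ 1) (hb4 : v b4 ≤ 1) (hb6 : v b6 ≤ 1) (hb8 : v b8 ≤ 1)
    (hS : U1 + U2 = (2 * (u1 + u2) + b2 * (u1 * u2) + b4 * (u1 * u2) * (u1 + u2) +
      b6 * (u1 * u2) ^ 2) /
      (1 - b4 * (u1 * u2) - b6 * (u1 * u2) * (u1 + u2) - b8 * (u1 * u2) ^ 2))
    (hP : U1 * U2 = (u1 - u2) ^ 2 /
      (1 - b4 * (u1 * u2) - b6 * (u1 * u2) * (u1 + u2) - b8 * (u1 * u2) ^ 2)) :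
    v U1 ≤ max (v u1) (v u2) := by
  have hE := s58e_pair_E v hu1 hu2 hb4 hb6 hb8
  have m1 := fe1_mem_of_lt v hu1
  have m2 := fe1_mem_of_lt v hu2
  have k2 : b2 ∈ v.integer := hb2
  have k4 : b4 ∈ v.integer := hb4
  have k6 : b6 ∈ v.integer := hb6
  have h2 : (2 : K) ∈ v.integer := ofNat_mem _ 2
  set M := max (v u1) (v u2) with hM
  have l1 : v u1 ≤ M := le_max_left _ _
  have l2 : v u2 ≤ M := le_max_right _ _
  apply fe1_root_le v (U2 := U2)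
  · rw [hS, map_div₀, hE, div_one]
    have e : 2 * (u1 + u2) + b2 * (u1 * u2) + b4 * (u1 * u2) * (u1 + u2) + b6 * (u1 * u2) ^ 2 =
        u1 * (2 + b2 * u2 + b4 * u2 * (u1 + u2) + b6 * u1 * u2 ^ 2) + u2 * 2 := by ring
    rw [e]
    refine v.map_add_le ((fe1_mul_int_le v ?_).trans l1) ((fe1_mul_int_le v h2).trans l2)
    apply_rules (maxDepth := 200) [Subring.add_mem, Subring.sub_mem, Subring.mul_mem,
      Subring.pow_mem, Subring.one_mem, m1, m2, k2, k4, k6, h2]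
  · rw [hP, map_div₀, hE, div_one, map_pow]
    exact pow_le_pow_left₀ zero_le (v.map_sub_le l1 l2) 2

theorem s58e_pair_sum {u1 u2 b2 b4 b6 b8 U1 U2 : K} (hu1 : v u1 < 1) (hu2 : v u2 < 1)
    (hb2 : v b2 ≤ 1) (hb4 : v b4 ≤ 1) (hb6 : v b6 ≤ 1) (hb8 : v b8 ≤ 1)
    (hS : U1 + U2 = (2 * (u1 + u2) + b2 * (u1 * u2) + b4 * (u1 * u2) * (u1 + u2) +
      b6 * (u1 * u2) ^ 2) /
      (1 - b4 * (u1 * u2) - b6 * (u1 * u2) * (u1 + u2) - b8 * (u1 * u2) ^ 2)) :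
    v (U1 + U2 - 2 * (u1 + u2)) ≤ v u1 * v u2 := by
  have hE := s58e_pair_E v hu1 hu2 hb4 hb6 hb8
  have m1 := fe1_mem_of_lt v hu1
  have m2 := fe1_mem_of_lt v hu2
  have k2 : b2 ∈ v.integer := hb2
  have k4 : b4 ∈ v.integer := hb4
  have k6 : b6 ∈ v.integer := hb6
  have k8 : b8 ∈ v.integer := hb8
  have h2 : (2 : K) ∈ v.integer := ofNat_mem _ 2
  set E := 1 - b4 * (u1 * u2) - b6 * (u1 * u2) * (u1 + u2) - b8 * (u1 * u2) ^ 2 with hEdef
  have hE0 : E ≠ 0 := by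
    intro h0; rw [h0, map_zero] at hE; exact zero_ne_one hE
  have e : U1 + U2 - 2 * (u1 + u2) =
      (u1 * u2) * (b2 + b4 * (u1 + u2) + b6 * (u1 * u2) +
        2 * (u1 + u2) * (b4 + b6 * (u1 + u2) + b8 * (u1 * u2))) / E := by
    rw [hS]; field_simp; rw [hEdef]; ring
  rw [e, map_div₀, hE, div_one, ← map_mul]
  apply fe1_mul_int_le
  apply_rules (maxDepth := 200) [Subring.add_mem, Subring.sub_mem, Subring.mul_mem,
      Subring.pow_mem, Subring.one_mem, m1, m2, k2, k4, k6, k8, h2]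

theorem s58e_dbl_H {u b4 b6 b8 : K} (hu : v u < 1)
    (hb4 : v b4 ≤ 1) (hb6 : v b6 ≤ 1) (hb8 : v b8 ≤ 1) :
    v (1 - b4 * u ^ 2 - 2 * b6 * u ^ 3 - b8 * u ^ 4) = 1 := by
  have m1 := fe1_mem_of_lt v hu
  have k4 : b4 ∈ v.integer := hb4
  have k6 : b6 ∈ v.integer := hb6
  have k8 : b8 ∈ v.integer := hb8
  have h2 : (2 : K) ∈ v.integer := ofNat_mem _ 2
  have e : 1 - b4 * u ^ 2 - 2 * b6 * u ^ 3 - b8 * u ^ 4 =
      1 - u * (b4 * u + 2 * b6 * u ^ 2 + b8 * u ^ 3) := by ring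
  rw [e]
  apply Valuation.map_one_sub_of_lt
  refine lt_of_le_of_lt (fe1_mul_int_le v ?_) hu
  apply_rules (maxDepth := 200) [Subring.add_mem, Subring.sub_mem, Subring.mul_mem,
    Subring.pow_mem, m1, k4, k6, k8, h2]

theorem s58e_dbl_le {u b2 b4 b6 b8 U : K} (hu : v u < 1)
    (hb2 : v b2 ≤ 1) (hb4 : v b4 ≤ 1) (hb6 : v b6 ≤ 1) (hb8 : v b8 ≤ 1)
    (hU : U = u * (4 + b2 * u + 2 * b4 * u ^ 2 + b6 * u ^ 3) /
      (1 - b4 * u ^ 2 - 2 * b6 * u ^ 3 - b8 * u ^ 4)) :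
    v U ≤ v u ∧ v (U - 4 * u) ≤ v u ^ 2 := by
  have hH := s58e_dbl_H v hu hb4 hb6 hb8
  have m1 := fe1_mem_of_lt v hu
  have k2 : b2 ∈ v.integer := hb2
  have k4 : b4 ∈ v.integer := hb4
  have k6 : b6 ∈ v.integer := hb6
  have k8 : b8 ∈ v.integer := hb8
  have h2 : (2 : K) ∈ v.integer := ofNat_mem _ 2
  have h4 : (4 : K) ∈ v.integer := ofNat_mem _ 4
  have h8 : (8 : K) ∈ v.integer := ofNat_mem _ 8
  set H := 1 - b4 * u ^ 2 - 2 * b6 * u ^ 3 - b8 * u ^ 4 with hHdef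
  have hH0 : H ≠ 0 := by
    intro h0; rw [h0, map_zero] at hH; exact zero_ne_one hH
  constructor
  · rw [hU, map_div₀, hH, div_one]
    apply fe1_mul_int_le
    apply_rules (maxDepth := 200) [Subring.add_mem, Subring.sub_mem, Subring.mul_mem,
      Subring.pow_mem, Subring.one_mem, m1, k2, k4, k6, h2, h4]
  · have e : U - 4 * u = u ^ 2 * (b2 + 2 * b4 * u + b6 * u ^ 2 + 4 * b4 * u + 8 * b6 * u ^ 2 +
        4 * b8 * u ^ 3) / H := by
      rw [hU]; field_simp; rw [hHdef]; ring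
    rw [e, map_div₀, hH, div_one, ← map_pow]
    apply fe1_mul_int_le
    apply_rules (maxDepth := 200) [Subring.add_mem, Subring.sub_mem, Subring.mul_mem,
      Subring.pow_mem, Subring.one_mem, m1, k2, k4, k6, k8, h2, h4, h8]

end valuation

section points

variable {K : Type*} [Field K] [DecidableEq K] (W : WeierstrassCurve K)
variable {Γ₀ : Type*} [LinearOrderedCommGroupWithZero Γ₀] (v : Valuation K Γ₀)

theorem s58e_X_of_hasX {P : W.toAffine.Point} {ξ : K} (h : ent_HasX W P ξ) :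
    fe1_X (W := W.toAffine) P = ξ := by
  obtain ⟨y, hy, rfl⟩ := h
  rfl

/-- Two points of `E₁` with distinct `x`-coordinates (long form, any residue characteristic). -/
theorem s58e_pair (hb2 : v W.b₂ ≤ 1) (hb4 : v W.b₄ ≤ 1) (hb6 : v W.b₆ ≤ 1) (hb8 : v W.b₈ ≤ 1)
    {x1 y1 x2 y2 : K}
    (hP : W.toAffine.Nonsingular x1 y1) (hQ : W.toAffine.Nonsingular x2 y2) (hx : x1 ≠ x2)
    (hv1 : 1 < v x1) (hv2 : 1 < v x2) :
    Point.some x1 y1 hP + Point.some x2 y2 hQ ≠ 0 ∧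
    Point.some x1 y1 hP - Point.some x2 y2 hQ ≠ 0 ∧
    fe1_X (W := W.toAffine) (Point.some x1 y1 hP + Point.some x2 y2 hQ) ≠ 0 ∧
    fe1_X (W := W.toAffine) (Point.some x1 y1 hP - Point.some x2 y2 hQ) ≠ 0 ∧
    v (fe1_X (W := W.toAffine) (Point.some x1 y1 hP + Point.some x2 y2 hQ))⁻¹ ≤
      max (v x1⁻¹) (v x2⁻¹) ∧
    v (fe1_X (W := W.toAffine) (Point.some x1 y1 hP - Point.some x2 y2 hQ))⁻¹ ≤
      max (v x1⁻¹) (v x2⁻¹) ∧
    v ((fe1_X (W := W.toAffine) (Point.some x1 y1 hP + Point.some x2 y2 hQ))⁻¹ +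
      (fe1_X (W := W.toAffine) (Point.some x1 y1 hP - Point.some x2 y2 hQ))⁻¹ -
        2 * (x1⁻¹ + x2⁻¹)) ≤ v x1⁻¹ * v x2⁻¹ := by
  obtain ⟨ξ₃, ξ₄, h3, h4, hsum, hprod⟩ :=
    ent_addsub_X (W := W) (P₁ := Point.some x1 y1 hP) (P₂ := Point.some x2 y2 hQ)
      ⟨y1, hP, rfl⟩ ⟨y2, hQ, rfl⟩ hx
  have hu1 := fe1_inv_lt_one v hv1
  have hu2 := fe1_inv_lt_one v hv2
  have hx1 := fe1_ne_zero_of_one_lt v hv1
  have hx2 := fe1_ne_zero_of_one_lt v hv2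
  have hE := s58e_pair_E v hu1 hu2 hb4 hb6 hb8
  set E := 1 - W.b₄ * (x1⁻¹ * x2⁻¹) - W.b₆ * (x1⁻¹ * x2⁻¹) * (x1⁻¹ + x2⁻¹) -
    W.b₈ * (x1⁻¹ * x2⁻¹) ^ 2 with hEdef
  have hE0 : E ≠ 0 := by
    intro h0; rw [h0, map_zero] at hE; exact zero_ne_one hE
  have hD : (x1 - x2) ^ 2 ≠ 0 := pow_ne_zero 2 (sub_ne_zero.mpr hx)
  -- `W(x₁,x₂) = (x₁x₂)² E`, `V(x₁,x₂) = (x₁x₂)² N`
  have hWE : ent_W W x1 x2 = (x1 * x2) ^ 2 * E := by
    simp only [ent_W, Algebra.algebraMap_self_apply, hEdef]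
    field_simp
    ring
  have hVN : ent_V W x1 x2 = (x1 * x2) ^ 2 * (2 * (x1⁻¹ + x2⁻¹) + W.b₂ * (x1⁻¹ * x2⁻¹) +
      W.b₄ * (x1⁻¹ * x2⁻¹) * (x1⁻¹ + x2⁻¹) + W.b₆ * (x1⁻¹ * x2⁻¹) ^ 2) := by
    simp only [ent_V, Algebra.algebraMap_self_apply]
    field_simp
    ring
  have hξ : ξ₃ * ξ₄ ≠ 0 := by
    intro h0
    rw [h0, zero_mul, hWE] at hprod
    exact mul_ne_zero (pow_ne_zero 2 (mul_ne_zero hx1 hx2)) hE0 hprod.symm
  have hξ₃ : ξ₃ ≠ 0 := left_ne_zero_of_mul hξ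
  have hξ₄ : ξ₄ ≠ 0 := right_ne_zero_of_mul hξ
  have hS : ξ₃⁻¹ + ξ₄⁻¹ = (2 * (x1⁻¹ + x2⁻¹) + W.b₂ * (x1⁻¹ * x2⁻¹) +
      W.b₄ * (x1⁻¹ * x2⁻¹) * (x1⁻¹ + x2⁻¹) + W.b₆ * (x1⁻¹ * x2⁻¹) ^ 2) / E := by
    rw [eq_div_iff hE0]
    have h1 : ξ₃⁻¹ + ξ₄⁻¹ = (ξ₃ + ξ₄) * (x1 - x2) ^ 2 / (ξ₃ * ξ₄ * (x1 - x2) ^ 2) := by
      field_simp
      ring
    rw [h1, hsum, hprod, hWE, hVN]
    field_simp
  have hPi : ξ₃⁻¹ * ξ₄⁻¹ = (x1⁻¹ - x2⁻¹) ^ 2 / E := by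
    rw [eq_div_iff hE0]
    have h1 : ξ₃⁻¹ * ξ₄⁻¹ = (x1 - x2) ^ 2 / (ξ₃ * ξ₄ * (x1 - x2) ^ 2) := by
      field_simp
    rw [h1, hprod, hWE]
    field_simp
    ring
  rw [s58e_X_of_hasX W h3, s58e_X_of_hasX W h4]
  refine ⟨h3.ne_zero, h4.ne_zero, hξ₃, hξ₄, ?_, ?_, ?_⟩
  · exact s58e_pair_le v hu1 hu2 hb2 hb4 hb6 hb8 hS hPi
  · refine s58e_pair_le v hu1 hu2 hb2 hb4 hb6 hb8 (U2 := ξ₃⁻¹) ?_ ?_
    · rw [add_comm]; exact hS
    · rw [mul_comm]; exact hPi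
  · exact s58e_pair_sum v hu1 hu2 hb2 hb4 hb6 hb8 hS

/-- Doubling a point of `E₁` which is not `2`-torsion. -/
theorem s58e_dbl (hb2 : v W.b₂ ≤ 1) (hb4 : v W.b₄ ≤ 1) (hb6 : v W.b₆ ≤ 1) (hb8 : v W.b₈ ≤ 1)
    {x y : K} (hP : W.toAffine.Nonsingular x y) (hv : 1 < v x)
    (hne : y ≠ W.toAffine.negY x y) :
    Point.some x y hP + Point.some x y hP ≠ 0 ∧
    fe1_X (W := W.toAffine) (Point.some x y hP + Point.some x y hP) ≠ 0 ∧
    v (fe1_X (W := W.toAffine) (Point.some x y hP + Point.some x y hP))⁻¹ ≤ v x⁻¹ ∧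
    v ((fe1_X (W := W.toAffine) (Point.some x y hP + Point.some x y hP))⁻¹ - 4 * x⁻¹) ≤
      v x⁻¹ ^ 2 := by
  have hu := fe1_inv_lt_one v hv
  have hx0 := fe1_ne_zero_of_one_lt v hv
  have E := ent_eqn hP
  have hη2 : (y - W.toAffine.negY x y) ^ 2 = ent_V W x x := by
    simp only [ent_V, Algebra.algebraMap_self_apply, WeierstrassCurve.b₂, WeierstrassCurve.b₄,
      WeierstrassCurve.b₆, Affine.negY]
    linear_combination 4 * E
  have hf : ent_V W x x ≠ 0 := by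
    rw [← hη2]
    exact pow_ne_zero 2 (sub_ne_zero.mpr hne)
  obtain ⟨ξ, h2, hξ⟩ := ent_dup_X (W := W) (P := Point.some x y hP) ⟨y, hP, rfl⟩ hf
  have hH := s58e_dbl_H v hu hb4 hb6 hb8
  set H := 1 - W.b₄ * x⁻¹ ^ 2 - 2 * W.b₆ * x⁻¹ ^ 3 - W.b₈ * x⁻¹ ^ 4 with hHdef
  have hH0 : H ≠ 0 := by
    intro h0; rw [h0, map_zero] at hH; exact zero_ne_one hH
  have hWH : ent_W W x x = x ^ 4 * H := by
    simp only [ent_W, Algebra.algebraMap_self_apply, hHdef]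
    field_simp
    ring
  have hVG : ent_V W x x = x ^ 3 * (4 + W.b₂ * x⁻¹ + 2 * W.b₄ * x⁻¹ ^ 2 + W.b₆ * x⁻¹ ^ 3) := by
    simp only [ent_V, Algebra.algebraMap_self_apply]
    field_simp
    ring
  have hG0 : 4 + W.b₂ * x⁻¹ + 2 * W.b₄ * x⁻¹ ^ 2 + W.b₆ * x⁻¹ ^ 3 ≠ 0 := by
    intro h0
    rw [hVG, h0, mul_zero] at hf
    exact hf rfl
  have hξ0 : ξ ≠ 0 := by
    intro h0
    rw [h0, zero_mul, hWH] at hξ
    exact mul_ne_zero (pow_ne_zero 4 hx0) hH0 hξ.symm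
  have hU : ξ⁻¹ = x⁻¹ * (4 + W.b₂ * x⁻¹ + 2 * W.b₄ * x⁻¹ ^ 2 + W.b₆ * x⁻¹ ^ 3) / H := by
    rw [eq_div_iff hH0]
    have h1 : ξ⁻¹ = ent_V W x x / (ξ * ent_V W x x) := by
      field_simp
    rw [h1, hξ, hWH, hVG]
    field_simp
  rw [s58e_X_of_hasX W h2]
  obtain ⟨b1, b2⟩ := s58e_dbl_le v hu hb2 hb4 hb6 hb8 hU
  exact ⟨h2.ne_zero, hξ0, b1, b2⟩

/-- `E₁` is closed under addition, with control of `v (1 / x)`. -/
theorem s58e_E1_add_le (hb2 : v W.b₂ ≤ 1) (hb4 : v W.b₄ ≤ 1) (hb6 : v W.b₆ ≤ 1)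
    (hb8 : v W.b₈ ≤ 1) {P Q : W.toAffine.Point} (hP : fe1_E1 v P) (hQ : fe1_E1 v Q) :
    fe1_E1 v (P + Q) ∧ v (fe1_X (P + Q))⁻¹ ≤ max (v (fe1_X P)⁻¹) (v (fe1_X Q)⁻¹) := by
  rcases P with _ | ⟨x1, y1, hP'⟩
  · change fe1_E1 v (0 + Q) ∧ v (fe1_X (0 + Q))⁻¹ ≤ _
    rw [zero_add]; exact ⟨hQ, le_max_right _ _⟩
  rcases Q with _ | ⟨x2, y2, hQ'⟩
  · change fe1_E1 v (Point.some x1 y1 hP' + 0) ∧ v (fe1_X (Point.some x1 y1 hP' + 0))⁻¹ ≤ _
    rw [add_zero]; exact ⟨hP, le_max_left _ _⟩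
  have hv1 : 1 < v x1 := hP.resolve_left (Point.some_ne_zero _)
  have hv2 : 1 < v x2 := hQ.resolve_left (Point.some_ne_zero _)
  simp only [fe1_X_some]
  by_cases hx : x1 = x2
  · by_cases hy : y1 = W.toAffine.negY x2 y2
    · rw [Point.add_of_Y_eq hx hy]
      refine ⟨fe1_E1_zero v, ?_⟩
      simp
    · have hyy : y1 = y2 := by
        rcases Y_eq_of_X_eq hP'.1 hQ'.1 hx with h | h
        · exact h
        · exact absurd h hy
      subst hx; subst hyy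
      obtain ⟨-, t1, b1, -⟩ := s58e_dbl W v hb2 hb4 hb6 hb8 hP' hv1 hy
      refine ⟨Or.inr (fe1_one_lt_of_inv v t1 (lt_of_le_of_lt b1 (fe1_inv_lt_one v hv1))), ?_⟩
      exact b1.trans (le_max_left _ _)
  · obtain ⟨-, -, t1, -, b1, -, -⟩ := s58e_pair W v hb2 hb4 hb6 hb8 hP' hQ' hx hv1 hv2
    refine ⟨Or.inr (fe1_one_lt_of_inv v t1 (lt_of_le_of_lt b1 ?_)), b1⟩
    exact max_lt (fe1_inv_lt_one v hv1) (fe1_inv_lt_one v hv2)

/-- **`E₁` is closed under addition** (long form, any residue characteristic). -/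
theorem s58e_E1_add (hb2 : v W.b₂ ≤ 1) (hb4 : v W.b₄ ≤ 1) (hb6 : v W.b₆ ≤ 1)
    (hb8 : v W.b₈ ≤ 1) {P Q : W.toAffine.Point} (hP : fe1_E1 v P) (hQ : fe1_E1 v Q) :
    fe1_E1 v (P + Q) :=
  (s58e_E1_add_le W v hb2 hb4 hb6 hb8 hP hQ).1

/-- **`E₁` is closed under subtraction.** -/
theorem s58e_E1_sub (hb2 : v W.b₂ ≤ 1) (hb4 : v W.b₄ ≤ 1) (hb6 : v W.b₆ ≤ 1)
    (hb8 : v W.b₈ ≤ 1) {P Q : W.toAffine.Point} (hP : fe1_E1 v P) (hQ : fe1_E1 v Q) :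
    fe1_E1 v (P - Q) := by
  rw [sub_eq_add_neg]
  exact s58e_E1_add W v hb2 hb4 hb6 hb8 hP (fe1_E1_neg v hQ)

/-- **`E₁` has no `p`-torsion** for an odd prime `p` which is a unit (any residue characteristic). -/
theorem s58e_E1_torsion_free (hb2 : v W.b₂ ≤ 1) (hb4 : v W.b₄ ≤ 1) (hb6 : v W.b₆ ≤ 1)
    (hb8 : v W.b₈ ≤ 1) {p : ℕ} (hp : p.Prime) (hp2 : p ≠ 2)
    (hvp : v (p : K) = 1) {P : W.toAffine.Point} (hP : fe1_E1 v P) (hpP : p • P = 0) : P = 0 := by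
  by_contra hP0
  obtain ⟨x, y, hxy, rfl⟩ := fe1_exists_some hP0
  have hX : 1 < v x := hP.resolve_left hP0
  have hu1 : v x⁻¹ < 1 := fe1_inv_lt_one v hX
  have hu0 : 0 < v x⁻¹ := by
    rw [map_inv₀]; exact inv_pos.mpr (lt_trans zero_lt_one hX)
  have h2mem : (2 : K) ∈ v.integer := ofNat_mem _ 2
  -- the order of `P` is `p`
  have : Fact p.Prime := ⟨hp⟩
  have hop : addOrderOf (Point.some x y hxy) = p := addOrderOf_eq_prime hpP hP0
  have hord : ∀ k : ℕ, 0 < k → k < p → k • (Point.some x y hxy) ≠ 0 := by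
    intro k hk hkp h0
    have hd := addOrderOf_dvd_of_nsmul_eq_zero h0
    rw [hop] at hd
    exact absurd (Nat.le_of_dvd hk hd) (not_le.mpr hkp)
  have hp3 : 3 ≤ p := by
    have := hp.two_le
    omega
  -- `P` is not `2`-torsion
  have hne : y ≠ W.toAffine.negY x y := by
    intro hy
    apply hord 2 (by norm_num) (by omega)
    rw [two_nsmul]
    exact Point.add_of_Y_eq rfl hy
  -- all multiples lie in `E₁`, with `v (u (k • P)) ≤ v u`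
  have hmult : ∀ k : ℕ, fe1_E1 v (k • (Point.some x y hxy)) ∧
      v (fe1_X (k • (Point.some x y hxy)))⁻¹ ≤ v x⁻¹ := by
    intro k
    induction k with
    | zero => rw [zero_nsmul]; exact ⟨fe1_E1_zero v, by simp⟩
    | succ k ih =>
      rw [succ_nsmul]
      obtain ⟨hE, hle⟩ := s58e_E1_add_le W v hb2 hb4 hb6 hb8 ih.1 hP
      exact ⟨hE, hle.trans (max_le ih.2 (by simp))⟩
  -- main congruence `u (k • P) ≡ k² u (P)` modulo `u²`
  have claim : ∀ k : ℕ, k + 1 < p →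
      v ((fe1_X (k • (Point.some x y hxy)))⁻¹ - (k : K) ^ 2 * x⁻¹) ≤ v x⁻¹ ^ 2 ∧
      v ((fe1_X ((k + 1) • (Point.some x y hxy)))⁻¹ - ((k + 1 : ℕ) : K) ^ 2 * x⁻¹) ≤
        v x⁻¹ ^ 2 := by
    intro k
    induction k with
    | zero => intro _; simp
    | succ k ih =>
      intro hk
      obtain ⟨c0, c1⟩ := ih (by omega)
      refine ⟨c1, ?_⟩
      rcases Nat.eq_zero_or_pos k with rfl | hkpos
      · -- doubling
        obtain ⟨-, -, -, b2⟩ := s58e_dbl W v hb2 hb4 hb6 hb8 hxy hX hne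
        have e2 : (0 + 1 + 1) • (Point.some x y hxy) = Point.some x y hxy + Point.some x y hxy := by
          rw [zero_add, two_nsmul]
        rw [e2]
        have e4 : (((0 + 1 + 1 : ℕ) : K)) ^ 2 = 4 := by norm_num
        rw [e4]
        exact b2
      · -- the recursion
        obtain ⟨xk, yk, hk', hPk⟩ := fe1_exists_some (hord (k + 1) (by omega) (by omega))
        have hvxk : 1 < v xk := by
          have := (hmult (k + 1)).1
          rw [hPk] at this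
          exact this.resolve_left (Point.some_ne_zero _)
        have hukle : v xk⁻¹ ≤ v x⁻¹ := by
          have := (hmult (k + 1)).2
          rwa [hPk, fe1_X_some] at this
        have hne' : xk ≠ x := by
          intro hxe
          have := (Point.X_eq_iff (h₁ := hk') (h₂ := hxy)).mp hxe
          rw [← hPk] at this
          rcases this with h | h
          · have h0 : k • (Point.some x y hxy) = 0 := by
              rw [succ_nsmul] at h; exact add_eq_right.mp h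
            exact hord k hkpos (by omega) h0
          · have h0 : (k + 1 + 1) • (Point.some x y hxy) = 0 := by
              rw [succ_nsmul, h, neg_add_cancel]
            exact hord (k + 1 + 1) (by omega) hk h0
        obtain ⟨-, -, -, -, -, -, hsum⟩ := s58e_pair W v hb2 hb4 hb6 hb8 hk' hxy hne' hvxk hX
        rw [← hPk] at hsum
        have e1 : (k + 1) • (Point.some x y hxy) + Point.some x y hxy =
            (k + 1 + 1) • (Point.some x y hxy) := (succ_nsmul _ (k + 1)).symm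
        have e2 : (k + 1) • (Point.some x y hxy) - Point.some x y hxy =
            k • (Point.some x y hxy) := by
          rw [succ_nsmul, add_sub_cancel_right]
        rw [e1, e2] at hsum
        rw [hPk, fe1_X_some] at c1
        set U2 := (fe1_X ((k + 1 + 1) • (Point.some x y hxy)))⁻¹ with hU2
        set U0 := (fe1_X (k • (Point.some x y hxy)))⁻¹ with hU0
        have hsum' : v (U2 + U0 - 2 * (xk⁻¹ + x⁻¹)) ≤ v x⁻¹ ^ 2 := by
          refine hsum.trans ?_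
          rw [sq]
          exact mul_le_mul_left hukle _
        have key : U2 - ((k + 1 + 1 : ℕ) : K) ^ 2 * x⁻¹ =
            (U2 + U0 - 2 * (xk⁻¹ + x⁻¹)) - (U0 - (k : K) ^ 2 * x⁻¹) +
              (xk⁻¹ - ((k + 1 : ℕ) : K) ^ 2 * x⁻¹) * 2 := by
          push_cast; ring
        rw [key]
        exact v.map_add_le (v.map_sub_le hsum' c0) ((fe1_mul_int_le v h2mem).trans c1)
  -- the contradiction
  obtain ⟨a, rfl⟩ : ∃ a, p = 2 * a + 1 := by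
    rcases hp.eq_two_or_odd' with h | h
    · exact absurd h hp2
    · exact h
  have ha : 0 < a := by
    rcases Nat.eq_zero_or_pos a with rfl | h
    · exact absurd hp (by norm_num)
    · exact h
  obtain ⟨c0, c1⟩ := claim a (by omega)
  have hneg : (a + 1) • (Point.some x y hxy) = -(a • (Point.some x y hxy)) := by
    rw [eq_neg_iff_add_eq_zero, ← add_nsmul]
    have : a + 1 + a = 2 * a + 1 := by ring
    rw [this]; exact hpP
  rw [hneg, fe1_X_neg] at c1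
  have hdiff : v (((2 * a + 1 : ℕ) : K) * x⁻¹) ≤ v x⁻¹ ^ 2 := by
    have e : ((2 * a + 1 : ℕ) : K) * x⁻¹ =
        ((fe1_X (a • (Point.some x y hxy)))⁻¹ - (a : K) ^ 2 * x⁻¹) -
        ((fe1_X (a • (Point.some x y hxy)))⁻¹ - ((a + 1 : ℕ) : K) ^ 2 * x⁻¹) := by
      push_cast; ring
    rw [e]
    exact v.map_sub_le c0 c1
  rw [map_mul, hvp, one_mul, sq] at hdiff
  have : v x⁻¹ * v x⁻¹ < v x⁻¹ * 1 := mul_lt_mul_of_pos_left hu1 hu0
  rw [mul_one] at this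
  exact absurd hdiff (not_le.mpr this)

/-- **`E₁` has no `pⁿ`-torsion** (`p` an odd prime which is a unit). -/
theorem s58e_E1_torsion_free_pow (hb2 : v W.b₂ ≤ 1) (hb4 : v W.b₄ ≤ 1) (hb6 : v W.b₆ ≤ 1)
    (hb8 : v W.b₈ ≤ 1) {p : ℕ} (hp : p.Prime) (hp2 : p ≠ 2)
    (hvp : v (p : K) = 1) (n : ℕ) {P : W.toAffine.Point} (hP : fe1_E1 v P)
    (hpP : p ^ n • P = 0) : P = 0 := by
  induction n generalizing P with
  | zero => simpa using hpP
  | succ n ih =>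
    -- `p • P ∈ E₁` is killed by `p ^ n`
    have hmul : ∀ k : ℕ, fe1_E1 v (k • P) := by
      intro k
      induction k with
      | zero => rw [zero_nsmul]; exact fe1_E1_zero v
      | succ k ihk =>
        rw [succ_nsmul]
        exact s58e_E1_add W v hb2 hb4 hb6 hb8 ihk hP
    have h1 : p ^ n • (p • P) = 0 := by
      rw [← mul_nsmul, mul_comm, ← pow_succ]
      exact hpP
    have h2 : p • P = 0 := ih (hmul p) h1
    exact s58e_E1_torsion_free W v hb2 hb4 hb6 hb8 hp hp2 hvp hP h2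

end points

end Fermat.Agent.Lib.S58
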