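/-
S58 wave, shared library [E1-GEN] (helper4, prefix `s58e_`), part 2: INERTIA AND TORSION POINTS WITH
NONSINGULAR REDUCTION, ANY RESIDUE CHARACTERISTIC.

`W : WeierstrassCurve ℤ`, `E = W_ℚ`, `A` a valuation subring of `ℚ̄` over a prime `ℓ`, `σ` in the inertia
group of `A`, `p ≠ ℓ` an odd prime.

* `s58e_inertia_fix` : a `pⁿ`-torsion point of `E(ℚ̄)` with `A`-integral coordinates whose reduction is a
  NONSINGULAR point of the reduced cubic is fixed by `σ` ((L1) = `frd_sub_mem_E1` of `Lib/Frey/Diff.lean`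
  + `s58e_E1_torsion_free_pow`);
* `s58e_torsion_integral` : every nonzero `pⁿ`-torsion point has `A`-integral coordinates;
* `s58e_unramified_good` : if `ℓ ∤ Δ(W)` the inertia group of `A` acts trivially on `E(ℚ̄)[pⁿ]`
  (INCLUDING `ℓ = 2`).
-/
import Mathlib
import Fermat.Prelude.Def_FLTPrelim_Modularity
import Fermat.Prelude.Def_FLTPrelim_GaloisRep
import Fermat.Prelude.Def_FLTPrelim_Ramification
import Fermat.Agent.Lib.S58.E1Gen
import Fermat.Agent.Lib.Frey.Diff
import Fermat.Agent.Lib.Frey.OrdInertia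
import Fermat.Agent.Lib.S41.ARedRes

set_option autoImplicit false
set_option linter.unusedSectionVars false

namespace Fermat.Agent.Lib.S58

open WeierstrassCurve WeierstrassCurve.Affine Fermat.Agent.Lib.Frey Fermat.Agent.Lib.EN
  Fermat.Agent.Lib.S41

local notation "Kb" => AlgebraicClosure ℚ
local notation "Gal" => (AlgebraicClosure ℚ ≃ₐ[ℚ] AlgebraicClosure ℚ)

section general

variable {K : Type*} [Field K] {Γ₀ : Type*} [LinearOrderedCommGroupWithZero Γ₀]
  (v : Valuation K Γ₀) (W : WeierstrassCurve K)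

/-- integral `a_i` give integral `b_i`. -/
theorem s58e_b_integral (hW : frd_Integral v W.toAffine) :
    v W.b₂ ≤ 1 ∧ v W.b₄ ≤ 1 ∧ v W.b₆ ≤ 1 ∧ v W.b₈ ≤ 1 := by
  have k1 : W.a₁ ∈ v.integer := hW.a1
  have k2 : W.a₂ ∈ v.integer := hW.a2
  have k3 : W.a₃ ∈ v.integer := hW.a3
  have k4 : W.a₄ ∈ v.integer := hW.a4
  have k6 : W.a₆ ∈ v.integer := hW.a6
  have h2 : (2 : K) ∈ v.integer := ofNat_mem _ 2
  have h4 : (4 : K) ∈ v.integer := ofNat_mem _ 4
  refine ⟨?_, ?_, ?_, ?_⟩
  · show W.b₂ ∈ v.integer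
    rw [WeierstrassCurve.b₂]
    apply_rules (maxDepth := 200) [Subring.add_mem, Subring.sub_mem, Subring.mul_mem,
      Subring.pow_mem, k1, k2, k3, k4, k6, h2, h4]
  · show W.b₄ ∈ v.integer
    rw [WeierstrassCurve.b₄]
    apply_rules (maxDepth := 200) [Subring.add_mem, Subring.sub_mem, Subring.mul_mem,
      Subring.pow_mem, k1, k2, k3, k4, k6, h2, h4]
  · show W.b₆ ∈ v.integer
    rw [WeierstrassCurve.b₆]
    apply_rules (maxDepth := 200) [Subring.add_mem, Subring.sub_mem, Subring.mul_mem,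
      Subring.pow_mem, k1, k2, k3, k4, k6, h2, h4]
  · show W.b₈ ∈ v.integer
    rw [WeierstrassCurve.b₈]
    apply_rules (maxDepth := 200) [Subring.add_mem, Subring.sub_mem, Subring.mul_mem,
      Subring.pow_mem, k1, k2, k3, k4, k6, h2, h4]

/-- the two descriptions of `E₁`. -/
theorem s58e_E1_iff (P : W.toAffine.Point) : frd_E1 v W.toAffine P ↔ fe1_E1 v P := by
  rcases P with _ | ⟨x, y, h⟩
  · exact ⟨fun _ => Or.inl rfl, fun _ => Or.inl rfl⟩
  · rw [frd_E1_some]
    constructor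
    · intro hx
      exact Or.inr hx
    · rintro (h0 | hx)
      · exact absurd h0 (Point.some_ne_zero _)
      · exact hx

/-- on an integral long model, an integral `x` forces an integral `y`. -/
theorem s58e_y_integral (hW : frd_Integral v W.toAffine) {x y : K}
    (h : W.toAffine.Equation x y) (hx : v x ≤ 1) : v y ≤ 1 := by
  by_contra hy
  rw [not_le] at hy
  have he := (Affine.equation_iff _ _).mp h
  have h1 : v (W.a₁ * x + W.a₃) ≤ 1 := by
    refine v.map_add_le ?_ hW.a3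
    rw [map_mul]
    exact mul_le_one' hW.a1 hx
  have h2 : v (y + (W.a₁ * x + W.a₃)) = v y :=
    Valuation.map_add_eq_of_lt_left v (lt_of_le_of_lt h1 hy)
  have h3 : v (y ^ 2 + W.a₁ * x * y + W.a₃ * y) = v y * v y := by
    rw [show y ^ 2 + W.a₁ * x * y + W.a₃ * y = y * (y + (W.a₁ * x + W.a₃)) by ring, map_mul, h2]
  have h4 : v (x ^ 3 + W.a₂ * x ^ 2 + W.a₄ * x + W.a₆) ≤ 1 := by
    have hx2 : v (x ^ 2) ≤ 1 := by rw [map_pow]; exact pow_le_one' hx 2
    have hx3 : v (x ^ 3) ≤ 1 := by rw [map_pow]; exact pow_le_one' hx 3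
    refine v.map_add_le (v.map_add_le (v.map_add_le hx3 ?_) ?_) hW.a6
    · rw [map_mul]; exact mul_le_one' hW.a2 hx2
    · rw [map_mul]; exact mul_le_one' hW.a4 hx
  have h5 : (1 : Γ₀) < v y * v y := by
    calc (1 : Γ₀) = 1 * 1 := (one_mul 1).symm
      _ < v y * v y := mul_lt_mul'' hy hy zero_le_one zero_le_one
  rw [he] at h3
  rw [h3] at h4
  exact absurd h4 (not_le.mpr h5)

end general

section galois

variable (W : WeierstrassCurve ℤ) (A : ValuationSubring Kb)

/-- the curve over `ℚ̄` (Prelude shape). -/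
noncomputable abbrev s58e_EK : Affine Kb := ((W.map (Int.castRingHom ℚ)).toAffine⁄Kb)

theorem s58e_intCast_le_one (n : ℤ) : A.valuation ((algebraMap ℚ Kb) ((Int.castRingHom ℚ) n)) ≤ 1 := by
  rw [eq_intCast, map_intCast]
  exact (A.valuation_le_one_iff _).mpr (intCast_mem A n)

/-- the model has `A`-integral coefficients. -/
theorem s58e_integral : frd_Integral A.valuation (s58e_EK W) :=
  ⟨s58e_intCast_le_one A _, s58e_intCast_le_one A _, s58e_intCast_le_one A _,
    s58e_intCast_le_one A _, s58e_intCast_le_one A _⟩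

variable {W A}

/-- an element of the inertia group preserves `A` and is trivial modulo the maximal ideal. -/
theorem s58e_inertia_mem {σ : Gal} (hσ : σ ∈ A.inertiaSubgroupIn ℚ) {a : Kb}
    (ha : A.valuation a ≤ 1) : A.valuation (σ a) ≤ 1 ∧ A.valuation (σ a - a) < 1 := by
  obtain ⟨hD, hI⟩ := ford_inertia_spec A σ hσ
  have haA : a ∈ A := (A.valuation_le_one_iff a).mp ha
  have h1 : σ a ∈ A := ((⟨σ, hD⟩ : A.decompositionSubgroup ℚ) • (⟨a, haA⟩ : A)).2
  refine ⟨(A.valuation_le_one_iff _).mpr h1, ?_⟩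
  have h2 := hI a haA
  rw [ValuationSubring.mem_nonunits_iff] at h2
  exact h2

/-- **A torsion point with integral coordinates and nonsingular reduction is fixed by inertia.** -/
theorem s58e_inertia_fix {ℓ : ℕ} (hℓ : ℓ.Prime) (hA : A.LiesOverPrime ℓ) {p : ℕ} (hp : p.Prime)
    (hp2 : p ≠ 2) (hpℓ : p ≠ ℓ) (n : ℕ) {σ : Gal} (hσ : σ ∈ A.inertiaSubgroupIn ℚ)
    {x y : Kb} (h : (s58e_EK W).Nonsingular x y) (hx : A.valuation x ≤ 1) (hy : A.valuation y ≤ 1)
    (hns : A.valuation ((s58e_EK W).polynomialX.evalEval x y) = 1 ∨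
      A.valuation ((s58e_EK W).polynomialY.evalEval x y) = 1)
    (htors : p ^ n • (Point.some x y h : (s58e_EK W).Point) = 0) :
    σ • (Point.some x y h : (s58e_EK W).Point) = Point.some x y h := by
  obtain ⟨hσx, hσx'⟩ := s58e_inertia_mem hσ hx
  obtain ⟨hσy, hσy'⟩ := s58e_inertia_mem hσ hy
  have hW := s58e_integral W A
  obtain ⟨hb2, hb4, hb6, hb8⟩ := s58e_b_integral A.valuation (s58e_EK W) hW
  have hvp : A.valuation (p : Kb) = 1 :=
    s41a_valuation_natCast_eq_one A hℓ hA (fun hd =>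
      hpℓ ((Nat.prime_dvd_prime_iff_eq hℓ hp).mp hd).symm)
  -- the image point
  obtain ⟨h', e⟩ : ∃ h', σ • (Point.some x y h : (s58e_EK W).Point) =
      Point.some (σ x) (σ y) h' := ⟨_, rfl⟩
  have hd := frd_sub_mem_E1 (v := A.valuation) (W := s58e_EK W) hW h h' hx hy
    (by rw [Valuation.map_sub_swap]; exact hσx') (by rw [Valuation.map_sub_swap]; exact hσy') hns
  rw [← e] at hd
  have hd' : fe1_E1 A.valuation
      ((Point.some x y h : (s58e_EK W).Point) - σ • (Point.some x y h : (s58e_EK W).Point)) :=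
    (s58e_E1_iff A.valuation (s58e_EK W) _).mp hd
  have hσt : p ^ n • (σ • (Point.some x y h : (s58e_EK W).Point)) = 0 := by
    have := map_nsmul (DistribSMul.toAddMonoidHom (s58e_EK W).Point σ)
      (p ^ n) (Point.some x y h : (s58e_EK W).Point)
    rw [htors, map_zero] at this
    exact this.symm
  have hD : p ^ n • ((Point.some x y h : (s58e_EK W).Point) -
      σ • (Point.some x y h : (s58e_EK W).Point)) = 0 := by
    rw [nsmul_sub, htors, hσt, sub_zero]
  have h0 := s58e_E1_torsion_free_pow (s58e_EK W) A.valuation hb2 hb4 hb6 hb8 hp hp2 hvp n hd' hD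
  exact (sub_eq_zero.mp h0).symm

/-- **Torsion points of order prime to the residue characteristic are integral.** -/
theorem s58e_torsion_integral {ℓ : ℕ} (hℓ : ℓ.Prime) (hA : A.LiesOverPrime ℓ) {p : ℕ}
    (hp : p.Prime) (hp2 : p ≠ 2) (hpℓ : p ≠ ℓ) (n : ℕ)
    {x y : Kb} (h : (s58e_EK W).Nonsingular x y)
    (htors : p ^ n • (Point.some x y h : (s58e_EK W).Point) = 0) :
    A.valuation x ≤ 1 ∧ A.valuation y ≤ 1 := by
  have hW := s58e_integral W A
  obtain ⟨hb2, hb4, hb6, hb8⟩ := s58e_b_integral A.valuation (s58e_EK W) hW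
  have hvp : A.valuation (p : Kb) = 1 :=
    s41a_valuation_natCast_eq_one A hℓ hA (fun hd =>
      hpℓ ((Nat.prime_dvd_prime_iff_eq hℓ hp).mp hd).symm)
  have hx : A.valuation x ≤ 1 := by
    by_contra hx
    rw [not_le] at hx
    have hE1 : fe1_E1 A.valuation (Point.some x y h : (s58e_EK W).Point) := Or.inr hx
    exact Point.some_ne_zero h
      (s58e_E1_torsion_free_pow (s58e_EK W) A.valuation hb2 hb4 hb6 hb8 hp hp2 hvp n hE1 htors)
  exact ⟨hx, s58e_y_integral A.valuation (s58e_EK W) hW h.1 hx⟩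

/-- the discriminant of the model over `ℚ̄`. -/
theorem s58e_EK_Δ : (s58e_EK W).Δ = ((W.Δ : ℤ) : Kb) := by
  show ((W.map (Int.castRingHom ℚ)).map (algebraMap ℚ Kb)).Δ = _
  rw [map_Δ, map_Δ, eq_intCast, map_intCast]

/-- **Good reduction: the inertia group acts trivially on the torsion of order prime to `ℓ`**
(`ℓ = 2` allowed). -/
theorem s58e_unramified_good {ℓ : ℕ} (hℓ : ℓ.Prime) (hA : A.LiesOverPrime ℓ)
    (hgood : ¬ (ℓ : ℤ) ∣ W.Δ) {p : ℕ} (hp : p.Prime)
    (hp2 : p ≠ 2) (hpℓ : p ≠ ℓ) (n : ℕ) {σ : Gal} (hσ : σ ∈ A.inertiaSubgroupIn ℚ)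
    (P : (s58e_EK W).Point) (htors : p ^ n • P = 0) : σ • P = P := by
  rcases P with _ | ⟨x, y, h⟩
  · rfl
  · obtain ⟨hx, hy⟩ := s58e_torsion_integral hℓ hA hp hp2 hpℓ n h htors
    have hΔ : A.valuation (s58e_EK W).Δ = 1 := by
      rw [s58e_EK_Δ]
      exact s41a_valuation_intCast_eq_one A hℓ hA hgood
    exact s58e_inertia_fix hℓ hA hp hp2 hpℓ n hσ h hx hy
      (frd_hns_of_disc (s58e_integral W A) hΔ h.1 hx hy) htors

end galois

end Fermat.Agent.Lib.S58
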