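/-
S58 wave (helper6, prefix `s58g_`): **THE REDUCTION RELATION on a Weierstrass curve over a valuation
ring, WITHOUT any hypothesis on the special fibre** (it may be singular).  Frame of
`Lib/S41/ARedMap.lean`: `K` a field, `A` a valuation subring, `W : WeierstrassCurve A`,
`s41a_WK A W` the generic fibre, `s41a_Wk A W` the special fibre (over `ResidueField A`).

`s58g_Red A W P P̃` : `P = (a, b)` with `a, b ∈ A` and `P̃ = (ā, b̄)` a NONSINGULAR point of the special
fibre.  (`Point` of Mathlib = nonsingular points, a group for every Weierstrass curve.)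

* `s58g_red_neg`       : `Red P P̃ → Red (-P) (-P̃)`;
* `s58g_red_add`       : chord: `Red P P̃ → Red Q Q̃ → P̃ ≠ Q̃ → P̃ ≠ -Q̃ → Red (P + Q) (P̃ + Q̃)`;
* `s58g_red_add_self`  : tangent: `Red P P̃ → P̃ ≠ -P̃ → Red (P + P) (P̃ + P̃)`;
* `s58g_red_nsmul`     : `Red R R̃`, `k • R̃ ≠ 0` for `0 < k < m` ⇒ `Red (k • R) (k • R̃)` for `0 < k < m`;
* `s58g_exists_lift`   : `K` algebraically closed: every affine nonsingular point of the special
  fibre is the reduction of a point;
* `s58g_red_unique`, `s58g_red_ne_zero`, `s58g_red_val` (valuation form of the relation).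
-/
import Mathlib
import Fermat.Agent.Lib.S41.ARedMap

set_option autoImplicit false
set_option linter.unusedSectionVars false
set_option linter.style.haveILetI false

namespace Fermat.Agent.Lib.S58

open WeierstrassCurve WeierstrassCurve.Affine IsLocalRing Fermat.Agent.Lib.S41

variable {K : Type*} [Field K] [DecidableEq K] (A : ValuationSubring K) (W : WeierstrassCurve A)
  [DecidableEq (ResidueField A)]

/-- **the reduction relation**: `P = (a, b)` integral, `P̃ = (ā, b̄)` nonsingular. -/
def s58g_Red (P : (s41a_WK A W).toAffine.Point) (Pt : (s41a_Wk A W).toAffine.Point) : Prop :=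
  ∃ (a b : A) (h : (s41a_WK A W).toAffine.Nonsingular (a : K) (b : K))
    (h' : (s41a_Wk A W).toAffine.Nonsingular (residue A a) (residue A b)),
    P = Point.some (a : K) (b : K) h ∧ Pt = Point.some (residue A a) (residue A b) h'

variable {A W}

theorem s58g_red_ne_zero {P : (s41a_WK A W).toAffine.Point}
    {Pt : (s41a_Wk A W).toAffine.Point} (h : s58g_Red A W P Pt) : P ≠ 0 ∧ Pt ≠ 0 := by
  obtain ⟨a, b, h₁, h₂, rfl, rfl⟩ := h
  exact ⟨Point.some_ne_zero _, Point.some_ne_zero _⟩

theorem s58g_red_unique {P : (s41a_WK A W).toAffine.Point}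
    {Pt Pt' : (s41a_Wk A W).toAffine.Point} (h : s58g_Red A W P Pt) (h' : s58g_Red A W P Pt') :
    Pt = Pt' := by
  obtain ⟨a, b, h₁, h₂, rfl, rfl⟩ := h
  obtain ⟨a', b', h₁', h₂', e, rfl⟩ := h'
  rw [Point.some.injEq] at e
  have ea : a = a' := Subtype.ext e.1
  have eb : b = b' := Subtype.ext e.2
  subst ea eb
  rfl

/-- the generic point is nonsingular as soon as the reduced point is. -/
theorem s58g_nonsingular_of_red {a b : A} (he : W.toAffine.Equation a b)
    (h' : (s41a_Wk A W).toAffine.Nonsingular (residue A a) (residue A b)) :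
    (s41a_WK A W).toAffine.Nonsingular (a : K) (b : K) := by
  have heK : (s41a_WK A W).toAffine.Equation (a : K) (b : K) :=
    (Affine.map_equation (W := W.toAffine) (f := A.subtype) Subtype.val_injective a b).mpr he
  rw [Affine.nonsingular_iff'] at h' ⊢
  refine ⟨heK, ?_⟩
  simp only [map_a₁, map_a₂, map_a₃, map_a₄] at h' ⊢
  rcases h'.2 with h | h
  · left
    intro h0
    apply h
    have e : (W.a₁ * b - (3 * a ^ 2 + 2 * W.a₂ * a + W.a₄) : A) = 0 := by
      apply Subtype.ext
      have e3 : ((3 : A) : K) = 3 := map_ofNat A.subtype 3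
      have e2 : ((2 : A) : K) = 2 := map_ofNat A.subtype 2
      push_cast
      rw [e3, e2]
      exact h0
    have := congrArg (residue A) e
    simpa only [map_sub, map_add, map_mul, map_pow, map_ofNat, map_zero] using this
  · right
    intro h0
    apply h
    have e : (2 * b + W.a₁ * a + W.a₃ : A) = 0 := by
      apply Subtype.ext
      have e2 : ((2 : A) : K) = 2 := map_ofNat A.subtype 2
      push_cast
      rw [e2]
      exact h0
    have := congrArg (residue A) e
    simpa only [map_add, map_mul, map_ofNat, map_zero] using this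

/-- constructor of the relation from an integral solution with nonsingular reduction. -/
theorem s58g_red_mk {a b : A} (he : W.toAffine.Equation a b)
    (h' : (s41a_Wk A W).toAffine.Nonsingular (residue A a) (residue A b)) :
    s58g_Red A W (Point.some (a : K) (b : K) (s58g_nonsingular_of_red he h'))
      (Point.some (residue A a) (residue A b) h') :=
  ⟨a, b, _, h', rfl, rfl⟩

theorem s58g_equation_of_nonsingular {a b : A}
    (h : (s41a_WK A W).toAffine.Nonsingular (a : K) (b : K)) : W.toAffine.Equation a b :=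
  (Affine.map_equation (W := W.toAffine) (f := A.subtype) Subtype.val_injective a b).mp h.1

/-! ### Negation -/

theorem s58g_red_neg {P : (s41a_WK A W).toAffine.Point} {Pt : (s41a_Wk A W).toAffine.Point}
    (h : s58g_Red A W P Pt) : s58g_Red A W (-P) (-Pt) := by
  obtain ⟨a, b, h₁, h₂, rfl, rfl⟩ := h
  have hnK : (s41a_WK A W).toAffine.negY (a : K) (b : K) = ((W.toAffine.negY a b : A) : K) :=
    map_negY (W' := W.toAffine) A.subtype a b
  have hnk : (s41a_Wk A W).toAffine.negY (residue A a) (residue A b) =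
      residue A (W.toAffine.negY a b) := map_negY (W' := W.toAffine) (residue A) a b
  have h₁' : (s41a_WK A W).toAffine.Nonsingular (a : K) ((W.toAffine.negY a b : A) : K) := by
    rw [← hnK]; exact (nonsingular_neg ..).mpr h₁
  have h₂' : (s41a_Wk A W).toAffine.Nonsingular (residue A a)
      (residue A (W.toAffine.negY a b)) := by
    rw [← hnk]; exact (nonsingular_neg ..).mpr h₂
  refine ⟨a, W.toAffine.negY a b, h₁', h₂', ?_, ?_⟩
  · rw [Point.neg_some]
    exact s41a_some_congr rfl hnK _ _
  · rw [Point.neg_some]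
    exact s41a_some_congr rfl hnk _ _

/-! ### Addition with an integral slope -/

theorem s58g_red_add_of_slope {a₁ b₁ a₂ b₂ l : A}
    (h₁ : (s41a_WK A W).toAffine.Nonsingular (a₁ : K) (b₁ : K))
    (h₂ : (s41a_WK A W).toAffine.Nonsingular (a₂ : K) (b₂ : K))
    (h₁' : (s41a_Wk A W).toAffine.Nonsingular (residue A a₁) (residue A b₁))
    (h₂' : (s41a_Wk A W).toAffine.Nonsingular (residue A a₂) (residue A b₂))
    (hxy : ¬((a₁ : K) = a₂ ∧ (b₁ : K) = (s41a_WK A W).toAffine.negY (a₂ : K) (b₂ : K)))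
    (hxy' : ¬(residue A a₁ = residue A a₂ ∧
      residue A b₁ = (s41a_Wk A W).toAffine.negY (residue A a₂) (residue A b₂)))
    (hl : (l : K) = (s41a_WK A W).toAffine.slope (a₁ : K) a₂ b₁ b₂)
    (hl' : residue A l = (s41a_Wk A W).toAffine.slope (residue A a₁) (residue A a₂)
      (residue A b₁) (residue A b₂)) :
    s58g_Red A W (Point.some _ _ h₁ + Point.some _ _ h₂)
      (Point.some _ _ h₁' + Point.some _ _ h₂') := by
  have hX : (s41a_WK A W).toAffine.addX (a₁ : K) a₂
      ((s41a_WK A W).toAffine.slope (a₁ : K) a₂ b₁ b₂) = ((W.toAffine.addX a₁ a₂ l : A) : K) := by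
    rw [← hl]; exact map_addX (W' := W.toAffine) A.subtype a₁ a₂ l
  have hY : (s41a_WK A W).toAffine.addY (a₁ : K) a₂ b₁
      ((s41a_WK A W).toAffine.slope (a₁ : K) a₂ b₁ b₂) = ((W.toAffine.addY a₁ a₂ b₁ l : A) : K) := by
    rw [← hl]; exact map_addY (W' := W.toAffine) A.subtype a₁ b₁ a₂ l
  have hX' : (s41a_Wk A W).toAffine.addX (residue A a₁) (residue A a₂)
      ((s41a_Wk A W).toAffine.slope (residue A a₁) (residue A a₂) (residue A b₁)
        (residue A b₂)) = residue A (W.toAffine.addX a₁ a₂ l) := by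
    rw [← hl']; exact map_addX (W' := W.toAffine) (residue A) a₁ a₂ l
  have hY' : (s41a_Wk A W).toAffine.addY (residue A a₁) (residue A a₂) (residue A b₁)
      ((s41a_Wk A W).toAffine.slope (residue A a₁) (residue A a₂) (residue A b₁)
        (residue A b₂)) = residue A (W.toAffine.addY a₁ a₂ b₁ l) := by
    rw [← hl']; exact map_addY (W' := W.toAffine) (residue A) a₁ b₁ a₂ l
  have hnsK := nonsingular_add h₁ h₂ hxy
  have hnsk := nonsingular_add h₁' h₂' hxy'
  rw [hX, hY] at hnsK
  rw [hX', hY'] at hnsk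
  refine ⟨W.toAffine.addX a₁ a₂ l, W.toAffine.addY a₁ a₂ b₁ l, hnsK, hnsk, ?_, ?_⟩
  · rw [Point.add_some hxy]
    exact s41a_some_congr hX hY _ _
  · rw [Point.add_some hxy']
    exact s41a_some_congr hX' hY' _ _

/-- **Chord case.** -/
theorem s58g_red_add {P Q : (s41a_WK A W).toAffine.Point}
    {Pt Qt : (s41a_Wk A W).toAffine.Point} (hP : s58g_Red A W P Pt) (hQ : s58g_Red A W Q Qt)
    (hne : Pt ≠ Qt) (hne' : Pt ≠ -Qt) : s58g_Red A W (P + Q) (Pt + Qt) := by
  obtain ⟨a₁, b₁, h₁, h₁', rfl, rfl⟩ := hP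
  obtain ⟨a₂, b₂, h₂, h₂', rfl, rfl⟩ := hQ
  have hx : residue A a₁ ≠ residue A a₂ := by
    intro hx
    rcases (Point.X_eq_iff (h₁ := h₁') (h₂ := h₂')).mp hx with h | h
    · exact hne h
    · exact hne' h
  have hu : IsUnit (a₁ - a₂) :=
    s41a_isUnit_of_res_ne_zero A (by rw [map_sub]; exact sub_ne_zero.mpr hx)
  obtain ⟨c, hc⟩ := hu.exists_right_inv
  have hxK : (a₁ : K) ≠ a₂ := fun h => hx (by rw [Subtype.ext h])
  have hcK : ((a₁ : K) - a₂) * (c : K) = 1 := by
    have := congrArg Subtype.val hc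
    simpa using this
  refine s58g_red_add_of_slope h₁ h₂ h₁' h₂' (fun h => hxK h.1) (fun h => hx h.1)
    (l := (b₁ - b₂) * c) ?_ ?_
  · rw [slope_of_X_ne hxK, eq_div_iff (sub_ne_zero.mpr hxK)]
    push_cast
    linear_combination ((b₁ : K) - b₂) * hcK
  · rw [slope_of_X_ne hx, eq_div_iff (sub_ne_zero.mpr hx), ← map_sub, ← map_sub, ← map_mul]
    congr 1
    linear_combination (b₁ - b₂) * hc

/-- **Tangent case.** -/
theorem s58g_red_add_self {P : (s41a_WK A W).toAffine.Point}
    {Pt : (s41a_Wk A W).toAffine.Point} (hP : s58g_Red A W P Pt) (hne : Pt ≠ -Pt) :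
    s58g_Red A W (P + P) (Pt + Pt) := by
  obtain ⟨a, b, h, h', rfl, rfl⟩ := hP
  have hnegk : (s41a_Wk A W).toAffine.negY (residue A a) (residue A b) =
      residue A (W.toAffine.negY a b) := map_negY (W' := W.toAffine) (residue A) a b
  have hnegK : (s41a_WK A W).toAffine.negY (a : K) (b : K) = ((W.toAffine.negY a b : A) : K) :=
    map_negY (W' := W.toAffine) A.subtype a b
  have hy : residue A b ≠ (s41a_Wk A W).toAffine.negY (residue A a) (residue A b) := by
    intro hy
    apply hne
    rw [Point.neg_some]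
    exact s41a_some_congr rfl hy _ _
  have hu : IsUnit (b - W.toAffine.negY a b) :=
    s41a_isUnit_of_res_ne_zero A (by rw [map_sub, ← hnegk]; exact sub_ne_zero.mpr hy)
  obtain ⟨c, hc⟩ := hu.exists_right_inv
  have hyK : (b : K) ≠ (s41a_WK A W).toAffine.negY (a : K) (b : K) := by
    intro hb
    apply hy
    rw [hnegk]
    congr 1
    exact Subtype.ext (hb.trans hnegK)
  have hcK : ((b : K) - (s41a_WK A W).toAffine.negY (a : K) (b : K)) * (c : K) = 1 := by
    have := congrArg Subtype.val hc
    rw [hnegK]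
    simpa using this
  refine s58g_red_add_of_slope h h h' h' (fun h => hyK h.2) (fun h => hy h.2)
    (l := (3 * a ^ 2 + 2 * W.a₂ * a + W.a₄ - W.a₁ * b) * c) ?_ ?_
  · rw [slope_of_Y_ne rfl hyK, eq_div_iff (sub_ne_zero.mpr hyK)]
    simp only [map_a₁, map_a₂, map_a₄, ValuationSubring.subtype_apply]
    have e3 : ((3 : A) : K) = 3 := map_ofNat A.subtype 3
    have e2 : ((2 : A) : K) = 2 := map_ofNat A.subtype 2
    push_cast
    rw [e3, e2]
    linear_combination (3 * (a : K) ^ 2 + 2 * (W.a₂ : K) * a + W.a₄ - W.a₁ * b) * hcK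
  · rw [slope_of_Y_ne rfl hy, eq_div_iff (sub_ne_zero.mpr hy), hnegk]
    simp only [map_a₁, map_a₂, map_a₄]
    rw [← map_sub, ← map_mul]
    simp only [← map_ofNat (residue A), ← map_mul, ← map_pow, ← map_add, ← map_sub]
    congr 1
    linear_combination (3 * a ^ 2 + 2 * W.a₂ * a + W.a₄ - W.a₁ * b) * hc

/-! ### Multiples -/

/-- **multiples of a point whose reduction has order `≥ m`.** -/
theorem s58g_red_nsmul {R : (s41a_WK A W).toAffine.Point} {Rt : (s41a_Wk A W).toAffine.Point}
    (hR : s58g_Red A W R Rt) (m : ℕ) (hord : ∀ k, 0 < k → k < m → k • Rt ≠ 0) :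
    ∀ k, 0 < k → k < m → s58g_Red A W (k • R) (k • Rt) := by
  intro k
  induction k with
  | zero => intro h; exact absurd h (lt_irrefl 0)
  | succ k ih =>
    intro _ hk
    rcases Nat.eq_zero_or_pos k with h0 | hpos
    · subst h0
      rw [zero_add, one_nsmul, one_nsmul]
      exact hR
    have ihk := ih hpos (by omega)
    rw [succ_nsmul, succ_nsmul]
    rcases Nat.lt_or_ge k 2 with h2 | h2
    · -- `k = 1`: tangent
      have hk1 : k = 1 := by omega
      subst hk1
      rw [one_nsmul, one_nsmul]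
      refine s58g_red_add_self hR fun h => ?_
      apply hord 2 (by omega) hk
      rw [two_nsmul]
      nth_rewrite 1 [h]
      exact neg_add_cancel Rt
    · -- chord
      refine s58g_red_add ihk hR (fun h => ?_) (fun h => ?_)
      · apply hord (k - 1) (by omega) (by omega)
        have e : k • Rt = (k - 1) • Rt + Rt := by
          rw [← succ_nsmul]; congr 1; omega
        rw [e] at h
        exact add_eq_right.mp h
      · apply hord (k + 1) (by omega) hk
        rw [succ_nsmul, h, neg_add_cancel]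

/-! ### Lifting -/

/-- **lifting**: over an algebraically closed `K`, every affine nonsingular point of the special
fibre is the reduction of a point of the generic fibre. -/
theorem s58g_exists_lift [IsAlgClosed K] {xt yt : ResidueField A}
    (h' : (s41a_Wk A W).toAffine.Nonsingular xt yt) :
    ∃ P : (s41a_WK A W).toAffine.Point, s58g_Red A W P (Point.some xt yt h') := by
  obtain ⟨a, rfl⟩ := residue_surjective xt
  -- a root of the quadratic in `Y`
  obtain ⟨y, hy⟩ := IsAlgClosed.exists_root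
    (Polynomial.X ^ 2 + Polynomial.C ((W.a₁ : K) * a + (W.a₃ : K)) * Polynomial.X -
      Polynomial.C ((a : K) ^ 3 + (W.a₂ : K) * a ^ 2 + (W.a₄ : K) * a + (W.a₆ : K)) :
      Polynomial K) (by
      have : (Polynomial.X ^ 2 + Polynomial.C ((W.a₁ : K) * a + (W.a₃ : K)) * Polynomial.X -
          Polynomial.C ((a : K) ^ 3 + (W.a₂ : K) * a ^ 2 + (W.a₄ : K) * a + (W.a₆ : K)) :
          Polynomial K).degree = 2 := by
        compute_degree!
      rw [this]; norm_num)
  have heqK : (s41a_WK A W).toAffine.Equation (a : K) y := by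
    rw [Affine.equation_iff]
    simp only [map_a₁, map_a₂, map_a₃, map_a₄, map_a₆, ValuationSubring.subtype_apply]
    have := hy
    simp only [Polynomial.IsRoot.def, Polynomial.eval_add, Polynomial.eval_sub,
      Polynomial.eval_mul, Polynomial.eval_pow, Polynomial.eval_X, Polynomial.eval_C] at this
    linear_combination this
  have hyA : y ∈ A := s41a_y_mem A W a.2 heqK
  obtain ⟨b₁, rfl⟩ : ∃ b₁ : A, (b₁ : K) = y := ⟨⟨y, hyA⟩, rfl⟩
  have he₁ : W.toAffine.Equation a b₁ :=
    (Affine.map_equation (W := W.toAffine) (f := A.subtype) Subtype.val_injective a b₁).mp heqK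
  have hek : (s41a_Wk A W).toAffine.Equation (residue A a) (residue A b₁) :=
    he₁.map (residue A)
  rcases Y_eq_of_X_eq h'.1 hek rfl with hyt | hyt
  · subst hyt
    exact ⟨_, s58g_red_mk he₁ h'⟩
  · have hnk : (s41a_Wk A W).toAffine.negY (residue A a) (residue A b₁) =
        residue A (W.toAffine.negY a b₁) := map_negY (W' := W.toAffine) (residue A) a b₁
    rw [hnk] at hyt
    subst hyt
    exact ⟨_, s58g_red_mk ((equation_neg ..).mpr he₁) h'⟩

/-! ### Valuation form -/

/-- the relation in valuation form: integral coordinates. -/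
theorem s58g_red_val {P : (s41a_WK A W).toAffine.Point} {Pt : (s41a_Wk A W).toAffine.Point}
    (h : s58g_Red A W P Pt) :
    ∃ (x y : K) (hns : (s41a_WK A W).toAffine.Nonsingular x y), P = Point.some x y hns ∧
      A.valuation x ≤ 1 ∧ A.valuation y ≤ 1 := by
  obtain ⟨a, b, h₁, h₂, rfl, rfl⟩ := h
  exact ⟨a, b, h₁, rfl, A.valuation_le_one a, A.valuation_le_one b⟩

/-- two points with the same reduction have congruent coordinates. -/
theorem s58g_red_congr {P Q : (s41a_WK A W).toAffine.Point}
    {Pt : (s41a_Wk A W).toAffine.Point} (hP : s58g_Red A W P Pt) (hQ : s58g_Red A W Q Pt) :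
    ∃ (x₁ y₁ x₂ y₂ : K) (h₁ : (s41a_WK A W).toAffine.Nonsingular x₁ y₁)
      (h₂ : (s41a_WK A W).toAffine.Nonsingular x₂ y₂),
      P = Point.some x₁ y₁ h₁ ∧ Q = Point.some x₂ y₂ h₂ ∧ A.valuation x₁ ≤ 1 ∧
        A.valuation y₁ ≤ 1 ∧ A.valuation (x₁ - x₂) < 1 ∧ A.valuation (y₁ - y₂) < 1 := by
  obtain ⟨a₁, b₁, h₁, h₁', rfl, rfl⟩ := hP
  obtain ⟨a₂, b₂, h₂, h₂', rfl, e⟩ := hQ
  rw [Point.some.injEq] at e
  exact ⟨a₁, b₁, a₂, b₂, h₁, h₂, rfl, rfl, A.valuation_le_one a₁, A.valuation_le_one b₁,
    (s41a_res_eq_iff A a₁ a₂).mp e.1, (s41a_res_eq_iff A b₁ b₂).mp e.2⟩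

/-- nonsingular reduction in valuation form: one of the partial derivatives is a unit. -/
theorem s58g_red_hns {a b : A}
    (h' : (s41a_Wk A W).toAffine.Nonsingular (residue A a) (residue A b)) :
    A.valuation ((s41a_WK A W).toAffine.polynomialX.evalEval (a : K) (b : K)) = 1 ∨
      A.valuation ((s41a_WK A W).toAffine.polynomialY.evalEval (a : K) (b : K)) = 1 := by
  rw [evalEval_polynomialX, evalEval_polynomialY]
  rw [Affine.nonsingular_iff'] at h'
  simp only [map_a₁, map_a₂, map_a₃, map_a₄, ValuationSubring.subtype_apply] at h' ⊢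
  have e3 : ((3 : A) : K) = 3 := map_ofNat A.subtype 3
  have e2 : ((2 : A) : K) = 2 := map_ofNat A.subtype 2
  rcases h'.2 with h | h
  · left
    have hu : IsUnit (W.a₁ * b - (3 * a ^ 2 + 2 * W.a₂ * a + W.a₄) : A) :=
      s41a_isUnit_of_res_ne_zero A (by
        simpa only [map_sub, map_add, map_mul, map_pow, map_ofNat] using h)
    have := (A.valuation_eq_one_iff _).mp hu
    rw [← this]
    congr 1
  · right
    have hu : IsUnit (2 * b + W.a₁ * a + W.a₃ : A) :=
      s41a_isUnit_of_res_ne_zero A (by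
        simpa only [map_add, map_mul, map_ofNat] using h)
    have := (A.valuation_eq_one_iff _).mp hu
    rw [← this]
    congr 1

open Fermat.Agent.Lib.Frey in
/-- **two points with the same (nonsingular) reduction differ by a point of `E₁`.** -/
theorem s58g_sub_mem_E1 {P Q : (s41a_WK A W).toAffine.Point}
    {Pt : (s41a_Wk A W).toAffine.Point} (hP : s58g_Red A W P Pt) (hQ : s58g_Red A W Q Pt) :
    frd_E1 A.valuation (s41a_WK A W).toAffine (P - Q) := by
  obtain ⟨a₁, b₁, h₁, h₁', rfl, rfl⟩ := hP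
  obtain ⟨a₂, b₂, h₂, h₂', rfl, e⟩ := hQ
  rw [Point.some.injEq] at e
  exact frd_sub_mem_E1 (s41a_frd_integral A W) h₁ h₂ (A.valuation_le_one a₁)
    (A.valuation_le_one b₁) ((s41a_res_eq_iff A a₁ a₂).mp e.1)
    ((s41a_res_eq_iff A b₁ b₂).mp e.2) (s58g_red_hns h₁')

end Fermat.Agent.Lib.S58
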