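/-
S58 wave, [MULT-FIX] leaf (4) (helper6, theorem name fixed by helper4's #1905): **`E₁` is
`n`-divisible** (`K` algebraically closed of characteristic zero with a valuation `v`, `W` with
integral `b`-invariants and `Δ ≠ 0`, `n ≥ 1` a `v`-unit).

Proof (`Lib/EN`: `x([n]P) = a_n(x P) / b_n(x P)`, `a_n` monic of degree `n²`, `b_n` of degree
`n² - 1` with leading coefficient `n²`, coprime):
* every root of `a_n` is integral: a root `x₀` with `1 < v x₀` gives `P = (x₀, y₀) ∈ E₁` with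
  `[n]P ∈ E₁` affine of abscissa `0`;
* hence `nextCoeff a_n = - Σ roots` is integral, and `F := a_n - ξ b_n` (`ξ = x(Q)`, `1 < v ξ`) is
  monic of degree `n²` with `nextCoeff F = nextCoeff a_n - ξ n²` NOT integral, so `F` has a root `x₀`
  with `1 < v x₀`;
* `S' := (x₀, y₀) ∈ E₁`, `x([n]S') = ξ`, so `[n]S' = ± Q`.
-/
import Mathlib
import Fermat.Agent.Lib.S58.E1Gen
import Fermat.Agent.Lib.EN.Pointwise
import Fermat.Agent.Lib.EN.Count

set_option autoImplicit false
set_option linter.unusedSectionVars false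
set_option linter.style.haveILetI false

namespace Fermat.Agent.Lib.S58

open Polynomial WeierstrassCurve WeierstrassCurve.Affine Fermat.Agent.Lib.Frey
  Fermat.Agent.Lib.EN

section aux

variable {K : Type*} [Field K] [DecidableEq K] [IsAlgClosed K]
  {Γ₀ : Type*} [LinearOrderedCommGroupWithZero Γ₀] (v : Valuation K Γ₀)

/-- a monic polynomial all of whose roots are integral has an integral `nextCoeff`. -/
theorem s58d_nextCoeff_le {F : K[X]} (hF : F.Monic) (hroots : ∀ x, F.IsRoot x → v x ≤ 1) :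
    v F.nextCoeff ≤ 1 := by
  rw [(IsAlgClosed.splits F).nextCoeff_eq_neg_sum_roots_of_monic hF, Valuation.map_neg]
  have hmem : F.roots.sum ∈ v.integer := by
    apply Subring.multiset_sum_mem
    intro x hx
    exact hroots x ((mem_roots hF.ne_zero).mp hx)
  exact hmem

variable (W : WeierstrassCurve K)

/-- multiples of a point of `E₁` lie in `E₁`. -/
theorem s58d_E1_nsmul (hb2 : v W.b₂ ≤ 1) (hb4 : v W.b₄ ≤ 1) (hb6 : v W.b₆ ≤ 1)
    (hb8 : v W.b₈ ≤ 1) {P : W.toAffine.Point} (hP : fe1_E1 v P) (k : ℕ) : fe1_E1 v (k • P) := by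
  induction k with
  | zero => rw [zero_nsmul]; exact fe1_E1_zero v
  | succ k ih => rw [succ_nsmul]; exact s58e_E1_add W v hb2 hb4 hb6 hb8 ih hP

/-- a point with a given abscissa (`Δ ≠ 0`, `K` algebraically closed). -/
theorem s58d_exists_point (hΔ : W.Δ ≠ 0) (x : K) :
    ∃ y : K, W.toAffine.Nonsingular x y := by
  haveI : W.IsElliptic := ⟨isUnit_iff_ne_zero.mpr hΔ⟩
  obtain ⟨P, y, h, -⟩ := ent_exists_point (W := W) x
  exact ⟨y, h⟩

end aux

/-- **`E₁` is `n`-divisible.** -/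
theorem s58d_E1_divisible {K : Type*} [Field K] [DecidableEq K] [IsAlgClosed K] [CharZero K]
    {Γ₀ : Type*} [LinearOrderedCommGroupWithZero Γ₀] (W : WeierstrassCurve K)
    (v : Valuation K Γ₀) (hb2 : v W.b₂ ≤ 1) (hb4 : v W.b₄ ≤ 1) (hb6 : v W.b₆ ≤ 1)
    (hb8 : v W.b₈ ≤ 1) (hΔ : W.Δ ≠ 0) {n : ℕ} (hn : 0 < n) (hvn : v (n : K) = 1)
    {Q : W.toAffine.Point} (hQ : fe1_E1 v Q) :
    ∃ S : W.toAffine.Point, fe1_E1 v S ∧ n • S = Q := by
  rcases Q with _ | ⟨ξ, η, hQ'⟩
  · exact ⟨0, fe1_E1_zero v, smul_zero n⟩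
  have hξ : 1 < v ξ := hQ.resolve_left (Point.some_ne_zero _)
  have hξ0 : ξ ≠ 0 := by
    rintro rfl
    rw [map_zero] at hξ
    exact absurd hξ (not_lt.mpr zero_le_one)
  obtain ⟨hcop, hmon, hdega, hdegb, hlcb⟩ := (enc_Inv_all W hΔ n).1
  have hn2 : 0 < n ^ 2 := by positivity
  have hΔ' : W.toAffine.Δ ≠ 0 := hΔ
  -- (i) the roots of `a_n` are integral
  have hroots_a : ∀ x, (enc_a W n).IsRoot x → v x ≤ 1 := by
    intro x₀ hx₀
    by_contra hcon
    rw [not_le] at hcon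
    obtain ⟨y₀, h₀⟩ := s58d_exists_point W hΔ x₀
    have hE : fe1_E1 v (Point.some x₀ y₀ h₀ : W.toAffine.Point) := Or.inr hcon
    have hnE := s58d_E1_nsmul v W hb2 hb4 hb6 hb8 hE n
    have hb0 : (enc_b W n).eval x₀ ≠ 0 := fun hb => enc_not_both_zero hcop x₀ hx₀ hb
    have hne : n • (Point.some x₀ y₀ h₀ : W.toAffine.Point) ≠ 0 := fun h =>
      hb0 ((enc_nsmul_eq_zero_iff W.toAffine hΔ' h₀ n).mp h)
    obtain ⟨x', y', h', e⟩ : ∃ (x' y' : K) (h' : W.toAffine.Nonsingular x' y'),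
        n • (Point.some x₀ y₀ h₀ : W.toAffine.Point) = Point.some x' y' h' := by
      rcases hP : n • (Point.some x₀ y₀ h₀ : W.toAffine.Point) with _ | ⟨x', y', h'⟩
      · exact absurd hP hne
      · exact ⟨x', y', h', rfl⟩
    have hx' := enc_nsmul_some W.toAffine hΔ' h₀ n e
    rw [hx₀] at hx'
    have hx'0 : x' = 0 := (mul_eq_zero.mp hx').resolve_right hb0
    rw [e] at hnE
    have := hnE.resolve_left (Point.some_ne_zero _)
    rw [fe1_X_some, hx'0, map_zero] at this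
    exact absurd this (not_lt.mpr zero_le_one)
  have hnext_a : v (enc_a W n).nextCoeff ≤ 1 := s58d_nextCoeff_le v hmon hroots_a
  -- (iii) the polynomial `F`
  have hbne : enc_b W n ≠ 0 := enc_b_ne_zero W.toAffine hΔ' hn
  have hdegCb : (C ξ * enc_b W n).natDegree = n ^ 2 - 1 := by
    rw [natDegree_C_mul hξ0, hdegb]
  have hdeglt : (C ξ * enc_b W n).degree < (enc_a W n).degree := by
    rw [degree_eq_natDegree (mul_ne_zero (C_ne_zero.mpr hξ0) hbne),
      degree_eq_natDegree hmon.ne_zero, hdegCb, hdega]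
    exact_mod_cast Nat.sub_lt hn2 one_pos
  have hFmon : (enc_a W n - C ξ * enc_b W n).Monic := hmon.sub_of_left hdeglt
  have hFdeg : (enc_a W n - C ξ * enc_b W n).natDegree = n ^ 2 := by
    rw [natDegree_sub_eq_left_of_natDegree_lt, hdega]
    rw [hdegCb, hdega]
    exact Nat.sub_lt hn2 one_pos
  have hFnext : (enc_a W n - C ξ * enc_b W n).nextCoeff =
      (enc_a W n).nextCoeff - ξ * (n : K) ^ 2 := by
    rw [nextCoeff_of_natDegree_pos (by rw [hFdeg]; exact hn2),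
      nextCoeff_of_natDegree_pos (by rw [hdega]; exact hn2), hFdeg, hdega, coeff_sub,
      coeff_C_mul]
    congr 2
    rw [← hlcb, leadingCoeff, hdegb]
  have hvFnext : 1 < v (enc_a W n - C ξ * enc_b W n).nextCoeff := by
    have h1 : v (ξ * (n : K) ^ 2) = v ξ := by rw [map_mul, map_pow, hvn, one_pow, mul_one]
    rw [hFnext, Valuation.map_sub_eq_of_lt_right v (by rw [h1]; exact lt_of_le_of_lt hnext_a hξ),
      h1]
    exact hξ
  obtain ⟨x₀, hx₀F, hx₀v⟩ : ∃ x₀, (enc_a W n - C ξ * enc_b W n).IsRoot x₀ ∧ 1 < v x₀ := by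
    by_contra hcon
    simp only [not_exists, not_and, not_lt] at hcon
    exact absurd (s58d_nextCoeff_le v hFmon hcon) (not_le.mpr hvFnext)
  -- (iv) the point
  have hrel : (enc_a W n).eval x₀ = ξ * (enc_b W n).eval x₀ := by
    have := hx₀F
    rw [IsRoot.def, eval_sub, eval_mul, eval_C, sub_eq_zero] at this
    exact this
  have hb0 : (enc_b W n).eval x₀ ≠ 0 := by
    intro hb
    rw [hb, mul_zero] at hrel
    exact enc_not_both_zero hcop x₀ hrel hb
  obtain ⟨y₀, h₀⟩ := s58d_exists_point W hΔ x₀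
  have hE : fe1_E1 v (Point.some x₀ y₀ h₀ : W.toAffine.Point) := Or.inr hx₀v
  have hne : n • (Point.some x₀ y₀ h₀ : W.toAffine.Point) ≠ 0 := fun h =>
    hb0 ((enc_nsmul_eq_zero_iff W.toAffine hΔ' h₀ n).mp h)
  obtain ⟨x', y', h', e⟩ : ∃ (x' y' : K) (h' : W.toAffine.Nonsingular x' y'),
      n • (Point.some x₀ y₀ h₀ : W.toAffine.Point) = Point.some x' y' h' := by
    rcases hP : n • (Point.some x₀ y₀ h₀ : W.toAffine.Point) with _ | ⟨x', y', h'⟩
    · exact absurd hP hne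
    · exact ⟨x', y', h', rfl⟩
  have hx' := enc_nsmul_some W.toAffine hΔ' h₀ n e
  rw [hrel] at hx'
  have hx'ξ : x' = ξ := mul_right_cancel₀ hb0 hx'
  subst hx'ξ
  rcases (Point.X_eq_iff (h₁ := h') (h₂ := hQ')).mp rfl with h | h
  · exact ⟨_, hE, e.trans h⟩
  · refine ⟨-(Point.some x₀ y₀ h₀ : W.toAffine.Point), fe1_E1_neg v hE, ?_⟩
    rw [smul_neg, e, h, neg_neg]

end Fermat.Agent.Lib.S58
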