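/-
S58 [MULT-FIX], module 1: the nodal cubic `y² + a₁xy = x³ + a₂x²` over a field `F`, with the two
tangent slopes `β` and `β + d` at the node (`d ≠ 0`), i.e. `a₁ = -(2β + d)`, `a₂ = -β(β + d)`.
The non-singular points are `P(r) = (r(r-d), (β+r) r (r-d))`, `r ≠ 0, d`; in this parameter
`-P(r) = P(d - r)` and `P(r₁) + P(r₂) = P(r₁r₂/(r₁+r₂-d))`, so `u ↦ P(d/(1-u))` (`1 ↦ 0`) is
additive on `Fˣ`.  Consequence: if `F` is algebraically closed and `lam` is invertible in `F`, the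
group of non-singular points has elements of exact order `lam^(N+1)`.
-/
import Mathlib

set_option autoImplicit false

namespace Fermat.Agent.Lib.S58

open WeierstrassCurve WeierstrassCurve.Affine

variable {F : Type*} [Field F]

/-- congruence for affine points -/
theorem s58m_some_congr {W' : WeierstrassCurve F} {x x' y y' : F}
    (hx : x = x') (hy : y = y') (h : W'.toAffine.Nonsingular x y)
    (h' : W'.toAffine.Nonsingular x' y') :
    (Affine.Point.some x y h : W'.toAffine.Point) = Affine.Point.some x' y' h' := by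
  subst hx; subst hy; rfl

/-- the abscissa of `P(r)` -/
def s58m_PX (d r : F) : F := r * (r - d)

/-- the ordinate of `P(r)` -/
def s58m_PY (β d r : F) : F := (β + r) * (r * (r - d))

/-- the normal form of a nodal cubic with tangent slopes `β`, `β + d` at the node `(0,0)` -/
structure s58m_Nodal (W : WeierstrassCurve F) (β d : F) : Prop where
  a₁ : W.a₁ = -(2 * β + d)
  a₂ : W.a₂ = -(β * (β + d))
  a₃ : W.a₃ = 0
  a₄ : W.a₄ = 0
  a₆ : W.a₆ = 0
  d_ne : d ≠ 0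

variable {W : WeierstrassCurve F} {β d : F}

theorem s58m_equation (hW : s58m_Nodal W β d) (r : F) :
    W.toAffine.Equation (s58m_PX d r) (s58m_PY β d r) := by
  rw [Affine.equation_iff, hW.a₁, hW.a₂, hW.a₃, hW.a₄, hW.a₆]
  simp only [s58m_PX, s58m_PY]
  ring

theorem s58m_PX_ne_zero {r : F} (hr0 : r ≠ 0) (hrd : r ≠ d) : s58m_PX d r ≠ 0 :=
  mul_ne_zero hr0 (sub_ne_zero.mpr hrd)

theorem s58m_nonsingular (hW : s58m_Nodal W β d) {r : F} (hr0 : r ≠ 0) (hrd : r ≠ d) :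
    W.toAffine.Nonsingular (s58m_PX d r) (s58m_PY β d r) := by
  rw [Affine.nonsingular_iff]
  refine ⟨s58m_equation hW r, ?_⟩
  by_contra hcon
  push Not at hcon
  obtain ⟨h1, h2⟩ := hcon
  rw [hW.a₁, hW.a₂, hW.a₄] at h1
  rw [hW.a₁, hW.a₃] at h2
  have hX : s58m_PX d r ^ 2 = 0 := by
    simp only [s58m_PX, s58m_PY] at h1 h2 ⊢
    linear_combination (-1 : F) * h1 + (-(β + r)) * h2
  exact s58m_PX_ne_zero hr0 hrd ((pow_eq_zero_iff (two_ne_zero)).mp hX)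

/-- the point `P(r)` -/
def s58m_P (hW : s58m_Nodal W β d) (r : F) (hr0 : r ≠ 0) (hrd : r ≠ d) : W.toAffine.Point :=
  Point.some _ _ (s58m_nonsingular hW hr0 hrd)

theorem s58m_P_ne_zero (hW : s58m_Nodal W β d) {r : F} (hr0 : r ≠ 0) (hrd : r ≠ d) :
    s58m_P hW r hr0 hrd ≠ 0 :=
  Point.some_ne_zero _

theorem s58m_P_congr (hW : s58m_Nodal W β d) {r r' : F} (h : r = r') (hr0 : r ≠ 0) (hrd : r ≠ d)
    (hr0' : r' ≠ 0) (hrd' : r' ≠ d) : s58m_P hW r hr0 hrd = s58m_P hW r' hr0' hrd' := by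
  subst h; rfl

theorem s58m_neg_P (hW : s58m_Nodal W β d) {r : F} (hr0 : r ≠ 0) (hrd : r ≠ d) :
    -s58m_P hW r hr0 hrd =
      s58m_P hW (d - r) (sub_ne_zero.mpr (Ne.symm hrd)) (by
        intro h; apply hr0; linear_combination -h) := by
  unfold s58m_P
  rw [Point.neg_some]
  refine s58m_some_congr ?_ ?_ _ _
  · simp only [s58m_PX]; ring
  · simp only [Affine.negY, hW.a₁, hW.a₃, s58m_PX, s58m_PY]; ring

variable [DecidableEq F]

theorem s58m_add_P_aux (hW : s58m_Nodal W β d) {r₁ r₂ r₃ : F} (h10 : r₁ ≠ 0) (h1d : r₁ ≠ d)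
    (h20 : r₂ ≠ 0) (h2d : r₂ ≠ d) (hs : r₁ + r₂ - d ≠ 0) (h30 : r₃ ≠ 0) (h3d : r₃ ≠ d)
    (hr₃s : r₃ * (r₁ + r₂ - d) = r₁ * r₂) :
    s58m_P hW r₁ h10 h1d + s58m_P hW r₂ h20 h2d = s58m_P hW r₃ h30 h3d := by
  -- the slope
  have hX₁ : s58m_PX d r₁ ≠ 0 := s58m_PX_ne_zero h10 h1d
  have hxy : ¬(s58m_PX d r₁ = s58m_PX d r₂ ∧
      s58m_PY β d r₁ = W.toAffine.negY (s58m_PX d r₂) (s58m_PY β d r₂)) := by
    rintro ⟨hx, hy⟩
    have hx' : (r₁ - r₂) * (r₁ + r₂ - d) = 0 := by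
      simp only [s58m_PX] at hx; linear_combination hx
    have h12 : r₁ = r₂ := by
      rcases mul_eq_zero.mp hx' with h' | h'
      · exact sub_eq_zero.mp h'
      · exact absurd h' hs
    subst h12
    simp only [Affine.negY, hW.a₁, hW.a₃] at hy
    have : (r₁ + r₁ - d) * s58m_PX d r₁ = 0 := by
      simp only [s58m_PX, s58m_PY] at hy ⊢; linear_combination hy
    rcases mul_eq_zero.mp this with h' | h'
    · exact hs h'
    · exact hX₁ h'
  have hslope : W.toAffine.slope (s58m_PX d r₁) (s58m_PX d r₂) (s58m_PY β d r₁) (s58m_PY β d r₂) =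
      β + r₁ + r₂ - r₃ := by
    by_cases h12 : r₁ = r₂
    · subst h12
      have hy : s58m_PY β d r₁ ≠ W.toAffine.negY (s58m_PX d r₁) (s58m_PY β d r₁) :=
        fun h => hxy ⟨rfl, h⟩
      rw [Affine.slope_of_Y_ne rfl hy]
      have hden : s58m_PY β d r₁ - W.toAffine.negY (s58m_PX d r₁) (s58m_PY β d r₁) ≠ 0 :=
        sub_ne_zero.mpr hy
      rw [div_eq_iff hden]
      simp only [Affine.negY, hW.a₁, hW.a₂, hW.a₃, hW.a₄, s58m_PX, s58m_PY]
      linear_combination ((r₁ * (r₁ - d))) * hr₃s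
    · have hx : s58m_PX d r₁ ≠ s58m_PX d r₂ := by
        intro hx
        have hx' : (r₁ - r₂) * (r₁ + r₂ - d) = 0 := by
          simp only [s58m_PX] at hx; linear_combination hx
        rcases mul_eq_zero.mp hx' with h' | h'
        · exact h12 (sub_eq_zero.mp h')
        · exact hs h'
      rw [Affine.slope_of_X_ne hx, div_eq_iff (sub_ne_zero.mpr hx)]
      simp only [s58m_PX, s58m_PY]
      linear_combination ((r₁ - r₂)) * hr₃s
  unfold s58m_P
  rw [Point.add_some hxy]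
  refine s58m_some_congr ?_ ?_ _ _
  · rw [hslope]
    simp only [Affine.addX, hW.a₁, hW.a₂, s58m_PX]
    linear_combination (-2 : F) * hr₃s
  · rw [hslope]
    simp only [Affine.addY, Affine.negY, Affine.negAddY, Affine.addX, hW.a₁, hW.a₂, hW.a₃,
      s58m_PX, s58m_PY]
    linear_combination (-2 * β - d + r₁ + 2 * r₂ - 3 * r₃) * hr₃s

theorem s58m_add_P (hW : s58m_Nodal W β d) {r₁ r₂ : F} (h10 : r₁ ≠ 0) (h1d : r₁ ≠ d)
    (h20 : r₂ ≠ 0) (h2d : r₂ ≠ d) (hs : r₁ + r₂ - d ≠ 0) :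
    ∃ (h30 : r₁ * r₂ / (r₁ + r₂ - d) ≠ 0) (h3d : r₁ * r₂ / (r₁ + r₂ - d) ≠ d),
    s58m_P hW r₁ h10 h1d + s58m_P hW r₂ h20 h2d =
      s58m_P hW (r₁ * r₂ / (r₁ + r₂ - d)) h30 h3d := by
  have h30 : r₁ * r₂ / (r₁ + r₂ - d) ≠ 0 := div_ne_zero (mul_ne_zero h10 h20) hs
  have h3d : r₁ * r₂ / (r₁ + r₂ - d) ≠ d := by
    intro h
    rw [div_eq_iff hs] at h
    have : (r₁ - d) * (r₂ - d) = 0 := by linear_combination h
    rcases mul_eq_zero.mp this with h' | h'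
    · exact h1d (sub_eq_zero.mp h')
    · exact h2d (sub_eq_zero.mp h')
  exact ⟨h30, h3d, s58m_add_P_aux hW h10 h1d h20 h2d hs h30 h3d (div_mul_cancel₀ _ hs)⟩

/-! ### The multiplicative parametrisation -/

omit [DecidableEq F] in
theorem s58m_phi_aux (hW : s58m_Nodal W β d) {u : F} (h : ¬(u = 1 ∨ u = 0)) :
    d / (1 - u) ≠ 0 ∧ d / (1 - u) ≠ d := by
  have h1 : (1 - u) ≠ 0 := sub_ne_zero.mpr (Ne.symm (not_or.mp h).1)
  refine ⟨div_ne_zero hW.d_ne h1, ?_⟩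
  intro h'
  rw [div_eq_iff h1] at h'
  have : d * u = 0 := by linear_combination h'
  rcases mul_eq_zero.mp this with h'' | h''
  · exact hW.d_ne h''
  · exact (not_or.mp h).2 h''

/-- the additive map `u ↦ P(d/(1-u))`, `1 ↦ 0` (junk value `0` at `u = 0`) -/
noncomputable def s58m_phi (hW : s58m_Nodal W β d) (u : F) : W.toAffine.Point :=
  if h : u = 1 ∨ u = 0 then 0 else
    s58m_P hW (d / (1 - u)) (s58m_phi_aux hW h).1 (s58m_phi_aux hW h).2

theorem s58m_phi_one (hW : s58m_Nodal W β d) : s58m_phi hW 1 = 0 := by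
  simp [s58m_phi]

theorem s58m_phi_of_ne (hW : s58m_Nodal W β d) {u : F} (h : ¬(u = 1 ∨ u = 0)) :
    s58m_phi hW u = s58m_P hW (d / (1 - u)) (s58m_phi_aux hW h).1 (s58m_phi_aux hW h).2 := by
  simp only [s58m_phi, dif_neg h]

theorem s58m_phi_ne_zero (hW : s58m_Nodal W β d) {u : F} (hu0 : u ≠ 0) (hu1 : u ≠ 1) :
    s58m_phi hW u ≠ 0 := by
  have h : ¬(u = 1 ∨ u = 0) := not_or.mpr ⟨hu1, hu0⟩
  rw [s58m_phi_of_ne hW h]
  exact s58m_P_ne_zero hW _ _

theorem s58m_phi_mul (hW : s58m_Nodal W β d) {u v : F} (hu0 : u ≠ 0) (hv0 : v ≠ 0) :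
    s58m_phi hW (u * v) = s58m_phi hW u + s58m_phi hW v := by
  by_cases hu1 : u = 1
  · subst hu1; rw [one_mul, s58m_phi_one, zero_add]
  by_cases hv1 : v = 1
  · subst hv1; rw [mul_one, s58m_phi_one, add_zero]
  have hu : ¬(u = 1 ∨ u = 0) := not_or.mpr ⟨hu1, hu0⟩
  have hv : ¬(v = 1 ∨ v = 0) := not_or.mpr ⟨hv1, hv0⟩
  have h1u : (1 - u) ≠ 0 := sub_ne_zero.mpr (Ne.symm hu1)
  have h1v : (1 - v) ≠ 0 := sub_ne_zero.mpr (Ne.symm hv1)
  rw [s58m_phi_of_ne hW hu, s58m_phi_of_ne hW hv]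
  by_cases huv : u * v = 1
  · rw [huv, s58m_phi_one]
    symm
    rw [add_eq_zero_iff_neg_eq, s58m_neg_P]
    refine s58m_P_congr hW ?_ _ _ _ _
    field_simp
    linear_combination (d) * huv
  · have huv' : ¬(u * v = 1 ∨ u * v = 0) := not_or.mpr ⟨huv, mul_ne_zero hu0 hv0⟩
    have h1uv : (1 - u * v) ≠ 0 := sub_ne_zero.mpr (Ne.symm huv)
    have hs : d / (1 - u) + d / (1 - v) - d ≠ 0 := by
      have : d / (1 - u) + d / (1 - v) - d = d * (1 - u * v) / ((1 - u) * (1 - v)) := by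
        field_simp
        ring
      rw [this]
      exact div_ne_zero (mul_ne_zero hW.d_ne h1uv) (mul_ne_zero h1u h1v)
    obtain ⟨h30, h3d, hadd⟩ := s58m_add_P hW (s58m_phi_aux hW hu).1 (s58m_phi_aux hW hu).2
      (s58m_phi_aux hW hv).1 (s58m_phi_aux hW hv).2 hs
    rw [hadd, s58m_phi_of_ne hW huv']
    refine s58m_P_congr hW ?_ _ _ _ _
    rw [eq_div_iff hs, div_mul_eq_mul_div, div_eq_iff h1uv]
    field_simp
    ring

theorem s58m_phi_pow (hW : s58m_Nodal W β d) {u : F} (hu0 : u ≠ 0) (n : ℕ) :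
    s58m_phi hW (u ^ n) = n • s58m_phi hW u := by
  induction n with
  | zero => rw [pow_zero, zero_nsmul, s58m_phi_one]
  | succ n ih => rw [pow_succ, s58m_phi_mul hW (pow_ne_zero n hu0) hu0, ih, succ_nsmul]

/-- **Points of exact order `lam^(N+1)` on a nodal cubic in normal form.** -/
theorem s58m_nodal_exact_order [IsAlgClosed F] (hW : s58m_Nodal W β d) {lam : ℕ}
    (hlam : lam.Prime) (hlamF : (lam : F) ≠ 0) (N : ℕ) :
    ∃ P : W.toAffine.Point, lam ^ (N + 1) • P = 0 ∧ lam ^ N • P ≠ 0 := by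
  have : NeZero (lam : F) := ⟨hlamF⟩
  obtain ⟨ζ, hζ⟩ := HasEnoughRootsOfUnity.exists_primitiveRoot F (lam ^ (N + 1))
  have hpos : 0 < lam ^ (N + 1) := pow_pos hlam.pos _
  have hζ0 : ζ ≠ 0 := hζ.ne_zero hpos.ne'
  refine ⟨s58m_phi hW ζ, ?_, ?_⟩
  · rw [← s58m_phi_pow hW hζ0, hζ.pow_eq_one, s58m_phi_one]
  · rw [← s58m_phi_pow hW hζ0]
    apply s58m_phi_ne_zero hW (pow_ne_zero _ hζ0)
    exact hζ.pow_ne_one_of_pos_of_lt (pow_pos hlam.pos _).ne'
      (Nat.pow_lt_pow_right hlam.one_lt (Nat.lt_succ_self N))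

end Fermat.Agent.Lib.S58
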