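/-
S58 [MULT-FIX], module 2: a long-form Weierstrass curve `W` over an algebraically closed field `F`
(ANY characteristic) with `Δ = 0` and `c₄ ≠ 0` (a node).  The node is
`(x₀, y₀) = ((18 b₆ - b₂ b₄)/c₄, (b₂ b₅ + 3 b₇)/c₄)` with `b₅ = a₁a₄ - 2a₂a₃`,
`b₇ = a₁(a₃² - 12a₆) + 8a₃a₄`; translating it to the origin puts `W` into the normal form of
`MultNode.lean`, and the point-level variable change of `Lib/Frey/VarChange` transports the
points of exact order `lam^(N+1)` back to `W`.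
-/
import Mathlib
import Fermat.Agent.Lib.S58.MultNode
import Fermat.Agent.Lib.Frey.VarChange

set_option autoImplicit false

namespace Fermat.Agent.Lib.S58

open WeierstrassCurve WeierstrassCurve.Affine Polynomial
open Fermat.Agent.Lib.Frey

variable {F : Type*} [Field F]

/-- abscissa of the node -/
noncomputable def s58m_nodeX (W : WeierstrassCurve F) : F := (18 * W.b₆ - W.b₂ * W.b₄) / W.c₄

/-- ordinate of the node -/
noncomputable def s58m_nodeY (W : WeierstrassCurve F) : F :=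
  (W.b₂ * (W.a₁ * W.a₄ - 2 * W.a₂ * W.a₃) +
    3 * (W.a₁ * (W.a₃ ^ 2 - 12 * W.a₆) + 8 * W.a₃ * W.a₄)) / W.c₄

theorem s58m_node_Y (W : WeierstrassCurve F) (hc₄ : W.c₄ ≠ 0) :
    W.a₃ + s58m_nodeX W * W.a₁ + 2 * s58m_nodeY W = 0 := by
  unfold s58m_nodeX s58m_nodeY
  field_simp
  simp only [WeierstrassCurve.c₄, WeierstrassCurve.b₂, WeierstrassCurve.b₄, WeierstrassCurve.b₆]
  ring

theorem s58m_node_X (W : WeierstrassCurve F) (hc₄ : W.c₄ ≠ 0) (hΔ : W.Δ = 0) :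
    W.a₄ + 2 * s58m_nodeX W * W.a₂ - s58m_nodeY W * W.a₁ + 3 * s58m_nodeX W ^ 2 = 0 := by
  have key : (W.a₄ + 2 * s58m_nodeX W * W.a₂ - s58m_nodeY W * W.a₁ + 3 * s58m_nodeX W ^ 2) *
      W.c₄ ^ 2 = -36 * W.Δ := by
    unfold s58m_nodeX s58m_nodeY
    field_simp
    simp only [WeierstrassCurve.Δ, WeierstrassCurve.c₄, WeierstrassCurve.b₂, WeierstrassCurve.b₄,
      WeierstrassCurve.b₆, WeierstrassCurve.b₈]
    ring
  rw [hΔ, mul_zero] at key
  exact (mul_eq_zero.mp key).resolve_right (pow_ne_zero 2 hc₄)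

theorem s58m_node_eq (W : WeierstrassCurve F) (hc₄ : W.c₄ ≠ 0) (hΔ : W.Δ = 0) :
    W.a₆ + s58m_nodeX W * W.a₄ + s58m_nodeX W ^ 2 * W.a₂ + s58m_nodeX W ^ 3
      - s58m_nodeY W * W.a₃ - s58m_nodeY W ^ 2 - s58m_nodeX W * s58m_nodeY W * W.a₁ = 0 := by
  have key : (W.a₆ + s58m_nodeX W * W.a₄ + s58m_nodeX W ^ 2 * W.a₂ + s58m_nodeX W ^ 3
      - s58m_nodeY W * W.a₃ - s58m_nodeY W ^ 2 - s58m_nodeX W * s58m_nodeY W * W.a₁) *
      W.c₄ ^ 3 = W.c₆ * W.Δ := by
    unfold s58m_nodeX s58m_nodeY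
    field_simp
    simp only [WeierstrassCurve.Δ, WeierstrassCurve.c₄, WeierstrassCurve.c₆, WeierstrassCurve.b₂,
      WeierstrassCurve.b₄, WeierstrassCurve.b₆, WeierstrassCurve.b₈]
    ring
  rw [hΔ, mul_zero] at key
  exact (mul_eq_zero.mp key).resolve_right (pow_ne_zero 3 hc₄)

/-- translation of the node to the origin -/
noncomputable def s58m_nodeC (W : WeierstrassCurve F) : VariableChange F :=
  ⟨1, s58m_nodeX W, 0, s58m_nodeY W⟩

theorem s58m_nodal_of_node [IsAlgClosed F] (W : WeierstrassCurve F) (hΔ : W.Δ = 0)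
    (hc₄ : W.c₄ ≠ 0) : ∃ β d : F, s58m_Nodal (s58m_nodeC W • W) β d := by
  set W' := s58m_nodeC W • W with hW'
  have h3 : W'.a₃ = 0 := by
    rw [hW', variableChange_a₃]
    simp only [s58m_nodeC, inv_one, Units.val_one, one_pow, one_mul]
    exact s58m_node_Y W hc₄
  have h4 : W'.a₄ = 0 := by
    rw [hW', variableChange_a₄]
    simp only [s58m_nodeC, inv_one, Units.val_one, one_pow, one_mul, zero_mul, mul_zero,
      sub_zero, add_zero]
    linear_combination s58m_node_X W hc₄ hΔ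
  have h6 : W'.a₆ = 0 := by
    rw [hW', variableChange_a₆]
    simp only [s58m_nodeC, inv_one, Units.val_one, one_pow, one_mul]
    exact s58m_node_eq W hc₄ hΔ
  have hc : W'.c₄ = W.c₄ := by
    rw [hW', variableChange_c₄]
    simp only [s58m_nodeC, inv_one, Units.val_one, one_pow, one_mul]
  -- a root of `T² + a₁' T - a₂'`
  have hdeg : (C (1 : F) * X ^ 2 + C W'.a₁ * X + C (-W'.a₂)).degree ≠ 0 := by
    rw [degree_quadratic one_ne_zero]
    norm_num
  obtain ⟨β, hβ⟩ := IsAlgClosed.exists_root _ hdeg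
  simp only [IsRoot.def, eval_add, eval_mul, eval_C, eval_pow, eval_X, one_mul] at hβ
  refine ⟨β, -W'.a₁ - 2 * β, ⟨by ring, by linear_combination (-1 : F) * hβ, h3, h4, h6, ?_⟩⟩
  intro hd
  apply hc₄
  rw [← hc]
  simp only [WeierstrassCurve.c₄, WeierstrassCurve.b₂, WeierstrassCurve.b₄, h3, h4]
  linear_combination (-W'.a₁ - 2 * β) ^ 3 * hd +
    (-8 * (-W'.a₁ - 2 * β) ^ 2 + 16 * (β ^ 2 + W'.a₁ * β + -W'.a₂)) * hβ

/-- **Points of exact order `lam^(N+1)` on a nodal cubic** (long form, any characteristic). -/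
theorem s58m_exact_order [IsAlgClosed F] [DecidableEq F] (W : WeierstrassCurve F) (hΔ : W.Δ = 0)
    (hc₄ : W.c₄ ≠ 0) {lam : ℕ} (hlam : lam.Prime) (hlamF : (lam : F) ≠ 0) (N : ℕ) :
    ∃ P : W.toAffine.Point, lam ^ (N + 1) • P = 0 ∧ lam ^ N • P ≠ 0 := by
  obtain ⟨β, d, hW'⟩ := s58m_nodal_of_node W hΔ hc₄
  obtain ⟨P', h1, h2⟩ := s58m_nodal_exact_order hW' hlam hlamF N
  refine ⟨fvc_pointEquiv W (s58m_nodeC W) P', ?_, ?_⟩
  · rw [← map_nsmul, h1, map_zero]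
  · rw [← map_nsmul]
    intro h
    exact h2 ((fvc_pointEquiv W (s58m_nodeC W)).map_eq_zero_iff.mp h)

end Fermat.Agent.Lib.S58
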