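/-
S58 wave, EC-FROB, leaf [CONST] (helper3): over an algebraically closed field `k`, a point of
`E(L)` (`L ⊇ k` any field) whose abscissa lies in `k` has its ordinate in `k` too
(it is a root of a monic quadratic over `k`).
-/
import Mathlib
import Fermat.Agent.Lib.Frey.Abstract

set_option autoImplicit false

namespace Fermat.Agent.Lib.S58

open Polynomial WeierstrassCurve WeierstrassCurve.Affine

variable {k L : Type*} [Field k] [IsAlgClosed k] [Field L] [Algebra k L] (E : WeierstrassCurve k)

/-- an element of `L` which is a root of a monic quadratic over `k` lies in `k`. -/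
theorem s58a_mem_of_quadratic {y : L} (b c : k)
    (h : y ^ 2 + algebraMap k L b * y + algebraMap k L c = 0) : ∃ y₀ : k, y = algebraMap k L y₀ := by
  have hp : (X ^ 2 + C b * X + C c : k[X]).degree ≠ 0 := by
    have : (X ^ 2 + C b * X + C c : k[X]).degree = 2 := by
      compute_degree!
    rw [this]
    norm_num
  obtain ⟨y₁, hy₁⟩ := IsAlgClosed.exists_root _ hp
  have hy₁' : y₁ ^ 2 + b * y₁ + c = 0 := by
    simpa [IsRoot, eval_add, eval_mul, eval_pow] using hy₁
  -- the other root is `-b - y₁`
  have hfac : (y - algebraMap k L y₁) * (y - algebraMap k L (-b - y₁)) = 0 := by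
    have e := congrArg (algebraMap k L) hy₁'
    simp only [map_add, map_mul, map_pow, map_zero] at e
    simp only [map_sub, map_neg]
    linear_combination h - e
  rcases mul_eq_zero.mp hfac with h1 | h1
  · exact ⟨y₁, sub_eq_zero.mp h1⟩
  · exact ⟨-b - y₁, sub_eq_zero.mp h1⟩

/-- **[CONST]** a point of `E(L)` with abscissa in `k` is a constant point. -/
theorem s58a_const_point {x y : L}
    (h : (E.map (algebraMap k L)).toAffine.Nonsingular x y) (c : k) (hx : x = algebraMap k L c) :
    ∃ y₀ : k, y = algebraMap k L y₀ ∧ E.toAffine.Nonsingular c y₀ := by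
  have heq := (equation_iff _ _).mp h.1
  simp only [map_a₁, map_a₂, map_a₃, map_a₄, map_a₆] at heq
  obtain ⟨y₀, hy₀⟩ := s58a_mem_of_quadratic (L := L) (y := y) (E.a₁ * c + E.a₃)
    (-(c ^ 3 + E.a₂ * c ^ 2 + E.a₄ * c + E.a₆)) (by
      simp only [map_add, map_mul, map_neg, map_pow]
      rw [← hx]
      linear_combination heq)
  refine ⟨y₀, hy₀, ?_⟩
  rw [hx, hy₀] at h
  exact (Affine.map_nonsingular E.toAffine (algebraMap k L).injective c y₀).mp h

end Fermat.Agent.Lib.S58
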