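/-
S58 wave, [COUNT] dictionary (helper2, prefix `s58o_`): THE FROBENIUS-FIXED POINTS OF THE REDUCTION
ARE THE `𝔽_ℓ`-POINTS.

`W : WeierstrassCurve ℤ`, `ℓ` prime, `k` a field of characteristic `ℓ`, `E := W.map (Int.castRingHom k)`,
`φ : k →+* k` the `ℓ`-power Frobenius (`hφ : ∀ a, φ a = a ^ ℓ`), `Fr := fab_sigma φ E hW`.

* `s58o_exists_zmod_of_pow_eq` : `y ^ ℓ = y` ⇒ `y` comes from `ZMod ℓ`;
* `s58o_dictHom`     : the injection `(W.reductionMod ℓ)(𝔽_ℓ) →+ E(k)`;
* `s58o_card_fixed`  : `Nat.card {T : E(k) // Fr T = T} = (W.reductionMod ℓ).card`;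
* `s58o_card_ker`    : `Nat.card (id - Fr).ker = (W.reductionMod ℓ).card`;
* `s58o_apOfModel_eq`: `W.apOfModel ℓ = ℓ + 1 - Nat.card (id - Fr).ker`.
-/
import Mathlib
import Fermat.Prelude.Def_FLTPrelim_Modularity
import Fermat.Agent.Lib.Frey.Abstract

set_option autoImplicit false
set_option linter.unusedSectionVars false

namespace Fermat.Agent.Lib.S58

open WeierstrassCurve WeierstrassCurve.Affine Fermat.Agent.Lib.Frey

section dict

variable (W : WeierstrassCurve ℤ) (ℓ : ℕ) [hℓ : Fact ℓ.Prime] (k : Type*) [Field k] [DecidableEq k]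
  [CharP k ℓ]

/-- the prime field inside `k`. -/
noncomputable abbrev s58o_iota : ZMod ℓ →+* k := ZMod.castHom (dvd_refl ℓ) k

/-- the Frobenius-fixed elements of `k` are those of the prime field. -/
theorem s58o_exists_zmod_of_pow_eq {y : k} (hy : y ^ ℓ = y) :
    ∃ y₀ : ZMod ℓ, s58o_iota ℓ k y₀ = y := by
  have h1 : y ∈ (⊥ : Subfield k) := (Subfield.mem_bot_iff_pow_eq_self k ℓ).mpr hy
  obtain ⟨n, hn⟩ := (mem_bot_iff_intCast ℓ k).mp h1
  exact ⟨(n : ZMod ℓ), by rw [map_intCast, hn]⟩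

theorem s58o_iota_pow (y₀ : ZMod ℓ) : (s58o_iota ℓ k y₀) ^ ℓ = s58o_iota ℓ k y₀ := by
  rw [← map_pow, ZMod.pow_card]

/-- the reduction over `k` is the base change of the reduction over `𝔽_ℓ`. -/
theorem s58o_reduction_map :
    (W.reductionMod ℓ).map (s58o_iota ℓ k) = W.map (Int.castRingHom k) := by
  rw [WeierstrassCurve.reductionMod, WeierstrassCurve.map_map]
  congr 1
  exact RingHom.ext_int _ _

/-- the injection `W̃(𝔽_ℓ) → W̃(k)`. -/
noncomputable def s58o_dictHom :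
    (W.reductionMod ℓ).toAffine.Point →+ (W.map (Int.castRingHom k)).toAffine.Point :=
  (fab_congr (s58o_reduction_map W ℓ k)).toAddMonoidHom.comp
    (fab_mapHom (s58o_iota ℓ k) (W.reductionMod ℓ))

theorem s58o_dictHom_some {x₀ y₀ : ZMod ℓ}
    (h : (W.reductionMod ℓ).toAffine.Nonsingular x₀ y₀) :
    s58o_dictHom W ℓ k (Point.some x₀ y₀ h) =
      Point.some (s58o_iota ℓ k x₀) (s58o_iota ℓ k y₀)
        (s58o_reduction_map W ℓ k ▸ fab_map_nonsingular (s58o_iota ℓ k) (W.reductionMod ℓ) h) := by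
  simp only [s58o_dictHom, AddMonoidHom.comp_apply, fab_mapHom_some, AddEquiv.coe_toAddMonoidHom,
    fab_congr_some]

theorem s58o_dictHom_injective : Function.Injective (s58o_dictHom W ℓ k) := by
  rw [injective_iff_map_eq_zero]
  rintro (_ | ⟨x₀, y₀, h⟩) hP
  · rfl
  · rw [s58o_dictHom_some] at hP
    exact absurd hP (Point.some_ne_zero _)

variable (φ : k →+* k) (hφ : ∀ a : k, φ a = a ^ ℓ)
  (hW : (W.map (Int.castRingHom k)).map φ = W.map (Int.castRingHom k))

include hφ in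
/-- the image consists of Frobenius-fixed points. -/
theorem s58o_dictHom_fixed (P : (W.reductionMod ℓ).toAffine.Point) :
    fab_sigma φ _ hW (s58o_dictHom W ℓ k P) = s58o_dictHom W ℓ k P := by
  rcases P with _ | ⟨x₀, y₀, h⟩
  · show fab_sigma φ _ hW (s58o_dictHom W ℓ k 0) = s58o_dictHom W ℓ k 0
    rw [map_zero, map_zero]
  · rw [s58o_dictHom_some, fab_sigma_some, Point.some.injEq, hφ, hφ, s58o_iota_pow,
      s58o_iota_pow]
    exact ⟨rfl, rfl⟩

include hφ in
/-- every Frobenius-fixed point is in the image. -/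
theorem s58o_dictHom_surj {T : (W.map (Int.castRingHom k)).toAffine.Point}
    (hT : fab_sigma φ _ hW T = T) : ∃ P, s58o_dictHom W ℓ k P = T := by
  rcases T with _ | ⟨x, y, h⟩
  · exact ⟨0, map_zero _⟩
  · rw [fab_sigma_some, Point.some.injEq, hφ, hφ] at hT
    obtain ⟨x₀, rfl⟩ := s58o_exists_zmod_of_pow_eq ℓ k hT.1
    obtain ⟨y₀, rfl⟩ := s58o_exists_zmod_of_pow_eq ℓ k hT.2
    have h' : ((W.reductionMod ℓ).map (s58o_iota ℓ k)).toAffine.Nonsingular
        (s58o_iota ℓ k x₀) (s58o_iota ℓ k y₀) := (s58o_reduction_map W ℓ k).symm ▸ h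
    have h₀ : (W.reductionMod ℓ).toAffine.Nonsingular x₀ y₀ :=
      (Affine.map_nonsingular (W.reductionMod ℓ).toAffine (s58o_iota ℓ k).injective x₀ y₀).mp h'
    exact ⟨Point.some x₀ y₀ h₀, s58o_dictHom_some W ℓ k h₀⟩

include hφ in
/-- **The Frobenius-fixed points of `W̃(k)` are the `𝔽_ℓ`-points.** -/
theorem s58o_card_fixed :
    Nat.card {T : (W.map (Int.castRingHom k)).toAffine.Point // fab_sigma φ _ hW T = T} =
      (W.reductionMod ℓ).card := by
  symm
  refine Nat.card_eq_of_bijective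
    (fun P => (⟨s58o_dictHom W ℓ k P, s58o_dictHom_fixed W ℓ k φ hφ hW P⟩ :
      {T : (W.map (Int.castRingHom k)).toAffine.Point // fab_sigma φ _ hW T = T})) ⟨?_, ?_⟩
  · intro P Q hPQ
    exact s58o_dictHom_injective W ℓ k (congrArg Subtype.val hPQ)
  · rintro ⟨T, hT⟩
    obtain ⟨P, rfl⟩ := s58o_dictHom_surj W ℓ k φ hφ hW hT
    exact ⟨P, rfl⟩

include hφ in
/-- kernel form. -/
theorem s58o_card_ker :
    Nat.card (AddMonoidHom.id _ - fab_sigma φ _ hW).ker = (W.reductionMod ℓ).card := by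
  rw [← s58o_card_fixed W ℓ k φ hφ hW]
  refine Nat.card_congr (Equiv.subtypeEquivRight fun T => ?_)
  rw [AddMonoidHom.mem_ker, AddMonoidHom.sub_apply, AddMonoidHom.id_apply, sub_eq_zero]
  exact eq_comm

include hφ in
/-- **`a_ℓ(W) = ℓ + 1 − #ker (1 − Fr)`.** -/
theorem s58o_apOfModel_eq :
    W.apOfModel ℓ =
      (ℓ : ℤ) + 1 - (Nat.card (AddMonoidHom.id _ - fab_sigma φ _ hW).ker : ℤ) := by
  rw [s58o_card_ker W ℓ k φ hφ hW, WeierstrassCurve.apOfModel,
    WeierstrassCurve.traceOfFrobenius, Nat.card_zmod]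

end dict

end Fermat.Agent.Lib.S58
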