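/-
S58 wave, EC-FROB leaf [COUNT] (helper1): **the kernel of an endomorphism `ψ` of `E(k)` whose
abscissa is generically given by a separable rational function `r` has `ent_ht r` elements**
(`k` algebraically closed, ANY characteristic).

Clone of `Lib/EN/CountPoly.lean` (`enc_exists_good`) and `Lib/EN/CountCurve.lean`
(`enc_card_torsion`), with the characteristic-zero hypothesis replaced by the non-vanishing of the
Wronskian `N' D - N D'`, and multiplication by `n` replaced by an arbitrary additive endomorphism.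

* `s58x_exists_good` : generic separability of `a - c b` (hypothesis: Wronskian `≠ 0`);
* `s58x_card_ker`    : the count, literal shape of helper3's #1910.
-/
import Fermat.Agent.Lib.EN.CountCurve
import Fermat.Agent.Lib.EN.Height

set_option autoImplicit false

namespace Fermat.Agent.Lib.S58

open Polynomial WeierstrassCurve WeierstrassCurve.Affine Fermat.Agent.Lib.EN

variable {K : Type*} [Field K]

/-- **generic separability**, any characteristic: if the Wronskian of the coprime polynomials
`a`, `b` does not vanish, then outside any given finite set there is `c` such that `a - c b` is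
separable of degree `max (deg a) (deg b)`. -/
lemma s58x_exists_good [IsAlgClosed K] [DecidableEq K] {a b : K[X]}
    (hcop : IsCoprime a b) {d : ℕ} (hd : d = max a.natDegree b.natDegree) (hd0 : 0 < d)
    (hw : derivative a * b - a * derivative b ≠ 0) (Bad : Finset K) :
    ∃ c, c ∉ Bad ∧ (a - C c * b).natDegree = d ∧ (a - C c * b).Separable := by
  set w := derivative a * b - a * derivative b with hwdef
  obtain ⟨c, hc⟩ := Infinite.exists_notMem_finset
    (Bad ∪ {a.coeff d / b.coeff d} ∪ w.roots.toFinset.image (fun x => a.eval x / b.eval x))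
  simp only [Finset.mem_union, Finset.mem_singleton, Finset.mem_image, Multiset.mem_toFinset,
    not_or, not_exists, not_and] at hc
  obtain ⟨⟨hcBad, hcdeg⟩, hcsep⟩ := hc
  refine ⟨c, hcBad, enc_natDegree_sub_C_mul hd ?_, enc_separable_sub_C_mul ?_⟩
  · by_cases hb : b.coeff d = 0
    · rw [hb, mul_zero, sub_zero]
      have hbd : b.natDegree < d := by
        rcases lt_or_eq_of_le (hd ▸ le_max_right a.natDegree b.natDegree : b.natDegree ≤ d) with h | h
        · exact h
        · exfalso
          have hb0 : b ≠ 0 := fun h0 => by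
            rw [h0, natDegree_zero] at h
            omega
          rw [← h] at hb
          exact (leadingCoeff_ne_zero.mpr hb0) hb
      have had : a.natDegree = d := by
        rcases max_choice a.natDegree b.natDegree with h | h
        · rw [hd, h]
        · rw [hd, h] at hbd
          exact absurd hbd (lt_irrefl _)
      have ha0 : a ≠ 0 := fun h0 => by
        rw [h0, natDegree_zero] at had
        omega
      rw [← had]
      exact leadingCoeff_ne_zero.mpr ha0
    · intro h
      apply hcdeg
      rw [eq_div_iff hb]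
      exact (sub_eq_zero.mp h).symm
  · intro x₀ hx₀ h
    by_cases hb : b.eval x₀ = 0
    · rw [hb, mul_zero, sub_zero] at h
      exact enc_not_both_zero hcop x₀ h hb
    · refine hcsep x₀ ((mem_roots hw).mpr hx₀) ?_
      rw [div_eq_iff hb]
      exact sub_eq_zero.mp h

/-- the `2`-torsion cubic `4x³ + b₂x² + 2b₄x + b₆` of a nonsingular Weierstrass curve is a nonzero
polynomial, in ANY characteristic (in characteristic `2` it is `(a₁x + a₃)²`). -/
lemma s58x_twoTorsion_ne_zero (W : Affine K) (hΔ : W.Δ ≠ 0) :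
    W.twoTorsionPolynomial.toPoly ≠ 0 := by
  intro h0
  have h := (Cubic.toPoly_eq_zero_iff _).mp h0
  have ha : (4 : K) = 0 := congrArg Cubic.a h
  have hb : W.b₂ = 0 := congrArg Cubic.b h
  have hc : 2 * W.b₄ = 0 := congrArg Cubic.c h
  have hd : W.b₆ = 0 := congrArg Cubic.d h
  apply hΔ
  rw [WeierstrassCurve.Δ, hb, hd]
  linear_combination (-4 * W.b₄ ^ 2) * hc

/-- all nonempty fibres of an additive endomorphism have the cardinality of the kernel -/
lemma s58x_card_fiber [DecidableEq K] {W : Affine K} (ψ : W.Point →+ W.Point) {Q P₁ : W.Point}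
    (h₁ : ψ P₁ = Q) :
    Nat.card {P : W.Point // ψ P = 0} = Nat.card {P : W.Point // ψ P = Q} := by
  refine Nat.card_congr ⟨fun P => ⟨P.1 + P₁, by rw [map_add, P.2, h₁, zero_add]⟩,
    fun P => ⟨P.1 - P₁, by rw [map_sub, P.2, h₁, sub_self]⟩, fun P => ?_, fun P => ?_⟩
  · exact Subtype.ext (add_sub_cancel_right _ _)
  · exact Subtype.ext (sub_add_cancel _ _)

/-- **THE COUNT**, polynomial form.  If off a finite set `B` of abscissae the abscissa of `ψ P` is
`a(x(P)) / b(x(P))` with `a, b` coprime, `d = max (deg a) (deg b) > 0` and non-vanishing Wronskian,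
then `ker ψ` has exactly `d` points. -/
theorem s58x_card_ker_poly [IsAlgClosed K] [DecidableEq K] (W : Affine K)
    (hΔ : W.Δ ≠ 0) (ψ : W.Point →+ W.Point) (a b : K[X]) (hcop : IsCoprime a b) {d : ℕ}
    (hdeg : d = max a.natDegree b.natDegree) (hd0 : 0 < d)
    (hw : derivative a * b - a * derivative b ≠ 0) (B : Finset K)
    (hx : ∀ (x y : K) (h : W.Nonsingular x y), x ∉ B → b.eval x ≠ 0 ∧
      ∃ (x' y' : K) (h' : W.Nonsingular x' y'),
        ψ (Point.some x y h) = Point.some x' y' h' ∧ x' * b.eval x = a.eval x) :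
    Nat.card {P : W.Point // ψ P = 0} = d := by
  have h2 : W.twoTorsionPolynomial.toPoly ≠ 0 := s58x_twoTorsion_ne_zero W hΔ
  obtain ⟨c, hcBad, hcdeg, hcsep⟩ := s58x_exists_good hcop hdeg hd0 hw
    (W.twoTorsionPolynomial.toPoly.roots.toFinset ∪
      B.image (fun x₀ => a.eval x₀ / b.eval x₀) ∪
      B.image (fun x₀ => enc_xOf (ψ (enc_pt W hΔ x₀))))
  simp only [Finset.mem_union, Finset.mem_image, Multiset.mem_toFinset, not_or, not_exists,
    not_and] at hcBad
  obtain ⟨⟨hc2, hcB⟩, hcB'⟩ := hcBad
  set f := a - C c * b with hf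
  set Q := enc_pt W hΔ c with hQ
  have hf0 : f ≠ 0 := fun h0 => by
    rw [h0, natDegree_zero] at hcdeg
    omega
  -- `Q ≠ -Q`
  have hQne : Q ≠ -Q := by
    intro h
    rw [hQ, enc_pt, Point.neg_some, Point.some.injEq] at h
    exact hc2 ((mem_roots h2).mpr (enc_two_torsion_root W (enc_y_equation W c) h.2))
  have hQ0 : Q ≠ 0 := Point.some_ne_zero _
  -- roots of `f` are not in `B`
  have hroot_notB : ∀ x₀, f.eval x₀ = 0 → x₀ ∉ B := by
    intro x₀ h0 hB
    have h0' : a.eval x₀ - c * b.eval x₀ = 0 := by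
      simpa only [hf, eval_sub, eval_mul, eval_C] using h0
    by_cases hb : b.eval x₀ = 0
    · rw [hb, mul_zero, sub_zero] at h0'
      exact enc_not_both_zero hcop x₀ h0' hb
    · exact hcB x₀ hB (by rw [div_eq_iff hb]; exact sub_eq_zero.mp h0')
  -- a root gives a point of the fibre
  have hsurj : ∀ x₀, f.eval x₀ = 0 → ∃ P : W.Point, ψ P = Q ∧ enc_xOf P = x₀ := by
    intro x₀ h0
    have h0' : a.eval x₀ - c * b.eval x₀ = 0 := by
      simpa only [hf, eval_sub, eval_mul, eval_C] using h0
    obtain ⟨hb, x', y', h', hn', hx'⟩ :=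
      hx x₀ (enc_y W x₀) (enc_y_nonsingular W hΔ x₀) (hroot_notB x₀ h0)
    have hx'c : x' = c := by
      apply mul_right_cancel₀ hb
      rw [hx']
      exact sub_eq_zero.mp h0'
    rcases (Point.X_eq_iff (h₁ := h') (h₂ := enc_y_nonsingular W hΔ c)).mp hx'c with e | e
    · exact ⟨enc_pt W hΔ x₀, hn'.trans e, rfl⟩
    · refine ⟨-enc_pt W hΔ x₀, ?_, by rw [enc_xOf_neg]; rfl⟩
      rw [map_neg]
      change -(ψ (Point.some x₀ (enc_y W x₀) (enc_y_nonsingular W hΔ x₀))) = Q
      rw [hn', e, neg_neg]
      rfl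
  -- a point of the fibre gives a root
  have hroot : ∀ P : W.Point, ψ P = Q → P ≠ 0 ∧ f.eval (enc_xOf P) = 0 := by
    intro P hP
    have hP0 : P ≠ 0 := by
      rintro rfl
      rw [map_zero] at hP
      exact hQ0 hP.symm
    refine ⟨hP0, ?_⟩
    rcases P with _ | ⟨x, y, h⟩
    · exact absurd rfl hP0
    have hxB : x ∉ B := by
      intro hB
      apply hcB' x hB
      rcases (Point.X_eq_iff (h₁ := h) (h₂ := enc_y_nonsingular W hΔ x)).mp rfl with e | e
      · have h1 : ψ (enc_pt W hΔ x) = Q := by
          rw [← hP, e]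
          rfl
        rw [h1]
        rfl
      · have h1 : ψ (enc_pt W hΔ x) = -Q := by
          rw [← hP, e, map_neg, neg_neg]
          rfl
        rw [h1, enc_xOf_neg]
        rfl
    obtain ⟨hb, x', y', h', hn', hx'⟩ := hx x y h hxB
    rw [hP, hQ, enc_pt, Point.some.injEq] at hn'
    simp only [enc_xOf_some, hf, eval_sub, eval_mul, eval_C]
    rw [← hx', ← hn'.1]
    ring
  -- the fibre above `Q` is in bijection with the roots of `f`
  have hcardA : Nat.card {P : W.Point // ψ P = Q} = d := by
    rw [← hcdeg, ← enc_card_roots_toFinset hcsep, ← Nat.card_eq_finsetCard]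
    refine Nat.card_eq_of_bijective (fun P => ⟨enc_xOf P.1, by
      rw [Multiset.mem_toFinset, mem_roots hf0]
      exact (hroot P.1 P.2).2⟩) ⟨?_, ?_⟩
    · intro P P' hPP'
      have hxx : enc_xOf P.1 = enc_xOf P'.1 := congrArg Subtype.val hPP'
      rcases enc_eq_or_eq_neg_of_xOf (hroot P.1 P.2).1 (hroot P'.1 P'.2).1 hxx with e | e
      · exact Subtype.ext e
      · exfalso
        apply hQne
        calc Q = ψ P.1 := P.2.symm
          _ = ψ (-P'.1) := by rw [e]
          _ = -(ψ P'.1) := map_neg _ _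
          _ = -Q := by rw [P'.2]
    · rintro ⟨x₀, hx₀⟩
      rw [Multiset.mem_toFinset, mem_roots hf0] at hx₀
      obtain ⟨P, hP, hPx⟩ := hsurj x₀ hx₀
      exact ⟨⟨P, hP⟩, Subtype.ext hPx⟩
  obtain ⟨x₀, hx₀⟩ : ∃ x₀, f.eval x₀ = 0 :=
    IsAlgClosed.exists_root f (by
      rw [degree_eq_natDegree hf0, hcdeg]
      exact_mod_cast hd0.ne')
  obtain ⟨P₁, hP₁, -⟩ := hsurj x₀ hx₀
  rw [s58x_card_fiber ψ hP₁, hcardA]

/-- **[COUNT]**, the literal shape of the EC-FROB plan: `ψ` an additive endomorphism of `E(k)`,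
`r` a rational function of height `≥ 1` with non-vanishing Wronskian, such that off a finite set
`B` of abscissae `x(ψ T) = r(x(T))`.  Then `#ker ψ = ent_ht r`. -/
theorem s58x_card_ker {k : Type*} [Field k] [IsAlgClosed k] [DecidableEq k]
    (E : WeierstrassCurve k) [E.IsElliptic]
    (ψ : E.toAffine.Point →+ E.toAffine.Point) (r : RatFunc k) (hd : 1 ≤ ent_ht r)
    (hw : Polynomial.derivative r.num * r.denom - r.num * Polynomial.derivative r.denom ≠ 0)
    (B : Set k) (hB : B.Finite)
    (hψ : ∀ (x₀ y₀ : k) (h : E.toAffine.Nonsingular x₀ y₀), x₀ ∉ B →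
      r.denom.eval x₀ ≠ 0 ∧ ∃ y₁ h₁, ψ (Point.some x₀ y₀ h) =
        Point.some (r.num.eval x₀ / r.denom.eval x₀) y₁ h₁) :
    Nat.card ψ.ker = ent_ht r := by
  have hΔ : E.toAffine.Δ ≠ 0 := E.isUnit_Δ.ne_zero
  have hcount := s58x_card_ker_poly E.toAffine hΔ ψ r.num r.denom
    (RatFunc.isCoprime_num_denom r) (d := ent_ht r) rfl hd hw hB.toFinset (by
      intro x y h hx
      have hx' : x ∉ B := fun hm => hx (hB.mem_toFinset.mpr hm)
      obtain ⟨hb, y₁, h₁, he⟩ := hψ x y h hx'
      exact ⟨hb, _, y₁, h₁, he, div_mul_cancel₀ _ hb⟩)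
  rw [← hcount]
  exact Nat.card_congr (Equiv.subtypeEquivRight fun P => AddMonoidHom.mem_ker)

end Fermat.Agent.Lib.S58
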