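/-
S58 wave, EC-FROB, [EC-TOP] part 1 (helper3): identification of the trace.
If `x(T − Fr T) = r(x(T))` generically on `E(k)` for a separable rational function `r` of height
`1 + ℓ − t`, then `a_ℓ(W) = t`  ([COUNT] `s58x_card_ker` + dictionary `s58o_apOfModel_eq`).
-/
import Fermat.Agent.Lib.S58.XCount
import Fermat.Agent.Lib.S58.ODict

set_option autoImplicit false

namespace Fermat.Agent.Lib.S58

open Polynomial WeierstrassCurve WeierstrassCurve.Affine Fermat.Agent.Lib.Frey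
  Fermat.Agent.Lib.EN

theorem s58a_trace_eq (W : WeierstrassCurve ℤ) (ℓ : ℕ) [hℓ : Fact ℓ.Prime] (k : Type*) [Field k]
    [DecidableEq k] [IsAlgClosed k] [CharP k ℓ] [(W.map (Int.castRingHom k)).IsElliptic]
    (φ : k →+* k) (hφ : ∀ a, φ a = a ^ ℓ)
    (hW : (W.map (Int.castRingHom k)).map φ = W.map (Int.castRingHom k))
    (r : RatFunc k) (t : ℤ) (hht : (ent_ht r : ℤ) = 1 + ℓ - t) (h1 : 1 ≤ ent_ht r)
    (hw : derivative r.num * r.denom - r.num * derivative r.denom ≠ 0)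
    (hspec : ∀ (x₀ y₀ : k) (h₀ : (W.map (Int.castRingHom k)).toAffine.Nonsingular x₀ y₀),
      x₀ ^ ℓ ≠ x₀ → r.denom.eval x₀ ≠ 0 →
      ∃ (y₁ : k) (h₁ : (W.map (Int.castRingHom k)).toAffine.Nonsingular
          (r.num.eval x₀ / r.denom.eval x₀) y₁),
        Point.some x₀ y₀ h₀ - fab_sigma φ _ hW (Point.some x₀ y₀ h₀) =
          Point.some (r.num.eval x₀ / r.denom.eval x₀) y₁ h₁) :
    W.apOfModel ℓ = t := by
  classical
  set E := W.map (Int.castRingHom k) with hE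
  set ψ : E.toAffine.Point →+ E.toAffine.Point := AddMonoidHom.id _ - fab_sigma φ _ hW with hψ
  -- the exceptional set
  have hB1 : {x₀ : k | x₀ ^ ℓ = x₀}.Finite := by
    have hℓ1 : 1 < ℓ := hℓ.out.one_lt
    have hp : (X ^ ℓ - X : k[X]) ≠ 0 := by
      intro h0
      have := congrArg (fun p => p.coeff ℓ) h0
      have h1ℓ : ¬ (1 = ℓ) := fun h => absurd hℓ1 (by omega)
      simp [coeff_X_pow, coeff_X, h1ℓ] at this
    refine ((X ^ ℓ - X : k[X]).roots.toFinset.finite_toSet).subset ?_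
    intro x₀ hx₀
    simp only [Finset.mem_coe, Multiset.mem_toFinset]
    rw [mem_roots hp]
    simp only [IsRoot, eval_sub, eval_pow, eval_X]
    exact sub_eq_zero.mpr hx₀
  have hB2 : {x₀ : k | r.denom.eval x₀ = 0}.Finite := by
    refine (r.denom.roots.toFinset.finite_toSet).subset ?_
    intro x₀ hx₀
    simp only [Finset.mem_coe, Multiset.mem_toFinset]
    rw [mem_roots (RatFunc.denom_ne_zero r)]
    exact hx₀
  have hcount := s58x_card_ker E ψ r h1 hw _ (hB1.union hB2) (by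
    intro x₀ y₀ h₀ hx₀
    simp only [Set.mem_union, Set.mem_ofPred_eq, not_or] at hx₀
    obtain ⟨y₁, h₁, he⟩ := hspec x₀ y₀ h₀ hx₀.1 hx₀.2
    refine ⟨hx₀.2, y₁, h₁, ?_⟩
    rw [hψ, AddMonoidHom.sub_apply, AddMonoidHom.id_apply]
    exact he)
  have hap := s58o_apOfModel_eq W ℓ k φ hφ hW
  rw [← hψ, hcount, hht] at hap
  rw [hap]
  ring

end Fermat.Agent.Lib.S58
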