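/-
S58 wave, EC-FROB, leaf [HT] (helper3), part 1: the GENERAL parallelogram law for heights of
rational functions.  If `σ + τ` and `σ τ` are given by the addition-and-subtraction map applied to
`(ρ, μ)` (i.e. `σ, τ = x(P ± Q)` when `ρ = x(P)`, `μ = x(Q)`), then
`ht σ + ht τ = 2 (ht ρ + ht μ)`.  Generalises `Lib/EN/AddSubHt2.ent_ht_addsub` (the case `μ = X`).
All characteristics.
-/
import Fermat.Agent.Lib.EN.AddSubHt2

set_option autoImplicit false

namespace Fermat.Agent.Lib.S58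

open Polynomial Fermat.Agent.Lib.EN

variable {K : Type*} [Field K] (W : WeierstrassCurve K)

/-- the three quadratic forms of the addition-and-subtraction map in the homogeneous symmetric
coordinates `(s : t : u) = (x₁x₂ : x₁ + x₂ : 1)`. -/
noncomputable def s58a_Wf (s t u : K[X]) : K[X] :=
  s * s - C W.b₄ * s * u - C W.b₆ * t * u - C W.b₈ * u * u

noncomputable def s58a_Vf (s t u : K[X]) : K[X] :=
  C 2 * t * s + C W.b₂ * s * u + C W.b₄ * t * u + C W.b₆ * u * u

noncomputable def s58a_Uf (s t u : K[X]) : K[X] := t * t - C 4 * s * u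

section degrees

variable {D : ℕ}

lemma s58a_mul_deg {p q : K[X]} (hp : p.natDegree ≤ D) (hq : q.natDegree ≤ D) :
    (p * q).natDegree ≤ D + D := natDegree_mul_le_of_le hp hq

lemma s58a_Cmul_deg (c : K) {p : K[X]} (hp : p.natDegree ≤ D) : (C c * p).natDegree ≤ D :=
  (natDegree_C_mul_le c p).trans hp

lemma s58a_mul_coeff {p q : K[X]} (hp : p.natDegree ≤ D) (hq : q.natDegree ≤ D) :
    (p * q).coeff (D + D) = p.coeff D * q.coeff D := coeff_mul_add_eq_of_natDegree_le hp hq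

lemma s58a_Cmul_mul_coeff (c : K) {p q : K[X]} (hp : p.natDegree ≤ D) (hq : q.natDegree ≤ D) :
    (C c * p * q).coeff (D + D) = c * p.coeff D * q.coeff D := by
  rw [s58a_mul_coeff (s58a_Cmul_deg c hp) hq, coeff_C_mul]

lemma s58a_Cmul_mul_deg (c : K) {p q : K[X]} (hp : p.natDegree ≤ D) (hq : q.natDegree ≤ D) :
    (C c * p * q).natDegree ≤ D + D := s58a_mul_deg (s58a_Cmul_deg c hp) hq

variable {s t u : K[X]}

theorem s58a_Wf_deg (hs : s.natDegree ≤ D) (ht : t.natDegree ≤ D) (hu : u.natDegree ≤ D) :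
    (s58a_Wf W s t u).natDegree ≤ D + D := by
  unfold s58a_Wf
  exact ent_sub_deg (ent_sub_deg (ent_sub_deg (s58a_mul_deg hs hs) (s58a_Cmul_mul_deg _ hs hu))
    (s58a_Cmul_mul_deg _ ht hu)) (s58a_Cmul_mul_deg _ hu hu)

theorem s58a_Vf_deg (hs : s.natDegree ≤ D) (ht : t.natDegree ≤ D) (hu : u.natDegree ≤ D) :
    (s58a_Vf W s t u).natDegree ≤ D + D := by
  unfold s58a_Vf
  refine natDegree_add_le_of_degree_le (natDegree_add_le_of_degree_le
    (natDegree_add_le_of_degree_le ?_ ?_) ?_) ?_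
  · exact s58a_Cmul_mul_deg _ ht hs
  · exact s58a_Cmul_mul_deg _ hs hu
  · exact s58a_Cmul_mul_deg _ ht hu
  · exact s58a_Cmul_mul_deg _ hu hu

theorem s58a_Uf_deg (hs : s.natDegree ≤ D) (ht : t.natDegree ≤ D) (hu : u.natDegree ≤ D) :
    (s58a_Uf (K := K) s t u).natDegree ≤ D + D := by
  unfold s58a_Uf
  exact ent_sub_deg (s58a_mul_deg ht ht) (s58a_Cmul_mul_deg _ hs hu)

theorem s58a_Wf_coeff (hs : s.natDegree ≤ D) (ht : t.natDegree ≤ D) (hu : u.natDegree ≤ D) :
    (s58a_Wf W s t u).coeff (D + D) =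
      s.coeff D * s.coeff D - W.b₄ * s.coeff D * u.coeff D - W.b₆ * t.coeff D * u.coeff D -
        W.b₈ * u.coeff D * u.coeff D := by
  unfold s58a_Wf
  rw [coeff_sub, coeff_sub, coeff_sub, s58a_mul_coeff hs hs, s58a_Cmul_mul_coeff _ hs hu,
    s58a_Cmul_mul_coeff _ ht hu, s58a_Cmul_mul_coeff _ hu hu]

theorem s58a_Vf_coeff (hs : s.natDegree ≤ D) (ht : t.natDegree ≤ D) (hu : u.natDegree ≤ D) :
    (s58a_Vf W s t u).coeff (D + D) =
      2 * t.coeff D * s.coeff D + W.b₂ * s.coeff D * u.coeff D + W.b₄ * t.coeff D * u.coeff D +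
        W.b₆ * u.coeff D * u.coeff D := by
  unfold s58a_Vf
  rw [coeff_add, coeff_add, coeff_add, s58a_Cmul_mul_coeff _ ht hs, s58a_Cmul_mul_coeff _ hs hu,
    s58a_Cmul_mul_coeff _ ht hu, s58a_Cmul_mul_coeff _ hu hu]

theorem s58a_Uf_coeff (hs : s.natDegree ≤ D) (ht : t.natDegree ≤ D) (hu : u.natDegree ≤ D) :
    (s58a_Uf (K := K) s t u).coeff (D + D) =
      t.coeff D * t.coeff D - 4 * s.coeff D * u.coeff D := by
  unfold s58a_Uf
  rw [coeff_sub, s58a_mul_coeff ht ht, s58a_Cmul_mul_coeff _ hs hu]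

end degrees

/-- no common zero of the three forms at a nonzero vector (Mathlib's `addSubMap_ne_zero`). -/
theorem s58a_forms_ne_zero [W.IsElliptic] {x y z : K} (h : ¬ (x = 0 ∧ y = 0 ∧ z = 0)) :
    ¬ (x * x - W.b₄ * x * z - W.b₆ * y * z - W.b₈ * z * z = 0 ∧
      2 * y * x + W.b₂ * x * z + W.b₄ * y * z + W.b₆ * z * z = 0 ∧
      y * y - 4 * x * z = 0) := by
  rintro ⟨h0, h1, h2⟩
  have hx : (![x, y, z] : Fin 3 → K) ≠ 0 := by
    intro h'
    apply h
    have e0 := congrFun h' 0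
    have e1 := congrFun h' 1
    have e2 := congrFun h' 2
    simp at e0 e1 e2
    exact ⟨e0, e1, e2⟩
  apply WeierstrassCurve.addSubMap_ne_zero W hx
  funext i
  fin_cases i
  · simp [WeierstrassCurve.addSubMap]
    linear_combination h0
  · simp [WeierstrassCurve.addSubMap]
    linear_combination h1
  · simp [WeierstrassCurve.addSubMap]
    linear_combination h2

/-- a product-type vector `(αγ, αδ + γβ, βδ)` with `(α,β) ≠ 0 ≠ (γ,δ)` is nonzero. -/
theorem s58a_sym_ne_zero {α β γ δ : K} (h₁ : α ≠ 0 ∨ β ≠ 0) (h₂ : γ ≠ 0 ∨ δ ≠ 0) :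
    ¬ (α * γ = 0 ∧ α * δ + γ * β = 0 ∧ β * δ = 0) := by
  rintro ⟨e0, e1, e2⟩
  rcases h₁ with h' | h' <;> rcases h₂ with h'' | h''
  · exact mul_ne_zero h' h'' e0
  · have hγ : γ = 0 := by
      rcases mul_eq_zero.mp e0 with h | h
      · exact absurd h h'
      · exact h
    have hβ : β = 0 := by
      rcases mul_eq_zero.mp e2 with h | h
      · exact h
      · exact absurd h h''
    rw [hγ, hβ, zero_mul, add_zero] at e1
    exact mul_ne_zero h' h'' e1
  · have hα : α = 0 := by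
      rcases mul_eq_zero.mp e0 with h | h
      · exact h
      · exact absurd h h''
    have hδ : δ = 0 := by
      rcases mul_eq_zero.mp e2 with h | h
      · exact absurd h h'
      · exact h
    rw [hα, hδ, zero_mul, zero_add] at e1
    exact mul_ne_zero h'' h' e1
  · exact mul_ne_zero h' h'' e2

/-- the maximal degree of the triple of forms at `(s,t,u) = (ac, ae + cb, be)`. -/
theorem s58a_max3_forms [W.IsElliptic] {a b c e : K[X]} (hb : b ≠ 0) (he : e ≠ 0) :
    ent_max3 (s58a_Wf W (a * c) (a * e + c * b) (b * e))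
        (s58a_Vf W (a * c) (a * e + c * b) (b * e)) (s58a_Uf (a * c) (a * e + c * b) (b * e)) =
      2 * (max a.natDegree b.natDegree + max c.natDegree e.natDegree) := by
  set d₁ := max a.natDegree b.natDegree with hd₁
  set d₂ := max c.natDegree e.natDegree with hd₂
  have ha : a.natDegree ≤ d₁ := le_max_left _ _
  have hbd : b.natDegree ≤ d₁ := le_max_right _ _
  have hc : c.natDegree ≤ d₂ := le_max_left _ _
  have hed : e.natDegree ≤ d₂ := le_max_right _ _
  have hs : (a * c).natDegree ≤ d₁ + d₂ := natDegree_mul_le_of_le ha hc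
  have ht : (a * e + c * b).natDegree ≤ d₁ + d₂ :=
    natDegree_add_le_of_degree_le (natDegree_mul_le_of_le ha hed)
      (by rw [add_comm]; exact natDegree_mul_le_of_le hc hbd)
  have hu : (b * e).natDegree ≤ d₁ + d₂ := natDegree_mul_le_of_le hbd hed
  have cs : (a * c).coeff (d₁ + d₂) = a.coeff d₁ * c.coeff d₂ :=
    coeff_mul_add_eq_of_natDegree_le ha hc
  have cu : (b * e).coeff (d₁ + d₂) = b.coeff d₁ * e.coeff d₂ :=
    coeff_mul_add_eq_of_natDegree_le hbd hed
  have ct : (a * e + c * b).coeff (d₁ + d₂) = a.coeff d₁ * e.coeff d₂ + c.coeff d₂ * b.coeff d₁ := by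
    rw [coeff_add, coeff_mul_add_eq_of_natDegree_le ha hed, add_comm d₁ d₂,
      coeff_mul_add_eq_of_natDegree_le hc hbd]
  rw [two_mul]
  apply ent_max3_eq (s58a_Wf_deg W hs ht hu) (s58a_Vf_deg W hs ht hu) (s58a_Uf_deg hs ht hu)
  rw [s58a_Wf_coeff W hs ht hu, s58a_Vf_coeff W hs ht hu, s58a_Uf_coeff hs ht hu, cs, ct, cu]
  by_contra hcon
  push Not at hcon
  exact s58a_forms_ne_zero W
    (s58a_sym_ne_zero (ent_top_coeff_ne_zero (a := a) hb) (ent_top_coeff_ne_zero (a := c) he)) hcon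

/-- no common root of the triple of forms at `(ac, ae + cb, be)` for coprime `(a,b)`, `(c,e)`. -/
theorem s58a_forms_no_common_root [W.IsElliptic] {a b c e : K[X]} (hab : IsCoprime a b)
    (hce : IsCoprime c e) (z : K) :
    ¬ ((s58a_Wf W (a * c) (a * e + c * b) (b * e)).eval z = 0 ∧
      (s58a_Vf W (a * c) (a * e + c * b) (b * e)).eval z = 0 ∧
      (s58a_Uf (a * c) (a * e + c * b) (b * e)).eval z = 0) := by
  rintro ⟨h0, h1, h2⟩
  have hne : ¬ ((a * c).eval z = 0 ∧ (a * e + c * b).eval z = 0 ∧ (b * e).eval z = 0) :=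
    ent_sym_no_common_root hab hce z
  apply s58a_forms_ne_zero W hne
  refine ⟨?_, ?_, ?_⟩
  · simpa [s58a_Wf] using h0
  · simpa [s58a_Vf] using h1
  · simpa [s58a_Uf] using h2

/-- **General parallelogram law for heights.** -/
theorem s58a_ht_addsub [IsAlgClosed K] [W.IsElliptic] {ρ μ σ τ : RatFunc K} (hρμ : ρ ≠ μ)
    (hs : (σ + τ) * (ρ - μ) ^ 2 = ent_V W ρ μ)
    (hp : σ * τ * (ρ - μ) ^ 2 = ent_W W ρ μ) :
    ent_ht σ + ent_ht τ = 2 * (ent_ht ρ + ent_ht μ) := by
  set φ := algebraMap K[X] (RatFunc K) with hφ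
  have hφinj : Function.Injective φ := RatFunc.algebraMap_injective K
  set a := ρ.num
  set b := ρ.denom
  set c := μ.num
  set e := μ.denom
  set a' := σ.num
  set b' := σ.denom
  set a'' := τ.num
  set b'' := τ.denom
  have hb0 : b ≠ 0 := RatFunc.denom_ne_zero ρ
  have he0 : e ≠ 0 := RatFunc.denom_ne_zero μ
  have hb : φ b ≠ 0 := RatFunc.algebraMap_ne_zero hb0
  have he : φ e ≠ 0 := RatFunc.algebraMap_ne_zero he0
  have hb' : φ b' ≠ 0 := RatFunc.algebraMap_ne_zero (RatFunc.denom_ne_zero σ)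
  have hb'' : φ b'' ≠ 0 := RatFunc.algebraMap_ne_zero (RatFunc.denom_ne_zero τ)
  have eρ : ρ = φ a / φ b := (RatFunc.num_div_denom ρ).symm
  have eμ : μ = φ c / φ e := (RatFunc.num_div_denom μ).symm
  have eσ : σ = φ a' / φ b' := (RatFunc.num_div_denom σ).symm
  have eτ : τ = φ a'' / φ b'' := (RatFunc.num_div_denom τ).symm
  have hC : ∀ x : K, φ (C x) = algebraMap K (RatFunc K) x := fun x => by
    rw [hφ, RatFunc.algebraMap_C]; rfl
  set Uh := s58a_Uf (a * c) (a * e + c * b) (b * e) with hUh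
  set Vh := s58a_Vf W (a * c) (a * e + c * b) (b * e) with hVh
  set Wh := s58a_Wf W (a * c) (a * e + c * b) (b * e) with hWh
  -- the three homogenised quantities
  have eU : (ρ - μ) ^ 2 * ((φ b) ^ 2 * (φ e) ^ 2) = φ Uh := by
    rw [hUh]
    unfold s58a_Uf
    simp only [map_sub, map_mul, map_add, map_ofNat]
    rw [eρ, eμ]
    field_simp
    ring
  have eV : ent_V W ρ μ * ((φ b) ^ 2 * (φ e) ^ 2) = φ Vh := by
    rw [hVh]
    unfold s58a_Vf ent_V
    simp only [map_add, map_mul, hC, map_ofNat]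
    rw [eρ, eμ]
    field_simp
  have eW : ent_W W ρ μ * ((φ b) ^ 2 * (φ e) ^ 2) = φ Wh := by
    rw [hWh]
    unfold s58a_Wf ent_W
    simp only [map_add, map_sub, map_mul, hC]
    rw [eρ, eμ]
    field_simp
  -- cross relations
  have R1 : (a' * a'') * Uh = (b' * b'') * Wh := by
    apply hφinj
    simp only [map_mul]
    rw [← eU, ← eW, ← hp, eσ, eτ]
    field_simp
  have R2 : (a' * b'' + a'' * b') * Uh = (b' * b'') * Vh := by
    apply hφinj
    simp only [map_mul, map_add]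
    rw [← eU, ← eV, ← hs, eσ, eτ]
    field_simp
  have hU0 : Uh ≠ 0 := by
    intro h0
    have h1 : φ Uh = 0 := by rw [h0, map_zero]
    rw [← eU] at h1
    have h2 : (ρ - μ) ^ 2 = 0 := by
      rcases mul_eq_zero.mp h1 with h | h
      · exact h
      · exact absurd h (mul_ne_zero (pow_ne_zero 2 hb) (pow_ne_zero 2 he))
    exact hρμ (sub_eq_zero.mp ((pow_eq_zero_iff (two_ne_zero)).mp h2))
  have hbb : b' * b'' ≠ 0 := mul_ne_zero (RatFunc.denom_ne_zero σ) (RatFunc.denom_ne_zero τ)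
  have R3 : (a' * a'') * Vh = (a' * b'' + a'' * b') * Wh := by
    have hne : Uh * (b' * b'') ≠ 0 := mul_ne_zero hU0 hbb
    apply mul_left_cancel₀ hne
    linear_combination (b' * b'' * Vh) * R1 - (b' * b'' * Wh) * R2
  -- Bezout relations
  have B1 := ent_bezout_of_no_common_root
    (ent_sym_no_common_root (RatFunc.isCoprime_num_denom σ) (RatFunc.isCoprime_num_denom τ))
  have B2 := ent_bezout_of_no_common_root
    (s58a_forms_no_common_root W (RatFunc.isCoprime_num_denom ρ) (RatFunc.isCoprime_num_denom μ))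
  obtain ⟨k, hk, e0, e1, e2⟩ := ent_triple_prop B1 B2 R3 R1 R2
  have hmax : ent_max3 (a' * a'') (a' * b'' + a'' * b') (b' * b'') = ent_max3 Wh Vh Uh := by
    rw [e0, e1, e2, ent_max3_C_mul hk]
  rw [ent_max3_sym (RatFunc.denom_ne_zero σ) (RatFunc.denom_ne_zero τ),
    s58a_max3_forms W hb0 he0] at hmax
  exact hmax

end Fermat.Agent.Lib.S58
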