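/-
S58 wave, EC-FROB, leaf [HT] (helper3), part 2: composition of rational functions and
multiplicativity of the height, `ht (r ∘ s) = ht r * ht s` (from Mathlib's
`RatFunc.finrank_eq_max_natDegree` and the tower law), and `ht (r ^ p) = p * ht r`.
-/
import Mathlib
import Fermat.Agent.Lib.EN.Height

set_option autoImplicit false

namespace Fermat.Agent.Lib.S58

open Polynomial IntermediateField Fermat.Agent.Lib.EN

variable {K : Type*} [Field K]

/-- substitution `r ↦ r ∘ s` for a non-constant rational function `s`. -/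
noncomputable def s58a_comp (s : RatFunc K) (hs : ¬ ∃ c, s = RatFunc.C c) :
    RatFunc K →ₐ[K] RatFunc K :=
  RatFunc.liftAlgHom (Polynomial.aeval s)
    (nonZeroDivisors_le_comap_nonZeroDivisors_of_injective _
      (transcendental_iff_injective.mp (RatFunc.transcendental_of_ne_C s hs)))

theorem s58a_comp_algebraMap (s : RatFunc K) (hs : ¬ ∃ c, s = RatFunc.C c) (p : K[X]) :
    s58a_comp s hs (algebraMap K[X] (RatFunc K) p) = Polynomial.aeval s p := by
  have := RatFunc.liftAlgHom_apply_div (Polynomial.aeval s)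
    (nonZeroDivisors_le_comap_nonZeroDivisors_of_injective _
      (transcendental_iff_injective.mp (RatFunc.transcendental_of_ne_C s hs))) p 1
  simpa [s58a_comp] using this

theorem s58a_comp_X (s : RatFunc K) (hs : ¬ ∃ c, s = RatFunc.C c) :
    s58a_comp s hs RatFunc.X = s := by
  rw [← RatFunc.algebraMap_X, s58a_comp_algebraMap, aeval_X]

theorem s58a_comp_div (s : RatFunc K) (hs : ¬ ∃ c, s = RatFunc.C c) (r : RatFunc K) :
    s58a_comp s hs r = Polynomial.aeval s r.num / Polynomial.aeval s r.denom := by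
  conv_lhs => rw [← RatFunc.num_div_denom r]
  rw [map_div₀, s58a_comp_algebraMap, s58a_comp_algebraMap]

/-- **Multiplicativity of the height under composition.** -/
theorem s58a_ht_comp (s : RatFunc K) (hs : ¬ ∃ c, s = RatFunc.C c) (r : RatFunc K) :
    ent_ht (s58a_comp s hs r) = ent_ht r * ent_ht s := by
  set θ := s58a_comp s hs with hθ
  have h1 : (K⟮r⟯).map θ = K⟮θ r⟯ := by
    rw [IntermediateField.adjoin_map, Set.image_singleton]
  have h2 : (⊤ : IntermediateField K (RatFunc K)).map θ = K⟮s⟯ := by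
    rw [← RatFunc.adjoin_X, IntermediateField.adjoin_map, Set.image_singleton, hθ, s58a_comp_X]
  have h3 : relfinrank ((K⟮r⟯).map θ) ((⊤ : IntermediateField K (RatFunc K)).map θ) =
      relfinrank K⟮r⟯ (⊤ : IntermediateField K (RatFunc K)) :=
    IntermediateField.relfinrank_map_map _ _ θ
  rw [h1, h2, relfinrank_top_right, RatFunc.finrank_eq_max_natDegree] at h3
  have hle : K⟮θ r⟯ ≤ K⟮s⟯ := by
    rw [← h1, ← h2]
    exact IntermediateField.map_mono θ le_top
  have h4 := relfinrank_mul_finrank_top hle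
  rw [h3, RatFunc.finrank_eq_max_natDegree, RatFunc.finrank_eq_max_natDegree] at h4
  exact h4.symm

/-- the height of a power. -/
theorem s58a_ht_pow (r : RatFunc K) (n : ℕ) : ent_ht (r ^ n) = n * ent_ht r := by
  have hd : r.denom ^ n ≠ 0 := pow_ne_zero n (RatFunc.denom_ne_zero r)
  have hcop : IsCoprime (r.num ^ n) (r.denom ^ n) := (RatFunc.isCoprime_num_denom r).pow
  have h : r ^ n = algebraMap K[X] (RatFunc K) (r.num ^ n) /
      algebraMap K[X] (RatFunc K) (r.denom ^ n) := by
    rw [map_pow, map_pow, ← div_pow, RatFunc.num_div_denom]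
  rw [ent_ht_eq_of_coprime hd hcop h, natDegree_pow, natDegree_pow, ent_ht, Nat.mul_max_mul_left]

/-- height zero means constant. -/
theorem s58a_ht_eq_zero_iff (r : RatFunc K) : ent_ht r = 0 ↔ ∃ c, r = RatFunc.C c := by
  constructor
  · intro h
    have h1 : r.num.natDegree = 0 := Nat.eq_zero_of_le_zero (h ▸ le_max_left _ _)
    have h2 : r.denom.natDegree = 0 := Nat.eq_zero_of_le_zero (h ▸ le_max_right _ _)
    obtain ⟨a, ha⟩ := natDegree_eq_zero.mp h1
    obtain ⟨b, hb⟩ := natDegree_eq_zero.mp h2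
    refine ⟨a / b, ?_⟩
    rw [← RatFunc.num_div_denom r, ← ha, ← hb, map_div₀, RatFunc.algebraMap_C,
      RatFunc.algebraMap_C]
  · rintro ⟨c, rfl⟩
    simp [ent_ht]

end Fermat.Agent.Lib.S58
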