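/-
S58 wave, EC-FROB, leaf [HT] (helper3), part 3: a function on an abelian group satisfying the
parallelogram law is a quadratic form (abstract, no elliptic curves).
-/
import Mathlib

set_option autoImplicit false

namespace Fermat.Agent.Lib.S58

variable {G : Type*} [AddCommGroup G] (h : G → ℤ)

/-- the polar form of `h`. -/
def s58a_B (P Q : G) : ℤ := h (P + Q) - h P - h Q

section

variable {h}
variable (hpl : ∀ P Q : G, h (P + Q) + h (P - Q) = 2 * h P + 2 * h Q)
include hpl

theorem s58a_pl_zero : h 0 = 0 := by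
  have := hpl 0 0
  simp at this
  linarith

theorem s58a_pl_neg (P : G) : h (-P) = h P := by
  have h0 := s58a_pl_zero hpl
  have := hpl 0 P
  simp at this
  linarith

theorem s58a_pl_two (P : G) : h (P + P) = 4 * h P := by
  have h0 := s58a_pl_zero hpl
  have := hpl P P
  simp at this
  linarith

theorem s58a_B_self (P : G) : s58a_B h P P = 2 * h P := by
  unfold s58a_B
  rw [s58a_pl_two hpl]
  ring

omit hpl in
theorem s58a_B_symm (P Q : G) : s58a_B h P Q = s58a_B h Q P := by
  unfold s58a_B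
  rw [add_comm]
  ring

theorem s58a_pl_three (P Q R : G) :
    h (P + Q + R) = h (P + R) + h (P + Q) + h (Q + R) - h P - h Q - h R := by
  have e1 := hpl (P + R) Q
  have e2 := hpl P (R - Q)
  have e3 := hpl (P + Q) R
  have e4 := hpl R Q
  have a1 : P + R + Q = P + Q + R := by abel
  have a2 : P + (R - Q) = P + R - Q := by abel
  have a3 : P - (R - Q) = P + Q - R := by abel
  have a4 : R + Q = Q + R := by abel
  rw [a1] at e1
  rw [a2, a3] at e2
  rw [a4] at e4
  linarith

theorem s58a_B_add_left (P R Q : G) : s58a_B h (P + R) Q = s58a_B h P Q + s58a_B h R Q := by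
  unfold s58a_B
  have e := s58a_pl_three hpl P R Q
  have a1 : P + R + Q = P + R + Q := rfl
  linarith

theorem s58a_B_add_right (P Q R : G) : s58a_B h P (Q + R) = s58a_B h P Q + s58a_B h P R := by
  rw [s58a_B_symm, s58a_B_add_left hpl, s58a_B_symm Q, s58a_B_symm R]

/-- the polar form as a biadditive map. -/
def s58a_Bhom : G →+ G →+ ℤ :=
  AddMonoidHom.mk' (fun P => AddMonoidHom.mk' (fun Q => s58a_B h P Q)
    (fun Q R => s58a_B_add_right hpl P Q R))
    (fun P R => by
      ext Q
      exact s58a_B_add_left hpl P R Q)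

theorem s58a_Bhom_apply (P Q : G) : s58a_Bhom hpl P Q = s58a_B h P Q := rfl

theorem s58a_B_zsmul (a b : ℤ) (P Q : G) : s58a_B h (a • P) (b • Q) = a * b * s58a_B h P Q := by
  have e1 : s58a_Bhom hpl (a • P) (b • Q) = b • (s58a_Bhom hpl (a • P) Q) := map_zsmul _ _ _
  have e2 : s58a_Bhom hpl (a • P) = a • s58a_Bhom hpl P := map_zsmul _ _ _
  rw [← s58a_Bhom_apply hpl, e1, e2, AddMonoidHom.smul_apply, s58a_Bhom_apply]
  simp only [smul_eq_mul]
  ring

/-- **`h` on integer combinations of three elements.** -/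
theorem s58a_quad3 (a b c : ℤ) (P Q R : G) :
    h (a • P + b • Q + c • R) = a ^ 2 * h P + b ^ 2 * h Q + c ^ 2 * h R + a * b * s58a_B h P Q +
      a * c * s58a_B h P R + b * c * s58a_B h Q R := by
  have key : 2 * h (a • P + b • Q + c • R) = s58a_B h (a • P + b • Q + c • R)
      (a • P + b • Q + c • R) := (s58a_B_self hpl _).symm
  rw [s58a_B_add_left hpl, s58a_B_add_left hpl, s58a_B_add_right hpl, s58a_B_add_right hpl,
    s58a_B_add_right hpl, s58a_B_add_right hpl, s58a_B_add_right hpl, s58a_B_add_right hpl,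
    s58a_B_zsmul hpl, s58a_B_zsmul hpl, s58a_B_zsmul hpl, s58a_B_zsmul hpl, s58a_B_zsmul hpl,
    s58a_B_zsmul hpl, s58a_B_zsmul hpl, s58a_B_zsmul hpl, s58a_B_zsmul hpl,
    s58a_B_self hpl, s58a_B_self hpl, s58a_B_self hpl, s58a_B_symm Q P, s58a_B_symm R P,
    s58a_B_symm R Q] at key
  linarith

/-- two elements. -/
theorem s58a_quad2 (a b : ℤ) (P Q : G) :
    h (a • P + b • Q) = a ^ 2 * h P + b ^ 2 * h Q + a * b * s58a_B h P Q := by
  have := s58a_quad3 hpl a b 0 P Q 0
  simpa [s58a_pl_zero hpl] using this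

end

end Fermat.Agent.Lib.S58
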