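/-
S58 wave, EC-FROB, leaf [HT] (helper3), part 4: the ABSTRACT height theorem.
`G` an abelian group with an "x-coordinate" `ξ : G → RatFunc K` obeying the x-only group laws
(`s58a_XLaws`).  Then `h P := ht (ξ P)` (`0` at `P = 0`) is a quadratic form on `G`; with a
"generic point" `P₀` (`ξ P₀ = X`), a "Frobenius" `Fr` (`ξ (Fr P) = (ξ P)^ℓ`) and ONE composition
identity, `t := h (P₀ + Fr P₀) - 1 - ℓ` satisfies `h (ℓ P₀ - t Fr P₀ + Fr² P₀) = 0` and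
`h (P₀ - Fr P₀) = 1 + ℓ - t ≥ 1`.
-/
import Fermat.Agent.Lib.S58.AHtAddSub
import Fermat.Agent.Lib.S58.AHtComp
import Fermat.Agent.Lib.S58.AHtQuad
import Fermat.Agent.Lib.EN.Rec

set_option autoImplicit false

namespace Fermat.Agent.Lib.S58

open Polynomial Fermat.Agent.Lib.EN

variable {K : Type*} [Field K] (W : WeierstrassCurve K)
variable {G : Type*} [AddCommGroup G]

/-- the x-only group laws for an "x-coordinate function" `ξ` on an abelian group `G`. -/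
structure s58a_XLaws (ξ : G → RatFunc K) : Prop where
  neg : ∀ P, ξ (-P) = ξ P
  addsub : ∀ P Q, P ≠ 0 → Q ≠ 0 → ξ P ≠ ξ Q → P + Q ≠ 0 ∧ P - Q ≠ 0 ∧
    (ξ (P + Q) + ξ (P - Q)) * (ξ P - ξ Q) ^ 2 = ent_V W (ξ P) (ξ Q) ∧
    ξ (P + Q) * ξ (P - Q) * (ξ P - ξ Q) ^ 2 = ent_W W (ξ P) (ξ Q)
  eq_or : ∀ P Q, P ≠ 0 → Q ≠ 0 → ξ P = ξ Q → P = Q ∨ P = -Q
  dup : ∀ P, P ≠ 0 → ent_V W (ξ P) (ξ P) ≠ 0 →
    P + P ≠ 0 ∧ ξ (P + P) * ent_V W (ξ P) (ξ P) = ent_W W (ξ P) (ξ P)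
  dup0 : ∀ P, P ≠ 0 → ent_V W (ξ P) (ξ P) = 0 → P + P = 0

/-- the height function attached to `ξ`. -/
noncomputable def s58a_h (ξ : G → RatFunc K) (P : G) : ℤ :=
  @ite _ (P = 0) (Classical.propDecidable _) 0 (ent_ht (ξ P) : ℤ)

theorem s58a_h_zero (ξ : G → RatFunc K) : s58a_h ξ 0 = 0 := by
  unfold s58a_h
  rw [if_pos rfl]

theorem s58a_h_of_ne (ξ : G → RatFunc K) {P : G} (hP : P ≠ 0) :
    s58a_h ξ P = (ent_ht (ξ P) : ℤ) := by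
  unfold s58a_h
  rw [if_neg hP]

theorem s58a_h_nonneg (ξ : G → RatFunc K) (P : G) : 0 ≤ s58a_h ξ P := by
  unfold s58a_h
  split_ifs
  · exact le_refl _
  · exact Int.natCast_nonneg _

theorem s58a_ne_zero_of_h_pos (ξ : G → RatFunc K) {P : G} (h : 0 < s58a_h ξ P) : P ≠ 0 := by
  rintro rfl
  rw [s58a_h_zero] at h
  exact lt_irrefl _ h

/-- algebra homomorphisms commute with the forms `ent_V`, `ent_W`. -/
theorem s58a_map_ent_V {A B : Type*} [CommRing A] [CommRing B] [Algebra K A] [Algebra K B]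
    (f : A →ₐ[K] B) (x₁ x₂ : A) : f (ent_V W x₁ x₂) = ent_V W (f x₁) (f x₂) := by
  simp only [ent_V, map_add, map_mul, map_ofNat, AlgHom.commutes]

theorem s58a_map_ent_W {A B : Type*} [CommRing A] [CommRing B] [Algebra K A] [Algebra K B]
    (f : A →ₐ[K] B) (x₁ x₂ : A) : f (ent_W W x₁ x₂) = ent_W W (f x₁) (f x₂) := by
  simp only [ent_W, map_sub, map_mul, map_add, map_pow, AlgHom.commutes]

/-- the 2-division polynomial `4X³ + b₂X² + 2b₄X + b₆` is non-zero for an elliptic curve. -/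
theorem s58a_psi2_ne_zero [W.IsElliptic] :
    (C 4 * X ^ 3 + C W.b₂ * X ^ 2 + C (2 * W.b₄) * X + C W.b₆ : K[X]) ≠ 0 := by
  intro h0
  have c3 := congrArg (fun p => Polynomial.coeff p 3) h0
  have c2 := congrArg (fun p => Polynomial.coeff p 2) h0
  have c1 := congrArg (fun p => Polynomial.coeff p 1) h0
  have c0 := congrArg (fun p => Polynomial.coeff p 0) h0
  simp [coeff_X, coeff_C] at c3 c2 c1 c0
  have hΔ : W.Δ = 0 := by
    rw [WeierstrassCurve.Δ, c2, c0]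
    rcases c1 with h | h
    · linear_combination (-4 * W.b₄ ^ 3) * h
    · rw [h]; ring
  exact W.isUnit_Δ.ne_zero hΔ

/-- a rational function killed by the 2-division polynomial is constant. -/
theorem s58a_const_of_psi2 [W.IsElliptic] {ρ : RatFunc K} (h : ent_V W ρ ρ = 0) :
    ∃ c, ρ = RatFunc.C c := by
  by_contra hc
  have htr := RatFunc.transcendental_of_ne_C ρ hc
  apply htr
  refine ⟨C 4 * X ^ 3 + C W.b₂ * X ^ 2 + C (2 * W.b₄) * X + C W.b₆, s58a_psi2_ne_zero W, ?_⟩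
  rw [← h]
  simp only [ent_V, map_add, map_mul, map_pow, aeval_C, aeval_X, map_ofNat]
  ring

/-- **Duplication law for heights.** -/
theorem s58a_ht_dup [IsAlgClosed K] [W.IsElliptic] {ρ σ : RatFunc K} (hV : ent_V W ρ ρ ≠ 0)
    (h : σ * ent_V W ρ ρ = ent_W W ρ ρ) : ent_ht σ = 4 * ent_ht ρ := by
  have hσ : σ = ent_W W ρ ρ / ent_V W ρ ρ := by
    rw [eq_div_iff hV, h]
  by_cases hc : ∃ c, ρ = RatFunc.C c
  · obtain ⟨c, rfl⟩ := hc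
    have h1 : ent_ht (RatFunc.C c : RatFunc K) = 0 := (s58a_ht_eq_zero_iff _).mpr ⟨c, rfl⟩
    rw [h1, mul_zero, s58a_ht_eq_zero_iff]
    refine ⟨ent_W W c c / ent_V W c c, ?_⟩
    rw [hσ, map_div₀]
    congr 1
    · simp only [ent_W, Algebra.algebraMap_self_apply, map_sub, map_mul, map_pow, map_add,
        RatFunc.algebraMap_eq_C]
    · simp only [ent_V, Algebra.algebraMap_self_apply, map_add, map_mul, map_ofNat,
        RatFunc.algebraMap_eq_C]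
  · have e : σ = s58a_comp ρ hc (ent_r W 2) := by
      rw [hσ, ent_r_two, map_div₀, s58a_map_ent_W, s58a_map_ent_V, s58a_comp_X]
    rw [e, s58a_ht_comp, ent_ht_r_two]

section pl

variable [IsAlgClosed K] [W.IsElliptic] {ξ : G → RatFunc K} (L : s58a_XLaws W ξ)
include L

omit [IsAlgClosed K] [W.IsElliptic] in
theorem s58a_h_neg (P : G) : s58a_h ξ (-P) = s58a_h ξ P := by
  by_cases hP : P = 0
  · rw [hP, neg_zero]
  · rw [s58a_h_of_ne ξ hP, s58a_h_of_ne ξ (neg_ne_zero.mpr hP), L.neg]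

theorem s58a_h_two (P : G) : s58a_h ξ (P + P) = 4 * s58a_h ξ P := by
  by_cases hP : P = 0
  · rw [hP, add_zero, s58a_h_zero, mul_zero]
  · by_cases hV : ent_V W (ξ P) (ξ P) = 0
    · rw [L.dup0 P hP hV, s58a_h_zero, s58a_h_of_ne ξ hP,
        (s58a_ht_eq_zero_iff _).mpr (s58a_const_of_psi2 W hV)]
      simp
    · obtain ⟨h2, hrel⟩ := L.dup P hP hV
      rw [s58a_h_of_ne ξ h2, s58a_h_of_ne ξ hP, s58a_ht_dup W hV hrel]
      push_cast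
      ring

/-- **The parallelogram law** for the height attached to `ξ`. -/
theorem s58a_h_pl (P Q : G) :
    s58a_h ξ (P + Q) + s58a_h ξ (P - Q) = 2 * s58a_h ξ P + 2 * s58a_h ξ Q := by
  by_cases hP : P = 0
  · rw [hP, zero_add, zero_sub, s58a_h_neg W L, s58a_h_zero]
    ring
  by_cases hQ : Q = 0
  · rw [hQ, add_zero, sub_zero, s58a_h_zero]
    ring
  by_cases hx : ξ P = ξ Q
  · rcases L.eq_or P Q hP hQ hx with rfl | rfl
    · rw [sub_self, s58a_h_zero, s58a_h_two W L]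
      ring
    · rw [neg_add_cancel, s58a_h_zero, sub_eq_add_neg, s58a_h_two W L, s58a_h_neg W L]
      ring
  · obtain ⟨h1, h2, hs, hp⟩ := L.addsub P Q hP hQ hx
    rw [s58a_h_of_ne ξ h1, s58a_h_of_ne ξ h2, s58a_h_of_ne ξ hP, s58a_h_of_ne ξ hQ]
    have := s58a_ht_addsub W hx hs hp
    exact_mod_cast (by omega : ent_ht (ξ (P + Q)) + ent_ht (ξ (P - Q)) =
      2 * ent_ht (ξ P) + 2 * ent_ht (ξ Q))

end pl

section frob

variable [IsAlgClosed K] [W.IsElliptic] {ξ : G → RatFunc K} (L : s58a_XLaws W ξ)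
  {ℓ : ℕ} (hℓ : 2 ≤ ℓ) {P₀ : G} (hP₀ : P₀ ≠ 0) (hξ₀ : ξ P₀ = RatFunc.X)
  (Fr : G →+ G) (hFr0 : ∀ P, P ≠ 0 → Fr P ≠ 0) (hFr : ∀ P, P ≠ 0 → ξ (Fr P) = ξ P ^ ℓ)
include L hP₀ hξ₀ hFr0 hFr

omit [IsAlgClosed K] [W.IsElliptic] L hFr0 hFr in
theorem s58a_h_P₀ : s58a_h ξ P₀ = 1 := by
  rw [s58a_h_of_ne ξ hP₀, hξ₀, ent_ht_X]
  rfl

omit [IsAlgClosed K] [W.IsElliptic] L hP₀ hξ₀ in
theorem s58a_h_Fr (P : G) : s58a_h ξ (Fr P) = ℓ * s58a_h ξ P := by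
  by_cases hP : P = 0
  · rw [hP, map_zero, s58a_h_zero, mul_zero]
  · rw [s58a_h_of_ne ξ hP, s58a_h_of_ne ξ (hFr0 P hP), hFr P hP, s58a_ht_pow]
    push_cast
    ring

omit [IsAlgClosed K] [W.IsElliptic] L hP₀ hξ₀ in
theorem s58a_B_Fr (P Q : G) : s58a_B (s58a_h ξ) (Fr P) (Fr Q) = ℓ * s58a_B (s58a_h ξ) P Q := by
  unfold s58a_B
  rw [← map_add, s58a_h_Fr Fr hFr0 hFr, s58a_h_Fr Fr hFr0 hFr, s58a_h_Fr Fr hFr0 hFr]
  ring

include hℓ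

/-- **Main abstract height theorem.**  `t := h(P₀ + Fr P₀) − 1 − ℓ`. -/
theorem s58a_main
    (hR : P₀ + Fr P₀ + (Fr P₀ + Fr (Fr P₀)) ≠ 0)
    (hcomp : ∀ hs : ¬ ∃ c, ξ (P₀ + Fr P₀) = RatFunc.C c,
      ξ (P₀ + Fr P₀ + (Fr P₀ + Fr (Fr P₀))) = s58a_comp (ξ (P₀ + Fr P₀)) hs (ξ (P₀ + Fr P₀))) :
    ∃ t : ℤ, s58a_h ξ (P₀ + Fr P₀) = 1 + ℓ + t ∧
      s58a_h ξ (P₀ - Fr P₀) = 1 + ℓ - t ∧ 1 ≤ 1 + (ℓ : ℤ) - t ∧ 1 ≤ 1 + (ℓ : ℤ) + t ∧
      s58a_h ξ ((ℓ : ℤ) • P₀ + (-t) • Fr P₀ + (1 : ℤ) • Fr (Fr P₀)) = 0 := by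
  have hpl := s58a_h_pl W L
  set h := s58a_h ξ with hh
  set P₁ := Fr P₀ with hP₁
  set P₂ := Fr P₁ with hP₂
  have h0 : h P₀ = 1 := s58a_h_P₀ hP₀ hξ₀
  have h1 : h P₁ = ℓ := by
    rw [hP₁, hh, s58a_h_Fr Fr hFr0 hFr, ← hh, h0, mul_one]
  have h2 : h P₂ = ℓ ^ 2 := by
    rw [hP₂, hh, s58a_h_Fr Fr hFr0 hFr, ← hh, h1]
    ring
  set t := s58a_B h P₀ P₁ with ht
  have hB12 : s58a_B h P₁ P₂ = ℓ * t := by
    rw [hP₂, hP₁, hh, s58a_B_Fr Fr hFr0 hFr]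
  set s := s58a_B h P₀ P₂ with hs
  -- h(P₀ + P₁)
  have hQ : h (P₀ + P₁) = 1 + ℓ + t := by
    rw [ht]
    unfold s58a_B
    rw [h0, h1]
    ring
  -- positivity: 4ℓ - t² ≥ 0
  have hpos : 0 ≤ 4 * (ℓ : ℤ) - t ^ 2 := by
    have e := s58a_quad2 hpl (-t) 2 P₀ P₁
    have e' : 0 ≤ h ((-t) • P₀ + (2 : ℤ) • P₁) := s58a_h_nonneg ξ _
    rw [e, h0, h1, ← ht] at e'
    nlinarith
  have hℓ' : (2 : ℤ) ≤ ℓ := by exact_mod_cast hℓ
  have hge1 : 1 ≤ 1 + (ℓ : ℤ) - t := by nlinarith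
  have hge2 : 1 ≤ 1 + (ℓ : ℤ) + t := by nlinarith
  -- Q := P₀ + P₁ is non-zero and non-constant
  have hQ0 : P₀ + P₁ ≠ 0 := s58a_ne_zero_of_h_pos ξ (by rw [← hh, hQ]; linarith)
  have hQht : (ent_ht (ξ (P₀ + P₁)) : ℤ) = 1 + ℓ + t := by
    rw [← s58a_h_of_ne ξ hQ0, ← hh, hQ]
  have hQnc : ¬ ∃ c, ξ (P₀ + P₁) = RatFunc.C c := by
    intro hc
    have := (s58a_ht_eq_zero_iff _).mpr hc
    rw [this] at hQht
    simp at hQht
    linarith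
  -- the composition identity
  have hRh : h (P₀ + P₁ + (P₁ + P₂)) = (1 + ℓ + t) ^ 2 := by
    rw [hh, s58a_h_of_ne ξ hR, hcomp hQnc, s58a_ht_comp]
    push_cast
    rw [hQht]
    ring
  have hRq : h (P₀ + P₁ + (P₁ + P₂)) =
      1 + 4 * ℓ + ℓ ^ 2 + 2 * t + s + 2 * ℓ * t := by
    have e := s58a_quad3 hpl 1 2 1 P₀ P₁ P₂
    have a1 : (1 : ℤ) • P₀ + (2 : ℤ) • P₁ + (1 : ℤ) • P₂ = P₀ + P₁ + (P₁ + P₂) := by
      rw [one_smul, one_smul, two_smul]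
      abel
    rw [a1, h0, h1, h2, ← ht, ← hs, hB12] at e
    rw [e]
    ring
  have hs' : s = t ^ 2 - 2 * ℓ := by
    rw [hRh] at hRq
    linarith
  refine ⟨t, hQ, ?_, hge1, hge2, ?_⟩
  · have e := s58a_quad2 hpl 1 (-1) P₀ P₁
    have a1 : (1 : ℤ) • P₀ + (-1 : ℤ) • P₁ = P₀ - P₁ := by
      rw [one_smul, neg_one_smul, sub_eq_add_neg]
    rw [a1, h0, h1, ← ht] at e
    rw [e]
    ring
  · have e := s58a_quad3 hpl (ℓ : ℤ) (-t) 1 P₀ P₁ P₂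
    rw [h0, h1, h2, ← ht, ← hs, hB12, hs'] at e
    rw [e]
    ring

end frob

end Fermat.Agent.Lib.S58
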