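/-
S58 wave, EC-FROB, leaf [SEP] (helper3): separability by a discriminant trick.
In characteristic `ℓ`, let `r ∈ K(X)` be a non-constant root of
`Φ(Z; X, X^ℓ) = (X - X^ℓ)² Z² - V(X, X^ℓ) Z + W(X, X^ℓ)` (i.e. `r = x(P ± Fr P)` for the generic
point `P`).  Then the Wronskian `N' D - N D'` of `r = N / D` is non-zero.
Proof: otherwise differentiating (`d/dX (X^ℓ) = 0`) shows that `X` is a double root of the
quadratic `Φ(r; ·, X^ℓ)`, so its discriminant `ψ₂²(r) ψ₂²(X^ℓ)` vanishes, so `r` is constant.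
-/
import Fermat.Agent.Lib.S58.AHtMain

set_option autoImplicit false

namespace Fermat.Agent.Lib.S58

open Polynomial Fermat.Agent.Lib.EN

variable {K : Type*} [Field K] (W : WeierstrassCurve K)

/-- the discriminant identity of the symmetric biquadratic form. -/
theorem s58a_disc {A : Type*} [CommRing A] [Algebra K A] (a b : A) :
    (ent_V W a b) ^ 2 - 4 * (a - b) ^ 2 * ent_W W a b = ent_V W a a * ent_V W b b := by
  have h := congrArg (algebraMap K A) W.b_relation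
  simp only [map_mul, map_sub, map_pow, map_ofNat] at h
  simp only [ent_V, ent_W]
  linear_combination (a - b) ^ 2 * h

/-- polynomial level: from `P = 0` and `N' D = N D'` to `∂₁ P = 0`. -/
theorem s58a_sep_poly {c N D : K[X]} (hc : derivative c = 0) (hD : D ≠ 0)
    (hw : derivative N * D = N * derivative D)
    (hP : (X - c) ^ 2 * N ^ 2 - ent_V W (X : K[X]) c * (N * D) + ent_W W (X : K[X]) c * D ^ 2 = 0) :
    2 * (X - c) * N ^ 2 - (4 * X * c + 2 * c ^ 2 + C W.b₂ * c + C W.b₄) * (N * D) +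
      (2 * X * c ^ 2 - C W.b₄ * c - C W.b₆) * D ^ 2 = 0 := by
  have hP' := congrArg derivative hP
  simp only [ent_V, ent_W, Polynomial.algebraMap_eq, derivative_sub, derivative_add, derivative_mul,
    derivative_pow, derivative_X, derivative_C, hc, derivative_ofNat, map_zero, Nat.cast_ofNat,
    map_ofNat, Nat.add_one_sub_one, pow_one] at hP'
  have key : D * (2 * (X - c) * N ^ 2 - (4 * X * c + 2 * c ^ 2 + C W.b₂ * c + C W.b₄) * (N * D) +
      (2 * X * c ^ 2 - C W.b₄ * c - C W.b₆) * D ^ 2) = 0 := by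
    simp only [ent_V, ent_W, Polynomial.algebraMap_eq] at hP
    linear_combination D * hP' - 2 * derivative D * hP -
      (2 * (X - c) ^ 2 * N - (2 * X * c * (X + c) + C W.b₂ * X * c + C W.b₄ * (X + c) + C W.b₆) * D)
        * hw
  rcases mul_eq_zero.mp key with h | h
  · exact absurd h hD
  · exact h

/-- **[SEP]** a non-constant root `r` of `Φ(Z; X, X^ℓ)` in characteristic `ℓ` has non-zero
Wronskian (is separable). -/
theorem s58a_sep [W.IsElliptic] {ℓ : ℕ} [CharP K ℓ] (hℓ : ℓ ≠ 0) {r : RatFunc K}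
    (hr : ¬ ∃ c, r = RatFunc.C c)
    (hΦ : ent_Phi W r (RatFunc.X : RatFunc K) (RatFunc.X ^ ℓ) = 0) :
    derivative r.num * r.denom - r.num * derivative r.denom ≠ 0 := by
  intro h0
  have hw : derivative r.num * r.denom = r.num * derivative r.denom := sub_eq_zero.mp h0
  set N := r.num with hN
  set D := r.denom with hDd
  set φ := algebraMap K[X] (RatFunc K) with hφ
  have hD : D ≠ 0 := RatFunc.denom_ne_zero r
  have hφD : φ D ≠ 0 := RatFunc.algebraMap_ne_zero hD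
  have er : r = φ N / φ D := (RatFunc.num_div_denom r).symm
  have hX : φ X = RatFunc.X := RatFunc.algebraMap_X
  have hC : ∀ a : K, φ (C a) = algebraMap K (RatFunc K) a := fun a => by
    rw [hφ, RatFunc.algebraMap_C]; rfl
  have hc : derivative (X ^ ℓ : K[X]) = 0 := by
    rw [derivative_X_pow, CharP.cast_eq_zero, C_0, zero_mul]
  set x : RatFunc K := RatFunc.X with hx
  have E1 : (x - (x ^ ℓ)) ^ 2 * r ^ 2 - ent_V W x (x ^ ℓ) * r + ent_W W x (x ^ ℓ) = 0 := hΦ
  -- polynomial relation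
  have hP : (X - X ^ ℓ) ^ 2 * N ^ 2 - ent_V W (X : K[X]) (X ^ ℓ) * (N * D) +
      ent_W W (X : K[X]) (X ^ ℓ) * D ^ 2 = 0 := by
    apply RatFunc.algebraMap_injective K
    rw [map_zero]
    have e : algebraMap K[X] (RatFunc K) ((X - X ^ ℓ) ^ 2 * N ^ 2 -
        ent_V W (X : K[X]) (X ^ ℓ) * (N * D) + ent_W W (X : K[X]) (X ^ ℓ) * D ^ 2) =
        ((x - (x ^ ℓ)) ^ 2 * r ^ 2 - ent_V W x (x ^ ℓ) * r + ent_W W x (x ^ ℓ)) * (φ D) ^ 2 := by
      simp only [ent_V, ent_W, Polynomial.algebraMap_eq, map_add, map_sub, map_mul, map_pow,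
        map_ofNat, ← hφ, hX, hC]
      rw [er]
      field_simp
    rw [e, E1, zero_mul]
  have hP1 := s58a_sep_poly W hc hD hw hP
  have E2 : 2 * (x - (x ^ ℓ)) * r ^ 2 - (4 * x * (x ^ ℓ) + 2 * (x ^ ℓ) ^ 2 + algebraMap K (RatFunc K) W.b₂ * (x ^ ℓ) +
      algebraMap K (RatFunc K) W.b₄) * r +
      (2 * x * (x ^ ℓ) ^ 2 - algebraMap K (RatFunc K) W.b₄ * (x ^ ℓ) - algebraMap K (RatFunc K) W.b₆) = 0 := by
    have e := congrArg φ hP1
    simp only [map_add, map_sub, map_mul, map_pow, map_ofNat, map_zero, hX, hC] at e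
    have e2 : (2 * (x - (x ^ ℓ)) * r ^ 2 - (4 * x * (x ^ ℓ) + 2 * (x ^ ℓ) ^ 2 + algebraMap K (RatFunc K) W.b₂ * (x ^ ℓ) +
      algebraMap K (RatFunc K) W.b₄) * r +
      (2 * x * (x ^ ℓ) ^ 2 - algebraMap K (RatFunc K) W.b₄ * (x ^ ℓ) - algebraMap K (RatFunc K) W.b₆)) *
        (φ D) ^ 2 = 0 := by
      rw [← e, er]
      field_simp
    rcases mul_eq_zero.mp e2 with h | h
    · exact h
    · exact absurd h (pow_ne_zero 2 hφD)
  -- the discriminant vanishes
  have hdisc : ent_V W r (x ^ ℓ) ^ 2 - 4 * (r - (x ^ ℓ)) ^ 2 * ent_W W r (x ^ ℓ) = 0 := by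
    have E1' : (r - (x ^ ℓ)) ^ 2 * x ^ 2 - ent_V W r (x ^ ℓ) * x + ent_W W r (x ^ ℓ) = 0 := by
      simp only [ent_V, ent_W] at E1 ⊢
      linear_combination E1
    have E2' : 2 * (r - (x ^ ℓ)) ^ 2 * x - ent_V W r (x ^ ℓ) = 0 := by
      simp only [ent_V] at E2 ⊢
      linear_combination E2
    linear_combination (-4 * (r - (x ^ ℓ)) ^ 2) * E1' + (2 * (r - (x ^ ℓ)) ^ 2 * x - ent_V W r (x ^ ℓ)) * E2'
  rw [s58a_disc] at hdisc
  rcases mul_eq_zero.mp hdisc with h | h
  · exact hr (s58a_const_of_psi2 W h)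
  · have h1 := (s58a_ht_eq_zero_iff _).mpr (s58a_const_of_psi2 W h)
    rw [hx, s58a_ht_pow, ent_ht_X, mul_one] at h1
    exact hℓ h1

end Fermat.Agent.Lib.S58
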