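/-
S58 wave, EC-FROB, leaf [HT] (helper3), part 5: variant `s58a_main2` of `s58a_main` in which the
composition identity (and `R ≠ 0`) may use that `Q = P₀ + Fr P₀` is non-zero and non-constant
(both follow from the positivity of the quadratic form).
-/
import Fermat.Agent.Lib.S58.AHtMain

set_option autoImplicit false

namespace Fermat.Agent.Lib.S58

open Polynomial Fermat.Agent.Lib.EN

variable {K : Type*} [Field K] (W : WeierstrassCurve K)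
variable {G : Type*} [AddCommGroup G]

variable [IsAlgClosed K] [W.IsElliptic] {ξ : G → RatFunc K} (L : s58a_XLaws W ξ)
  {ℓ : ℕ} (hℓ : 2 ≤ ℓ) {P₀ : G} (hP₀ : P₀ ≠ 0) (hξ₀ : ξ P₀ = RatFunc.X)
  (Fr : G →+ G) (hFr0 : ∀ P, P ≠ 0 → Fr P ≠ 0) (hFr : ∀ P, P ≠ 0 → ξ (Fr P) = ξ P ^ ℓ)
include L hP₀ hξ₀ hFr0 hFr hℓ

/-- `Q = P₀ + Fr P₀` is non-zero and non-constant. -/
theorem s58a_Q_nonconst :
    P₀ + Fr P₀ ≠ 0 ∧ ¬ ∃ c, ξ (P₀ + Fr P₀) = RatFunc.C c := by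
  have hpl := s58a_h_pl W L
  set h := s58a_h ξ with hh
  set P₁ := Fr P₀ with hP₁
  have h0 : h P₀ = 1 := s58a_h_P₀ hP₀ hξ₀
  have h1 : h P₁ = ℓ := by
    rw [hP₁, hh, s58a_h_Fr Fr hFr0 hFr, ← hh, h0, mul_one]
  set t := s58a_B h P₀ P₁ with ht
  have hQ : h (P₀ + P₁) = 1 + ℓ + t := by
    rw [ht]
    unfold s58a_B
    rw [h0, h1]
    ring
  have hpos : 0 ≤ 4 * (ℓ : ℤ) - t ^ 2 := by
    have e := s58a_quad2 hpl (-t) 2 P₀ P₁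
    have e' : 0 ≤ h ((-t) • P₀ + (2 : ℤ) • P₁) := s58a_h_nonneg ξ _
    rw [e, h0, h1, ← ht] at e'
    nlinarith
  have hℓ' : (2 : ℤ) ≤ ℓ := by exact_mod_cast hℓ
  have hge2 : 1 ≤ 1 + (ℓ : ℤ) + t := by nlinarith
  have hQ0 : P₀ + P₁ ≠ 0 := s58a_ne_zero_of_h_pos ξ (by rw [← hh, hQ]; linarith)
  refine ⟨hQ0, ?_⟩
  have hQht : (ent_ht (ξ (P₀ + P₁)) : ℤ) = 1 + ℓ + t := by
    rw [← s58a_h_of_ne ξ hQ0, ← hh, hQ]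
  intro hc
  have := (s58a_ht_eq_zero_iff _).mpr hc
  rw [this] at hQht
  simp at hQht
  linarith

/-- **Main abstract height theorem**, variant with a conditional composition hypothesis. -/
theorem s58a_main2
    (hcomp : ∀ hs : ¬ ∃ c, ξ (P₀ + Fr P₀) = RatFunc.C c, P₀ + Fr P₀ ≠ 0 →
      P₀ + Fr P₀ + (Fr P₀ + Fr (Fr P₀)) ≠ 0 ∧
      ξ (P₀ + Fr P₀ + (Fr P₀ + Fr (Fr P₀))) = s58a_comp (ξ (P₀ + Fr P₀)) hs (ξ (P₀ + Fr P₀))) :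
    ∃ t : ℤ, s58a_h ξ (P₀ + Fr P₀) = 1 + ℓ + t ∧
      s58a_h ξ (P₀ - Fr P₀) = 1 + ℓ - t ∧ 1 ≤ 1 + (ℓ : ℤ) - t ∧ 1 ≤ 1 + (ℓ : ℤ) + t ∧
      s58a_h ξ ((ℓ : ℤ) • P₀ + (-t) • Fr P₀ + (1 : ℤ) • Fr (Fr P₀)) = 0 := by
  obtain ⟨hQ0, hs⟩ := s58a_Q_nonconst W L hℓ hP₀ hξ₀ Fr hFr0 hFr
  obtain ⟨hR, hc⟩ := hcomp hs hQ0
  exact s58a_main W L hℓ hP₀ hξ₀ Fr hFr0 hFr hR (fun _ => hc)

end Fermat.Agent.Lib.S58
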