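/-
S58 wave, EC-FROB, leaf [FF] (helper6): the FRAME.  For a Weierstrass curve `E` over a field `k`
(no hypothesis on `k`), the function field `L = k(X)[Y]/(Weierstrass polynomial)` as the quadratic
extension `AdjoinRoot` of `RatFunc k`, the coordinate functions `x`, `y`, the generic point `P₀`,
the basis `1, y` of `L` over `k(X)`, and the conjugation `y ↦ -y - a₁x - a₃`.
-/
import Mathlib
import Fermat.Agent.Lib.Frey.Abstract

set_option autoImplicit false

namespace Fermat.Agent.Lib.S58

open Polynomial WeierstrassCurve WeierstrassCurve.Affine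
open scoped Polynomial.Bivariate

variable {k : Type*} [Field k] (E : WeierstrassCurve k)

/-- the Weierstrass polynomial of `E` as a polynomial in `Y` over `k(X)`. -/
noncomputable abbrev s58g_poly : (RatFunc k)[X] :=
  E.toAffine.polynomial.map (algebraMap k[X] (RatFunc k))

theorem s58g_poly_monic : (s58g_poly E).Monic :=
  (WeierstrassCurve.Affine.monic_polynomial).map _

theorem s58g_poly_natDegree : (s58g_poly E).natDegree = 2 := by
  rw [s58g_poly, (WeierstrassCurve.Affine.monic_polynomial).natDegree_map]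
  exact WeierstrassCurve.Affine.natDegree_polynomial

theorem s58g_poly_irreducible : Irreducible (s58g_poly E) :=
  (Polynomial.Monic.irreducible_iff_irreducible_map_fraction_map (K := RatFunc k)
    WeierstrassCurve.Affine.monic_polynomial).mp WeierstrassCurve.Affine.irreducible_polynomial

instance s58g_fact : Fact (Irreducible (s58g_poly E)) := ⟨s58g_poly_irreducible E⟩

/-- the function field of `E`, as a quadratic extension of `k(X)`. -/
noncomputable abbrev s58g_L : Type _ := AdjoinRoot (s58g_poly E)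

/-- the coordinate function `x`. -/
noncomputable def s58g_x : s58g_L E := algebraMap (RatFunc k) (s58g_L E) RatFunc.X

/-- the coordinate function `y`. -/
noncomputable def s58g_y : s58g_L E := AdjoinRoot.root (s58g_poly E)

theorem s58g_algebraMap_C (a : k) :
    algebraMap (RatFunc k) (s58g_L E) (RatFunc.C a) = algebraMap k (s58g_L E) a := by
  rw [← RatFunc.algebraMap_eq_C, ← IsScalarTower.algebraMap_apply]

theorem s58g_algebraMap_poly (p : k[X]) :
    algebraMap (RatFunc k) (s58g_L E) (algebraMap k[X] (RatFunc k) p) =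
      Polynomial.aeval (s58g_x E) p := by
  rw [s58g_x]
  induction p using Polynomial.induction_on' with
  | add p q hp hq => rw [map_add, map_add, map_add, hp, hq]
  | monomial n a =>
    rw [← C_mul_X_pow_eq_monomial]
    simp only [map_mul, map_pow, aeval_C, aeval_X, RatFunc.algebraMap_C, RatFunc.algebraMap_X,
      s58g_algebraMap_C]

/-- the image of a rational function in `L`. -/
theorem s58g_algebraMap_ratFunc (r : RatFunc k) :
    algebraMap (RatFunc k) (s58g_L E) r =
      Polynomial.aeval (s58g_x E) r.num / Polynomial.aeval (s58g_x E) r.denom := by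
  conv_lhs => rw [← RatFunc.num_div_denom r]
  rw [map_div₀, s58g_algebraMap_poly, s58g_algebraMap_poly]

theorem s58g_algebraMap_injective : Function.Injective (algebraMap (RatFunc k) (s58g_L E)) :=
  (algebraMap (RatFunc k) (s58g_L E)).injective

/-- `x` is transcendental over `k`. -/
theorem s58g_x_transcendental : Transcendental k (s58g_x E) := by
  rw [s58g_x, transcendental_algebraMap_iff (s58g_algebraMap_injective E)]
  exact RatFunc.transcendental_X

/-! ### Evaluating the Weierstrass polynomial -/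

/-- evaluation of a bivariate polynomial, `X ↦ u`, `Y ↦ v`. -/
theorem s58g_eval₂_aeval {A : Type*} [CommRing A] [Algebra k A] (u v : A) (p : k[X][Y]) :
    eval₂ ((Polynomial.aeval u : k[X] →ₐ[k] A) : k[X] →+* A) v p =
      (p.map (mapRingHom (algebraMap k A))).evalEval u v := by
  induction p using Polynomial.induction_on' with
  | add p q hp hq => rw [eval₂_add, Polynomial.map_add, evalEval_add, hp, hq]
  | monomial n a =>
    rw [← C_mul_X_pow_eq_monomial]
    simp only [eval₂_mul, eval₂_C, eval₂_pow, eval₂_X, Polynomial.map_mul, Polynomial.map_pow,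
      Polynomial.map_C, Polynomial.map_X, evalEval_mul, evalEval_pow, evalEval_C, evalEval_X,
      coe_mapRingHom, RingHom.coe_coe]
    rw [Polynomial.aeval_def, Polynomial.eval₂_eq_eval_map]

/-- for a ring hom `φ` out of `k(X)` with `φ X = u`: the Weierstrass polynomial (over `k(X)`)
evaluated along `φ` at `v` is the Weierstrass polynomial of the base change at `(u, v)`. -/
theorem s58g_eval₂_poly {A : Type*} [CommRing A] [Algebra k A] (φ : RatFunc k →+* A) (u v : A)
    (hφ : ∀ p : k[X], φ (algebraMap k[X] (RatFunc k) p) = Polynomial.aeval u p) :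
    eval₂ φ v (s58g_poly E) = (E.baseChange A).toAffine.polynomial.evalEval u v := by
  have h1 : φ.comp (algebraMap k[X] (RatFunc k)) =
      ((Polynomial.aeval u : k[X] →ₐ[k] A) : k[X] →+* A) :=
    RingHom.ext fun p => by rw [RingHom.comp_apply, hφ]; rfl
  rw [s58g_poly, Polynomial.eval₂_map, h1, s58g_eval₂_aeval, WeierstrassCurve.baseChange,
    WeierstrassCurve.Affine.map_polynomial]

/-- `(u, v)` is on the curve iff `v` is a root of the Weierstrass polynomial along `φ`. -/
theorem s58g_equation_iff {A : Type*} [CommRing A] [Algebra k A] (φ : RatFunc k →+* A) (u v : A)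
    (hφ : ∀ p : k[X], φ (algebraMap k[X] (RatFunc k) p) = Polynomial.aeval u p) :
    (E.baseChange A).toAffine.Equation u v ↔ eval₂ φ v (s58g_poly E) = 0 := by
  rw [s58g_eval₂_poly E φ u v hφ, WeierstrassCurve.Affine.Equation]

/-- the Weierstrass polynomial along `algebraMap k(X) L`, in explicit form. -/
theorem s58g_eval₂_explicit (z : s58g_L E) :
    eval₂ (algebraMap (RatFunc k) (s58g_L E)) z (s58g_poly E) =
      z ^ 2 + algebraMap k _ E.a₁ * s58g_x E * z + algebraMap k _ E.a₃ * z -
        (s58g_x E ^ 3 + algebraMap k _ E.a₂ * s58g_x E ^ 2 + algebraMap k _ E.a₄ * s58g_x E +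
          algebraMap k _ E.a₆) := by
  rw [s58g_eval₂_poly E _ (s58g_x E) z (s58g_algebraMap_poly E),
    WeierstrassCurve.Affine.evalEval_polynomial]
  simp

/-- the generic point is on the curve. -/
theorem s58g_equation : (E.baseChange (s58g_L E)).toAffine.Equation (s58g_x E) (s58g_y E) := by
  rw [s58g_equation_iff E (algebraMap (RatFunc k) (s58g_L E)) _ _ (s58g_algebraMap_poly E),
    AdjoinRoot.algebraMap_eq]
  exact AdjoinRoot.eval₂_root (s58g_poly E)

/-- the Weierstrass equation of the generic point, explicitly. -/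
theorem s58g_weierstrass :
    s58g_y E ^ 2 + algebraMap k _ E.a₁ * s58g_x E * s58g_y E + algebraMap k _ E.a₃ * s58g_y E =
      s58g_x E ^ 3 + algebraMap k _ E.a₂ * s58g_x E ^ 2 + algebraMap k _ E.a₄ * s58g_x E +
        algebraMap k _ E.a₆ := by
  have h := (WeierstrassCurve.Affine.equation_iff _ _).mp (s58g_equation E)
  simpa using h

/-- the generic point is nonsingular (on an elliptic curve). -/
theorem s58g_nonsingular [E.IsElliptic] :
    (E.baseChange (s58g_L E)).toAffine.Nonsingular (s58g_x E) (s58g_y E) := by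
  have : (E.baseChange (s58g_L E)).IsElliptic :=
    inferInstanceAs ((E.map (algebraMap k (s58g_L E))).IsElliptic)
  exact WeierstrassCurve.Affine.equation_iff_nonsingular.mp (s58g_equation E)

/-- **the generic point** `P₀ = (x, y)`. -/
noncomputable def s58g_P0 [E.IsElliptic] [DecidableEq (s58g_L E)] : (E.toAffine⁄(s58g_L E)).Point :=
  Point.some _ _ (s58g_nonsingular E)

theorem s58g_P0_def [E.IsElliptic] [DecidableEq (s58g_L E)] :
    s58g_P0 E = Point.some _ _ (s58g_nonsingular E) := rfl

theorem s58g_P0_ne_zero [E.IsElliptic] [DecidableEq (s58g_L E)] : s58g_P0 E ≠ 0 :=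
  Point.some_ne_zero _

/-! ### The basis `1, y` of `L` over `k(X)` -/

/-- every element of `L` is `u + v·y`. -/
theorem s58g_exists_repr (z : s58g_L E) :
    ∃ u v : RatFunc k, z = algebraMap _ _ u + algebraMap _ _ v * s58g_y E := by
  obtain ⟨p, rfl⟩ := AdjoinRoot.mk_surjective z
  have hm := s58g_poly_monic E
  have hne : s58g_poly E ≠ 1 := by
    intro h
    have := s58g_poly_natDegree E
    rw [h] at this
    simp at this
  have hdeg : (p %ₘ s58g_poly E).natDegree ≤ 1 := by
    have := natDegree_modByMonic_lt p hm hne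
    rw [s58g_poly_natDegree E] at this
    omega
  refine ⟨(p %ₘ s58g_poly E).coeff 0, (p %ₘ s58g_poly E).coeff 1, ?_⟩
  have h1 : AdjoinRoot.mk (s58g_poly E) p = AdjoinRoot.mk (s58g_poly E) (p %ₘ s58g_poly E) := by
    conv_lhs => rw [← Polynomial.modByMonic_add_div p (s58g_poly E)]
    rw [map_add, map_mul, AdjoinRoot.mk_self, zero_mul, add_zero]
  rw [h1]
  conv_lhs => rw [Polynomial.eq_X_add_C_of_natDegree_le_one hdeg]
  rw [map_add, map_mul, AdjoinRoot.mk_C, AdjoinRoot.mk_C, AdjoinRoot.mk_X, s58g_y,
    AdjoinRoot.algebraMap_eq]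
  ring

/-- `1, y` are linearly independent over `k(X)`. -/
theorem s58g_repr_eq_zero {u v : RatFunc k}
    (h : algebraMap (RatFunc k) (s58g_L E) u + algebraMap _ _ v * s58g_y E = 0) :
    u = 0 ∧ v = 0 := by
  have h1 : AdjoinRoot.mk (s58g_poly E) (C u + C v * X) = 0 := by
    rw [map_add, map_mul, AdjoinRoot.mk_C, AdjoinRoot.mk_C, AdjoinRoot.mk_X, ← h, s58g_y,
      AdjoinRoot.algebraMap_eq]
  rw [AdjoinRoot.mk_eq_zero] at h1
  have h2 : (C u + C v * X : (RatFunc k)[X]) = 0 := by
    by_contra hne
    have h3 := Polynomial.natDegree_le_of_dvd h1 hne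
    rw [s58g_poly_natDegree E] at h3
    have h4 : (C u + C v * X : (RatFunc k)[X]).natDegree ≤ 1 := by
      rw [add_comm]
      exact Polynomial.natDegree_linear_le
    omega
  have c0 := congrArg (fun p => Polynomial.coeff p 0) h2
  have c1 := congrArg (fun p => Polynomial.coeff p 1) h2
  simp at c0 c1
  exact ⟨c0, c1⟩

theorem s58g_repr_unique {u v u' v' : RatFunc k}
    (h : algebraMap (RatFunc k) (s58g_L E) u + algebraMap _ _ v * s58g_y E =
      algebraMap _ _ u' + algebraMap _ _ v' * s58g_y E) : u = u' ∧ v = v' := by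
  have h1 : algebraMap (RatFunc k) (s58g_L E) (u - u') + algebraMap _ _ (v - v') * s58g_y E = 0 := by
    rw [map_sub, map_sub]
    linear_combination h
  obtain ⟨a, b⟩ := s58g_repr_eq_zero E h1
  exact ⟨sub_eq_zero.mp a, sub_eq_zero.mp b⟩

/-- `y ∉ k(X)`. -/
theorem s58g_y_not_mem (u : RatFunc k) : s58g_y E ≠ algebraMap _ _ u := by
  intro h
  have h1 : algebraMap (RatFunc k) (s58g_L E) (-u) +
      algebraMap (RatFunc k) (s58g_L E) 1 * s58g_y E = 0 := by
    rw [map_neg, map_one, h]; ring
  exact one_ne_zero (s58g_repr_eq_zero E h1).2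

/-! ### The conjugation -/

/-- the conjugate of `y`. -/
noncomputable def s58g_ybar : s58g_L E :=
  -s58g_y E - algebraMap k _ E.a₁ * s58g_x E - algebraMap k _ E.a₃

theorem s58g_ybar_root :
    eval₂ (algebraMap (RatFunc k) (s58g_L E)) (s58g_ybar E) (s58g_poly E) = 0 := by
  rw [s58g_eval₂_explicit, s58g_ybar]
  linear_combination s58g_weierstrass E

theorem s58g_ybar_root' :
    eval₂ ((Algebra.ofId (RatFunc k) (s58g_L E) : RatFunc k →ₐ[RatFunc k] s58g_L E) :
      RatFunc k →+* s58g_L E) (s58g_ybar E) (s58g_poly E) = 0 :=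
  s58g_ybar_root E

/-- the conjugation `y ↦ -y - a₁x - a₃` as an algebra endomorphism of `L` over `k(X)`. -/
noncomputable def s58g_conjHom : s58g_L E →ₐ[RatFunc k] s58g_L E :=
  AdjoinRoot.liftAlgHom (s58g_poly E) (Algebra.ofId (RatFunc k) (s58g_L E)) (s58g_ybar E)
    (s58g_ybar_root' E)

theorem s58g_conjHom_y : s58g_conjHom E (s58g_y E) = s58g_ybar E := by
  rw [s58g_conjHom, s58g_y, AdjoinRoot.liftAlgHom_root]

theorem s58g_conjHom_x : s58g_conjHom E (s58g_x E) = s58g_x E := by
  rw [s58g_x, AlgHom.commutes]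

theorem s58g_conjHom_const (a : k) :
    s58g_conjHom E (algebraMap k (s58g_L E) a) = algebraMap k (s58g_L E) a := by
  rw [IsScalarTower.algebraMap_apply k (RatFunc k) (s58g_L E), AlgHom.commutes]

theorem s58g_conjHom_ybar : s58g_conjHom E (s58g_ybar E) = s58g_y E := by
  rw [s58g_ybar, map_sub, map_sub, map_neg, map_mul, s58g_conjHom_y, s58g_conjHom_x,
    s58g_conjHom_const, s58g_conjHom_const, s58g_ybar]
  ring

theorem s58g_conjHom_conjHom (z : s58g_L E) : s58g_conjHom E (s58g_conjHom E z) = z := by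
  have h : (s58g_conjHom E).comp (s58g_conjHom E) = AlgHom.id _ _ := by
    apply AdjoinRoot.algHom_ext
    rw [AlgHom.comp_apply, AlgHom.id_apply]
    show s58g_conjHom E (s58g_conjHom E (s58g_y E)) = s58g_y E
    rw [s58g_conjHom_y, s58g_conjHom_ybar]
  exact DFunLike.congr_fun h z

/-- **the conjugation** of `L` over `k(X)`. -/
noncomputable def s58g_conj : s58g_L E ≃ₐ[RatFunc k] s58g_L E :=
  AlgEquiv.ofAlgHom (s58g_conjHom E) (s58g_conjHom E)
    (AlgHom.ext (s58g_conjHom_conjHom E)) (AlgHom.ext (s58g_conjHom_conjHom E))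

theorem s58g_conj_apply (z : s58g_L E) : s58g_conj E z = s58g_conjHom E z := rfl

theorem s58g_conj_y : s58g_conj E (s58g_y E) = s58g_ybar E := s58g_conjHom_y E

theorem s58g_conj_x : s58g_conj E (s58g_x E) = s58g_x E := s58g_conjHom_x E

theorem s58g_conj_conj (z : s58g_L E) : s58g_conj E (s58g_conj E z) = z :=
  s58g_conjHom_conjHom E z

theorem s58g_conj_repr (u v : RatFunc k) :
    s58g_conj E (algebraMap _ _ u + algebraMap _ _ v * s58g_y E) =
      algebraMap _ _ (u - v * (RatFunc.C E.a₁ * RatFunc.X + RatFunc.C E.a₃)) +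
        algebraMap _ _ (-v) * s58g_y E := by
  rw [map_add, map_mul, AlgEquiv.commutes, AlgEquiv.commutes, s58g_conj_y, s58g_ybar]
  simp only [map_sub, map_mul, map_add, map_neg, s58g_algebraMap_C, s58g_x]
  ring

/-- the conjugation as a `k`-algebra endomorphism (for `Point.map`). -/
noncomputable def s58g_conjK : s58g_L E →ₐ[k] s58g_L E :=
  (s58g_conj E).toAlgHom.restrictScalars k

theorem s58g_conjK_apply (z : s58g_L E) : s58g_conjK E z = s58g_conj E z := rfl

/-- in characteristic 2, `a₁ = a₃ = 0` forces `Δ = 0`. -/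
theorem s58g_Δ_eq_zero_of (h2 : (2 : k) = 0) (h1 : E.a₁ = 0) (h3 : E.a₃ = 0) : E.Δ = 0 := by
  simp only [WeierstrassCurve.Δ, WeierstrassCurve.b₂, WeierstrassCurve.b₄, WeierstrassCurve.b₆,
    WeierstrassCurve.b₈, h1, h3]
  linear_combination (-(4 * E.a₂) ^ 2 * (2 * E.a₂ * E.a₆) + 8 * E.a₂ ^ 2 * E.a₄ ^ 2 -
    32 * E.a₄ ^ 3 - 216 * E.a₆ ^ 2 + 144 * E.a₂ * E.a₄ * E.a₆) * h2

/-- **the fixed field of the conjugation is `k(X)`.** -/
theorem s58g_conj_eq_self_iff [E.IsElliptic] (z : s58g_L E) :
    s58g_conj E z = z ↔ ∃ u : RatFunc k, z = algebraMap _ _ u := by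
  constructor
  · intro h
    obtain ⟨u, v, rfl⟩ := s58g_exists_repr E z
    rw [s58g_conj_repr] at h
    have h1 : algebraMap (RatFunc k) (s58g_L E)
        (u - v * (RatFunc.C E.a₁ * RatFunc.X + RatFunc.C E.a₃) - u) +
          algebraMap _ _ (-v - v) * s58g_y E = 0 := by
      rw [map_sub _ _ u, map_sub _ (-v) v]
      linear_combination h
    obtain ⟨e1, e2⟩ := s58g_repr_eq_zero E h1
    have hv : v = 0 := by
      by_contra hv
      have e1' : RatFunc.C E.a₁ * RatFunc.X + RatFunc.C E.a₃ = 0 := by
        have : v * (RatFunc.C E.a₁ * RatFunc.X + RatFunc.C E.a₃) = 0 := by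
          linear_combination -e1
        exact (mul_eq_zero.mp this).resolve_left hv
      have e2' : (2 : RatFunc k) = 0 := by
        have : v * 2 = 0 := by linear_combination -e2
        exact (mul_eq_zero.mp this).resolve_left hv
      have h2 : (2 : k) = 0 := by
        have : RatFunc.C (2 : k) = 0 := by rw [map_ofNat]; exact e2'
        exact (map_eq_zero _).mp this
      have hp : (C E.a₁ * X + C E.a₃ : k[X]) = 0 := by
        apply RatFunc.algebraMap_injective k
        rw [map_add, map_mul, RatFunc.algebraMap_C, RatFunc.algebraMap_C, RatFunc.algebraMap_X,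
          map_zero]
        exact e1'
      have c0 := congrArg (fun p => Polynomial.coeff p 0) hp
      have c1 := congrArg (fun p => Polynomial.coeff p 1) hp
      simp at c0 c1
      exact E.isUnit_Δ.ne_zero (s58g_Δ_eq_zero_of E h2 c1 c0)
    exact ⟨u, by rw [hv]; simp⟩
  · rintro ⟨u, rfl⟩
    exact AlgEquiv.commutes _ _

end Fermat.Agent.Lib.S58
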