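/-
S58 wave, EC-FROB, leaf [FF](II) (helper4, prefix `s58l_`), ABSTRACT part: the subgroup `Λ` of
`E(L)` on which an involution-like `k`-algebra endomorphism `ι` of `L ⊇ k(x)` acts as `-1`, its
"x-coordinate" `ξ : Λ → RatFunc k`, and helper3's x-only laws `s58a_XLaws E ξ` (AHtMain.lean).

Frame: `E / k`, `L` a field which is a `RatFunc k`-algebra (tower `k → RatFunc k → L`),
`ι : L →ₐ[k] L` fixing `RatFunc k` with `hfix`: every `ι`-fixed element of `L` comes from
`RatFunc k`.  (Instance: `L = s58g_L E` the function field of `E`, `ι` the conjugation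
`y ↦ -y - a₁x - a₃`, helper6's `GFFrame.lean`.)
-/
import Mathlib
import Fermat.Agent.Lib.S58.AHtMain
import Fermat.Agent.Lib.S58.E1Gen
import Fermat.Agent.Lib.EN.PointAdd
import Fermat.Agent.Lib.Frey.Abstract

set_option autoImplicit false
set_option linter.unusedSectionVars false

namespace Fermat.Agent.Lib.S58

open WeierstrassCurve WeierstrassCurve.Affine Fermat.Agent.Lib.EN Fermat.Agent.Lib.Frey

variable {k : Type*} [Field k] (E : WeierstrassCurve k)
  {L : Type*} [Field L] [DecidableEq L] [Algebra k L] [Algebra (RatFunc k) L]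
  [IsScalarTower k (RatFunc k) L] (ι : L →ₐ[k] L)

/-- the forms `V`, `W` of the base-changed curve are those of `E`. -/
theorem s58l_ent_V_baseChange (x₁ x₂ : L) :
    ent_V (E.baseChange L) x₁ x₂ = ent_V E x₁ x₂ := by
  simp only [ent_V, Algebra.algebraMap_self_apply, WeierstrassCurve.baseChange, map_b₂, map_b₄,
    map_b₆]

theorem s58l_ent_W_baseChange (x₁ x₂ : L) :
    ent_W (E.baseChange L) x₁ x₂ = ent_W E x₁ x₂ := by
  simp only [ent_W, Algebra.algebraMap_self_apply, WeierstrassCurve.baseChange, map_b₄, map_b₆,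
    map_b₈]

/-- **the subgroup `Λ = {P | ι P = -P}`** of `E(L)`. -/
def s58l_Lam : AddSubgroup (E.toAffine⁄L).Point where
  carrier := {P | Point.map (W' := E.toAffine) ι P = -P}
  zero_mem' := by
    show Point.map (W' := E.toAffine) ι 0 = -0
    rw [map_zero, neg_zero]
  add_mem' := by
    intro P Q hP hQ
    show Point.map (W' := E.toAffine) ι (P + Q) = -(P + Q)
    rw [map_add, (hP : Point.map (W' := E.toAffine) ι P = -P),
      (hQ : Point.map (W' := E.toAffine) ι Q = -Q), neg_add]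
  neg_mem' := by
    intro P hP
    show Point.map (W' := E.toAffine) ι (-P) = -(-P)
    rw [map_neg, (hP : Point.map (W' := E.toAffine) ι P = -P)]

theorem s58l_mem_Lam (P : (E.toAffine⁄L).Point) :
    P ∈ s58l_Lam E ι ↔ Point.map (W' := E.toAffine) ι P = -P := Iff.rfl

/-- affine points of `Λ`: `ι x = x` and `ι y = negY x y`. -/
theorem s58l_some_mem_Lam {x y : L} (h : (E.toAffine⁄L).Nonsingular x y) :
    Point.some x y h ∈ s58l_Lam E ι ↔ ι x = x ∧ ι y = (E.toAffine⁄L).negY x y := by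
  rw [s58l_mem_Lam, Point.map_some, Point.neg_some, Point.some.injEq]

/-- the abscissa of a point of `Λ` is fixed by `ι`. -/
theorem s58l_X_fixed {P : (E.toAffine⁄L).Point} (hP : P ∈ s58l_Lam E ι) :
    ι (fe1_X P) = fe1_X P := by
  rcases P with _ | ⟨x, y, h⟩
  · exact map_zero ι
  · exact ((s58l_some_mem_Lam E ι h).mp hP).1

variable (hfix : ∀ z : L, ι z = z → ∃ r : RatFunc k, algebraMap (RatFunc k) L r = z)

/-- **the x-coordinate `ξ : Λ → RatFunc k`.** -/
noncomputable def s58l_xi (P : ↥(s58l_Lam E ι)) : RatFunc k :=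
  Classical.choose (hfix (fe1_X P.1) (s58l_X_fixed E ι P.2))

theorem s58l_xi_spec (P : ↥(s58l_Lam E ι)) :
    algebraMap (RatFunc k) L (s58l_xi E ι hfix P) = fe1_X P.1 :=
  Classical.choose_spec (hfix (fe1_X P.1) (s58l_X_fixed E ι P.2))

theorem s58l_alg_injective : Function.Injective (algebraMap (RatFunc k) L) :=
  (algebraMap (RatFunc k) L).injective

/-- a non-zero point of `Λ` has abscissa `ξ P`. -/
theorem s58l_hasX {P : ↥(s58l_Lam E ι)} (hP : P ≠ 0) :
    ent_HasX (E.baseChange L) P.1 (algebraMap (RatFunc k) L (s58l_xi E ι hfix P)) := by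
  rw [s58l_xi_spec]
  have hP' : P.1 ≠ 0 := fun h => hP (Subtype.ext h)
  obtain ⟨x, y, h, e⟩ := fe1_exists_some hP'
  rw [e]
  exact ⟨y, h, rfl⟩

/-- the abscissa determines `ξ`. -/
theorem s58l_xi_of_hasX {P : ↥(s58l_Lam E ι)} {r : RatFunc k}
    (h : ent_HasX (E.baseChange L) P.1 (algebraMap (RatFunc k) L r)) :
    s58l_xi E ι hfix P = r := by
  apply s58l_alg_injective (k := k) (L := L)
  rw [s58l_xi_spec]
  exact s58e_X_of_hasX (E.baseChange L) h

theorem s58l_xi_of_hasX' {P : ↥(s58l_Lam E ι)} {z : L}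
    (h : ent_HasX (E.baseChange L) P.1 z) :
    algebraMap (RatFunc k) L (s58l_xi E ι hfix P) = z := by
  rw [s58l_xi_spec]
  exact s58e_X_of_hasX (E.baseChange L) h

theorem s58l_ne_zero_of_hasX {P : ↥(s58l_Lam E ι)} {z : L}
    (h : ent_HasX (E.baseChange L) P.1 z) : P ≠ 0 := by
  intro h0
  rw [h0] at h
  exact h.ne_zero rfl

/-- **helper3's x-only laws for `(Λ, ξ)`.** -/
theorem s58l_xLaws : s58a_XLaws E (s58l_xi E ι hfix) := by
  have hinj := s58l_alg_injective (k := k) (L := L)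
  let f : RatFunc k →ₐ[k] L := IsScalarTower.toAlgHom k (RatFunc k) L
  have eV : ∀ r₁ r₂ : RatFunc k, algebraMap (RatFunc k) L (ent_V E r₁ r₂) =
      ent_V (E.baseChange L) (algebraMap (RatFunc k) L r₁) (algebraMap (RatFunc k) L r₂) := by
    intro r₁ r₂
    rw [s58l_ent_V_baseChange]
    exact s58a_map_ent_V E f r₁ r₂
  have eW : ∀ r₁ r₂ : RatFunc k, algebraMap (RatFunc k) L (ent_W E r₁ r₂) =
      ent_W (E.baseChange L) (algebraMap (RatFunc k) L r₁) (algebraMap (RatFunc k) L r₂) := by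
    intro r₁ r₂
    rw [s58l_ent_W_baseChange]
    exact s58a_map_ent_W E f r₁ r₂
  refine ⟨?_, ?_, ?_, ?_, ?_⟩
  · -- neg
    intro P
    apply hinj
    rw [s58l_xi_spec, s58l_xi_spec]
    show fe1_X (-P.1) = fe1_X P.1
    exact fe1_X_neg P.1
  · -- addsub
    intro P Q hP hQ hne
    have h₁ := s58l_hasX E ι hfix hP
    have h₂ := s58l_hasX E ι hfix hQ
    have hx : algebraMap (RatFunc k) L (s58l_xi E ι hfix P) ≠
        algebraMap (RatFunc k) L (s58l_xi E ι hfix Q) := fun h => hne (hinj h)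
    obtain ⟨ξ₃, ξ₄, h₃, h₄, hV, hW⟩ := ent_addsub_X h₁ h₂ hx
    have h₃' : ent_HasX (E.baseChange L) (P + Q).1 ξ₃ := h₃
    have h₄' : ent_HasX (E.baseChange L) (P - Q).1 ξ₄ := h₄
    have e₃ := s58l_xi_of_hasX' E ι hfix h₃'
    have e₄ := s58l_xi_of_hasX' E ι hfix h₄'
    refine ⟨s58l_ne_zero_of_hasX E ι h₃', s58l_ne_zero_of_hasX E ι h₄', ?_, ?_⟩
    · apply hinj
      rw [eV, ← hV, ← e₃, ← e₄]
      simp only [map_mul, map_add, map_sub, map_pow]
    · apply hinj
      rw [eW, ← hW, ← e₃, ← e₄]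
      simp only [map_mul, map_sub, map_pow]
  · -- eq_or
    intro P Q hP hQ he
    have h₁ := s58l_hasX E ι hfix hP
    have h₂ := s58l_hasX E ι hfix hQ
    rw [he] at h₁
    rcases h₁.eq_or_eq_neg h₂ with h | h
    · exact Or.inl (Subtype.ext h)
    · exact Or.inr (Subtype.ext h)
  · -- dup
    intro P hP hV
    have h₁ := s58l_hasX E ι hfix hP
    have hV' : ent_V (E.baseChange L) (algebraMap (RatFunc k) L (s58l_xi E ι hfix P))
        (algebraMap (RatFunc k) L (s58l_xi E ι hfix P)) ≠ 0 := by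
      rw [← eV]
      exact fun h => hV (hinj (by rw [h, map_zero]))
    obtain ⟨ξ₃, h₃, hd⟩ := ent_dup_X h₁ hV'
    have h₃' : ent_HasX (E.baseChange L) (P + P).1 ξ₃ := h₃
    have e₃ := s58l_xi_of_hasX' E ι hfix h₃'
    refine ⟨s58l_ne_zero_of_hasX E ι h₃', ?_⟩
    apply hinj
    rw [eW, ← hd, ← e₃, map_mul, eV]
  · -- dup0
    intro P hP hV
    have h₁ := s58l_hasX E ι hfix hP
    obtain ⟨y, hy, e⟩ := h₁
    have hV' : ent_V (E.baseChange L) (algebraMap (RatFunc k) L (s58l_xi E ι hfix P))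
        (algebraMap (RatFunc k) L (s58l_xi E ι hfix P)) = 0 := by
      rw [← eV, hV, map_zero]
    have Eq := ent_eqn hy
    have hη2 : (y - (E.baseChange L).toAffine.negY
        (algebraMap (RatFunc k) L (s58l_xi E ι hfix P)) y) ^ 2 = 0 := by
      rw [← hV']
      simp only [ent_V, Algebra.algebraMap_self_apply, WeierstrassCurve.b₂, WeierstrassCurve.b₄,
        WeierstrassCurve.b₆, Affine.negY]
      linear_combination 4 * Eq
    have hyy : y = (E.baseChange L).toAffine.negY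
        (algebraMap (RatFunc k) L (s58l_xi E ι hfix P)) y :=
      sub_eq_zero.mp ((pow_eq_zero_iff (two_ne_zero)).mp hη2)
    apply Subtype.ext
    show P.1 + P.1 = 0
    rw [e]
    exact Point.add_self_of_Y_eq hyy

/-! ### The generic point -/

/-- a point `(alg r, y₀)` with `ι y₀ = negY` lies in `Λ`, and `ξ` of it is `r`. -/
theorem s58l_mk_mem {r : RatFunc k} {y₀ : L}
    (h : (E.toAffine⁄L).Nonsingular (algebraMap (RatFunc k) L r) y₀)
    (hιr : ι (algebraMap (RatFunc k) L r) = algebraMap (RatFunc k) L r)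
    (hιy : ι y₀ = (E.toAffine⁄L).negY (algebraMap (RatFunc k) L r) y₀) :
    Point.some _ _ h ∈ s58l_Lam E ι :=
  (s58l_some_mem_Lam E ι h).mpr ⟨hιr, hιy⟩

theorem s58l_xi_mk {r : RatFunc k} {y₀ : L}
    (h : (E.toAffine⁄L).Nonsingular (algebraMap (RatFunc k) L r) y₀)
    (hmem : Point.some _ _ h ∈ s58l_Lam E ι) :
    s58l_xi E ι hfix ⟨Point.some _ _ h, hmem⟩ = r :=
  s58l_xi_of_hasX E ι hfix ⟨y₀, h, rfl⟩

/-! ### Frobenius-like endomorphisms on `Λ` -/

section frob

variable (φ : L →+* L) (hφE : (E.baseChange L).map φ = E.baseChange L)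
  (hφι : ∀ z : L, ι (φ z) = φ (ι z))

include hφι in
/-- `Λ` is stable under the coordinatewise action of a ring endomorphism `φ` of `L` fixing the
coefficients of `E` and commuting with `ι`. -/
theorem s58l_sigma_mem {P : (E.toAffine⁄L).Point} (hP : P ∈ s58l_Lam E ι) :
    fab_sigma φ (E.baseChange L) hφE P ∈ s58l_Lam E ι := by
  rcases P with _ | ⟨x, y, h⟩
  · show fab_sigma φ (E.baseChange L) hφE 0 ∈ s58l_Lam E ι
    rw [map_zero]
    exact (s58l_Lam E ι).zero_mem
  · obtain ⟨hx, hy⟩ := (s58l_some_mem_Lam E ι h).mp hP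
    rw [fab_sigma_some, s58l_some_mem_Lam]
    have ha₁ : φ (E.baseChange L).a₁ = (E.baseChange L).a₁ := by
      have := congrArg WeierstrassCurve.a₁ hφE
      simpa using this
    have ha₃ : φ (E.baseChange L).a₃ = (E.baseChange L).a₃ := by
      have := congrArg WeierstrassCurve.a₃ hφE
      simpa using this
    refine ⟨by rw [hφι, hx], ?_⟩
    rw [hφι, hy]
    simp only [Affine.negY, map_sub, map_neg, map_mul]
    rw [ha₁, ha₃]

/-- the restriction of `φ` to `Λ`. -/
noncomputable def s58l_Fr : ↥(s58l_Lam E ι) →+ ↥(s58l_Lam E ι) :=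
  AddMonoidHom.codRestrict
    ((fab_sigma φ (E.baseChange L) hφE).comp (s58l_Lam E ι).subtype) (s58l_Lam E ι)
    (fun P => s58l_sigma_mem E ι φ hφE hφι P.2)

theorem s58l_Fr_coe (P : ↥(s58l_Lam E ι)) :
    (s58l_Fr E ι φ hφE hφι P).1 = fab_sigma φ (E.baseChange L) hφE P.1 := rfl

theorem s58l_Fr_ne {P : ↥(s58l_Lam E ι)} (hP : P ≠ 0) : s58l_Fr E ι φ hφE hφι P ≠ 0 := by
  have hP' : P.1 ≠ 0 := fun h => hP (Subtype.ext h)
  obtain ⟨x, y, h, e⟩ := fe1_exists_some hP'
  intro h0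
  have := congrArg Subtype.val h0
  rw [s58l_Fr_coe, e, fab_sigma_some] at this
  exact Point.some_ne_zero _ this

/-- `ξ (Fr P) = ψ (ξ P)` when `φ` restricts to `ψ` on `RatFunc k`. -/
theorem s58l_xi_Fr (ψ : RatFunc k → RatFunc k)
    (hφK : ∀ r : RatFunc k, φ (algebraMap (RatFunc k) L r) = algebraMap (RatFunc k) L (ψ r))
    {P : ↥(s58l_Lam E ι)} (hP : P ≠ 0) :
    s58l_xi E ι hfix (s58l_Fr E ι φ hφE hφι P) = ψ (s58l_xi E ι hfix P) := by
  obtain ⟨y, hy, e⟩ := s58l_hasX E ι hfix hP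
  apply s58l_xi_of_hasX
  show ent_HasX (E.baseChange L) (fab_sigma φ (E.baseChange L) hφE P.1) _
  rw [e, fab_sigma_some, ← hφK]
  exact ⟨_, _, rfl⟩

end frob

end Fermat.Agent.Lib.S58
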