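/-
S58 wave, EC-FROB, leaf [FF](II) (helper4, prefix `s58l_`), INSTANCE: the abstract `(Λ, ξ)` of
`LLambda.lean` for helper6's function field frame `GFFrame.lean` (`L = s58g_L E`, `ι = s58g_conjK E`,
the conjugation `y ↦ -y - a₁x - a₃`, fixed field `k(X)`).  Deliverables for [EC-TOP]
(`s58a_main`, AHtMain.lean): `G := ↥(s58l_LamFF E)`, `ξ := s58l_xiFF E`, `s58l_xLawsFF`,
the generic point `s58l_P0` (`ξ P₀ = X`), and the restriction `s58l_FrFF` to `Λ` of
`fab_sigma φ` for every ring endomorphism `φ` of `L` with `φ z = z ^ ℓ` fixing the coefficients of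
`E` (`Fr P ≠ 0`, `ξ (Fr P) = ξ P ^ ℓ`).
-/
import Mathlib
import Fermat.Agent.Lib.S58.LLambda
import Fermat.Agent.Lib.S58.GFFrame

set_option autoImplicit false
set_option linter.unusedSectionVars false

namespace Fermat.Agent.Lib.S58

open WeierstrassCurve WeierstrassCurve.Affine Fermat.Agent.Lib.EN Fermat.Agent.Lib.Frey

variable {k : Type*} [Field k] (E : WeierstrassCurve k) [E.IsElliptic]
  [DecidableEq (s58g_L E)]

/-- the fixed field of the conjugation is `k(X)` (shape of `LLambda.lean`). -/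
theorem s58l_ff_fix (z : s58g_L E) (h : s58g_conjK E z = z) :
    ∃ r : RatFunc k, algebraMap (RatFunc k) (s58g_L E) r = z := by
  obtain ⟨u, hu⟩ := (s58g_conj_eq_self_iff E z).mp h
  exact ⟨u, hu.symm⟩

/-- `Λ ⊆ E(L)` for the function field `L` of `E`. -/
noncomputable abbrev s58l_LamFF : AddSubgroup (E.toAffine⁄(s58g_L E)).Point :=
  s58l_Lam E (s58g_conjK E)

/-- `ξ : Λ → k(X)`. -/
noncomputable def s58l_xiFF : ↥(s58l_LamFF E) → RatFunc k :=
  s58l_xi E (s58g_conjK E) (s58l_ff_fix E)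

/-- **the x-only laws for the function field.** -/
theorem s58l_xLawsFF : s58a_XLaws E (s58l_xiFF E) :=
  s58l_xLaws E (s58g_conjK E) (s58l_ff_fix E)

/-- non-zero points of `Λ`: abscissa `= ξ P ∈ k(X)`. -/
theorem s58l_hasXFF {P : ↥(s58l_LamFF E)} (hP : P ≠ 0) :
    ent_HasX (E.baseChange (s58g_L E)) P.1
      (algebraMap (RatFunc k) (s58g_L E) (s58l_xiFF E P)) :=
  s58l_hasX E (s58g_conjK E) (s58l_ff_fix E) hP

theorem s58l_xiFF_of_hasX {P : ↥(s58l_LamFF E)} {r : RatFunc k}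
    (h : ent_HasX (E.baseChange (s58g_L E)) P.1 (algebraMap (RatFunc k) (s58g_L E) r)) :
    s58l_xiFF E P = r :=
  s58l_xi_of_hasX E (s58g_conjK E) (s58l_ff_fix E) h

/-! ### The generic point -/

theorem s58l_P0_mem : s58g_P0 E ∈ s58l_LamFF E := by
  rw [s58g_P0_def, s58l_some_mem_Lam]
  refine ⟨?_, ?_⟩
  · rw [s58g_conjK_apply, s58g_conj_x]
  · rw [s58g_conjK_apply, s58g_conj_y, s58g_ybar]
    simp only [Affine.negY, WeierstrassCurve.baseChange, map_a₁, map_a₃]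

/-- the generic point as an element of `Λ`. -/
noncomputable def s58l_P0 : ↥(s58l_LamFF E) := ⟨s58g_P0 E, s58l_P0_mem E⟩

theorem s58l_P0_coe : (s58l_P0 E).1 = s58g_P0 E := rfl

theorem s58l_P0_ne : s58l_P0 E ≠ 0 := by
  intro h
  exact s58g_P0_ne_zero E (congrArg Subtype.val h)

theorem s58l_xi_P0 : s58l_xiFF E (s58l_P0 E) = RatFunc.X := by
  apply s58l_xiFF_of_hasX
  exact ⟨s58g_y E, s58g_nonsingular E, rfl⟩

/-! ### The `ℓ`-power Frobenius on `Λ` -/

section frob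

variable {ℓ : ℕ} (φ : s58g_L E →+* s58g_L E) (hφ : ∀ z, φ z = z ^ ℓ)
  (hφE : (E.baseChange (s58g_L E)).map φ = E.baseChange (s58g_L E))

include hφ in
theorem s58l_frob_comm (z : s58g_L E) : s58g_conjK E (φ z) = φ (s58g_conjK E z) := by
  rw [hφ, hφ, map_pow]

/-- the restriction to `Λ` of the coordinatewise `ℓ`-power map. -/
noncomputable def s58l_FrFF : ↥(s58l_LamFF E) →+ ↥(s58l_LamFF E) :=
  s58l_Fr E (s58g_conjK E) φ hφE (s58l_frob_comm E φ hφ)

theorem s58l_FrFF_coe (P : ↥(s58l_LamFF E)) :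
    (s58l_FrFF E φ hφ hφE P).1 = fab_sigma φ (E.baseChange (s58g_L E)) hφE P.1 := rfl

theorem s58l_FrFF_ne {P : ↥(s58l_LamFF E)} (hP : P ≠ 0) : s58l_FrFF E φ hφ hφE P ≠ 0 :=
  s58l_Fr_ne E (s58g_conjK E) φ hφE (s58l_frob_comm E φ hφ) hP

theorem s58l_xi_FrFF {P : ↥(s58l_LamFF E)} (hP : P ≠ 0) :
    s58l_xiFF E (s58l_FrFF E φ hφ hφE P) = s58l_xiFF E P ^ ℓ :=
  s58l_xi_Fr E (s58g_conjK E) (s58l_ff_fix E) φ hφE (s58l_frob_comm E φ hφ) (fun r => r ^ ℓ)
    (fun r => by rw [hφ, map_pow]) hP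

end frob

end Fermat.Agent.Lib.S58
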