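/-
S58 wave, EC-FROB, leaf [FF] (helper9): the COMPOSITION IDENTITY (`hcomp` and `hR` of helper3's
`s58a_main2`) for the function field frame (helper6's `GFFrame`/`GFFSubst`, helper4's `LLambdaFF`):
for `Q = P₀ + Fr P₀` non-zero with non-constant abscissa `s = ξ Q`, the substitution hom
`σ_Q : (x, y) ↦ Q` maps `Q` to `Q + Fr Q = P₀ + Fr P₀ + (Fr P₀ + Fr (Fr P₀))`, whose abscissa is
therefore `s ∘ s`.
-/
import Mathlib
import Fermat.Agent.Lib.S58.LLambdaFF
import Fermat.Agent.Lib.S58.GFFSubst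
import Fermat.Agent.Lib.S58.AHtMain2

set_option autoImplicit false
set_option linter.unusedSectionVars false

namespace Fermat.Agent.Lib.S58

open Polynomial WeierstrassCurve WeierstrassCurve.Affine Fermat.Agent.Lib.EN Fermat.Agent.Lib.Frey

variable {k : Type*} [Field k] (E : WeierstrassCurve k) [E.IsElliptic]
  [DecidableEq (s58g_L E)]

/-- (S5) substituting `x ↦ algebraMap s` (`s ∈ k(X)` non-constant) acts on `k(X) ⊆ L` as
`r ↦ r ∘ s`. -/
theorem s58f_subst_comp (s : RatFunc k) (hs : ¬ ∃ c, s = RatFunc.C c) (v : s58g_L E)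
    (hu : Transcendental k (algebraMap (RatFunc k) (s58g_L E) s))
    (he : (E.baseChange (s58g_L E)).toAffine.Equation (algebraMap (RatFunc k) (s58g_L E) s) v)
    (r : RatFunc k) :
    s58g_subst E (algebraMap (RatFunc k) (s58g_L E) s) v hu he
        (algebraMap (RatFunc k) (s58g_L E) r) =
      algebraMap (RatFunc k) (s58g_L E) (s58a_comp s hs r) := by
  rw [s58g_subst_ratFunc, s58a_comp_div, map_div₀, Polynomial.aeval_algebraMap_apply,
    Polynomial.aeval_algebraMap_apply]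

/-- non-constant elements of `k(X)` are transcendental in `L`. -/
theorem s58f_transcendental_algebraMap (s : RatFunc k) (hs : ¬ ∃ c, s = RatFunc.C c) :
    Transcendental k (algebraMap (RatFunc k) (s58g_L E) s) := by
  rw [transcendental_algebraMap_iff (s58g_algebraMap_injective E)]
  exact RatFunc.transcendental_of_ne_C s hs

section frob

variable {ℓ : ℕ} (φ : s58g_L E →+* s58g_L E) (hφ : ∀ z, φ z = z ^ ℓ)
  (hφE : (E.baseChange (s58g_L E)).map φ = E.baseChange (s58g_L E))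

/-- **the composition identity**, in the literal shape of the `hcomp` argument of
`s58a_main2`. -/
theorem s58f_hcomp :
    ∀ hs : ¬ ∃ c, s58l_xiFF E (s58l_P0 E + s58l_FrFF E φ hφ hφE (s58l_P0 E)) = RatFunc.C c,
      s58l_P0 E + s58l_FrFF E φ hφ hφE (s58l_P0 E) ≠ 0 →
      s58l_P0 E + s58l_FrFF E φ hφ hφE (s58l_P0 E) +
          (s58l_FrFF E φ hφ hφE (s58l_P0 E) +
            s58l_FrFF E φ hφ hφE (s58l_FrFF E φ hφ hφE (s58l_P0 E))) ≠ 0 ∧
        s58l_xiFF E (s58l_P0 E + s58l_FrFF E φ hφ hφE (s58l_P0 E) +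
          (s58l_FrFF E φ hφ hφE (s58l_P0 E) +
            s58l_FrFF E φ hφ hφE (s58l_FrFF E φ hφ hφE (s58l_P0 E)))) =
          s58a_comp (s58l_xiFF E (s58l_P0 E + s58l_FrFF E φ hφ hφE (s58l_P0 E))) hs
            (s58l_xiFF E (s58l_P0 E + s58l_FrFF E φ hφ hφE (s58l_P0 E))) := by
  intro hs hQ0
  set Fr := s58l_FrFF E φ hφ hφE with hFr
  set P₀ := s58l_P0 E with hP₀
  set Q := P₀ + Fr P₀ with hQ
  set s := s58l_xiFF E Q with hsdef
  -- coordinates of `Q`
  obtain ⟨v, hv, hQv⟩ := s58l_hasXFF E hQ0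
  have hu := s58f_transcendental_algebraMap E s hs
  set u := algebraMap (RatFunc k) (s58g_L E) s with hudef
  set σ := s58g_subst E u v hu hv.1 with hσ
  set S := Point.map (W' := E.toAffine) σ with hS
  set FrL := fab_sigma φ (E.baseChange (s58g_L E)) hφE with hFrL
  -- `S P₀ = Q`
  have h1 : S (s58g_P0 E) = Q.1 := by
    rw [hQv]
    exact s58g_map_subst_P0 E u v hu hv.1 hv
  -- `S` commutes with `FrL`
  have h2 : ∀ P, S (FrL P) = FrL (S P) := fun P =>
    s58g_map_sigma E σ φ φ hφE hφE (fun a => by rw [hφ, hφ, map_pow]) P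
  -- `Q.1 = P₀.1 + FrL P₀.1`
  have h3 : Q.1 = s58g_P0 E + FrL (s58g_P0 E) := rfl
  -- `S Q = Q + Fr Q`
  have h4 : S Q.1 = (Q + Fr Q).1 := by
    conv_lhs => rw [h3]
    rw [map_add, h2, h1]
    rfl
  -- `S Q` is affine with abscissa `σ u`
  have h5 : S Q.1 = Point.some (σ u) (σ v)
      ((E.toAffine.baseChange_nonsingular σ.injective u v).mpr hv) := by
    rw [hQv]
    exact Point.map_some σ hv
  have h6 : Q + Fr Q = P₀ + Fr P₀ + (Fr P₀ + Fr (Fr P₀)) := by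
    rw [hQ, map_add]
  have h7 : σ u = algebraMap (RatFunc k) (s58g_L E) (s58a_comp s hs s) :=
    s58f_subst_comp E s hs v hu hv.1 s
  have h8 : ent_HasX (E.baseChange (s58g_L E)) (Q + Fr Q).1
      (algebraMap (RatFunc k) (s58g_L E) (s58a_comp s hs s)) := by
    rw [← h4, h5, ← h7]
    exact ⟨_, _, rfl⟩
  rw [← h6]
  refine ⟨?_, s58l_xiFF_of_hasX E h8⟩
  intro h0
  rw [h0] at h8
  exact h8.ne_zero rfl

/-- **the height theorem for the function field**: `s58a_main2` with all its inputs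
discharged. -/
theorem s58f_main [IsAlgClosed k] (hℓ : 2 ≤ ℓ) :
    ∃ t : ℤ, s58a_h (s58l_xiFF E) (s58l_P0 E + s58l_FrFF E φ hφ hφE (s58l_P0 E)) = 1 + ℓ + t ∧
      s58a_h (s58l_xiFF E) (s58l_P0 E - s58l_FrFF E φ hφ hφE (s58l_P0 E)) = 1 + ℓ - t ∧
      1 ≤ 1 + (ℓ : ℤ) - t ∧ 1 ≤ 1 + (ℓ : ℤ) + t ∧
      s58a_h (s58l_xiFF E) ((ℓ : ℤ) • s58l_P0 E + (-t) • s58l_FrFF E φ hφ hφE (s58l_P0 E) +
        (1 : ℤ) • s58l_FrFF E φ hφ hφE (s58l_FrFF E φ hφ hφE (s58l_P0 E))) = 0 :=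
  s58a_main2 E (s58l_xLawsFF E) hℓ (s58l_P0_ne E) (s58l_xi_P0 E) (s58l_FrFF E φ hφ hφE)
    (fun _ hP => s58l_FrFF_ne E φ hφ hφE hP) (fun _ hP => s58l_xi_FrFF E φ hφ hφE hP)
    (s58f_hcomp E φ hφ hφE)

end frob

end Fermat.Agent.Lib.S58
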