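/-
S58 wave, EC-FROB, leaf [FF] (helper6): INSTANTIATION lemmas for the Frobenius.  For an integral
model `W / ℤ`, a field `k` of characteristic `ℓ`, `E := W.map (Int.castRingHom k)` and its
function field `L = s58g_L E`: `CharP L ℓ`, the `ℓ`-power ring endomorphisms of `k` and `L`, the
stability of `E` and `E_L` under every ring endomorphism, compatibility with constants, and
ellipticity of `E` when `ℓ ∤ Δ(W)`.
-/
import Mathlib
import Fermat.Agent.Lib.S58.GFFrame

set_option autoImplicit false
set_option linter.unusedSectionVars false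

namespace Fermat.Agent.Lib.S58

open Polynomial WeierstrassCurve WeierstrassCurve.Affine

section charP

variable {k : Type*} [Field k] (E : WeierstrassCurve k) (ℓ : ℕ)

/-- the function field has the characteristic of `k`. -/
theorem s58g_charP [CharP k ℓ] : CharP (s58g_L E) ℓ :=
  charP_of_injective_algebraMap (algebraMap k (s58g_L E)).injective ℓ

/-- the `ℓ`-power endomorphism of a field of characteristic `ℓ`. -/
noncomputable def s58g_frob (F : Type*) [Field F] (hℓ : ℓ.Prime) [CharP F ℓ] : F →+* F :=
  haveI : Fact ℓ.Prime := ⟨hℓ⟩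
  frobenius F ℓ

theorem s58g_frob_apply (F : Type*) [Field F] (hℓ : ℓ.Prime) [CharP F ℓ] (a : F) :
    s58g_frob ℓ F hℓ a = a ^ ℓ := rfl

/-- `ℓ`-power maps are compatible with the constants. -/
theorem s58g_pow_const (φk : k →+* k) (hφk : ∀ a, φk a = a ^ ℓ)
    (φL : s58g_L E →+* s58g_L E) (hφL : ∀ a, φL a = a ^ ℓ) (a : k) :
    φL (algebraMap k (s58g_L E) a) = algebraMap k (s58g_L E) (φk a) := by
  rw [hφL, hφk, map_pow]

/-- the `ℓ`-power map of `L` restricts to the `ℓ`-power map of `k(X)`. -/
theorem s58g_pow_ratFunc (φL : s58g_L E →+* s58g_L E) (hφL : ∀ a, φL a = a ^ ℓ)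
    (r : RatFunc k) :
    φL (algebraMap (RatFunc k) (s58g_L E) r) = algebraMap (RatFunc k) (s58g_L E) (r ^ ℓ) := by
  rw [hφL, map_pow]

/-- the `ℓ`-power map commutes with the conjugation. -/
theorem s58g_pow_conj (φL : s58g_L E →+* s58g_L E) (hφL : ∀ a, φL a = a ^ ℓ) (z : s58g_L E) :
    s58g_conjK E (φL z) = φL (s58g_conjK E z) := by
  rw [hφL, hφL, map_pow]

end charP

section integral

variable (W : WeierstrassCurve ℤ) {k : Type*} [Field k]

/-- the base change to any `k`-algebra of the reduction of an integral model is the reduction of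
the integral model. -/
theorem s58g_baseChange_int (A : Type*) [CommRing A] [Algebra k A] :
    (W.map (Int.castRingHom k)).baseChange A = W.map (Int.castRingHom A) := by
  rw [WeierstrassCurve.baseChange, WeierstrassCurve.map_map]
  congr 1
  exact RingHom.ext_int _ _

/-- the base change of the reduction of an integral model is stable under every ring
endomorphism. -/
theorem s58g_baseChange_int_map (A : Type*) [CommRing A] [Algebra k A] (φ : A →+* A) :
    ((W.map (Int.castRingHom k)).baseChange A).map φ =
      (W.map (Int.castRingHom k)).baseChange A := by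
  rw [s58g_baseChange_int, WeierstrassCurve.map_map]
  congr 1
  exact RingHom.ext_int _ _

/-- the reduction of an integral model is stable under every ring endomorphism. -/
theorem s58g_int_map (φ : k →+* k) :
    (W.map (Int.castRingHom k)).map φ = W.map (Int.castRingHom k) := by
  rw [WeierstrassCurve.map_map]
  congr 1
  exact RingHom.ext_int _ _

/-- good reduction: `ℓ ∤ Δ(W)` makes the reduction elliptic. -/
theorem s58g_isElliptic_of_not_dvd (ℓ : ℕ) [CharP k ℓ] (h : ¬ (ℓ : ℤ) ∣ W.Δ) :
    (W.map (Int.castRingHom k)).IsElliptic := by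
  refine ⟨?_⟩
  rw [WeierstrassCurve.map_Δ, isUnit_iff_ne_zero, eq_intCast]
  intro h0
  exact h ((CharP.intCast_eq_zero_iff k ℓ W.Δ).mp h0)

end integral

end Fermat.Agent.Lib.S58
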