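/-
S58 wave, EC-FROB, leaf [FF](III) (helper6): SUBSTITUTION HOMS.  For a point `Q = (u, v)` of `E`
over a field `L' ⊇ k` with `u` transcendental over `k`, the `k`-algebra hom
`σ_Q : L = k(E) → L'`, `x ↦ u`, `y ↦ v`; on points it maps the generic point `P₀` to `Q`, fixes the
constant points and commutes with every coordinatewise endomorphism (Frobenius).
-/
import Mathlib
import Fermat.Agent.Lib.S58.GFFrame
import Fermat.Agent.Lib.S58.AHtComp

set_option autoImplicit false
set_option linter.unusedSectionVars false

namespace Fermat.Agent.Lib.S58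

open Polynomial WeierstrassCurve WeierstrassCurve.Affine Fermat.Agent.Lib.Frey

variable {k : Type*} [Field k] (E : WeierstrassCurve k)

section subst

variable {L' : Type*} [Field L'] [Algebra k L'] (u v : L') (hu : Transcendental k u)

/-- `k(X) → L'`, `X ↦ u` for a transcendental `u`. -/
noncomputable def s58g_substK : RatFunc k →ₐ[k] L' :=
  RatFunc.liftAlgHom (Polynomial.aeval u)
    (nonZeroDivisors_le_comap_nonZeroDivisors_of_injective _
      (transcendental_iff_injective.mp hu))

theorem s58g_substK_poly (p : k[X]) :
    s58g_substK u hu (algebraMap k[X] (RatFunc k) p) = Polynomial.aeval u p := by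
  have := RatFunc.liftAlgHom_apply_div (Polynomial.aeval u)
    (nonZeroDivisors_le_comap_nonZeroDivisors_of_injective _
      (transcendental_iff_injective.mp hu)) p 1
  simpa [s58g_substK] using this

theorem s58g_substK_X : s58g_substK u hu RatFunc.X = u := by
  rw [← RatFunc.algebraMap_X, s58g_substK_poly, aeval_X]

theorem s58g_substK_apply (r : RatFunc k) :
    s58g_substK u hu r = Polynomial.aeval u r.num / Polynomial.aeval u r.denom := by
  conv_lhs => rw [← RatFunc.num_div_denom r]
  rw [map_div₀, s58g_substK_poly, s58g_substK_poly]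

theorem s58g_subst_root (he : (E.baseChange L').toAffine.Equation u v) :
    eval₂ ((s58g_substK u hu : RatFunc k →ₐ[k] L') : RatFunc k →+* L') v (s58g_poly E) = 0 :=
  (s58g_equation_iff E _ u v (s58g_substK_poly u hu)).mp he

/-- **the substitution hom** `σ : L → L'`, `x ↦ u`, `y ↦ v`. -/
noncomputable def s58g_subst (he : (E.baseChange L').toAffine.Equation u v) :
    s58g_L E →ₐ[k] L' :=
  AdjoinRoot.liftAlgHom (s58g_poly E) (s58g_substK u hu) v (s58g_subst_root E u v hu he)

theorem s58g_subst_algebraMap (he : (E.baseChange L').toAffine.Equation u v) (r : RatFunc k) :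
    s58g_subst E u v hu he (algebraMap (RatFunc k) (s58g_L E) r) = s58g_substK u hu r := by
  rw [s58g_subst, AdjoinRoot.algebraMap_eq, AdjoinRoot.liftAlgHom_of]

theorem s58g_subst_x (he : (E.baseChange L').toAffine.Equation u v) : s58g_subst E u v hu he (s58g_x E) = u := by
  rw [s58g_x, s58g_subst_algebraMap, s58g_substK_X]

theorem s58g_subst_y (he : (E.baseChange L').toAffine.Equation u v) : s58g_subst E u v hu he (s58g_y E) = v := by
  rw [s58g_subst, s58g_y, AdjoinRoot.liftAlgHom_root]

theorem s58g_subst_ratFunc (he : (E.baseChange L').toAffine.Equation u v) (r : RatFunc k) :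
    s58g_subst E u v hu he (algebraMap (RatFunc k) (s58g_L E) r) =
      Polynomial.aeval u r.num / Polynomial.aeval u r.denom := by
  rw [s58g_subst_algebraMap, s58g_substK_apply]

/-- (S2) `σ` maps the generic point to `(u, v)`. -/
theorem s58g_map_subst_P0 [E.IsElliptic] [DecidableEq (s58g_L E)] [DecidableEq L']
    (he : (E.baseChange L').toAffine.Equation u v) (h : (E.toAffine⁄L').Nonsingular u v) :
    Point.map (W' := E.toAffine) (s58g_subst E u v hu he) (s58g_P0 E) = Point.some u v h := by
  rw [s58g_P0_def, Point.map_some, Point.some.injEq]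
  exact ⟨s58g_subst_x E u v hu he, s58g_subst_y E u v hu he⟩

end subst

/-! ### General facts on `Point.map` -/

section general

variable {F K : Type*} [Field F] [Field K] [DecidableEq F] [DecidableEq K] [Algebra k F]
  [Algebra k K] (σ : F →ₐ[k] K)

/-- (S3) `Point.map σ` intertwines the coordinatewise endomorphisms `φ` of `F` and `φ'` of `K`
when `σ ∘ φ = φ' ∘ σ`. -/
theorem s58g_map_sigma (φ : F →+* F) (φ' : K →+* K) (hφ : (E.baseChange F).map φ = E.baseChange F)
    (hφ' : (E.baseChange K).map φ' = E.baseChange K) (hc : ∀ a, σ (φ a) = φ' (σ a))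
    (P : (E.toAffine⁄F).Point) :
    Point.map (W' := E.toAffine) σ (fab_sigma φ (E.baseChange F) hφ P) =
      fab_sigma φ' (E.baseChange K) hφ' (Point.map (W' := E.toAffine) σ P) := by
  rcases P with _ | ⟨x, y, h⟩
  · show Point.map (W' := E.toAffine) σ (fab_sigma φ (E.baseChange F) hφ 0) =
      fab_sigma φ' (E.baseChange K) hφ' (Point.map (W' := E.toAffine) σ 0)
    rw [map_zero, map_zero, map_zero]
  · rw [fab_sigma_some, Point.map_some, Point.map_some, fab_sigma_some, Point.some.injEq]
    exact ⟨hc x, hc y⟩

end general

/-! ### Constant points -/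

section const

variable [DecidableEq k] (L : Type*) [Field L] [DecidableEq L] [Algebra k L]

/-- the constant points: `E(k) → E(L)`. -/
noncomputable def s58g_const : E.toAffine.Point →+ (E.toAffine⁄L).Point :=
  fab_mapHom (algebraMap k L) E

theorem s58g_const_nonsingular {x y : k} (h : E.toAffine.Nonsingular x y) :
    (E.toAffine⁄L).Nonsingular (algebraMap k L x) (algebraMap k L y) :=
  fab_map_nonsingular (algebraMap k L) E h

theorem s58g_const_some {x y : k} (h : E.toAffine.Nonsingular x y) :
    s58g_const E L (Point.some x y h) =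
      (Point.some (W' := (E.toAffine⁄L)) (algebraMap k L x) (algebraMap k L y)
        (s58g_const_nonsingular E L h) : (E.toAffine⁄L).Point) := rfl

theorem s58g_const_injective : Function.Injective (s58g_const E L) := by
  rintro (_ | ⟨x, y, h⟩) (_ | ⟨x', y', h'⟩) e
  · rfl
  · exact absurd e.symm (by rw [s58g_const_some]; exact Point.some_ne_zero _)
  · exact absurd e (by rw [s58g_const_some]; exact Point.some_ne_zero _)
  · rw [s58g_const_some, s58g_const_some, Point.some.injEq] at e
    rw [Point.some.injEq]
    exact ⟨(algebraMap k L).injective e.1, (algebraMap k L).injective e.2⟩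

/-- (S4) every `k`-algebra hom fixes the constant points. -/
theorem s58g_map_const {K : Type*} [Field K] [DecidableEq K] [Algebra k K] (σ : L →ₐ[k] K)
    (T : E.toAffine.Point) :
    Point.map (W' := E.toAffine) σ (s58g_const E L T) = s58g_const E K T := by
  rcases T with _ | ⟨x, y, h⟩
  · show Point.map (W' := E.toAffine) σ (s58g_const E L 0) = s58g_const E K 0
    rw [map_zero, map_zero, map_zero]
  · rw [s58g_const_some, s58g_const_some, Point.map_some, Point.some.injEq]
    exact ⟨σ.commutes x, σ.commutes y⟩

/-- the constant points commute with coordinatewise endomorphisms. -/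
theorem s58g_const_sigma (φk : k →+* k) (φL : L →+* L) (hk : E.map φk = E)
    (hL : (E.baseChange L).map φL = E.baseChange L)
    (hc : ∀ a, φL (algebraMap k L a) = algebraMap k L (φk a)) (T : E.toAffine.Point) :
    fab_sigma φL (E.baseChange L) hL (s58g_const E L T) =
      s58g_const E L (fab_sigma φk E hk T) := by
  rcases T with _ | ⟨x, y, h⟩
  · show fab_sigma φL (E.baseChange L) hL (s58g_const E L 0) =
      s58g_const E L (fab_sigma φk E hk 0)
    rw [map_zero, map_zero, map_zero, map_zero]
  · rw [fab_sigma_some, s58g_const_some, s58g_const_some, fab_sigma_some, Point.some.injEq]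
    exact ⟨hc x, hc y⟩

end const

end Fermat.Agent.Lib.S58
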