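/-
S58 wave, EC-FROB, leaf [FF](III) (helper6), part 2: substitution along a point with abscissa in
`k(X)` is composition of rational functions (S5); `P₀ + T` is non-constant for a constant point
`T` (S6); the COMPOSITION IDENTITY `σ_Q(Q) = Q + Fr Q` for `Q = P₀ + Fr P₀` (C); and the
TRANSLATION TRICK (T): an integral relation `a P₀ + b Fr P₀ + d Fr² P₀ = constant` at the generic
point gives `a T + b Fr T + d Fr² T = 0` for every `T ∈ E(k)`.
-/
import Mathlib
import Fermat.Agent.Lib.S58.GFFSubst
import Fermat.Agent.Lib.S58.AFrobConst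

set_option autoImplicit false
set_option linter.unusedSectionVars false

namespace Fermat.Agent.Lib.S58

open Polynomial WeierstrassCurve WeierstrassCurve.Affine Fermat.Agent.Lib.Frey

variable {k : Type*} [Field k] (E : WeierstrassCurve k)

/-! ### (S5) substitution and composition -/

theorem s58g_transcendental_of_ne_C (s : RatFunc k) (hs : ¬ ∃ c, s = RatFunc.C c) :
    Transcendental k (algebraMap (RatFunc k) (s58g_L E) s) := by
  rw [transcendental_algebraMap_iff (s58g_algebraMap_injective E)]
  exact RatFunc.transcendental_of_ne_C s hs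

/-- (S5) substituting a point with abscissa `s ∈ k(X)` acts on `k(X)` by `r ↦ r ∘ s`. -/
theorem s58g_subst_comp (s : RatFunc k) (hs : ¬ ∃ c, s = RatFunc.C c) (v : s58g_L E)
    (he : (E.baseChange (s58g_L E)).toAffine.Equation (algebraMap (RatFunc k) (s58g_L E) s) v)
    (r : RatFunc k) :
    s58g_subst E (algebraMap (RatFunc k) (s58g_L E) s) v (s58g_transcendental_of_ne_C E s hs) he
      (algebraMap (RatFunc k) (s58g_L E) r) =
        algebraMap (RatFunc k) (s58g_L E) (s58a_comp s hs r) := by
  rw [s58g_subst_ratFunc, s58a_comp_div, map_div₀, Polynomial.aeval_algebraMap_apply,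
    Polynomial.aeval_algebraMap_apply]

/-! ### (S6) `P₀ + T` is not constant -/

section nonconst

variable [DecidableEq k] [DecidableEq (s58g_L E)] [E.IsElliptic]

/-- the generic point is not a constant point. -/
theorem s58g_P0_ne_const (T : E.toAffine.Point) : s58g_P0 E ≠ s58g_const E (s58g_L E) T := by
  rcases T with _ | ⟨a, b, h⟩
  · exact s58g_P0_ne_zero E
  · rw [s58g_P0_def, s58g_const_some]
    intro e
    rw [Point.some.injEq] at e
    have := s58g_x_transcendental E
    rw [e.1] at this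
    exact this (isAlgebraic_algebraMap a)

/-- an element of an extension of an algebraically closed field which is algebraic lies in it. -/
theorem s58g_mem_of_isAlgebraic [IsAlgClosed k] {L : Type*} [Field L] [Algebra k L] {u : L}
    (hu : IsAlgebraic k u) : ∃ c : k, u = algebraMap k L c := by
  have hi : IsIntegral k u := hu.isIntegral
  have hdeg : (minpoly k u).degree = 1 :=
    IsAlgClosed.degree_eq_one_of_irreducible k (minpoly.irreducible hi)
  obtain ⟨c, hc⟩ := minpoly.mem_range_of_degree_eq_one k u hdeg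
  exact ⟨c, hc.symm⟩

/-- (S6) `P₀ + T` is an affine point with transcendental abscissa, for every constant `T`. -/
theorem s58g_P0_add_const [IsAlgClosed k] (T : E.toAffine.Point) :
    ∃ (u v : s58g_L E) (h : (E.toAffine⁄(s58g_L E)).Nonsingular u v),
      s58g_P0 E + s58g_const E (s58g_L E) T = Point.some u v h ∧ Transcendental k u := by
  rcases hP : s58g_P0 E + s58g_const E (s58g_L E) T with _ | ⟨u, v, h⟩
  · exfalso
    have h0 : s58g_P0 E + s58g_const E (s58g_L E) T = 0 := hP
    have : s58g_P0 E = s58g_const E (s58g_L E) (-T) := by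
      rw [map_neg, eq_neg_iff_add_eq_zero, h0]
    exact s58g_P0_ne_const E _ this
  · refine ⟨u, v, h, rfl, ?_⟩
    intro halg
    obtain ⟨c, hc⟩ := s58g_mem_of_isAlgebraic halg
    obtain ⟨y₀, hy₀, hns⟩ := s58a_const_point E (L := s58g_L E) h c hc
    have h1 : s58g_P0 E + s58g_const E (s58g_L E) T =
        s58g_const E (s58g_L E) (Point.some c y₀ hns) := by
      rw [hP, s58g_const_some, Point.some.injEq]
      exact ⟨hc, hy₀⟩
    have : s58g_P0 E = s58g_const E (s58g_L E) (Point.some c y₀ hns - T) := by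
      rw [map_sub, ← h1, add_sub_cancel_right]
    exact s58g_P0_ne_const E _ this

end nonconst

/-! ### (C) the composition identity and (T) the translation trick -/

section frob

variable [DecidableEq (s58g_L E)] [E.IsElliptic] (ℓ : ℕ)
  (φL : s58g_L E →+* s58g_L E) (hφL : ∀ a, φL a = a ^ ℓ)
  (hL : (E.baseChange (s58g_L E)).map φL = E.baseChange (s58g_L E))

include hφL in
/-- every substitution hom commutes with the `ℓ`-power map. -/
theorem s58g_subst_frob (σ : s58g_L E →ₐ[k] s58g_L E) (a : s58g_L E) :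
    σ (φL a) = φL (σ a) := by
  rw [hφL, hφL, map_pow]

include hφL in
/-- **(C) the composition identity**: if `Q = P₀ + Fr P₀` has abscissa `s ∈ k(X)` (non-constant)
then `Q + Fr Q` has abscissa `s ∘ s`. -/
theorem s58g_comp_identity (s : RatFunc k) (hs : ¬ ∃ c, s = RatFunc.C c) (v : s58g_L E)
    (h : (E.toAffine⁄(s58g_L E)).Nonsingular (algebraMap (RatFunc k) (s58g_L E) s) v)
    (hQ : s58g_P0 E + fab_sigma φL (E.baseChange (s58g_L E)) hL (s58g_P0 E) = Point.some _ _ h) :
    ∃ (v' : s58g_L E)
      (h' : (E.toAffine⁄(s58g_L E)).Nonsingular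
        (algebraMap (RatFunc k) (s58g_L E) (s58a_comp s hs s)) v'),
      s58g_P0 E + fab_sigma φL (E.baseChange (s58g_L E)) hL (s58g_P0 E) +
        (fab_sigma φL (E.baseChange (s58g_L E)) hL (s58g_P0 E) +
          fab_sigma φL (E.baseChange (s58g_L E)) hL
            (fab_sigma φL (E.baseChange (s58g_L E)) hL (s58g_P0 E))) = Point.some _ _ h' := by
  set Fr := fab_sigma φL (E.baseChange (s58g_L E)) hL with hFr
  set σ := s58g_subst E (algebraMap (RatFunc k) (s58g_L E) s) v
    (s58g_transcendental_of_ne_C E s hs) h.1 with hσ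
  have h1 : Point.map (W' := E.toAffine) σ (s58g_P0 E) = Point.some _ _ h :=
    s58g_map_subst_P0 E _ v _ h.1 h
  have h2 : Point.map (W' := E.toAffine) σ (Fr (s58g_P0 E)) = Fr (Point.some _ _ h) := by
    rw [hFr, s58g_map_sigma E σ φL φL hL hL (s58g_subst_frob E ℓ φL hφL σ), h1]
  have h3 : Point.map (W' := E.toAffine) σ (Point.some _ _ h) =
      s58g_P0 E + Fr (s58g_P0 E) + (Fr (s58g_P0 E) + Fr (Fr (s58g_P0 E))) := by
    conv_lhs => rw [← hQ]
    rw [map_add, h1, h2, ← hQ, map_add]
  rw [← h3, Point.map_some]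
  refine ⟨σ v, ?_, ?_⟩
  · rw [← s58g_subst_comp E s hs v h.1 s]
    exact (Affine.baseChange_nonsingular E.toAffine σ.injective _ _).mpr h
  · rw [Point.some.injEq]
    exact ⟨s58g_subst_comp E s hs v h.1 s, rfl⟩

variable [DecidableEq k] [IsAlgClosed k] (φk : k →+* k) (hk : E.map φk = E)
  (hc : ∀ a, φL (algebraMap k (s58g_L E) a) = algebraMap k (s58g_L E) (φk a))

include hφL hc in
/-- **(T) the translation trick.** -/
theorem s58g_translation (a b d : ℤ) (c : E.toAffine.Point)
    (hχ : a • s58g_P0 E + b • fab_sigma φL (E.baseChange (s58g_L E)) hL (s58g_P0 E) +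
      d • fab_sigma φL (E.baseChange (s58g_L E)) hL
        (fab_sigma φL (E.baseChange (s58g_L E)) hL (s58g_P0 E)) = s58g_const E (s58g_L E) c)
    (T : E.toAffine.Point) :
    a • T + b • fab_sigma φk E hk T + d • fab_sigma φk E hk (fab_sigma φk E hk T) = 0 := by
  obtain ⟨u, v, h, hP, hu⟩ := s58g_P0_add_const E T
  have key : ∀ (Fr : (E.toAffine⁄(s58g_L E)).Point →+ (E.toAffine⁄(s58g_L E)).Point)
      (A : (E.toAffine⁄(s58g_L E)).Point →+ (E.toAffine⁄(s58g_L E)).Point)
      (cst : E.toAffine.Point →+ (E.toAffine⁄(s58g_L E)).Point) (Frk : E.toAffine.Point →+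
        E.toAffine.Point) (P₀ : (E.toAffine⁄(s58g_L E)).Point),
      Function.Injective cst → (∀ P, A (Fr P) = Fr (A P)) → (∀ S, A (cst S) = cst S) →
      (∀ S, Fr (cst S) = cst (Frk S)) → A P₀ = P₀ + cst T →
      a • P₀ + b • Fr P₀ + d • Fr (Fr P₀) = cst c →
      a • T + b • Frk T + d • Frk (Frk T) = 0 := by
    intro Fr A cst Frk P₀ hinj hAFr hAc hFrc hAP hrel
    have e1 : A (Fr P₀) = Fr P₀ + cst (Frk T) := by rw [hAFr, hAP, map_add, hFrc]
    have e2 : A (Fr (Fr P₀)) = Fr (Fr P₀) + cst (Frk (Frk T)) := by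
      rw [hAFr, e1, map_add, hFrc]
    have h2 := congrArg A hrel
    rw [map_add, map_add, map_zsmul, map_zsmul, map_zsmul, hAP, e1, e2, hAc, ← hrel] at h2
    apply hinj
    rw [map_zero, map_add, map_add, map_zsmul, map_zsmul, map_zsmul]
    have h5 : a • (P₀ + cst T) + b • (Fr P₀ + cst (Frk T)) +
        d • (Fr (Fr P₀) + cst (Frk (Frk T))) =
        (a • P₀ + b • Fr P₀ + d • Fr (Fr P₀)) +
        (a • cst T + b • cst (Frk T) + d • cst (Frk (Frk T))) := by
      rw [zsmul_add, zsmul_add, zsmul_add]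
      abel
    rw [h5] at h2
    exact add_eq_left.mp h2
  refine key (fab_sigma φL (E.baseChange (s58g_L E)) hL)
    (Point.map (W' := E.toAffine) (s58g_subst E u v hu h.1)) (s58g_const E (s58g_L E))
    (fab_sigma φk E hk) (s58g_P0 E) (s58g_const_injective E (s58g_L E)) ?_ ?_ ?_ ?_ hχ
  · intro P
    exact s58g_map_sigma E _ φL φL hL hL (s58g_subst_frob E ℓ φL hφL _) P
  · intro S
    exact s58g_map_const E (s58g_L E) _ S
  · intro S
    exact s58g_const_sigma E (s58g_L E) φk φL hk hL hc S
  · rw [s58g_map_subst_P0 E u v hu h.1 h, hP]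

end frob

end Fermat.Agent.Lib.S58
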