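/-
S58 wave (conductor-level matching).  INTERFACE FILE (helper8): the literal `Prop` contracts
between the packages.  Every contract is a closed `Prop`; the top wiring
(`Lib/S58/WTop.lean`) proves the S58 statement from them.

E-side (the curve `W/ℤ`, points `s58_Pt W = W(ℚ̄)` with the Prelude Galois action):
* `s58_EllFrob`     [EC-FROB]  quadratic relation `σ² − a_ℓ σ + ℓ = 0` on `W[λⁿ]`, `ℓ ∤ λΔ`, `λ` odd;
* `s58_EllUnram`    [E1-GEN]   inertia at a good prime `ℓ ≠ λ` acts trivially on `W[λⁿ]`, `λ` odd;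
* `s58_EllMultFix`  [MULT-FIX] multiplicative `q`: an inertia-fixed point of exact order `λ^{n+1}`;
* `s58_EllLevel`    `W[m]` is defined over a finite extension of `ℚ`;
* `s58_EllExact`    `W(ℚ̄)` has points of exact order `λ^{n+1}`;
* `s58_EllBound`    `a_q(W) ≠ ±(q+1)` (trivial point count).
Modular side:
* `s58_EigenCharZ`  [CHI-Z] eigencharacter `chig` of a normalized eigenform with integer eigenvalues
  outside `S`, with `iota : chig.range →+* ℤ_[λ]`;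
* `s58_OldLift`     [OLD]  a normalized eigenform of level `M ∣ R` (`R` squarefree) lifts to level `R`.
Galois side:
* `s58_InvolutionCyc` [ODD-CYC] a non-trivial involution of `G_ℚ` inverts roots of unity of odd order;
* `s58_AbsIrredTransfer` [R3-a] transfer of absolute irreducibility along equal quadratic relations.
-/
import Mathlib
import Fermat.Prelude.Def_WeierstrassCurve_ConductorLevel
import Fermat.Prelude.Def_FLTPrelim_ModularRep
import Fermat.Prelude.Def_CuspForm_HeckeGaloisRepDatum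
import Fermat.Prelude.Def_CuspForm_Newforms
import Fermat.Prelude.Def_GaloisRep_LocalConditions
import Fermat.Prelude.Def_GaloisRep_Residual

set_option autoImplicit false

open scoped WeierstrassCurve.Affine TensorProduct

noncomputable section

namespace Fermat.Agent.Lib.S58

/-- the absolute Galois group of `ℚ`. -/
abbrev s58_G : Type := AlgebraicClosure ℚ ≃ₐ[ℚ] AlgebraicClosure ℚ

/-- the group `W(ℚ̄)` (with the Prelude's `DistribMulAction` of `G_ℚ`). -/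
abbrev s58_Pt (W : WeierstrassCurve ℤ) : Type :=
  ((W.map (Int.castRingHom ℚ))⁄(AlgebraicClosure ℚ)).Point

/-! ### E-side -/

/-- **[EC-FROB]** at a good prime `ℓ`, a Frobenius element satisfies `σ² − a_ℓ σ + ℓ = 0` on the
`λ`-power torsion points (`λ` an odd prime, `λ ≠ ℓ`).  Only this relation between POINTS: no trace,
no determinant. -/
def s58_EllFrob : Prop :=
  ∀ (W : WeierstrassCurve ℤ) (ℓ : ℕ), ℓ.Prime → ¬ (ℓ : ℤ) ∣ W.Δ →
    ∀ lam : ℕ, lam.Prime → lam ≠ 2 → lam ≠ ℓ → ∀ n : ℕ,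
    ∀ A : ValuationSubring (AlgebraicClosure ℚ), A.LiesOverPrime ℓ →
    ∀ σ : s58_G, A.IsFrobeniusAt σ ℓ →
    ∀ P : s58_Pt W, lam ^ n • P = 0 →
      σ • σ • P - W.apOfModel ℓ • σ • P + ℓ • P = 0

/-- **[E1-GEN]** at a good prime `ℓ`, inertia acts trivially on the `λ`-power torsion points
(`λ` an odd prime, `λ ≠ ℓ`). -/
def s58_EllUnram : Prop :=
  ∀ (W : WeierstrassCurve ℤ) (ℓ : ℕ), ℓ.Prime → ¬ (ℓ : ℤ) ∣ W.Δ →
    ∀ lam : ℕ, lam.Prime → lam ≠ 2 → lam ≠ ℓ → ∀ n : ℕ,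
    ∀ A : ValuationSubring (AlgebraicClosure ℚ), A.LiesOverPrime ℓ →
    ∀ τ ∈ A.inertiaSubgroupIn ℚ, ∀ P : s58_Pt W, lam ^ n • P = 0 → τ • P = P

/-- **[MULT-FIX]** at a multiplicative prime `q ≠ λ` (`λ` odd) there is an inertia-fixed point of
exact order `λ ^ (n + 1)`. -/
def s58_EllMultFix : Prop :=
  ∀ (W : WeierstrassCurve ℤ), W.Δ ≠ 0 → ∀ q : ℕ, q.Prime → (q : ℤ) ∣ W.Δ → ¬ (q : ℤ) ∣ W.c₄ →
    ∀ lam : ℕ, lam.Prime → lam ≠ 2 → lam ≠ q → ∀ n : ℕ,
    ∀ A : ValuationSubring (AlgebraicClosure ℚ), A.LiesOverPrime q →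
    ∃ P₀ : s58_Pt W, lam ^ (n + 1) • P₀ = 0 ∧ lam ^ n • P₀ ≠ 0 ∧
      ∀ τ ∈ A.inertiaSubgroupIn ℚ, τ • P₀ = P₀

/-- the `m`-torsion is defined over a finite extension. -/
def s58_EllLevel : Prop :=
  ∀ (W : WeierstrassCurve ℤ), W.Δ ≠ 0 → ∀ m : ℕ, 0 < m →
    ∃ L : IntermediateField ℚ (AlgebraicClosure ℚ), FiniteDimensional ℚ L ∧
      ∀ σ : s58_G, (∀ x ∈ L, σ x = x) → ∀ P : s58_Pt W, m • P = 0 → σ • P = P

/-- points of exact prime-power order. -/
def s58_EllExact : Prop :=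
  ∀ (W : WeierstrassCurve ℤ), W.Δ ≠ 0 → ∀ lam : ℕ, lam.Prime → ∀ n : ℕ,
    ∃ P : s58_Pt W, lam ^ (n + 1) • P = 0 ∧ lam ^ n • P ≠ 0

/-- the trivial bound `1 ≤ #W(𝔽_q) ≤ 2q + 1`. -/
def s58_EllBound : Prop :=
  ∀ (W : WeierstrassCurve ℤ) (q : ℕ), q.Prime →
    W.apOfModel q ≠ (q : ℤ) + 1 ∧ W.apOfModel q ≠ -((q : ℤ) + 1)

/-! ### modular side -/

/-- **[CHI-Z]** the eigencharacter of a normalized eigenform on the Hecke algebra away from `S`
(all primes of the level in `S`), when the eigenvalues outside `S` are the integers `a ℓ`, together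
with the induced `iota : chig.range →+* ℤ_[λ]`. -/
def s58_EigenCharZ : Prop :=
  ∀ (M : ℕ) [NeZero M] (g : CuspForm (CongruenceSubgroup.Gamma0 M) 2), g.IsNormalizedEigenform →
    ∀ S : Finset ℕ, (∀ q : ℕ, q.Prime → q ∣ M → q ∈ S) →
    ∀ a : ℕ → ℤ, (∀ ℓ : ℕ, ℓ.Prime → ¬ ℓ ∣ M → ℓ ∉ S → ModularFormClass.qCoeff g ℓ = (a ℓ : ℂ)) →
    ∀ (lam : ℕ) [Fact lam.Prime],
      ∃ (chig : CuspForm.heckeAlgebra M 2 (↑S : Set ℕ) →+* ℂ) (iota : chig.range →+* ℤ_[lam]),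
        (∀ (ℓ : ℕ) (hℓ : ℓ.Prime) (hℓM : ¬ ℓ ∣ M) (hℓS : ℓ ∉ (↑S : Set ℕ)),
          chig (CuspForm.heckeAlgebra.T hℓ hℓM hℓS) = ModularFormClass.qCoeff g ℓ) ∧
        (∀ (ℓ : ℕ) (hℓ : ℓ.Prime) (hℓM : ¬ ℓ ∣ M) (hℓS : ℓ ∉ (↑S : Set ℕ)),
          (iota.comp chig.rangeRestrict) (CuspForm.heckeAlgebra.T hℓ hℓM hℓS) = (a ℓ : ℤ_[lam]))

/-- **[OLD]** lifting a normalized eigenform to a squarefree multiple of its level, keeping the
coefficients at the primes not dividing the new level. -/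
def s58_OldLift : Prop :=
  ∀ (M R : ℕ), M ∣ R → Squarefree R →
    ∀ g : CuspForm (CongruenceSubgroup.Gamma0 M) 2, g.IsNormalizedEigenform →
      ∃ h : CuspForm (CongruenceSubgroup.Gamma0 R) 2, h.IsNormalizedEigenform ∧
        ∀ ℓ : ℕ, ℓ.Prime → ¬ ℓ ∣ R → ModularFormClass.qCoeff h ℓ = ModularFormClass.qCoeff g ℓ

/-! ### Galois side -/

/-- **[ODD-CYC]** a non-trivial involution of `G_ℚ` inverts the roots of unity of odd order
(Artin–Schreier, elementary form). -/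
def s58_InvolutionCyc : Prop :=
  ∀ c : s58_G, c * c = 1 → c ≠ 1 →
    ∀ m : ℕ, Odd m → ∀ ζ : AlgebraicClosure ℚ, ζ ^ m = 1 → c ζ = ζ⁻¹

/-- **[R3-a]** transfer of absolute irreducibility: `U` (dimension `2` over `k₀`, irreducible) and
`V` (dimension `2` over `k ⊇ k₀`) carry representations of `Γ` satisfying the SAME quadratic
relations `g + ε(g) g⁻¹ = s(g)` (no traces or determinants on the `U`-side); `c` an involution with
`ε c = −1` and `det (r₂ c) = −1`; characteristic `≠ 2`.  Then `V` is absolutely irreducible. -/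
def s58_AbsIrredTransfer : Prop :=
  ∀ (Γ : Type) [Group Γ] (k₀ k : Type) [Field k₀] [Field k] [Algebra k₀ k]
    (U V : Type) [AddCommGroup U] [Module k₀ U] [AddCommGroup V] [Module k V]
    (_ : Module.finrank k₀ U = 2) (_ : Module.finrank k V = 2)
    (r₁ : Γ →* Module.End k₀ U) (r₂ : Γ →* Module.End k V) (ε : Γ →* k₀ˣ)
    (_ : (2 : k) ≠ 0) (c : Γ) (_ : c * c = 1) (_ : ε c = -1) (_ : LinearMap.det (r₂ c) = -1)
    (_ : ∀ g : Γ, ∃ s : k₀, r₁ g + ((ε g : k₀ˣ) : k₀) • r₁ g⁻¹ = s • (1 : Module.End k₀ U) ∧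
      r₂ g + algebraMap k₀ k ((ε g : k₀ˣ) : k₀) • r₂ g⁻¹ =
        algebraMap k₀ k s • (1 : Module.End k V))
    (_ : ∀ N : Submodule k₀ U, (∀ g : Γ, ∀ x ∈ N, r₁ g x ∈ N) → N = ⊥ ∨ N = ⊤),
    ∀ N : Submodule (AlgebraicClosure k) (AlgebraicClosure k ⊗[k] V),
      (∀ g : Γ, ∀ x ∈ N, (r₂ g).baseChange (AlgebraicClosure k) x ∈ N) → N = ⊥ ∨ N = ⊤

end Fermat.Agent.Lib.S58

end
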