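/-
S58 wave, [RED] (helper2, prefix `s58o_`): GOOD REDUCTION ON `pⁿ`-TORSION, ANY RESIDUE CHARACTERISTIC.

Frame of `Lib/S41/ARedMap.lean`: `A` a valuation subring of a field `K`, `W` a Weierstrass curve
over `A` whose special fibre `s41a_Wk A W` is elliptic, `s41a_red A W` the (total) reduction map.
`p` an odd prime with `v p = 1` (NO hypothesis on `v 2`, so residue characteristic `2` is allowed),
`n : ℕ`.  On the `pⁿ`-torsion of the generic fibre:

* `s58o_tors_mem`   : non-zero points are integral;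
* `s58o_red_inj`    : the reduction map is injective;
* `s58o_red_add`, `s58o_red_sub`, `s58o_red_nsmul`, `s58o_red_zsmul` : it is additive;
* `s58o_red_sigma`  : `red (σ P) = Fr (red P)` for a "Frobenius" endomorphism `σ` of `K`;
* `s58o_frob_rel`   : a quadratic relation `Fr² − t Fr + ℓ = 0` on the POINTS of the special fibre
  lifts to `σ² − t σ + ℓ = 0` on the `pⁿ`-torsion of the generic fibre.

Galois frame (`W / ℤ`, `A` over a prime `ℓ ∤ Δ(W)`, `σ` a Frobenius element at `A`):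

* `s58o_FrobCore`        : the literal shape of the core theorem of [EC-TOP] consumed here
  (`Fr² T − a_ℓ Fr T + ℓ T = 0` for every point `T` of the reduction over an algebraically closed
  field of characteristic `ℓ`, in pure coordinates);
* `s58o_ellFrob_of_core` : `s58o_FrobCore → s58_EllFrob`;
* `s58o_FrobCoreSigma`, `s58o_frobCore_of_sigma`, `s58o_ellFrob_of_coreSigma` : the same with the
  Frobenius of `k` given as a ring endomorphism `φ` and `Fr = fab_sigma φ`.
-/
import Mathlib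
import Fermat.Prelude.Def_FLTPrelim_Modularity
import Fermat.Prelude.Def_EllipticCurve_FrobeniusTrace
import Fermat.Agent.Lib.S41.ATransport
import Fermat.Agent.Lib.S58.E1Inertia
import Fermat.Agent.Lib.S58.Iface

set_option autoImplicit false
set_option linter.unusedSectionVars false

namespace Fermat.Agent.Lib.S58

open WeierstrassCurve WeierstrassCurve.Affine IsLocalRing
open Fermat.Agent.Lib.Frey Fermat.Agent.Lib.EN Fermat.Agent.Lib.S41

section general

variable {K : Type*} [Field K] [DecidableEq K] (A : ValuationSubring K) (W : WeierstrassCurve A)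
  [hk : (s41a_Wk A W).IsElliptic] [DecidableEq (ResidueField A)]

section torsion

variable {p : ℕ} (hp : p.Prime) (hp2 : p ≠ 2) (hvp : A.valuation (p : K) = 1) (n : ℕ)

include hp hp2 hvp

/-- `E₁` has no `pⁿ`-torsion (`frd_E1` form, model over `A`). -/
theorem s58o_E1_tf {P : (s41a_WK A W).toAffine.Point}
    (hE : frd_E1 A.valuation (s41a_WK A W).toAffine P) (hP : p ^ n • P = 0) : P = 0 := by
  obtain ⟨hb2, hb4, hb6, hb8⟩ :=
    s58e_b_integral A.valuation (s41a_WK A W) (s41a_frd_integral A W)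
  exact s58e_E1_torsion_free_pow (s41a_WK A W) A.valuation hb2 hb4 hb6 hb8 hp hp2 hvp n
    ((s58e_E1_iff A.valuation (s41a_WK A W) P).mp hE) hP

/-- Non-zero `pⁿ`-torsion points are integral. -/
theorem s58o_tors_mem {x y : K} (h : (s41a_WK A W).toAffine.Nonsingular x y)
    (hP : p ^ n • (Point.some x y h : (s41a_WK A W).toAffine.Point) = 0) : x ∈ A := by
  by_contra hx
  have hv : 1 < A.valuation x := by
    rw [← not_le, A.valuation_le_one_iff]; exact hx
  have hE1 : frd_E1 A.valuation (s41a_WK A W).toAffine (Point.some x y h) :=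
    Or.inr ⟨x, y, h, rfl, hv⟩
  exact Point.some_ne_zero h (s58o_E1_tf A W hp hp2 hvp n hE1 hP)

/-- The reduction of a non-zero `pⁿ`-torsion point is non-zero. -/
theorem s58o_red_ne_zero {P : (s41a_WK A W).toAffine.Point} (hP : p ^ n • P = 0) (h0 : P ≠ 0) :
    s41a_red A W P ≠ 0 := by
  rcases P with _ | ⟨x, y, h⟩
  · exact absurd rfl h0
  · rw [s41a_red_some' A W h (s58o_tors_mem A W hp hp2 hvp n h hP)]
    exact Point.some_ne_zero _

/-- **The reduction map is injective on `pⁿ`-torsion.** -/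
theorem s58o_red_inj {P Q : (s41a_WK A W).toAffine.Point} (hP : p ^ n • P = 0)
    (hQ : p ^ n • Q = 0) (h : s41a_red A W P = s41a_red A W Q) : P = Q := by
  by_cases hP0 : P = 0
  · by_contra hne
    have hQ0 : Q ≠ 0 := fun h' => hne (by rw [hP0, h'])
    apply s58o_red_ne_zero A W hp hp2 hvp n hQ hQ0
    rw [← h, hP0]; rfl
  by_cases hQ0 : Q = 0
  · exfalso
    apply s58o_red_ne_zero A W hp hp2 hvp n hP hP0
    rw [h, hQ0]; rfl
  rcases P with _ | ⟨x₁, y₁, h₁⟩
  · exact absurd rfl hP0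
  rcases Q with _ | ⟨x₂, y₂, h₂⟩
  · exact absurd rfl hQ0
  have hx₁ := s58o_tors_mem A W hp hp2 hvp n h₁ hP
  have hx₂ := s58o_tors_mem A W hp hp2 hvp n h₂ hQ
  rw [s41a_red_some' A W h₁ hx₁, s41a_red_some' A W h₂ hx₂, Point.some.injEq] at h
  obtain ⟨hx, hy⟩ := h
  rw [s41a_res_eq_iff] at hx hy
  have hE1 := frd_sub_mem_E1_of_disc (s41a_frd_integral A W) (s41a_v_Δ A W) h₁ h₂
    ((A.valuation_le_one_iff _).mpr hx₁)
    ((A.valuation_le_one_iff _).mpr (s41a_y_mem A W hx₁ h₁.1)) hx hy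
  have h0 := s58o_E1_tf A W hp hp2 hvp n hE1 (by rw [smul_sub, hP, hQ, sub_zero])
  exact sub_eq_zero.mp h0

/-- **The reduction map is additive on `pⁿ`-torsion.** -/
theorem s58o_red_add {P Q : (s41a_WK A W).toAffine.Point} (hP : p ^ n • P = 0)
    (hQ : p ^ n • Q = 0) :
    s41a_red A W (P + Q) = s41a_red A W P + s41a_red A W Q := by
  by_cases hP0 : P = 0
  · rw [hP0, zero_add, s41a_red_zero, zero_add]
  by_cases hQ0 : Q = 0
  · rw [hQ0, add_zero, s41a_red_zero, add_zero]
  by_cases hPQ : P = -Q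
  · rw [hPQ, neg_add_cancel, s41a_red_neg, neg_add_cancel, s41a_red_zero]
  have hnQ : p ^ n • (-Q) = 0 := by rw [smul_neg, hQ, neg_zero]
  have hnP : p ^ n • (-P) = 0 := by rw [smul_neg, hP, neg_zero]
  rcases P with _ | ⟨x₁, y₁, h₁⟩
  · exact absurd rfl hP0
  rcases Q with _ | ⟨x₂, y₂, h₂⟩
  · exact absurd rfl hQ0
  have hx₁ := s58o_tors_mem A W hp hp2 hvp n h₁ hP
  have hx₂ := s58o_tors_mem A W hp hp2 hvp n h₂ hQ
  obtain ⟨a₁, b₁, rfl, rfl⟩ := s41a_exists_coords A W h₁ hx₁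
  obtain ⟨a₂, b₂, rfl, rfl⟩ := s41a_exists_coords A W h₂ hx₂
  by_cases hne : residue A a₁ = residue A a₂
  · -- same reduced `X`: `red P = ± red Q`, so `P = ± Q`, so `P = Q`
    have hred : s41a_red A W (Point.some _ _ h₁) = s41a_red A W (Point.some _ _ h₂) ∨
        s41a_red A W (Point.some _ _ h₁) = -s41a_red A W (Point.some _ _ h₂) := by
      rw [s41a_red_some A W h₁, s41a_red_some A W h₂]
      exact Point.X_eq_iff.mp hne
    have hPQ' : (Point.some _ _ h₁ : (s41a_WK A W).toAffine.Point) = Point.some _ _ h₂ := by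
      rcases hred with hr | hr
      · exact s58o_red_inj A W hp hp2 hvp n hP hQ hr
      · rw [← s41a_red_neg] at hr
        exact absurd (s58o_red_inj A W hp hp2 hvp n hP hnQ hr) hPQ
    rw [Point.some.injEq] at hPQ'
    obtain ⟨ha, hb⟩ := hPQ'
    have ha' : a₁ = a₂ := Subtype.ext ha
    have hb' : b₁ = b₂ := Subtype.ext hb
    subst ha' hb'
    apply s41a_red_add_self A W h₁
    intro hb
    -- `red P = - red P = red (-P)`, so `P = -P`
    apply hPQ
    apply s58o_red_inj A W hp hp2 hvp n hP hnP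
    rw [s41a_red_neg, s41a_red_some A W h₁, Point.neg_some]
    exact s41a_some_congr rfl hb _ _
  · exact s41a_red_add_of_X_ne A W h₁ h₂ hne

/-- subtraction. -/
theorem s58o_red_sub {P Q : (s41a_WK A W).toAffine.Point} (hP : p ^ n • P = 0)
    (hQ : p ^ n • Q = 0) :
    s41a_red A W (P - Q) = s41a_red A W P - s41a_red A W Q := by
  have hnQ : p ^ n • (-Q) = 0 := by rw [smul_neg, hQ, neg_zero]
  rw [sub_eq_add_neg, s58o_red_add A W hp hp2 hvp n hP hnQ, s41a_red_neg, ← sub_eq_add_neg]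

/-- natural multiples. -/
theorem s58o_red_nsmul {P : (s41a_WK A W).toAffine.Point} (hP : p ^ n • P = 0) (k : ℕ) :
    s41a_red A W (k • P) = k • s41a_red A W P := by
  induction k with
  | zero => rw [zero_nsmul, zero_nsmul, s41a_red_zero]
  | succ k ih =>
    have hk : p ^ n • (k • P) = 0 := by rw [smul_comm, hP, smul_zero]
    rw [succ_nsmul, succ_nsmul, s58o_red_add A W hp hp2 hvp n hk hP, ih]

/-- integer multiples. -/
theorem s58o_red_zsmul {P : (s41a_WK A W).toAffine.Point} (hP : p ^ n • P = 0) (z : ℤ) :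
    s41a_red A W (z • P) = z • s41a_red A W P := by
  rcases Int.eq_nat_or_neg z with ⟨k, rfl | rfl⟩
  · rw [natCast_zsmul, natCast_zsmul, s58o_red_nsmul A W hp hp2 hvp n hP]
  · rw [neg_smul, neg_smul, natCast_zsmul, natCast_zsmul, s41a_red_neg,
      s58o_red_nsmul A W hp hp2 hvp n hP]

/-- the reduction of a `pⁿ`-torsion point is `pⁿ`-torsion. -/
theorem s58o_red_torsion {P : (s41a_WK A W).toAffine.Point} (hP : p ^ n • P = 0) :
    p ^ n • s41a_red A W P = 0 := by
  rw [← s58o_red_nsmul A W hp hp2 hvp n hP, hP, s41a_red_zero]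

end torsion

/-! ### Frobenius -/

section frobenius

variable (σ : K →+* K) (hσA : ∀ a : K, a ∈ A → σ a ∈ A) {ℓ : ℕ}
  (hσres : ∀ (a : A) (h : σ (a : K) ∈ A), residue A ⟨σ (a : K), h⟩ = residue A a ^ ℓ)
  (hσW : (s41a_WK A W).map σ = s41a_WK A W)

include hσA hσres in
/-- `red (σ P) = Fr (red P)` in coordinates. -/
theorem s58o_red_sigma {a b : A} (h : (s41a_WK A W).toAffine.Nonsingular (a : K) (b : K)) :
    ∃ h' : (s41a_Wk A W).toAffine.Nonsingular (residue A a ^ ℓ) (residue A b ^ ℓ),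
      s41a_red A W (fab_sigma σ (s41a_WK A W) hσW (Point.some _ _ h)) =
        Point.some (residue A a ^ ℓ) (residue A b ^ ℓ) h' := by
  have hns : (s41a_Wk A W).toAffine.Nonsingular (residue A a ^ ℓ) (residue A b ^ ℓ) := by
    rw [← hσres a (hσA _ a.2), ← hσres b (hσA _ b.2)]
    exact s41a_red_nonsingular A W (a := ⟨σ a, hσA _ a.2⟩) (b := ⟨σ b, hσA _ b.2⟩)
      (hσW ▸ fab_map_nonsingular σ (s41a_WK A W) h).1
  refine ⟨hns, ?_⟩
  rw [fab_sigma_some, s41a_red_some' A W _ (hσA _ a.2)]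
  refine s41a_some_congr ?_ ?_ _ _
  · rw [hσres a (hσA _ a.2)]
  · rw [hσres b _]

variable {p : ℕ} (hp : p.Prime) (hp2 : p ≠ 2) (hvp : A.valuation (p : K) = 1) (n : ℕ)

include hp hp2 hvp hσA hσres in
/-- **Lifting a quadratic relation of the Frobenius from the special fibre to the `pⁿ`-torsion of
the generic fibre.** -/
theorem s58o_frob_rel (t : ℤ)
    (hcore : ∀ (x y : ResidueField A) (h : (s41a_Wk A W).toAffine.Nonsingular x y)
      (h1 : (s41a_Wk A W).toAffine.Nonsingular (x ^ ℓ) (y ^ ℓ))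
      (h2 : (s41a_Wk A W).toAffine.Nonsingular ((x ^ ℓ) ^ ℓ) ((y ^ ℓ) ^ ℓ)),
      (Point.some _ _ h2 - t • Point.some _ _ h1 + ℓ • Point.some _ _ h :
        (s41a_Wk A W).toAffine.Point) = 0)
    {P : (s41a_WK A W).toAffine.Point} (hP : p ^ n • P = 0) :
    fab_sigma σ (s41a_WK A W) hσW (fab_sigma σ (s41a_WK A W) hσW P)
      - t • fab_sigma σ (s41a_WK A W) hσW P + ℓ • P = 0 := by
  set S := fab_sigma σ (s41a_WK A W) hσW with hS
  by_cases hP0 : P = 0
  · rw [hP0, map_zero, map_zero, smul_zero, smul_zero, sub_zero, add_zero]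
  have hSP : p ^ n • S P = 0 := by rw [← map_nsmul, hP, map_zero]
  have hSSP : p ^ n • S (S P) = 0 := by rw [← map_nsmul, hSP, map_zero]
  have htSP : p ^ n • (t • S P) = 0 := by rw [smul_comm, hSP, smul_zero]
  have hlP : p ^ n • (ℓ • P) = 0 := by rw [smul_comm, hP, smul_zero]
  have h1 : p ^ n • (S (S P) - t • S P) = 0 := by rw [smul_sub, hSSP, htSP, sub_zero]
  have hX : p ^ n • (S (S P) - t • S P + ℓ • P) = 0 := by rw [smul_add, h1, hlP, add_zero]
  apply s58o_red_inj A W hp hp2 hvp n hX (by rw [smul_zero])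
  rw [s41a_red_zero, s58o_red_add A W hp hp2 hvp n h1 hlP,
    s58o_red_sub A W hp hp2 hvp n hSSP htSP, s58o_red_zsmul A W hp hp2 hvp n hSP,
    s58o_red_nsmul A W hp hp2 hvp n hP]
  rcases P with _ | ⟨x, y, h⟩
  · exact absurd rfl hP0
  have hx := s58o_tors_mem A W hp hp2 hvp n h hP
  obtain ⟨a, b, rfl, rfl⟩ := s41a_exists_coords A W h hx
  obtain ⟨k1, e1⟩ := s58o_red_sigma A W σ hσA hσres hσW h
  -- the point `S P` in coordinates
  have hns1 : (s41a_WK A W).toAffine.Nonsingular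
      (((⟨σ a, hσA _ a.2⟩ : A) : K)) (((⟨σ b, hσA _ b.2⟩ : A) : K)) :=
    hσW ▸ fab_map_nonsingular σ (s41a_WK A W) h
  have eSP : S (Point.some _ _ h) = Point.some _ _ hns1 := by
    rw [hS, fab_sigma_some]
  obtain ⟨k2, e2⟩ := s58o_red_sigma A W σ hσA hσres hσW hns1
  rw [eSP, e2, ← eSP, e1, s41a_red_some A W h]
  have k2' : (s41a_Wk A W).toAffine.Nonsingular ((residue A a ^ ℓ) ^ ℓ) ((residue A b ^ ℓ) ^ ℓ) := by
    rw [← hσres a (hσA _ a.2), ← hσres b (hσA _ b.2)]
    exact k2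
  have e3 : (Point.some _ _ k2 : (s41a_Wk A W).toAffine.Point) = Point.some _ _ k2' :=
    s41a_some_congr (by rw [hσres a (hσA _ a.2)]) (by rw [hσres b (hσA _ b.2)]) _ _
  rw [e3]
  exact hcore _ _ (s41a_red_nonsingular A W h.1) k1 k2'

end frobenius

end general

/-! ### The Galois frame -/

section galois

local notation "Kb" => AlgebraicClosure ℚ
local notation "Gal" => (AlgebraicClosure ℚ ≃ₐ[ℚ] AlgebraicClosure ℚ)

/-- **The core theorem of [EC-TOP], in the literal shape consumed by [RED]**: over an algebraically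
closed field `k` of characteristic `ℓ ∤ Δ(W)`, every affine point `T = (x, y)` of the reduction of
`W` satisfies `Fr² T − a_ℓ(W) Fr T + ℓ T = 0`, `Fr (x, y) = (x ^ ℓ, y ^ ℓ)`. -/
def s58o_FrobCore : Prop :=
  ∀ (W : WeierstrassCurve ℤ) (ℓ : ℕ), ℓ.Prime → ¬ (ℓ : ℤ) ∣ W.Δ →
    ∀ (k : Type) [Field k] [DecidableEq k] [IsAlgClosed k] [CharP k ℓ] (x y : k)
      (h : (W.map (Int.castRingHom k)).toAffine.Nonsingular x y)
      (h1 : (W.map (Int.castRingHom k)).toAffine.Nonsingular (x ^ ℓ) (y ^ ℓ))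
      (h2 : (W.map (Int.castRingHom k)).toAffine.Nonsingular ((x ^ ℓ) ^ ℓ) ((y ^ ℓ) ^ ℓ)),
      (Point.some _ _ h2 - W.apOfModel ℓ • Point.some _ _ h1 + ℓ • Point.some _ _ h :
        (W.map (Int.castRingHom k)).toAffine.Point) = 0

/-- the same core theorem in the `fab_sigma` form: `φ` the `ℓ`-power Frobenius of `k`. -/
def s58o_FrobCoreSigma : Prop :=
  ∀ (W : WeierstrassCurve ℤ) (ℓ : ℕ), ℓ.Prime → ¬ (ℓ : ℤ) ∣ W.Δ →
    ∀ (k : Type) [Field k] [DecidableEq k] [IsAlgClosed k] [CharP k ℓ] (φ : k →+* k),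
      (∀ a : k, φ a = a ^ ℓ) →
      ∀ (hW : (W.map (Int.castRingHom k)).map φ = W.map (Int.castRingHom k))
        (T : (W.map (Int.castRingHom k)).toAffine.Point),
        fab_sigma φ _ hW (fab_sigma φ _ hW T) - W.apOfModel ℓ • fab_sigma φ _ hW T + ℓ • T = 0

/-- the reduction of an integral model is stable under every ring endomorphism. -/
theorem s58o_map_int_map (W : WeierstrassCurve ℤ) {k : Type*} [CommRing k] (φ : k →+* k) :
    (W.map (Int.castRingHom k)).map φ = W.map (Int.castRingHom k) := by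
  rw [WeierstrassCurve.map_map]
  congr 1
  exact RingHom.ext_int _ _

theorem s58o_frobCore_of_sigma (hs : s58o_FrobCoreSigma) : s58o_FrobCore := by
  intro W ℓ hℓ hgood k _ _ _ _ x y hxy h1 h2
  have : ExpChar k ℓ := ExpChar.prime hℓ
  have hφ : ∀ a : k, frobenius k ℓ a = a ^ ℓ := fun a => frobenius_def ℓ a
  have hW := s58o_map_int_map W (frobenius k ℓ)
  have key := hs W ℓ hℓ hgood k (frobenius k ℓ) hφ hW (Point.some x y hxy)
  have e1 : fab_sigma (frobenius k ℓ) _ hW (Point.some x y hxy) =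
      Point.some (x ^ ℓ) (y ^ ℓ) h1 := by
    rw [fab_sigma_some]
    exact s41a_some_congr (hφ x) (hφ y) _ _
  have e2 : fab_sigma (frobenius k ℓ) _ hW (Point.some (x ^ ℓ) (y ^ ℓ) h1) =
      Point.some ((x ^ ℓ) ^ ℓ) ((y ^ ℓ) ^ ℓ) h2 := by
    rw [fab_sigma_some]
    exact s41a_some_congr (hφ _) (hφ _) _ _
  rw [e1, e2] at key
  exact key

/-- **[RED]** the quadratic relation of a Frobenius element on the `λⁿ`-torsion of `W(ℚ̄)` follows
from the core theorem on the special fibre. -/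
theorem s58o_ellFrob_of_core (hcore : s58o_FrobCore) : s58_EllFrob := by
  intro W ℓ hℓ hgood lam hlam hlam2 hlamℓ n A hA σ hσ P hP
  classical
  have hk : (s41a_Wk A (s41a_WA W A)).IsElliptic := s41a_Wk_isElliptic hℓ hA hgood
  have hvp : A.valuation (lam : Kb) = 1 :=
    s41a_valuation_natCast_eq_one A hℓ hA (fun h =>
      hlamℓ ((Nat.prime_dvd_prime_iff_eq hℓ hlam).mp h).symm)
  have : IsAlgClosed (ResidueField A) := s41a_isAlgClosed_residueField A
  have : CharP (ResidueField A) ℓ := s41a_charP_residueField A hℓ hA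
  have hC : (1 : VariableChange ℚ) • (W.map (Int.castRingHom ℚ)) = W.map (Int.castRingHom ℚ) :=
    one_smul _ _
  obtain ⟨P', rfl⟩ := (s41a_Phi (W.map (Int.castRingHom ℚ)) W A 1 hC).surjective P
  have hP' : lam ^ n • P' = 0 :=
    (s41a_Phi (W.map (Int.castRingHom ℚ)) W A 1 hC).injective (by rw [map_nsmul, hP, map_zero])
  have hc : ∀ (Wk : WeierstrassCurve (ResidueField A)),
      Wk = W.map (Int.castRingHom (ResidueField A)) →
      ∀ (x y : ResidueField A) (h : Wk.toAffine.Nonsingular x y)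
      (h1 : Wk.toAffine.Nonsingular (x ^ ℓ) (y ^ ℓ))
      (h2 : Wk.toAffine.Nonsingular ((x ^ ℓ) ^ ℓ) ((y ^ ℓ) ^ ℓ)),
      (Point.some _ _ h2 - W.apOfModel ℓ • Point.some _ _ h1 + ℓ • Point.some _ _ h :
        Wk.toAffine.Point) = 0 := by
    rintro _ rfl
    exact hcore W ℓ hℓ hgood (ResidueField A)
  have key := s58o_frob_rel A (s41a_WA W A) (σ : Kb →+* Kb)
    (fun a ha => s41a_frob_mem hσ a ha) (fun a h => s41a_frob_res hσ a h) (s41a_WK_map W A _)
    hlam hlam2 hvp n (W.apOfModel ℓ) (hc _ (s41a_Wk_eq W A)) hP'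
  rw [s41a_Phi_sigma, s41a_Phi_sigma, ← map_zsmul, ← map_nsmul, ← map_sub, ← map_add, key,
    map_zero]

/-- **[RED]**, `fab_sigma` form. -/
theorem s58o_ellFrob_of_coreSigma (hs : s58o_FrobCoreSigma) : s58_EllFrob :=
  s58o_ellFrob_of_core (s58o_frobCore_of_sigma hs)

end galois

end Fermat.Agent.Lib.S58
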