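/-
S58 wave, [FF]/[EVAL] (helper2, prefix `s58o_`): THE EVALUATION PRINCIPLE.

`k` a field, `E : WeierstrassCurve k`, `K := RatFunc k`,
`L := AdjoinRoot (E.toAffine.polynomial.map (algebraMap k[X] K))` the function field of `E`
(helper6's `s58g_L E`).  A polynomial `G ∈ k[X][Y]` whose image in `L` vanishes (`G(x, y) = 0` at the
generic point) is divisible by the Weierstrass polynomial, hence vanishes at every point
`(x₀, y₀)` of `E(k)`.

* `s58o_dvd_of_mk_eq_zero` : `AdjoinRoot.mk _ (G.map ι) = 0 → E.toAffine.polynomial ∣ G`;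
* `s58o_eval_eq_zero`      : `… → E.toAffine.Equation x₀ y₀ → G.evalEval x₀ y₀ = 0`.
-/
import Mathlib

set_option autoImplicit false
set_option linter.unusedSectionVars false

namespace Fermat.Agent.Lib.S58

open WeierstrassCurve Polynomial
open scoped Polynomial.Bivariate

section eval

variable {k : Type*} [Field k] (E : WeierstrassCurve k)

/-- a polynomial vanishing at the generic point is divisible by the Weierstrass polynomial. -/
theorem s58o_dvd_of_mk_eq_zero (G : k[X][Y])
    (hG : AdjoinRoot.mk (E.toAffine.polynomial.map (algebraMap k[X] (RatFunc k)))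
      (G.map (algebraMap k[X] (RatFunc k))) = 0) :
    E.toAffine.polynomial ∣ G := by
  have hm : E.toAffine.polynomial.Monic := Affine.monic_polynomial
  have hm' : (E.toAffine.polynomial.map (algebraMap k[X] (RatFunc k))).Monic := hm.map _
  rw [AdjoinRoot.mk_eq_zero] at hG
  have h1 : G.map (algebraMap k[X] (RatFunc k)) %ₘ
      E.toAffine.polynomial.map (algebraMap k[X] (RatFunc k)) = 0 :=
    (modByMonic_eq_zero_iff_dvd hm').mpr hG
  rw [← map_modByMonic _ hm] at h1
  have h2 : G %ₘ E.toAffine.polynomial = 0 := by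
    apply map_injective (algebraMap k[X] (RatFunc k)) (IsFractionRing.injective k[X] (RatFunc k))
    rw [h1, Polynomial.map_zero]
  exact (modByMonic_eq_zero_iff_dvd hm).mp h2

/-- **[EVAL]** -/
theorem s58o_eval_eq_zero (G : k[X][Y])
    (hG : AdjoinRoot.mk (E.toAffine.polynomial.map (algebraMap k[X] (RatFunc k)))
      (G.map (algebraMap k[X] (RatFunc k))) = 0)
    {x₀ y₀ : k} (h : E.toAffine.Equation x₀ y₀) : G.evalEval x₀ y₀ = 0 := by
  obtain ⟨Q, rfl⟩ := s58o_dvd_of_mk_eq_zero E G hG
  rw [evalEval_mul, (show E.toAffine.polynomial.evalEval x₀ y₀ = 0 from h), zero_mul]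

end eval

end Fermat.Agent.Lib.S58
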