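/-
S58 wave, [FF]/[SPEC] (helper2, prefix `s58o_`), FRAME-INDEPENDENT part: SPECIALISATION OF THE
ABSCISSA OF `P₀ − Fr P₀`.

`k` a field, `E : WeierstrassCurve k`, `L` a field which is a `k`-algebra, `(x, y)` a point of
`E(L)` (the generic point), `Fr` = coordinatewise `ℓ`-th power on `E(L)` and on `E(k)` (given as
`fab_sigma` of ring endomorphisms `φ` with `φ a = a ^ ℓ`).  Hypotheses:

* `EV` (the evaluation principle [EVAL]): a polynomial `G ∈ k[X][Y]` vanishing at `(x, y)` vanishes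
  at every `(x₀, y₀)` on `E(k)`;
* `P₀ − Fr P₀ = (ξ, _)` with `ξ · D(x) = N(x)`, `N D ∈ k[X]`.

Conclusion (`s58o_spec`): for every point `T = (x₀, y₀)` of `E(k)` with `x₀ ^ ℓ ≠ x₀` and `D(x₀) ≠ 0`,
`T − Fr T` is an affine point with abscissa `N(x₀) / D(x₀)`.
-/
import Mathlib
import Fermat.Agent.Lib.Frey.Abstract

set_option autoImplicit false
set_option linter.unusedSectionVars false

namespace Fermat.Agent.Lib.S58

open WeierstrassCurve WeierstrassCurve.Affine Fermat.Agent.Lib.Frey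
open Polynomial
open scoped Polynomial.Bivariate

/-! ### point arithmetic: the abscissa of a difference -/

section arith

variable {F : Type*} [Field F] [DecidableEq F] (V : WeierstrassCurve F)

theorem s58o_exists_some_of_eq {X₁ X₂ Y₁ : F} (H₁ : V.toAffine.Nonsingular X₁ Y₁) (e : X₁ = X₂) :
    ∃ (y'' : F) (h'' : V.toAffine.Nonsingular X₂ y''),
      (Point.some X₁ Y₁ H₁ : V.toAffine.Point) = Point.some X₂ y'' h'' := by
  subst e
  exact ⟨_, _, rfl⟩

/-- the abscissa of `P − Q` for `x(P) ≠ x(Q)`, denominators cleared: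
`x(P − Q) (x − x')² = m² + a₁ m (x − x') − (a₂ + x + x') (x − x')²`, `m = y + y' + a₁ x' + a₃`. -/
theorem s58o_sub_some {x y x' y' : F} (h : V.toAffine.Nonsingular x y)
    (h' : V.toAffine.Nonsingular x' y') (hx : x ≠ x') :
    ∃ (ξ y'' : F) (h'' : V.toAffine.Nonsingular ξ y''),
      (Point.some x y h - Point.some x' y' h' : V.toAffine.Point) = Point.some ξ y'' h'' ∧
      ξ * (x - x') ^ 2 = (y + y' + V.a₁ * x' + V.a₃) ^ 2
        + V.a₁ * (y + y' + V.a₁ * x' + V.a₃) * (x - x') - (V.a₂ + x + x') * (x - x') ^ 2 := by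
  have hxy : ¬(x = x' ∧ y = V.toAffine.negY x' (V.toAffine.negY x' y')) := fun hh => hx hh.1
  have e : (Point.some x y h - Point.some x' y' h' : V.toAffine.Point) =
      Point.some _ _ (nonsingular_add h ((nonsingular_neg ..).mpr h') hxy) := by
    rw [sub_eq_add_neg, Point.neg_some, Point.add_some hxy]
  refine ⟨_, _, _, e, ?_⟩
  have hd : x - x' ≠ 0 := sub_ne_zero.mpr hx
  rw [slope_of_X_ne hx]
  simp only [addX, negY]
  field_simp
  ring

end arith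

/-! ### the specialisation -/

section spec

variable {k L : Type*} [Field k] [Field L] [Algebra k L] [DecidableEq k] [DecidableEq L]
  (E : WeierstrassCurve k) (ℓ : ℕ)

/-- bivariate evaluation of `G ∈ k[X][Y]` at a pair of elements of the `k`-algebra `L`. -/
noncomputable def s58o_ev (x y : L) : k[X][Y] →+* L :=
  eval₂RingHom (eval₂RingHom (algebraMap k L) x) y

@[simp] theorem s58o_ev_Y (x y : L) : s58o_ev (k := k) x y Y = y := by
  simp [s58o_ev]

@[simp] theorem s58o_ev_C (x y : L) (p : k[X]) : s58o_ev x y (C p) = aeval x p := by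
  simp [s58o_ev, aeval_def]

/-- `m = Y + Y^ℓ + a₁ X^ℓ + a₃`. -/
noncomputable def s58o_specM : k[X][Y] := Y + Y ^ ℓ + C (C E.a₁ * X ^ ℓ + C E.a₃)

/-- `d = X − X^ℓ`. -/
noncomputable def s58o_specD : k[X][Y] := C (X - X ^ ℓ)

/-- the polynomial relation `D · (x(P − Fr P) (x − x^ℓ)²) − N (x − x^ℓ)² = 0`. -/
noncomputable def s58o_specPoly (N D : k[X]) : k[X][Y] :=
  C D * (s58o_specM E ℓ ^ 2 + C (C E.a₁) * s58o_specM E ℓ * s58o_specD ℓ
    - C (C E.a₂ + X + X ^ ℓ) * s58o_specD ℓ ^ 2) - C N * s58o_specD ℓ ^ 2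

theorem s58o_ev_specPoly (x y : L) (N D : k[X]) :
    s58o_ev x y (s58o_specPoly E ℓ N D) =
      aeval x D * ((y + y ^ ℓ + algebraMap k L E.a₁ * x ^ ℓ + algebraMap k L E.a₃) ^ 2
        + algebraMap k L E.a₁ * (y + y ^ ℓ + algebraMap k L E.a₁ * x ^ ℓ + algebraMap k L E.a₃)
          * (x - x ^ ℓ)
        - (algebraMap k L E.a₂ + x + x ^ ℓ) * (x - x ^ ℓ) ^ 2) - aeval x N * (x - x ^ ℓ) ^ 2 := by
  simp only [s58o_specPoly, s58o_specM, s58o_specD, map_sub, map_mul, map_add, map_pow,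
    s58o_ev_Y, s58o_ev_C, aeval_C, aeval_X]
  ring

theorem s58o_evalEval_specPoly (x₀ y₀ : k) (N D : k[X]) :
    (s58o_specPoly E ℓ N D).evalEval x₀ y₀ =
      D.eval x₀ * ((y₀ + y₀ ^ ℓ + E.a₁ * x₀ ^ ℓ + E.a₃) ^ 2
        + E.a₁ * (y₀ + y₀ ^ ℓ + E.a₁ * x₀ ^ ℓ + E.a₃) * (x₀ - x₀ ^ ℓ)
        - (E.a₂ + x₀ + x₀ ^ ℓ) * (x₀ - x₀ ^ ℓ) ^ 2) - N.eval x₀ * (x₀ - x₀ ^ ℓ) ^ 2 := by
  simp only [s58o_specPoly, s58o_specM, s58o_specD, evalEval_sub, evalEval_mul, evalEval_add,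
    evalEval_pow, evalEval_C, evalEval_X, eval_add, eval_sub, eval_mul, eval_pow, eval_C, eval_X]
  ring

variable (φk : k →+* k) (hφk : ∀ a : k, φk a = a ^ ℓ) (hWk : E.map φk = E)
  (φL : L →+* L) (hφL : ∀ a : L, φL a = a ^ ℓ)
  (hWL : (E.map (algebraMap k L)).map φL = E.map (algebraMap k L))

include hφk hφL in
/-- **[SPEC]** -/
theorem s58o_spec {x y : L} (h : (E.map (algebraMap k L)).toAffine.Nonsingular x y)
    (hx : x ^ ℓ ≠ x)
    (EV : ∀ G : k[X][Y], s58o_ev x y G = 0 →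
      ∀ x₀ y₀ : k, E.toAffine.Equation x₀ y₀ → G.evalEval x₀ y₀ = 0)
    (N D : k[X]) {ξ y' : L} {h' : (E.map (algebraMap k L)).toAffine.Nonsingular ξ y'}
    (hsub : Point.some x y h - fab_sigma φL _ hWL (Point.some x y h) = Point.some ξ y' h')
    (hξ : ξ * aeval x D = aeval x N)
    {x₀ y₀ : k} (h₀ : E.toAffine.Nonsingular x₀ y₀) (hx₀ : x₀ ^ ℓ ≠ x₀) (hD : D.eval x₀ ≠ 0) :
    ∃ (y₁ : k) (h₁ : E.toAffine.Nonsingular (N.eval x₀ / D.eval x₀) y₁),
      Point.some x₀ y₀ h₀ - fab_sigma φk E hWk (Point.some x₀ y₀ h₀) =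
        Point.some (N.eval x₀ / D.eval x₀) y₁ h₁ := by
  -- the relation in `L`
  have hG : s58o_ev x y (s58o_specPoly E ℓ N D) = 0 := by
    rw [fab_sigma_some] at hsub
    have hxφ : x ≠ φL x := by rw [hφL]; exact Ne.symm hx
    obtain ⟨ξ', y'', h'', e, hrel⟩ := s58o_sub_some (E.map (algebraMap k L)) h
      (hWL ▸ fab_map_nonsingular φL _ h :
        (E.map (algebraMap k L)).toAffine.Nonsingular (φL x) (φL y)) hxφ
    rw [hsub, Point.some.injEq] at e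
    obtain ⟨rfl, -⟩ := e
    simp only [map_a₁, map_a₂, map_a₃, hφL] at hrel
    rw [s58o_ev_specPoly, ← hrel, ← hξ]
    ring
  have h0 := EV _ hG x₀ y₀ h₀.1
  rw [s58o_evalEval_specPoly] at h0
  -- the difference downstairs
  rw [fab_sigma_some]
  have hxφ₀ : x₀ ≠ φk x₀ := by rw [hφk]; exact Ne.symm hx₀
  obtain ⟨ξ₀, y₁, h₁, e, hrel⟩ := s58o_sub_some E h₀
    (hWk ▸ fab_map_nonsingular φk _ h₀ : E.toAffine.Nonsingular (φk x₀) (φk y₀)) hxφ₀
  simp only [hφk] at hrel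
  have hd : (x₀ - x₀ ^ ℓ) ^ 2 ≠ 0 := pow_ne_zero 2 (sub_ne_zero.mpr (Ne.symm hx₀))
  have hξ₀ : ξ₀ = N.eval x₀ / D.eval x₀ := by
    rw [eq_div_iff hD]
    apply mul_right_cancel₀ hd
    linear_combination (D.eval x₀) * hrel + h0
  subst hξ₀
  exact ⟨y₁, h₁, e⟩

end spec

end Fermat.Agent.Lib.S58
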