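/-
S58 wave, [FF]/[EVAL]+[SPEC] (helper2, prefix `s58o_`), FUNCTION-FIELD form.

`k` a field, `E : WeierstrassCurve k`, `K := RatFunc k`,
`L := AdjoinRoot (E.toAffine.polynomial.map (algebraMap k[X] K))` (helper6's `s58g_L E`; a field as
soon as `Fact (Irreducible _)` is available), `x := AdjoinRoot.of _ RatFunc.X`
(`= algebraMap K L RatFunc.X`, helper6's `s58g_x E`), `y := AdjoinRoot.root _` (`s58g_y E`).

* `s58o_ev_adjoinRoot` : `s58o_ev x y G = AdjoinRoot.mk _ (G.map (algebraMap k[X] K))`;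
* `s58o_EV_adjoinRoot` : the evaluation principle `EV` of `OSpec.lean` holds for `(x, y)`;
* `s58o_aeval_algebraMap_X`, `s58o_ratFunc_mul_denom` : `r · D(x) = N(x)` in any `K`-algebra;
* `s58o_X_pow_ne` : `x ^ ℓ ≠ x` for `2 ≤ ℓ`;
* `s58o_spec_ff` : **[SPEC]**: if `P₀ − Fr P₀ = (algebraMap K L r, _)` at the generic point
  `P₀ = (x, y)` then for every `T = (x₀, y₀) ∈ E(k)` with `x₀ ^ ℓ ≠ x₀` and `r.denom(x₀) ≠ 0` the point
  `T − Fr T` is affine with abscissa `r.num(x₀) / r.denom(x₀)`;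
* `s58o_spec_finite` : the exceptional set `{x₀ | x₀ ^ ℓ = x₀ ∨ r.denom(x₀) = 0}` is finite.
-/
import Mathlib
import Fermat.Agent.Lib.S58.OSpec
import Fermat.Agent.Lib.S58.OEval

set_option autoImplicit false
set_option linter.unusedSectionVars false

namespace Fermat.Agent.Lib.S58

open WeierstrassCurve WeierstrassCurve.Affine Fermat.Agent.Lib.Frey
open Polynomial
open scoped Polynomial.Bivariate

/-! ### `r · D(x) = N(x)` in a `RatFunc k`-algebra -/

section ratfunc

variable {k L : Type*} [Field k] [Field L] [Algebra k L] [Algebra (RatFunc k) L]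
  [IsScalarTower k (RatFunc k) L]

theorem s58o_aeval_algebraMap_X (p : k[X]) :
    aeval (algebraMap (RatFunc k) L RatFunc.X) p =
      algebraMap (RatFunc k) L (algebraMap k[X] (RatFunc k) p) := by
  rw [aeval_algebraMap_apply, ← RatFunc.algebraMap_X, aeval_algebraMap_apply, aeval_X_left_apply]

theorem s58o_ratFunc_mul_denom (r : RatFunc k) :
    algebraMap (RatFunc k) L r * aeval (algebraMap (RatFunc k) L RatFunc.X) r.denom =
      aeval (algebraMap (RatFunc k) L RatFunc.X) r.num := by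
  rw [s58o_aeval_algebraMap_X, s58o_aeval_algebraMap_X, ← map_mul]
  congr 1
  have hd : algebraMap k[X] (RatFunc k) r.denom ≠ 0 := RatFunc.algebraMap_ne_zero r.denom_ne_zero
  have := RatFunc.num_div_denom r
  rw [div_eq_iff hd] at this
  exact this.symm

theorem s58o_X_pow_ne {ℓ : ℕ} (hℓ : 2 ≤ ℓ) :
    (algebraMap (RatFunc k) L RatFunc.X) ^ ℓ ≠ algebraMap (RatFunc k) L RatFunc.X := by
  rw [← map_pow]
  intro h
  have h1 := (algebraMap (RatFunc k) L).injective h
  rw [← RatFunc.algebraMap_X, ← map_pow] at h1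
  have h2 := IsFractionRing.injective k[X] (RatFunc k) h1
  have h3 := congrArg Polynomial.natDegree h2
  rw [natDegree_X_pow, natDegree_X] at h3
  omega

end ratfunc

/-! ### the exceptional set -/

section finite

variable {k : Type*} [Field k]

theorem s58o_spec_finite {ℓ : ℕ} (hℓ : 2 ≤ ℓ) (r : RatFunc k) :
    {x₀ : k | x₀ ^ ℓ = x₀ ∨ r.denom.eval x₀ = 0}.Finite := by
  have hp : (X ^ ℓ - X : k[X]) ≠ 0 := by
    intro h
    have h3 := congrArg Polynomial.natDegree (sub_eq_zero.mp h)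
    rw [natDegree_X_pow, natDegree_X] at h3
    omega
  have hq : (X ^ ℓ - X : k[X]) * r.denom ≠ 0 := mul_ne_zero hp r.denom_ne_zero
  refine Set.Finite.subset (Polynomial.rootSet_finite ((X ^ ℓ - X : k[X]) * r.denom) k) ?_
  intro x₀ hx₀
  rw [Polynomial.mem_rootSet]
  refine ⟨hq, ?_⟩
  rw [aeval_def, eval₂_mul, eval₂_sub, eval₂_pow, eval₂_X]
  rcases hx₀ with h | h
  · rw [h, sub_self, zero_mul]
  · rw [Algebra.algebraMap_self, eval₂_id, h, mul_zero]

end finite

/-! ### the function field -/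

section ff

variable {k : Type*} [Field k] (E : WeierstrassCurve k)
  [hirr : Fact (Irreducible (E.toAffine.polynomial.map (algebraMap k[X] (RatFunc k))))]

/-- bivariate evaluation at the generic point is the quotient map. -/
theorem s58o_ev_adjoinRoot (G : k[X][Y]) :
    s58o_ev (L := AdjoinRoot (E.toAffine.polynomial.map (algebraMap k[X] (RatFunc k))))
      (AdjoinRoot.of _ RatFunc.X) (AdjoinRoot.root _) G =
      AdjoinRoot.mk _ (G.map (algebraMap k[X] (RatFunc k))) := by
  have key : (s58o_ev (L := AdjoinRoot (E.toAffine.polynomial.map (algebraMap k[X] (RatFunc k))))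
      (AdjoinRoot.of _ RatFunc.X) (AdjoinRoot.root _)) =
      (AdjoinRoot.mk (E.toAffine.polynomial.map (algebraMap k[X] (RatFunc k)))).comp
        (mapRingHom (algebraMap k[X] (RatFunc k))) := by
    apply Polynomial.ringHom_ext'
    · apply Polynomial.ringHom_ext'
      · ext a
        simp only [s58o_ev, RingHom.comp_apply, coe_eval₂RingHom, eval₂_C, coe_mapRingHom,
          map_C, AdjoinRoot.mk_C, AdjoinRoot.algebraMap_eq', RatFunc.algebraMap_C]
        rfl
      · simp only [s58o_ev, RingHom.comp_apply, coe_eval₂RingHom, eval₂_C, eval₂_X,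
          coe_mapRingHom, map_C, AdjoinRoot.mk_C, RatFunc.algebraMap_X]
    · simp only [s58o_ev, RingHom.comp_apply, coe_eval₂RingHom, eval₂_X, coe_mapRingHom, map_X,
        AdjoinRoot.mk_X]
  rw [key]
  rfl

/-- **[EVAL]** in the shape consumed by `s58o_spec`. -/
theorem s58o_EV_adjoinRoot (G : k[X][Y])
    (hG : s58o_ev (L := AdjoinRoot (E.toAffine.polynomial.map (algebraMap k[X] (RatFunc k))))
      (AdjoinRoot.of _ RatFunc.X) (AdjoinRoot.root _) G = 0)
    (x₀ y₀ : k) (h : E.toAffine.Equation x₀ y₀) : G.evalEval x₀ y₀ = 0 := by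
  rw [s58o_ev_adjoinRoot] at hG
  exact s58o_eval_eq_zero E G hG h

variable [DecidableEq k]
  [DecidableEq (AdjoinRoot (E.toAffine.polynomial.map (algebraMap k[X] (RatFunc k))))]
  (ℓ : ℕ) (φk : k →+* k) (hφk : ∀ a : k, φk a = a ^ ℓ) (hWk : E.map φk = E)
  (φL : AdjoinRoot (E.toAffine.polynomial.map (algebraMap k[X] (RatFunc k))) →+*
    AdjoinRoot (E.toAffine.polynomial.map (algebraMap k[X] (RatFunc k))))
  (hφL : ∀ a, φL a = a ^ ℓ)
  (hWL : (E.map (algebraMap k
      (AdjoinRoot (E.toAffine.polynomial.map (algebraMap k[X] (RatFunc k)))))).map φL =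
    E.map (algebraMap k (AdjoinRoot (E.toAffine.polynomial.map (algebraMap k[X] (RatFunc k))))))

include hφk hφL in
/-- **[SPEC]** at the generic point of the function field. -/
theorem s58o_spec_ff (hℓ : 2 ≤ ℓ)
    (h : (E.map (algebraMap k
      (AdjoinRoot (E.toAffine.polynomial.map (algebraMap k[X] (RatFunc k)))))).toAffine.Nonsingular
        (AdjoinRoot.of _ RatFunc.X) (AdjoinRoot.root _))
    (r : RatFunc k)
    {y' : AdjoinRoot (E.toAffine.polynomial.map (algebraMap k[X] (RatFunc k)))}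
    {h' : (E.map (algebraMap k
      (AdjoinRoot (E.toAffine.polynomial.map (algebraMap k[X] (RatFunc k)))))).toAffine.Nonsingular
        (AdjoinRoot.of _ r) y'}
    (hsub : Point.some _ _ h - fab_sigma φL _ hWL (Point.some _ _ h) = Point.some _ y' h')
    {x₀ y₀ : k} (h₀ : E.toAffine.Nonsingular x₀ y₀) (hx₀ : x₀ ^ ℓ ≠ x₀)
    (hD : r.denom.eval x₀ ≠ 0) :
    ∃ (y₁ : k) (h₁ : E.toAffine.Nonsingular (r.num.eval x₀ / r.denom.eval x₀) y₁),
      Point.some x₀ y₀ h₀ - fab_sigma φk E hWk (Point.some x₀ y₀ h₀) =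
        Point.some (r.num.eval x₀ / r.denom.eval x₀) y₁ h₁ := by
  have hx : (AdjoinRoot.of (E.toAffine.polynomial.map (algebraMap k[X] (RatFunc k))) RatFunc.X) ^ ℓ
      ≠ AdjoinRoot.of _ RatFunc.X := by
    have := s58o_X_pow_ne (k := k)
      (L := AdjoinRoot (E.toAffine.polynomial.map (algebraMap k[X] (RatFunc k)))) hℓ
    rwa [AdjoinRoot.algebraMap_eq] at this
  have hξ : AdjoinRoot.of (E.toAffine.polynomial.map (algebraMap k[X] (RatFunc k))) r *
      aeval (AdjoinRoot.of _ RatFunc.X) r.denom = aeval (AdjoinRoot.of _ RatFunc.X) r.num := by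
    have := s58o_ratFunc_mul_denom (k := k)
      (L := AdjoinRoot (E.toAffine.polynomial.map (algebraMap k[X] (RatFunc k)))) r
    rwa [AdjoinRoot.algebraMap_eq] at this
  exact s58o_spec E ℓ φk hφk hWk φL hφL hWL h hx (s58o_EV_adjoinRoot E) r.num r.denom hsub hξ
    h₀ hx₀ hD

end ff

end Fermat.Agent.Lib.S58
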