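/-
S58 wave, [FF]/[SPEC] (helper2, prefix `s58o_`) IN helper6's FRAME (`GFFrame.lean`):
`L = s58g_L E`, generic point `s58g_P0 E = (s58g_x E, s58g_y E)`.

* `s58o_spec_frame` : if `P₀ − Fr_L P₀ = (algebraMap (RatFunc k) L r, _)` then for every
  `T = (x₀, y₀) ∈ E(k)` with `x₀ ^ ℓ ≠ x₀` and `r.denom(x₀) ≠ 0`:
  `T − Fr_k T = (r.num(x₀) / r.denom(x₀), _)`;
* `s58o_hpsi_frame` : the same in the literal shape of the hypothesis `hψ` of helper1's
  `s58x_card_ker`, for `ψ = id − Fr_k` and `B = {x₀ | x₀ ^ ℓ = x₀ ∨ r.denom(x₀) = 0}` (finite by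
  `s58o_spec_finite`).
-/
import Mathlib
import Fermat.Agent.Lib.S58.GFFrame
import Fermat.Agent.Lib.S58.OSpecFF

set_option autoImplicit false
set_option linter.unusedSectionVars false

namespace Fermat.Agent.Lib.S58

open WeierstrassCurve WeierstrassCurve.Affine Fermat.Agent.Lib.Frey
open Polynomial
open scoped Polynomial.Bivariate

section frame

variable {k : Type*} [Field k] [DecidableEq k] (E : WeierstrassCurve k) [E.IsElliptic]
  [DecidableEq (s58g_L E)]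
  (ℓ : ℕ) (φk : k →+* k) (hφk : ∀ a : k, φk a = a ^ ℓ) (hWk : E.map φk = E)
  (φL : s58g_L E →+* s58g_L E) (hφL : ∀ a, φL a = a ^ ℓ)
  (hWL : (E.baseChange (s58g_L E)).map φL = E.baseChange (s58g_L E))

include hφk hφL in
/-- **[SPEC]** in helper6's frame. -/
theorem s58o_spec_frame (hℓ : 2 ≤ ℓ) (r : RatFunc k) {y' : s58g_L E}
    {h' : (E.baseChange (s58g_L E)).toAffine.Nonsingular
      (algebraMap (RatFunc k) (s58g_L E) r) y'}
    (hsub : s58g_P0 E - fab_sigma φL (E.baseChange (s58g_L E)) hWL (s58g_P0 E) =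
      Point.some _ y' h')
    {x₀ y₀ : k} (h₀ : E.toAffine.Nonsingular x₀ y₀) (hx₀ : x₀ ^ ℓ ≠ x₀)
    (hD : r.denom.eval x₀ ≠ 0) :
    ∃ (y₁ : k) (h₁ : E.toAffine.Nonsingular (r.num.eval x₀ / r.denom.eval x₀) y₁),
      Point.some x₀ y₀ h₀ - fab_sigma φk E hWk (Point.some x₀ y₀ h₀) =
        Point.some (r.num.eval x₀ / r.denom.eval x₀) y₁ h₁ :=
  s58o_spec_ff E ℓ φk hφk hWk φL hφL hWL hℓ (s58g_nonsingular E) r hsub h₀ hx₀ hD

include hφk hφL in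
/-- the hypothesis `hψ` of `s58x_card_ker` for `ψ = id − Fr_k`. -/
theorem s58o_hpsi_frame (hℓ : 2 ≤ ℓ) (r : RatFunc k) {y' : s58g_L E}
    {h' : (E.baseChange (s58g_L E)).toAffine.Nonsingular
      (algebraMap (RatFunc k) (s58g_L E) r) y'}
    (hsub : s58g_P0 E - fab_sigma φL (E.baseChange (s58g_L E)) hWL (s58g_P0 E) =
      Point.some _ y' h') :
    ∀ (x₀ y₀ : k) (h : E.toAffine.Nonsingular x₀ y₀),
      x₀ ∉ {x₀ : k | x₀ ^ ℓ = x₀ ∨ r.denom.eval x₀ = 0} →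
      r.denom.eval x₀ ≠ 0 ∧ ∃ y₁ h₁,
        (AddMonoidHom.id E.toAffine.Point - fab_sigma φk E hWk) (Point.some x₀ y₀ h) =
          Point.some (r.num.eval x₀ / r.denom.eval x₀) y₁ h₁ := by
  intro x₀ y₀ h hx
  have hx : ¬(x₀ ^ ℓ = x₀ ∨ r.denom.eval x₀ = 0) := hx
  rw [not_or] at hx
  refine ⟨hx.2, ?_⟩
  rw [AddMonoidHom.sub_apply, AddMonoidHom.id_apply]
  exact s58o_spec_frame E ℓ φk hφk hWk φL hφL hWL hℓ r hsub h hx.1 hx.2

end frame

end Fermat.Agent.Lib.S58
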