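/-
S58 wave, EC-FROB, [EC-TOP] assembly (helper9, backup of helper3's AFrobTop): the core theorem
`s58o_FrobCore` — over an algebraically closed field `k` of characteristic `ℓ ∤ Δ(W)` every point
`T` of the reduction of `W` satisfies `Fr² T − a_ℓ(W) Fr T + ℓ T = 0`.

Assembly of: [HT] `s58f_main` (height theorem at the generic point), [CONST] `s58a_const_point`,
(T) `s58g_translation`, [SEP] `s58a_sep`, [SPEC] `s58o_spec_frame`, [COUNT]+dictionary
`s58a_trace_eq`.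
-/
import Mathlib
import Fermat.Agent.Lib.S58.FComp
import Fermat.Agent.Lib.S58.GFFTrans
import Fermat.Agent.Lib.S58.GFFFrob
import Fermat.Agent.Lib.S58.AFrobConst
import Fermat.Agent.Lib.S58.AFrobTrace
import Fermat.Agent.Lib.S58.AHtSep
import Fermat.Agent.Lib.S58.OSpecFrame
import Fermat.Agent.Lib.S58.ORed

set_option autoImplicit false
set_option linter.unusedSectionVars false

namespace Fermat.Agent.Lib.S58

open Polynomial WeierstrassCurve WeierstrassCurve.Affine Fermat.Agent.Lib.EN Fermat.Agent.Lib.Frey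

section general

variable {k : Type*} [Field k] [DecidableEq k] [IsAlgClosed k] (E : WeierstrassCurve k)
  [E.IsElliptic] [DecidableEq (s58g_L E)]

/-- a point of `Λ` of height `0` is a constant point. -/
theorem s58f_const_of_h_eq_zero {χ : ↥(s58l_LamFF E)} (h : s58a_h (s58l_xiFF E) χ = 0) :
    ∃ c : E.toAffine.Point, χ.1 = s58g_const E (s58g_L E) c := by
  by_cases hχ : χ = 0
  · refine ⟨0, ?_⟩
    rw [hχ, map_zero]
    rfl
  · rw [s58a_h_of_ne _ hχ] at h
    have h0 : ent_ht (s58l_xiFF E χ) = 0 := by exact_mod_cast h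
    obtain ⟨c₀, hc₀⟩ := (s58a_ht_eq_zero_iff _).mp h0
    obtain ⟨v, hv, e⟩ := s58l_hasXFF E hχ
    have hx : algebraMap (RatFunc k) (s58g_L E) (s58l_xiFF E χ) =
        algebraMap k (s58g_L E) c₀ := by
      rw [hc₀, s58g_algebraMap_C]
    obtain ⟨y₀, hy₀, hns⟩ := s58a_const_point E hv c₀ hx
    refine ⟨Point.some c₀ y₀ hns, ?_⟩
    rw [e, s58g_const_some, Point.some.injEq]
    exact ⟨hx, hy₀⟩

theorem s58f_X_ne_X_pow {ℓ : ℕ} (hℓ : 2 ≤ ℓ) : (RatFunc.X : RatFunc k) ≠ RatFunc.X ^ ℓ := by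
  intro h
  have h1 : algebraMap k[X] (RatFunc k) X = algebraMap k[X] (RatFunc k) (X ^ ℓ) := by
    rw [map_pow, RatFunc.algebraMap_X]
    exact h
  have h2 : (X : k[X]) = X ^ ℓ := IsFractionRing.injective k[X] (RatFunc k) h1
  have h3 := congrArg Polynomial.natDegree h2
  rw [natDegree_X, natDegree_X_pow] at h3
  omega

variable {ℓ : ℕ} (φk : k →+* k) (hφk : ∀ a, φk a = a ^ ℓ) (hWk : E.map φk = E)
  (φL : s58g_L E →+* s58g_L E) (hφL : ∀ z, φL z = z ^ ℓ)
  (hWL : (E.baseChange (s58g_L E)).map φL = E.baseChange (s58g_L E))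

include hφk hφL in
/-- **the core theorem, general frame**: there is an integer `t` with `ℓ − t Fr + Fr² = 0` on
`E(k)`, together with the data identifying `t`: the abscissa `r` of `P₀ − Fr P₀` has height
`1 + ℓ − t ≥ 1` and is a root of `Φ(Z; X, X^ℓ)`. -/
theorem s58f_core_general (hℓ : 2 ≤ ℓ) : ∃ t : ℤ,
    (∀ T : E.toAffine.Point, (ℓ : ℤ) • T + (-t) • fab_sigma φk E hWk T +
      (1 : ℤ) • fab_sigma φk E hWk (fab_sigma φk E hWk T) = 0) ∧
    ∃ r : RatFunc k, (ent_ht r : ℤ) = 1 + ℓ - t ∧ 1 ≤ ent_ht r ∧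
      ent_Phi E r (RatFunc.X : RatFunc k) (RatFunc.X ^ ℓ) = 0 ∧
      ∃ (y' : s58g_L E) (h' : (E.baseChange (s58g_L E)).toAffine.Nonsingular
          (algebraMap (RatFunc k) (s58g_L E) r) y'),
        s58g_P0 E - fab_sigma φL (E.baseChange (s58g_L E)) hWL (s58g_P0 E) =
          Point.some _ y' h' := by
  obtain ⟨t, -, hminus, h1, -, hχ⟩ := s58f_main E φL hφL hWL hℓ
  refine ⟨t, ?_, ?_⟩
  · -- the relation on `E(k)` by the translation trick
    obtain ⟨c, hc⟩ := s58f_const_of_h_eq_zero E hχ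
    intro T
    exact s58g_translation E ℓ φL hφL hWL φk hWk (s58g_pow_const E ℓ φk hφk φL hφL)
      (ℓ : ℤ) (-t) 1 c hc T
  · -- the abscissa of `P₀ − Fr P₀`
    set P₀ := s58l_P0 E with hP₀
    set Fr := s58l_FrFF E φL hφL hWL with hFr
    have hM0 : P₀ - Fr P₀ ≠ 0 := by
      intro h0
      rw [h0, s58a_h_zero] at hminus
      omega
    have hht : (ent_ht (s58l_xiFF E (P₀ - Fr P₀)) : ℤ) = 1 + ℓ - t := by
      rw [← s58a_h_of_ne (s58l_xiFF E) hM0]
      exact hminus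
    refine ⟨s58l_xiFF E (P₀ - Fr P₀), hht, by omega, ?_, ?_⟩
    · -- the `Φ`-relation
      have hFr0 : Fr P₀ ≠ 0 := s58l_FrFF_ne E φL hφL hWL (s58l_P0_ne E)
      have hξ0 : s58l_xiFF E P₀ = RatFunc.X := s58l_xi_P0 E
      have hξ1 : s58l_xiFF E (Fr P₀) = RatFunc.X ^ ℓ := by
        rw [hFr, s58l_xi_FrFF E φL hφL hWL (s58l_P0_ne E)]
        rw [s58l_xi_P0]
      have hne : s58l_xiFF E P₀ ≠ s58l_xiFF E (Fr P₀) := by
        rw [hξ0, hξ1]
        exact s58f_X_ne_X_pow hℓ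
      obtain ⟨-, -, hV, hW⟩ := (s58l_xLawsFF E).addsub P₀ (Fr P₀) (s58l_P0_ne E) hFr0 hne
      rw [hξ0, hξ1] at hV hW
      unfold ent_Phi
      linear_combination (s58l_xiFF E (P₀ - Fr P₀)) * hV - hW
    · -- the coordinates
      obtain ⟨y', h', e⟩ := s58l_hasXFF E hM0
      exact ⟨y', h', e⟩

end general

/-- **[EC-TOP] the core theorem, `fab_sigma` form.** -/
theorem s58f_frobCoreSigma : s58o_FrobCoreSigma := by
  intro W ℓ hℓ hgood k _ _ _ _ φ hφ hW T
  have : Fact ℓ.Prime := ⟨hℓ⟩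
  have : (W.map (Int.castRingHom k)).IsElliptic := s58g_isElliptic_of_not_dvd W ℓ hgood
  have : CharP (s58g_L (W.map (Int.castRingHom k))) ℓ := s58g_charP _ ℓ
  have hφL : ∀ z, s58g_frob ℓ (s58g_L (W.map (Int.castRingHom k))) hℓ z = z ^ ℓ :=
    s58g_frob_apply ℓ _ hℓ
  have hWL := s58g_baseChange_int_map W (k := k) (s58g_L (W.map (Int.castRingHom k)))
    (s58g_frob ℓ (s58g_L (W.map (Int.castRingHom k))) hℓ)
  obtain ⟨t, hrel, r, hht, h1, hΦ, y', h', hsub⟩ :=
    s58f_core_general (W.map (Int.castRingHom k)) φ hφ hW _ hφL hWL hℓ.two_le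
  have hr : ¬ ∃ c, r = RatFunc.C c := by
    intro hc
    have := (s58a_ht_eq_zero_iff r).mpr hc
    omega
  have hw := s58a_sep (W.map (Int.castRingHom k)) hℓ.ne_zero hr hΦ
  have ht : W.apOfModel ℓ = t :=
    s58a_trace_eq W ℓ k φ hφ hW r t hht h1 hw (fun x₀ y₀ h₀ hx hD =>
      s58o_spec_frame (W.map (Int.castRingHom k)) ℓ φ hφ hW _ hφL hWL hℓ.two_le r hsub h₀ hx hD)
  rw [ht]
  have key := hrel T
  rw [natCast_zsmul, neg_zsmul, one_zsmul] at key
  rw [← key]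
  abel

/-- **[EC-TOP] the core theorem**, literal shape consumed by [RED]. -/
theorem s58f_frobCore : s58o_FrobCore := s58o_frobCore_of_sigma s58f_frobCoreSigma

end Fermat.Agent.Lib.S58
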