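/-
S58 wave, leaf `s58_EllLevel` (helper2, prefix `s58o_`): THE `m`-TORSION OF `W(ℚ̄)` IS DEFINED OVER A
FINITE EXTENSION OF `ℚ`.

`W[m](ℚ̄)` is finite (`#W[m] = m²`, `Lib/EN/Torsion.lean`), every point has algebraic coordinates, so
`L := ℚ(coordinates of W[m])` is finite over `ℚ`, and an automorphism fixing `L` fixes `W[m]`
pointwise (general-`m` twin of `s41a_exists_field`, `Lib/S41/AGalois.lean`).
-/
import Fermat.Agent.Lib.S58.Iface
import Fermat.Agent.Lib.S41.AGalois

set_option autoImplicit false
set_option linter.unusedSectionVars false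
set_option linter.style.haveILetI false

noncomputable section

namespace Fermat.Agent.Lib.S58

open WeierstrassCurve WeierstrassCurve.Affine WeierstrassCurve.Affine.Point
open Fermat.Agent.Lib.EN Fermat.Agent.Lib.S41

local notation "Kb" => AlgebraicClosure ℚ

/-- the curve `W_ℚ` is elliptic when `Δ ≠ 0`. -/
theorem s58o_isElliptic (W : WeierstrassCurve ℤ) (hΔ : W.Δ ≠ 0) :
    (W.map (Int.castRingHom ℚ)).IsElliptic := by
  refine ⟨?_⟩
  rw [WeierstrassCurve.map_Δ]
  exact Ne.isUnit (fun h => hΔ (by
    have h' : ((W.Δ : ℤ) : ℚ) = 0 := h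
    exact_mod_cast h'))

/-- **`s58_EllLevel`.** -/
theorem s58o_ellLevel : s58_EllLevel := by
  intro W hΔ m hm
  haveI := s58o_isElliptic W hΔ
  set E : WeierstrassCurve ℚ := W.map (Int.castRingHom ℚ) with hE
  set T : Set (E.toAffine⁄Kb).Point := {P | m • P = 0} with hT
  have hTfin : T.Finite := by
    have hcard : Nat.card {P : (E.toAffine⁄Kb).Point // m • P = 0} = m ^ 2 :=
      ent_natCard_torsion (E.toAffine⁄Kb) m hm
    have : Finite {P : (E.toAffine⁄Kb).Point // m • P = 0} :=
      Nat.finite_of_card_ne_zero (by rw [hcard]; exact pow_ne_zero 2 hm.ne')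
    exact Set.finite_coe_iff.mp (show Finite ↥T from this)
  set S : Set Kb := s41a_cx '' T ∪ s41a_cy '' T with hS
  have hSfin : S.Finite := (hTfin.image _).union (hTfin.image _)
  refine ⟨IntermediateField.adjoin ℚ S, ?_, ?_⟩
  · have : Finite S := hSfin.to_subtype
    exact IntermediateField.finiteDimensional_adjoin fun x _ =>
      (Fermat.Agent.Lib.Frobenius.isAlgebraic_QBar.isAlgebraic x).isIntegral
  · intro σ hσ P hP
    have hv : (P : (E.toAffine⁄Kb).Point) ∈ T := hP
    rcases hPe : (P : (E.toAffine⁄Kb).Point) with _ | ⟨x, y, h⟩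
    · rfl
    · have hx : x ∈ IntermediateField.adjoin ℚ S := by
        apply IntermediateField.subset_adjoin
        refine Or.inl ⟨_, hv, ?_⟩
        rw [hPe]; rfl
      have hy : y ∈ IntermediateField.adjoin ℚ S := by
        apply IntermediateField.subset_adjoin
        refine Or.inr ⟨_, hv, ?_⟩
        rw [hPe]; rfl
      show Point.map σ.toAlgHom (Point.some x y h) = Point.some x y h
      rw [Point.map_some, Point.some.injEq]
      exact ⟨hσ x hx, hσ y hy⟩

end Fermat.Agent.Lib.S58
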