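/-
S58 wave, leaf `s58_EllExact` (helper2, prefix `s58o_`): `W(ℚ̄)` HAS POINTS OF EXACT ORDER `λ^(n+1)`.

`#W[λ^(n+1)] = λ^(2n+2) > λ^(2n) = #W[λ^n]` (`Lib/EN/Torsion.lean`), so some point killed by `λ^(n+1)`
is not killed by `λ^n`.
-/
import Fermat.Agent.Lib.S58.OLevel

set_option autoImplicit false
set_option linter.unusedSectionVars false
set_option linter.style.haveILetI false

noncomputable section

namespace Fermat.Agent.Lib.S58

open WeierstrassCurve WeierstrassCurve.Affine WeierstrassCurve.Affine.Point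
open Fermat.Agent.Lib.EN

local notation "Kb" => AlgebraicClosure ℚ

/-- **`s58_EllExact`.** -/
theorem s58o_ellExact : s58_EllExact := by
  intro W hΔ lam hlam n
  haveI := s58o_isElliptic W hΔ
  set E : WeierstrassCurve ℚ := W.map (Int.castRingHom ℚ) with hE
  by_contra hcon
  push Not at hcon
  -- every point killed by `λ^(n+1)` is killed by `λ^n`
  have hsub : ∀ P : (E.toAffine⁄Kb).Point, lam ^ (n + 1) • P = 0 → lam ^ n • P = 0 := hcon
  have hc1 : Nat.card {P : (E.toAffine⁄Kb).Point // lam ^ (n + 1) • P = 0} =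
      (lam ^ (n + 1)) ^ 2 :=
    ent_natCard_torsion (E.toAffine⁄Kb) (lam ^ (n + 1)) (Nat.one_le_pow _ _ hlam.pos)
  have hc0 : Nat.card {P : (E.toAffine⁄Kb).Point // lam ^ n • P = 0} = (lam ^ n) ^ 2 :=
    ent_natCard_torsion (E.toAffine⁄Kb) (lam ^ n) (Nat.one_le_pow _ _ hlam.pos)
  haveI : Finite {P : (E.toAffine⁄Kb).Point // lam ^ n • P = 0} :=
    Nat.finite_of_card_ne_zero (by rw [hc0]; exact pow_ne_zero 2 (pow_ne_zero n hlam.ne_zero))
  have hle : Nat.card {P : (E.toAffine⁄Kb).Point // lam ^ (n + 1) • P = 0} ≤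
      Nat.card {P : (E.toAffine⁄Kb).Point // lam ^ n • P = 0} :=
    Nat.card_le_card_of_injective (fun P => ⟨P.1, hsub P.1 P.2⟩)
      (fun P Q h => Subtype.ext (by
        have := congrArg Subtype.val h
        exact this))
  rw [hc1, hc0] at hle
  have hlt : (lam ^ n) ^ 2 < (lam ^ (n + 1)) ^ 2 :=
    Nat.pow_lt_pow_left (Nat.pow_lt_pow_right hlam.one_lt (Nat.lt_succ_self n)) (by norm_num)
  omega

end Fermat.Agent.Lib.S58
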