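/-
S58 wave: contract-closing theorem for `s58_EllUnram` (Iface v2): at a good prime `ℓ` (incl.
`ℓ = 2`), inertia acts trivially on the `λ`-power torsion (`λ` an odd prime `≠ ℓ`).
= `s58e_unramified_good` of `E1Inertia.lean`.
-/
import Mathlib
import Fermat.Agent.Lib.S58.Iface
import Fermat.Agent.Lib.S58.E1Inertia

set_option autoImplicit false

namespace Fermat.Agent.Lib.S58

/-- **`s58_EllUnram` closed.** -/
theorem s58e_ellUnram : s58_EllUnram := by
  intro W ℓ hℓ hgood lam hlam hlam2 hlamℓ n A hA τ hτ P hP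
  exact s58e_unramified_good hℓ hA hgood hlam hlam2 hlamℓ n hτ P hP

end Fermat.Agent.Lib.S58
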