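/-
S58 wave: contract-closing theorem for `s58_EllMultFix` (Iface v3): at a multiplicative prime `q`
of `W / ℤ` (`Δ ≠ 0`, `q ∣ Δ`, `q ∤ c₄`), for every odd prime `lam ≠ q` and every valuation subring
`A` of `ℚ̄` over `q` there is a point of `W(ℚ̄)` of exact order `lam^(n+1)` fixed by the inertia
group of `A`.  = `s58m_multFix_of_div` (MultFix.lean) + `s58d_E1_divisible` (GDiv.lean, helper6).
-/
import Mathlib
import Fermat.Agent.Lib.S58.Iface
import Fermat.Agent.Lib.S58.MultFix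
import Fermat.Agent.Lib.S58.GDiv

set_option autoImplicit false

namespace Fermat.Agent.Lib.S58

open WeierstrassCurve WeierstrassCurve.Affine Fermat.Agent.Lib.Frey Fermat.Agent.Lib.S41

local notation "Kb" => AlgebraicClosure ℚ

/-- **[MULT-FIX]**: an inertia-fixed point of exact order `lam^(n+1)` at a multiplicative prime. -/
theorem s58m_multFix (W : WeierstrassCurve ℤ) (hΔ : W.Δ ≠ 0) {q : ℕ} (hq : q.Prime)
    (hbad : (q : ℤ) ∣ W.Δ) (hc4 : ¬ (q : ℤ) ∣ W.c₄) {lam : ℕ} (hlam : lam.Prime)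
    (hlam2 : lam ≠ 2) (hlamq : lam ≠ q) (n : ℕ) (A : ValuationSubring Kb)
    (hA : A.LiesOverPrime q) :
    ∃ P₀ : (s58e_EK W).Point, lam ^ (n + 1) • P₀ = 0 ∧ lam ^ n • P₀ ≠ 0 ∧
      ∀ τ ∈ A.inertiaSubgroupIn ℚ, τ • P₀ = P₀ := by
  classical
  have hW := s58e_integral W A
  obtain ⟨hb2, hb4, hb6, hb8⟩ := s58e_b_integral A.valuation (s58e_EK W) hW
  have hΔK : (s58e_EK W).Δ ≠ 0 := by
    rw [s58e_EK_Δ]
    exact_mod_cast hΔ
  have hvp : A.valuation (((lam ^ (n + 1) : ℕ)) : Kb) = 1 :=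
    s41a_valuation_natCast_eq_one A hq hA (fun hd =>
      hlamq ((Nat.prime_dvd_prime_iff_eq hq hlam).mp (hq.dvd_of_dvd_pow hd)).symm)
  refine s58m_multFix_of_div hq hA hbad hc4 hlam hlam2 hlamq n ?_
  intro Q hQ
  exact s58d_E1_divisible (s58e_EK W) A.valuation hb2 hb4 hb6 hb8 hΔK
    (pow_pos hlam.pos (n + 1)) hvp hQ

/-- **`s58_EllMultFix` closed.** -/
theorem s58m_ellMultFix : s58_EllMultFix := by
  intro W hΔ q hq hbad hc4 lam hlam hlam2 hlamq n A hA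
  exact s58m_multFix W hΔ hq hbad hc4 hlam hlam2 hlamq n A hA

end Fermat.Agent.Lib.S58
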