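/-
S58 wave, EC-FROB, [EC-TOP] part 2 (helper3): instantiation of the abstract height theorem at the
function field `L = s58g_L E` (helper6's frame) with `(Λ, ξ)` of helper4's `LLambdaFF`:
the `Φ`-relation for `r⁻ = ξ (P₀ − Fr P₀)`, the identification of the trace `t = a_ℓ(W)`, and the
constancy of `χ = ℓ P₀ − t Fr P₀ + Fr² P₀`.
-/
import Fermat.Agent.Lib.S58.LLambdaFF
import Fermat.Agent.Lib.S58.GFFSubst
import Fermat.Agent.Lib.S58.OSpecFrame
import Fermat.Agent.Lib.S58.AHtMain2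
import Fermat.Agent.Lib.S58.AHtSep
import Fermat.Agent.Lib.S58.AFrobConst
import Fermat.Agent.Lib.S58.AFrobTrace

set_option autoImplicit false
set_option linter.unusedSectionVars false

namespace Fermat.Agent.Lib.S58

open Polynomial WeierstrassCurve WeierstrassCurve.Affine Fermat.Agent.Lib.EN
  Fermat.Agent.Lib.Frey

section frame

variable {k : Type*} [Field k] (E : WeierstrassCurve k) [E.IsElliptic]
  [DecidableEq (s58g_L E)]
  {ℓ : ℕ} (φL : s58g_L E →+* s58g_L E) (hφL : ∀ a, φL a = a ^ ℓ)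
  (hφE : (E.baseChange (s58g_L E)).map φL = E.baseChange (s58g_L E))

/-- `X ≠ X ^ ℓ` in `k(X)`. -/
theorem s58a_X_ne_pow (hℓ : 2 ≤ ℓ) : (RatFunc.X : RatFunc k) ≠ RatFunc.X ^ ℓ := by
  intro h
  have h1 : ent_ht (RatFunc.X : RatFunc k) = ent_ht ((RatFunc.X : RatFunc k) ^ ℓ) := by rw [← h]
  rw [s58a_ht_pow, ent_ht_X] at h1
  omega

/-- the `Φ`-relation for `r⁻ = ξ (P₀ − Fr P₀)`. -/
theorem s58a_phi_rel (hℓ : 2 ≤ ℓ) :
    ent_Phi E (s58l_xiFF E (s58l_P0 E - s58l_FrFF E φL hφL hφE (s58l_P0 E)))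
      (RatFunc.X : RatFunc k) (RatFunc.X ^ ℓ) = 0 := by
  have L := s58l_xLawsFF E
  have h0 := s58l_P0_ne E
  have h1 := s58l_FrFF_ne E φL hφL hφE h0
  have hx : s58l_xiFF E (s58l_P0 E) ≠ s58l_xiFF E (s58l_FrFF E φL hφL hφE (s58l_P0 E)) := by
    rw [s58l_xi_FrFF E φL hφL hφE h0, s58l_xi_P0]
    exact s58a_X_ne_pow hℓ
  obtain ⟨-, -, hs, hp⟩ := L.addsub _ _ h0 h1 hx
  rw [s58l_xi_FrFF E φL hφL hφE h0, s58l_xi_P0] at hs hp
  unfold ent_Phi
  linear_combination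
    (s58l_xiFF E (s58l_P0 E - s58l_FrFF E φL hφL hφE (s58l_P0 E))) * hs - hp

/-- a point of `Λ` of height `0` is a constant point. -/
theorem s58a_const_of_h_zero [IsAlgClosed k] [DecidableEq k] {χ : ↥(s58l_LamFF E)}
    (h : s58a_h (s58l_xiFF E) χ = 0) :
    ∃ T₀ : E.toAffine.Point, χ.1 = s58g_const E (s58g_L E) T₀ := by
  by_cases hχ : χ = 0
  · refine ⟨0, ?_⟩
    rw [hχ, map_zero]
    rfl
  · rw [s58a_h_of_ne _ hχ] at h
    have h' : ent_ht (s58l_xiFF E χ) = 0 := by exact_mod_cast h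
    obtain ⟨c, hc⟩ := (s58a_ht_eq_zero_iff _).mp h'
    obtain ⟨y, hy, e⟩ := s58l_hasXFF E hχ
    have hx : algebraMap (RatFunc k) (s58g_L E) (s58l_xiFF E χ) = algebraMap k (s58g_L E) c := by
      rw [hc, s58g_algebraMap_C]
    obtain ⟨y₀, hy₀, hns⟩ := s58a_const_point E hy c hx
    refine ⟨Point.some c y₀ hns, ?_⟩
    rw [e, s58g_const_some, Point.some.injEq]
    exact ⟨hx, hy₀⟩

end frame

section coreE

variable {k : Type*} [Field k] [DecidableEq k] [IsAlgClosed k] (E : WeierstrassCurve k)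
  [E.IsElliptic] [DecidableEq (s58g_L E)] {ℓ : ℕ} (hℓ : ℓ.Prime) [CharP k ℓ]
  (φk : k →+* k) (hφk : ∀ a, φk a = a ^ ℓ) (hWk : E.map φk = E)
  (φL : s58g_L E →+* s58g_L E) (hφL : ∀ a, φL a = a ^ ℓ)
  (hφE : (E.baseChange (s58g_L E)).map φL = E.baseChange (s58g_L E))

include hℓ hφk in
/-- **[EC-TOP] core over a general `E`, modulo the composition identity `hcomp` and the
translation trick `hT`.** -/
theorem s58a_core_E
    (hcomp : ∀ hs : ¬ ∃ c, s58l_xiFF E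
        (s58l_P0 E + s58l_FrFF E φL hφL hφE (s58l_P0 E)) = RatFunc.C c,
      s58l_P0 E + s58l_FrFF E φL hφL hφE (s58l_P0 E) ≠ 0 →
      s58l_P0 E + s58l_FrFF E φL hφL hφE (s58l_P0 E) +
        (s58l_FrFF E φL hφL hφE (s58l_P0 E) +
          s58l_FrFF E φL hφL hφE (s58l_FrFF E φL hφL hφE (s58l_P0 E))) ≠ 0 ∧
      s58l_xiFF E
        (s58l_P0 E + s58l_FrFF E φL hφL hφE (s58l_P0 E) +
          (s58l_FrFF E φL hφL hφE (s58l_P0 E) +
            s58l_FrFF E φL hφL hφE (s58l_FrFF E φL hφL hφE (s58l_P0 E)))) =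
        s58a_comp (s58l_xiFF E (s58l_P0 E + s58l_FrFF E φL hφL hφE (s58l_P0 E))) hs
          (s58l_xiFF E (s58l_P0 E + s58l_FrFF E φL hφL hφE (s58l_P0 E))))
    (hT : ∀ t : ℤ, (∃ T₀ : E.toAffine.Point,
        fab_sigma φL _ hφE (fab_sigma φL _ hφE (s58g_P0 E)) -
          t • fab_sigma φL _ hφE (s58g_P0 E) + (ℓ : ℤ) • s58g_P0 E =
        s58g_const E (s58g_L E) T₀) →
      ∀ T : E.toAffine.Point,
        fab_sigma φk _ hWk (fab_sigma φk _ hWk T) - t • fab_sigma φk _ hWk T + (ℓ : ℤ) • T = 0) :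
    ∃ (t : ℤ) (r : RatFunc k), (ent_ht r : ℤ) = 1 + ℓ - t ∧ 1 ≤ ent_ht r ∧
      derivative r.num * r.denom - r.num * derivative r.denom ≠ 0 ∧
      (∀ (x₀ y₀ : k) (h₀ : E.toAffine.Nonsingular x₀ y₀), x₀ ^ ℓ ≠ x₀ → r.denom.eval x₀ ≠ 0 →
        ∃ (y₁ : k) (h₁ : E.toAffine.Nonsingular (r.num.eval x₀ / r.denom.eval x₀) y₁),
          Point.some x₀ y₀ h₀ - fab_sigma φk E hWk (Point.some x₀ y₀ h₀) =
            Point.some (r.num.eval x₀ / r.denom.eval x₀) y₁ h₁) ∧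
      ∀ T : E.toAffine.Point,
        fab_sigma φk _ hWk (fab_sigma φk _ hWk T) - t • fab_sigma φk _ hWk T + (ℓ : ℤ) • T = 0 := by
  have hℓ2 : 2 ≤ ℓ := hℓ.two_le
  obtain ⟨t, -, hminus, hge1, -, hχ⟩ := s58a_main2 E (s58l_xLawsFF E) hℓ2 (s58l_P0_ne E)
    (s58l_xi_P0 E) (s58l_FrFF E φL hφL hφE) (fun P hP => s58l_FrFF_ne E φL hφL hφE hP)
    (fun P hP => s58l_xi_FrFF E φL hφL hφE hP) hcomp
  have hM0 : s58l_P0 E - s58l_FrFF E φL hφL hφE (s58l_P0 E) ≠ 0 :=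
    s58a_ne_zero_of_h_pos (s58l_xiFF E) (by rw [hminus]; linarith)
  have hht : (ent_ht (s58l_xiFF E (s58l_P0 E - s58l_FrFF E φL hφL hφE (s58l_P0 E))) : ℤ) =
      1 + ℓ - t := by
    rw [← s58a_h_of_ne (s58l_xiFF E) hM0]
    exact hminus
  have h1 : 1 ≤ ent_ht (s58l_xiFF E (s58l_P0 E - s58l_FrFF E φL hφL hφE (s58l_P0 E))) := by
    have : (1 : ℤ) ≤ ent_ht (s58l_xiFF E (s58l_P0 E - s58l_FrFF E φL hφL hφE (s58l_P0 E))) := by
      rw [hht]; exact hge1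
    exact_mod_cast this
  have hrnc : ¬ ∃ c, s58l_xiFF E (s58l_P0 E - s58l_FrFF E φL hφL hφE (s58l_P0 E)) =
      RatFunc.C c := by
    intro hc
    have := (s58a_ht_eq_zero_iff _).mpr hc
    omega
  have hw := s58a_sep E (ℓ := ℓ) hℓ.ne_zero hrnc (s58a_phi_rel E φL hφL hφE hℓ2)
  obtain ⟨y', h', hsub⟩ := s58l_hasXFF E hM0
  have hsub' : s58g_P0 E - fab_sigma φL (E.baseChange (s58g_L E)) hφE (s58g_P0 E) =
      Point.some _ y' h' := by
    rw [← hsub, AddSubgroup.coe_sub, s58l_FrFF_coe, s58l_P0_coe]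
  refine ⟨t, _, hht, h1, hw, ?_, ?_⟩
  · intro x₀ y₀ h₀ hx₀ hD
    exact s58o_spec_frame E ℓ φk hφk hWk φL hφL hφE hℓ2 _ hsub' h₀ hx₀ hD
  · obtain ⟨T₀, hT₀⟩ := s58a_const_of_h_zero E hχ
    refine hT t ⟨T₀, ?_⟩
    rw [← hT₀, AddSubgroup.coe_add, AddSubgroup.coe_add, AddSubgroup.coe_zsmul,
      AddSubgroup.coe_zsmul, AddSubgroup.coe_zsmul, one_smul, neg_smul]
    simp only [s58l_FrFF_coe, s58l_P0_coe]
    abel

end coreE

section core

variable (W : WeierstrassCurve ℤ) {ℓ : ℕ} (hℓ : ℓ.Prime) (hgood : ¬ (ℓ : ℤ) ∣ W.Δ)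
  (k : Type*) [Field k] [DecidableEq k] [IsAlgClosed k] [CharP k ℓ]

include hgood in
/-- good reduction: the reduction over `k` is elliptic. -/
theorem s58a_isElliptic : (W.map (Int.castRingHom k)).IsElliptic := by
  refine ⟨?_⟩
  rw [WeierstrassCurve.map_Δ, isUnit_iff_ne_zero]
  intro h0
  apply hgood
  have : ((W.Δ : ℤ) : k) = 0 := h0
  exact (CharP.intCast_eq_zero_iff k ℓ W.Δ).mp this

include hℓ in
/-- **[EC-TOP] core in the `W`-frame, modulo `hcomp` and `hT`.** -/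
theorem s58a_core_aux [(W.map (Int.castRingHom k)).IsElliptic]
    [DecidableEq (s58g_L (W.map (Int.castRingHom k)))]
    (φk : k →+* k) (hφk : ∀ a, φk a = a ^ ℓ)
    (hWk : (W.map (Int.castRingHom k)).map φk = W.map (Int.castRingHom k))
    (φL : s58g_L (W.map (Int.castRingHom k)) →+* s58g_L (W.map (Int.castRingHom k)))
    (hφL : ∀ a, φL a = a ^ ℓ)
    (hφE : ((W.map (Int.castRingHom k)).baseChange (s58g_L (W.map (Int.castRingHom k)))).map φL =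
      (W.map (Int.castRingHom k)).baseChange (s58g_L (W.map (Int.castRingHom k))))
    (hcomp : ∀ hs : ¬ ∃ c, s58l_xiFF (W.map (Int.castRingHom k))
        (s58l_P0 _ + s58l_FrFF _ φL hφL hφE (s58l_P0 _)) = RatFunc.C c,
      s58l_P0 _ + s58l_FrFF _ φL hφL hφE (s58l_P0 _) ≠ 0 →
      s58l_P0 _ + s58l_FrFF _ φL hφL hφE (s58l_P0 _) +
        (s58l_FrFF _ φL hφL hφE (s58l_P0 _) +
          s58l_FrFF _ φL hφL hφE (s58l_FrFF _ φL hφL hφE (s58l_P0 _))) ≠ 0 ∧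
      s58l_xiFF (W.map (Int.castRingHom k))
        (s58l_P0 _ + s58l_FrFF _ φL hφL hφE (s58l_P0 _) +
          (s58l_FrFF _ φL hφL hφE (s58l_P0 _) +
            s58l_FrFF _ φL hφL hφE (s58l_FrFF _ φL hφL hφE (s58l_P0 _)))) =
        s58a_comp (s58l_xiFF (W.map (Int.castRingHom k))
          (s58l_P0 _ + s58l_FrFF _ φL hφL hφE (s58l_P0 _))) hs
          (s58l_xiFF (W.map (Int.castRingHom k))
            (s58l_P0 _ + s58l_FrFF _ φL hφL hφE (s58l_P0 _))))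
    (hT : ∀ t : ℤ, (∃ T₀ : (W.map (Int.castRingHom k)).toAffine.Point,
        fab_sigma φL _ hφE (fab_sigma φL _ hφE (s58g_P0 (W.map (Int.castRingHom k)))) -
          t • fab_sigma φL _ hφE (s58g_P0 (W.map (Int.castRingHom k))) +
          (ℓ : ℤ) • s58g_P0 (W.map (Int.castRingHom k)) =
        s58g_const (W.map (Int.castRingHom k)) (s58g_L (W.map (Int.castRingHom k))) T₀) →
      ∀ T : (W.map (Int.castRingHom k)).toAffine.Point,
        fab_sigma φk _ hWk (fab_sigma φk _ hWk T) - t • fab_sigma φk _ hWk T + (ℓ : ℤ) • T = 0)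
    (T : (W.map (Int.castRingHom k)).toAffine.Point) :
    fab_sigma φk _ hWk (fab_sigma φk _ hWk T) - W.apOfModel ℓ • fab_sigma φk _ hWk T + ℓ • T = 0 := by
  have : Fact ℓ.Prime := ⟨hℓ⟩
  obtain ⟨t, r, hht, h1, hw, hspec, hrel⟩ :=
    s58a_core_E (W.map (Int.castRingHom k)) hℓ φk hφk hWk φL hφL hφE hcomp hT
  have hap : W.apOfModel ℓ = t := s58a_trace_eq W ℓ k φk hφk hWk r t hht h1 hw hspec
  rw [hap, ← hrel T]
  congr 1

end core

end Fermat.Agent.Lib.S58
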