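/-
S58 wave, EC-FROB, leaf [FF] (helper9), part 1: the function field `L = k(x)[y]/(Weierstrass)` of
a Weierstrass curve `E` over a field `k`, as `AdjoinRoot` over `RatFunc k`; the generic point
`P₀ = (x, y)`; `x` is transcendental; constants (elements of `L` algebraic over an algebraically
closed `k` lie in `k`); the representation `u + v • y` of the elements of `L`; the conjugation
`ι : y ↦ -y - a₁ x - a₃` and its fixed field `k(x)`.
-/
import Mathlib
import Fermat.Agent.Lib.Frey.Abstract

set_option autoImplicit false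

namespace Fermat.Agent.Lib.S58

open Polynomial WeierstrassCurve WeierstrassCurve.Affine Fermat.Agent.Lib.Frey

open scoped Polynomial.Bivariate

variable {k : Type*} [Field k] (E : WeierstrassCurve k)

/-- the Weierstrass polynomial of `E`, as a polynomial in `Y` over `k(X)`. -/
noncomputable def s58f_pol : (RatFunc k)[X] :=
  E.toAffine.polynomial.map (algebraMap k[X] (RatFunc k))

theorem s58f_pol_monic : (s58f_pol E).Monic := (monic_polynomial (W := E.toAffine)).map _

theorem s58f_pol_natDegree : (s58f_pol E).natDegree = 2 := by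
  rw [s58f_pol, (monic_polynomial (W := E.toAffine)).natDegree_map, natDegree_polynomial]

theorem s58f_pol_irreducible : Irreducible (s58f_pol E) :=
  ((monic_polynomial (W := E.toAffine)).irreducible_iff_irreducible_map_fraction_map).mp
    (irreducible_polynomial (W := E.toAffine))

instance s58f_fact_irreducible : Fact (Irreducible (s58f_pol E)) := ⟨s58f_pol_irreducible E⟩

/-- the function field of `E`. -/
abbrev s58f_L : Type _ := AdjoinRoot (s58f_pol E)

/-- the function `x`. -/
noncomputable def s58f_x : s58f_L E := algebraMap (RatFunc k) (s58f_L E) RatFunc.X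

/-- the function `y`. -/
noncomputable def s58f_y : s58f_L E := AdjoinRoot.root (s58f_pol E)

/-- evaluation of the Weierstrass polynomial over `k(X)` along a ring hom. -/
theorem s58f_pol_eval₂ {A : Type*} [CommRing A] (i : RatFunc k →+* A) (b : A) :
    (s58f_pol E).eval₂ i b =
      b ^ 2 + (i (RatFunc.C E.a₁) * i RatFunc.X + i (RatFunc.C E.a₃)) * b -
        (i RatFunc.X ^ 3 + i (RatFunc.C E.a₂) * i RatFunc.X ^ 2 + i (RatFunc.C E.a₄) * i RatFunc.X
          + i (RatFunc.C E.a₆)) := by
  simp only [s58f_pol, Affine.polynomial, eval₂_map, eval₂_sub, eval₂_add, eval₂_mul, eval₂_pow,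
    eval₂_X, eval₂_C, RingHom.comp_apply, map_add, map_mul, map_pow, RatFunc.algebraMap_X,
    RatFunc.algebraMap_C]

theorem s58f_algebraMap_C (c : k) :
    algebraMap (RatFunc k) (s58f_L E) (RatFunc.C c) = algebraMap k (s58f_L E) c := by
  rw [IsScalarTower.algebraMap_apply k (RatFunc k) (s58f_L E), RatFunc.algebraMap_eq_C]

/-- the Weierstrass equation of the generic point. -/
theorem s58f_generic_eqn :
    s58f_y E ^ 2 + algebraMap k (s58f_L E) E.a₁ * s58f_x E * s58f_y E +
        algebraMap k (s58f_L E) E.a₃ * s58f_y E =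
      s58f_x E ^ 3 + algebraMap k (s58f_L E) E.a₂ * s58f_x E ^ 2 +
        algebraMap k (s58f_L E) E.a₄ * s58f_x E + algebraMap k (s58f_L E) E.a₆ := by
  have h := AdjoinRoot.eval₂_root (s58f_pol E)
  rw [s58f_pol_eval₂] at h
  simp only [← AdjoinRoot.algebraMap_eq, s58f_algebraMap_C] at h
  unfold s58f_x s58f_y
  linear_combination h

/-- the curve over the function field. -/
noncomputable abbrev s58f_EL : WeierstrassCurve (s58f_L E) := E.map (algebraMap k (s58f_L E))

theorem s58f_generic_equation : (s58f_EL E).toAffine.Equation (s58f_x E) (s58f_y E) := by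
  rw [Affine.equation_iff]
  simpa using s58f_generic_eqn E

theorem s58f_generic_nonsingular [E.IsElliptic] :
    (s58f_EL E).toAffine.Nonsingular (s58f_x E) (s58f_y E) :=
  (equation_iff_nonsingular (W := (s58f_EL E).toAffine)).mp (s58f_generic_equation E)

/-- the points of `E` over its function field. -/
abbrev s58f_G : Type _ := (s58f_EL E).toAffine.Point

/-- the generic point `P₀ = (x, y)`. -/
noncomputable def s58f_P0 [E.IsElliptic] : s58f_G E :=
  Point.some (s58f_x E) (s58f_y E) (s58f_generic_nonsingular E)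

theorem s58f_algebraMap_K_injective :
    Function.Injective (algebraMap (RatFunc k) (s58f_L E)) :=
  (algebraMap (RatFunc k) (s58f_L E)).injective

theorem s58f_algebraMap_k_injective : Function.Injective (algebraMap k (s58f_L E)) :=
  (algebraMap k (s58f_L E)).injective

/-- `x` is transcendental over `k`. -/
theorem s58f_x_transcendental : Transcendental k (s58f_x E) := by
  unfold s58f_x
  rw [transcendental_algebraMap_iff (s58f_algebraMap_K_injective E)]
  exact RatFunc.transcendental_X

/-- over an algebraically closed field `k`, the elements of `L` algebraic over `k` are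
constants. -/
theorem s58f_mem_range_of_isAlgebraic [IsAlgClosed k] {a : s58f_L E} (ha : IsAlgebraic k a) :
    ∃ c : k, algebraMap k (s58f_L E) c = a := by
  have hint : IsIntegral k a := ha.isIntegral
  have h1 : (minpoly k a).degree = 1 :=
    IsAlgClosed.degree_eq_one_of_irreducible k (minpoly.irreducible hint)
  exact minpoly.mem_range_of_degree_eq_one k a h1

/-- non-constant elements of `L` are transcendental over the algebraically closed `k`. -/
theorem s58f_transcendental_of_not_mem [IsAlgClosed k] {a : s58f_L E}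
    (ha : ¬ ∃ c : k, algebraMap k (s58f_L E) c = a) : Transcendental k a := fun h =>
  ha (s58f_mem_range_of_isAlgebraic E h)

/-- every element of `L` is `u + v * y` with `u, v ∈ k(x)`. -/
theorem s58f_exists_repr (a : s58f_L E) : ∃ u v : RatFunc k,
    a = algebraMap (RatFunc k) (s58f_L E) u + algebraMap (RatFunc k) (s58f_L E) v * s58f_y E := by
  obtain ⟨g, rfl⟩ := AdjoinRoot.mk_surjective (g := s58f_pol E) a
  have hm := s58f_pol_monic E
  have hdeg : (g %ₘ s58f_pol E).natDegree ≤ 1 := by
    have := natDegree_modByMonic_lt g hm (by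
      intro h1; have := s58f_pol_natDegree E; rw [h1, natDegree_one] at this; omega)
    rw [s58f_pol_natDegree] at this; omega
  obtain ⟨v, u, huv⟩ := exists_eq_X_add_C_of_natDegree_le_one hdeg
  refine ⟨u, v, ?_⟩
  have h1 : AdjoinRoot.mk (s58f_pol E) g = AdjoinRoot.mk (s58f_pol E) (g %ₘ s58f_pol E) := by
    rw [AdjoinRoot.mk_eq_mk]
    exact ⟨g /ₘ s58f_pol E, by rw [sub_eq_iff_eq_add, add_comm]; exact (modByMonic_add_div g _).symm⟩
  rw [h1, huv, map_add, map_mul, AdjoinRoot.mk_C, AdjoinRoot.mk_C, AdjoinRoot.mk_X, add_comm]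
  rfl

/-- `1, y` are linearly independent over `k(x)`. -/
theorem s58f_repr_eq_zero {u v : RatFunc k}
    (h : algebraMap (RatFunc k) (s58f_L E) u + algebraMap (RatFunc k) (s58f_L E) v * s58f_y E = 0) :
    u = 0 ∧ v = 0 := by
  have h1 : AdjoinRoot.mk (s58f_pol E) (C v * X + C u) = 0 := by
    rw [map_add, map_mul, AdjoinRoot.mk_C, AdjoinRoot.mk_C, AdjoinRoot.mk_X, add_comm]
    exact h
  by_contra hne
  have hne' : C v * X + C u ≠ (0 : (RatFunc k)[X]) := by
    intro h0
    apply hne
    have hv : v = 0 := by simpa using congrArg (fun p => coeff p 1) h0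
    have hu : u = 0 := by simpa [hv] using congrArg (fun p => coeff p 0) h0
    exact ⟨hu, hv⟩
  refine AdjoinRoot.mk_ne_zero_of_natDegree_lt (s58f_pol_monic E) hne' ?_ h1
  rw [s58f_pol_natDegree]
  exact lt_of_le_of_lt (natDegree_linear_le) (by norm_num)

/-- the conjugate `-y - a₁ x - a₃` of `y`. -/
noncomputable def s58f_ybar : s58f_L E :=
  -s58f_y E - algebraMap k (s58f_L E) E.a₁ * s58f_x E - algebraMap k (s58f_L E) E.a₃

/-- the conjugation of `L` over `k(x)`. -/
noncomputable def s58f_iota : s58f_L E →ₐ[RatFunc k] s58f_L E :=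
  AdjoinRoot.liftAlgHom (s58f_pol E) (Algebra.ofId (RatFunc k) (s58f_L E)) (s58f_ybar E) (by
    have h := s58f_pol_eval₂ E (Algebra.ofId (RatFunc k) (s58f_L E) : RatFunc k →+* s58f_L E)
      (s58f_ybar E)
    rw [h]
    simp only [RingHom.coe_coe, Algebra.ofId_apply, s58f_algebraMap_C]
    have e := s58f_generic_eqn E
    unfold s58f_ybar
    unfold s58f_x at e ⊢
    linear_combination e)

theorem s58f_iota_y : s58f_iota E (s58f_y E) = s58f_ybar E := by
  unfold s58f_iota s58f_y
  rw [AdjoinRoot.liftAlgHom_root]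

theorem s58f_iota_K (r : RatFunc k) :
    s58f_iota E (algebraMap (RatFunc k) (s58f_L E) r) = algebraMap (RatFunc k) (s58f_L E) r :=
  (s58f_iota E).commutes r

theorem s58f_iota_k (c : k) :
    s58f_iota E (algebraMap k (s58f_L E) c) = algebraMap k (s58f_L E) c := by
  rw [IsScalarTower.algebraMap_apply k (RatFunc k) (s58f_L E), s58f_iota_K]

theorem s58f_iota_x : s58f_iota E (s58f_x E) = s58f_x E := s58f_iota_K E _

/-- `2 y + a₁ x + a₃ ≠ 0` on an elliptic curve (also in characteristic `2`). -/
theorem s58f_two_y_ne_zero [E.IsElliptic] : s58f_y E - s58f_ybar E ≠ 0 := by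
  intro h
  have h' : algebraMap (RatFunc k) (s58f_L E) (RatFunc.C E.a₁ * RatFunc.X + RatFunc.C E.a₃) +
      algebraMap (RatFunc k) (s58f_L E) 2 * s58f_y E = 0 := by
    rw [map_add, map_mul, s58f_algebraMap_C, s58f_algebraMap_C, map_ofNat]
    unfold s58f_ybar s58f_x at h
    linear_combination h
  obtain ⟨h1, h2⟩ := s58f_repr_eq_zero E h'
  have h2k : (2 : k) = 0 := by
    have : RatFunc.C (2 : k) = 0 := by rw [map_ofNat]; exact h2
    exact (map_eq_zero _).mp this
  have h1' : algebraMap k[X] (RatFunc k) (C E.a₁ * X + C E.a₃) = 0 := by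
    rw [map_add, map_mul, RatFunc.algebraMap_C, RatFunc.algebraMap_C, RatFunc.algebraMap_X]
    exact h1
  have h1'' : C E.a₁ * X + C E.a₃ = (0 : k[X]) :=
    (map_eq_zero_iff _ (IsFractionRing.injective k[X] (RatFunc k))).mp h1'
  have ha1 : E.a₁ = 0 := by simpa using congrArg (fun p => coeff p 1) h1''
  have ha3 : E.a₃ = 0 := by simpa [ha1] using congrArg (fun p => coeff p 0) h1''
  have hΔ : E.Δ = 0 := by
    simp only [WeierstrassCurve.Δ, WeierstrassCurve.b₂, WeierstrassCurve.b₄, WeierstrassCurve.b₆,
      WeierstrassCurve.b₈, ha1, ha3]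
    linear_combination (-8 * E.a₂ ^ 2 * (4 * E.a₂ * E.a₆ - E.a₄ ^ 2) - 32 * E.a₄ ^ 3
      - 216 * E.a₆ ^ 2 + 144 * E.a₂ * E.a₄ * E.a₆) * h2k
  exact E.isUnit_Δ.ne_zero hΔ

/-- the fixed field of the conjugation is `k(x)`. -/
theorem s58f_mem_K_of_iota_eq [E.IsElliptic] {a : s58f_L E} (ha : s58f_iota E a = a) :
    ∃ r : RatFunc k, algebraMap (RatFunc k) (s58f_L E) r = a := by
  obtain ⟨u, v, rfl⟩ := s58f_exists_repr E a
  rw [map_add, map_mul, s58f_iota_K, s58f_iota_K, s58f_iota_y] at ha
  have h1 : algebraMap (RatFunc k) (s58f_L E) v * (s58f_y E - s58f_ybar E) = 0 := by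
    linear_combination -ha
  rcases mul_eq_zero.mp h1 with h2 | h2
  · refine ⟨u, ?_⟩
    rw [h2, zero_mul, add_zero]
  · exact absurd h2 (s58f_two_y_ne_zero E)

/-! ### Substitution homomorphisms -/

section subst

variable {E}
variable {a b : s58f_L E}

/-- the substitution `k(x) → L`, `x ↦ a`, for a transcendental `a`. -/
noncomputable def s58f_substK (ha : Transcendental k a) : RatFunc k →ₐ[k] s58f_L E :=
  RatFunc.liftAlgHom (Polynomial.aeval a)
    (nonZeroDivisors_le_comap_nonZeroDivisors_of_injective _
      (transcendental_iff_injective.mp ha))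

theorem s58f_substK_algebraMap (ha : Transcendental k a) (p : k[X]) :
    s58f_substK ha (algebraMap k[X] (RatFunc k) p) = Polynomial.aeval a p := by
  have := RatFunc.liftAlgHom_apply_div (Polynomial.aeval a)
    (nonZeroDivisors_le_comap_nonZeroDivisors_of_injective _
      (transcendental_iff_injective.mp ha)) p 1
  simpa [s58f_substK] using this

theorem s58f_substK_X (ha : Transcendental k a) : s58f_substK ha RatFunc.X = a := by
  rw [← RatFunc.algebraMap_X, s58f_substK_algebraMap, aeval_X]

theorem s58f_substK_C (ha : Transcendental k a) (c : k) :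
    s58f_substK ha (RatFunc.C c) = algebraMap k (s58f_L E) c := by
  rw [← RatFunc.algebraMap_C, s58f_substK_algebraMap, aeval_C]

theorem s58f_substK_apply (ha : Transcendental k a) (r : RatFunc k) :
    s58f_substK ha r = Polynomial.aeval a r.num / Polynomial.aeval a r.denom := by
  conv_lhs => rw [← RatFunc.num_div_denom r]
  rw [map_div₀, s58f_substK_algebraMap, s58f_substK_algebraMap]

/-- the substitution `L → L`, `(x, y) ↦ (a, b)`, for a point `(a, b)` of the curve with
transcendental `a`. -/
noncomputable def s58f_subst (ha : Transcendental k a)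
    (hab : (s58f_EL E).toAffine.Equation a b) : s58f_L E →ₐ[k] s58f_L E :=
  AdjoinRoot.liftAlgHom (s58f_pol E) (s58f_substK ha) b (by
    have h := s58f_pol_eval₂ E (s58f_substK ha : RatFunc k →+* s58f_L E) b
    rw [h]
    simp only [RingHom.coe_coe, s58f_substK_C, s58f_substK_X]
    rw [Affine.equation_iff] at hab
    simp only [WeierstrassCurve.map_a₁, WeierstrassCurve.map_a₂, WeierstrassCurve.map_a₃,
      WeierstrassCurve.map_a₄, WeierstrassCurve.map_a₆] at hab
    linear_combination hab)

theorem s58f_subst_y (ha : Transcendental k a) (hab : (s58f_EL E).toAffine.Equation a b) :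
    s58f_subst ha hab (s58f_y E) = b := by
  unfold s58f_subst s58f_y
  rw [AdjoinRoot.liftAlgHom_root]

theorem s58f_subst_K (ha : Transcendental k a) (hab : (s58f_EL E).toAffine.Equation a b)
    (r : RatFunc k) :
    s58f_subst ha hab (algebraMap (RatFunc k) (s58f_L E) r) = s58f_substK ha r := by
  unfold s58f_subst
  rw [AdjoinRoot.algebraMap_eq, AdjoinRoot.liftAlgHom_of]

theorem s58f_subst_x (ha : Transcendental k a) (hab : (s58f_EL E).toAffine.Equation a b) :
    s58f_subst ha hab (s58f_x E) = a := by
  unfold s58f_x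
  rw [s58f_subst_K, s58f_substK_X]

theorem s58f_subst_k (ha : Transcendental k a) (hab : (s58f_EL E).toAffine.Equation a b)
    (c : k) : s58f_subst ha hab (algebraMap k (s58f_L E) c) = algebraMap k (s58f_L E) c :=
  (s58f_subst ha hab).commutes c

end subst

/-! ### [EVAL]: polynomial identities at the generic point specialise to every point -/

theorem s58f_aevalAeval_eq (G : k[X][Y]) :
    Polynomial.aevalAeval (s58f_x E) (s58f_y E) G =
      AdjoinRoot.mk (s58f_pol E) (G.map (algebraMap k[X] (RatFunc k))) := by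
  have h : ((Polynomial.aevalAeval (s58f_x E) (s58f_y E) : k[X][Y] →ₐ[k] s58f_L E) :
      k[X][Y] →+* s58f_L E) =
      (AdjoinRoot.mk (s58f_pol E)).comp (Polynomial.mapRingHom (algebraMap k[X] (RatFunc k))) := by
    refine Polynomial.ringHom_ext' (Polynomial.ringHom_ext' ?_ ?_) ?_
    · ext c
      simp only [RingHom.comp_apply, RingHom.coe_coe, Polynomial.aevalAeval_C, aeval_C,
        Polynomial.coe_mapRingHom, Polynomial.map_C, AdjoinRoot.mk_C, RatFunc.algebraMap_C]
      rw [← AdjoinRoot.algebraMap_eq, s58f_algebraMap_C]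
    · simp only [RingHom.comp_apply, RingHom.coe_coe, Polynomial.aevalAeval_C, aeval_X,
        Polynomial.coe_mapRingHom, Polynomial.map_C, AdjoinRoot.mk_C, RatFunc.algebraMap_X]
      rfl
    · simp only [RingHom.comp_apply, RingHom.coe_coe, Polynomial.aevalAeval_Y,
        Polynomial.coe_mapRingHom, Polynomial.map_X, AdjoinRoot.mk_X]
      rfl
  exact congrArg (fun f : k[X][Y] →+* s58f_L E => f G) h

/-- **[EVAL]**: a bivariate polynomial over `k` vanishing at the generic point is divisible by
the Weierstrass polynomial. -/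
theorem s58f_dvd_of_aevalAeval_eq_zero {G : k[X][Y]}
    (hG : Polynomial.aevalAeval (s58f_x E) (s58f_y E) G = 0) : E.toAffine.polynomial ∣ G := by
  rw [s58f_aevalAeval_eq, AdjoinRoot.mk_eq_zero, s58f_pol] at hG
  exact (Polynomial.map_dvd_map _ (IsFractionRing.injective k[X] (RatFunc k))
    (monic_polynomial (W := E.toAffine))).mp hG

/-- **[EVAL]**: a bivariate polynomial over `k` vanishing at the generic point vanishes at
every point of the curve. -/
theorem s58f_evalEval_eq_zero {G : k[X][Y]}
    (hG : Polynomial.aevalAeval (s58f_x E) (s58f_y E) G = 0) {x₀ y₀ : k}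
    (h : E.toAffine.Equation x₀ y₀) : G.evalEval x₀ y₀ = 0 := by
  obtain ⟨q, rfl⟩ := s58f_dvd_of_aevalAeval_eq_zero E hG
  rw [Polynomial.evalEval_mul]
  have : E.toAffine.polynomial.evalEval x₀ y₀ = 0 := h
  rw [this, zero_mul]

end Fermat.Agent.Lib.S58
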