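/-
S58 wave, EC-FROB (helper6): the QUADRATIC RELATION of the Frobenius on `E(k)`.
`s58f_main` (heights at the generic point: `h(ℓ P₀ - t Fr P₀ + Fr² P₀) = 0`) + "height zero ⇒
constant point" + the translation trick `s58g_translation` ⇒
`∃ t, h(P₀ - Fr P₀) = 1 + ℓ - t ≥ 1 ∧ ∀ T ∈ E(k), Fr² T - t Fr T + ℓ T = 0`.
-/
import Mathlib
import Fermat.Agent.Lib.S58.FComp
import Fermat.Agent.Lib.S58.GFFTrans
import Fermat.Agent.Lib.S58.GFFFrob
import Fermat.Agent.Lib.S58.LLambdaFF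

set_option autoImplicit false
set_option linter.unusedSectionVars false

namespace Fermat.Agent.Lib.S58

open Polynomial WeierstrassCurve WeierstrassCurve.Affine Fermat.Agent.Lib.Frey Fermat.Agent.Lib.EN

variable {k : Type*} [Field k] [DecidableEq k] [IsAlgClosed k] (E : WeierstrassCurve k)
  [E.IsElliptic] [DecidableEq (s58g_L E)]

/-- a point of `Λ` of height zero is a constant point. -/
theorem s58g_const_of_h_eq_zero (χ : ↥(s58l_LamFF E))
    (h0 : s58a_h (s58l_xiFF E) χ = 0) :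
    ∃ c : E.toAffine.Point, χ.1 = s58g_const E (s58g_L E) c := by
  by_cases hχ : χ = 0
  · refine ⟨0, ?_⟩
    rw [hχ, map_zero]
    rfl
  · rw [s58a_h_of_ne _ hχ] at h0
    have h1 : ent_ht (s58l_xiFF E χ) = 0 := by exact_mod_cast h0
    obtain ⟨c₀, hc₀⟩ := (s58a_ht_eq_zero_iff _).mp h1
    obtain ⟨y, hy, e⟩ := s58l_hasXFF E hχ
    have hx : algebraMap (RatFunc k) (s58g_L E) (s58l_xiFF E χ) =
        algebraMap k (s58g_L E) c₀ := by
      rw [hc₀, s58g_algebraMap_C]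
    obtain ⟨y₀, hy₀, hns⟩ := s58a_const_point E (L := s58g_L E) hy c₀ hx
    refine ⟨Point.some c₀ y₀ hns, ?_⟩
    rw [e, s58g_const_some, Point.some.injEq]
    exact ⟨hx, hy₀⟩

/-- **the quadratic relation of the Frobenius on `E(k)`**, with `t` tied to the height of
`P₀ - Fr P₀`. -/
theorem s58g_frob_rel {ℓ : ℕ} (hℓ : 2 ≤ ℓ) (φL : s58g_L E →+* s58g_L E)
    (hφL : ∀ z, φL z = z ^ ℓ)
    (hL : (E.baseChange (s58g_L E)).map φL = E.baseChange (s58g_L E))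
    (φk : k →+* k) (hφk : ∀ a, φk a = a ^ ℓ) (hk : E.map φk = E) :
    ∃ t : ℤ, s58a_h (s58l_xiFF E) (s58l_P0 E - s58l_FrFF E φL hφL hL (s58l_P0 E)) = 1 + ℓ - t ∧
      1 ≤ 1 + (ℓ : ℤ) - t ∧
      ∀ T : E.toAffine.Point,
        fab_sigma φk E hk (fab_sigma φk E hk T) - t • fab_sigma φk E hk T + (ℓ : ℤ) • T = 0 := by
  obtain ⟨t, -, h2, h3, -, h5⟩ := s58f_main E φL hφL hL hℓ
  refine ⟨t, h2, h3, ?_⟩
  obtain ⟨c, hc⟩ := s58g_const_of_h_eq_zero E _ h5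
  intro T
  have hχ : (ℓ : ℤ) • s58g_P0 E + (-t) • fab_sigma φL (E.baseChange (s58g_L E)) hL (s58g_P0 E) +
      (1 : ℤ) • fab_sigma φL (E.baseChange (s58g_L E)) hL
        (fab_sigma φL (E.baseChange (s58g_L E)) hL (s58g_P0 E)) = s58g_const E (s58g_L E) c := by
    rw [← hc]
    simp only [AddSubgroup.coe_add, AddSubgroup.coe_zsmul, s58l_FrFF_coe, s58l_P0_coe]
  have key := s58g_translation E ℓ φL hφL hL φk hk (s58g_pow_const E ℓ φk hφk φL hφL)
    (ℓ : ℤ) (-t) 1 c hχ T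
  rw [← key]
  rw [one_zsmul, neg_zsmul]
  abel

end Fermat.Agent.Lib.S58
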