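/-
S58 wave, EC-FROB (helper6): the CORE THEOREM `s58o_FrobCoreSigma` / `s58o_FrobCore`.
`s58g_frob_rel` (quadratic relation with `t` tied to `h(P₀ - Fr P₀)`) + identification
`t = a_ℓ(W)` (`s58a_trace_eq`: COUNT + dictionary; separability `s58a_sep` from the `Φ`-relation of
the x-only laws; specialisation `s58o_spec_frame`).
-/
import Mathlib
import Fermat.Agent.Lib.S58.GFFRel
import Fermat.Agent.Lib.S58.AFrobTrace
import Fermat.Agent.Lib.S58.AHtSep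
import Fermat.Agent.Lib.S58.OSpecFrame
import Fermat.Agent.Lib.S58.ORed

set_option autoImplicit false
set_option linter.unusedSectionVars false

namespace Fermat.Agent.Lib.S58

open Polynomial WeierstrassCurve WeierstrassCurve.Affine Fermat.Agent.Lib.Frey Fermat.Agent.Lib.EN

section phi

variable {k : Type*} [Field k] (E : WeierstrassCurve k) [E.IsElliptic] [DecidableEq (s58g_L E)]
  {ℓ : ℕ} (φ : s58g_L E →+* s58g_L E) (hφ : ∀ z, φ z = z ^ ℓ)
  (hφE : (E.baseChange (s58g_L E)).map φ = E.baseChange (s58g_L E))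

/-- `X ≠ X ^ ℓ` in `k(X)` for `ℓ ≥ 2`. -/
theorem s58g_X_ne_X_pow (hℓ : 2 ≤ ℓ) : (RatFunc.X : RatFunc k) ≠ RatFunc.X ^ ℓ := by
  intro h
  have h1 : (X : k[X]) = X ^ ℓ := by
    apply RatFunc.algebraMap_injective k
    rw [map_pow, RatFunc.algebraMap_X]
    exact h
  have := congrArg Polynomial.natDegree h1
  rw [natDegree_X, natDegree_X_pow] at this
  omega

/-- the `Φ`-relation for `r = ξ (P₀ - Fr P₀)`. -/
theorem s58g_Phi_rel (hℓ : 2 ≤ ℓ) :
    ent_Phi E (s58l_xiFF E (s58l_P0 E - s58l_FrFF E φ hφ hφE (s58l_P0 E)))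
      (RatFunc.X : RatFunc k) (RatFunc.X ^ ℓ) = 0 := by
  have hne : s58l_xiFF E (s58l_P0 E) ≠ s58l_xiFF E (s58l_FrFF E φ hφ hφE (s58l_P0 E)) := by
    rw [s58l_xi_FrFF E φ hφ hφE (s58l_P0_ne E), s58l_xi_P0]
    exact s58g_X_ne_X_pow hℓ
  obtain ⟨-, -, h3, h4⟩ := (s58l_xLawsFF E).addsub (s58l_P0 E) (s58l_FrFF E φ hφ hφE (s58l_P0 E))
    (s58l_P0_ne E) (s58l_FrFF_ne E φ hφ hφE (s58l_P0_ne E)) hne
  rw [s58l_xi_FrFF E φ hφ hφE (s58l_P0_ne E), s58l_xi_P0] at h3 h4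
  unfold ent_Phi
  linear_combination
    (s58l_xiFF E (s58l_P0 E - s58l_FrFF E φ hφ hφE (s58l_P0 E))) * h3 - h4

end phi

/-- the core theorem for a general `E`, with the trace identification as a hypothesis. -/
theorem s58g_core_aux {k : Type*} [Field k] [DecidableEq k] [IsAlgClosed k]
    (E : WeierstrassCurve k) [E.IsElliptic] [DecidableEq (s58g_L E)] {ℓ : ℕ} (hℓ : ℓ.Prime)
    [CharP k ℓ] (φ : k →+* k) (hφ : ∀ a, φ a = a ^ ℓ) (hW : E.map φ = E)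
    (φL : s58g_L E →+* s58g_L E) (hφL : ∀ z, φL z = z ^ ℓ)
    (hL : (E.baseChange (s58g_L E)).map φL = E.baseChange (s58g_L E)) (a : ℤ)
    (htrace : ∀ (r : RatFunc k) (t : ℤ), (ent_ht r : ℤ) = 1 + ℓ - t → 1 ≤ ent_ht r →
      derivative r.num * r.denom - r.num * derivative r.denom ≠ 0 →
      (∀ (x₀ y₀ : k) (h₀ : E.toAffine.Nonsingular x₀ y₀), x₀ ^ ℓ ≠ x₀ → r.denom.eval x₀ ≠ 0 →
        ∃ (y₁ : k) (h₁ : E.toAffine.Nonsingular (r.num.eval x₀ / r.denom.eval x₀) y₁),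
          Point.some x₀ y₀ h₀ - fab_sigma φ E hW (Point.some x₀ y₀ h₀) =
            Point.some (r.num.eval x₀ / r.denom.eval x₀) y₁ h₁) → a = t)
    (T : E.toAffine.Point) :
    fab_sigma φ E hW (fab_sigma φ E hW T) - a • fab_sigma φ E hW T + (ℓ : ℤ) • T = 0 := by
  obtain ⟨t, h1, h2, hrel⟩ := s58g_frob_rel E hℓ.two_le φL hφL hL φ hφ hW
  have hD0 : s58l_P0 E - s58l_FrFF E φL hφL hL (s58l_P0 E) ≠ 0 := by
    intro h0
    rw [h0, s58a_h_zero] at h1
    omega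
  rw [s58a_h_of_ne _ hD0] at h1
  have hht1 : 1 ≤ ent_ht (s58l_xiFF E (s58l_P0 E - s58l_FrFF E φL hφL hL (s58l_P0 E))) := by
    have : (1 : ℤ) ≤
        (ent_ht (s58l_xiFF E (s58l_P0 E - s58l_FrFF E φL hφL hL (s58l_P0 E))) : ℤ) := by
      rw [h1]; exact h2
    exact_mod_cast this
  have hrc : ¬ ∃ c, s58l_xiFF E (s58l_P0 E - s58l_FrFF E φL hφL hL (s58l_P0 E)) =
      RatFunc.C c := by
    intro hc
    have := (s58a_ht_eq_zero_iff _).mpr hc
    omega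
  have hw := s58a_sep E hℓ.ne_zero hrc (s58g_Phi_rel E φL hφL hL hℓ.two_le)
  obtain ⟨y', h', e'⟩ := s58l_hasXFF E hD0
  have hsub : s58g_P0 E - fab_sigma φL (E.baseChange (s58g_L E)) hL (s58g_P0 E) =
      Point.some _ y' h' := by
    rw [← e']
    simp only [AddSubgroup.coe_sub, s58l_FrFF_coe, s58l_P0_coe]
  have htr : a = t := htrace _ t h1 hht1 hw (fun x₀ y₀ h₀ hx₀ hD' =>
      s58o_spec_frame E ℓ φ hφ hW φL hφL hL hℓ.two_le _ hsub h₀ hx₀ hD')
  rw [htr]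
  exact hrel T

/-- **the core theorem, `fab_sigma` form.** -/
theorem s58g_frobCoreSigma : s58o_FrobCoreSigma := by
  intro W ℓ hℓ hgood k _ _ _ _ φ hφ hW T
  classical
  haveI : Fact ℓ.Prime := ⟨hℓ⟩
  haveI hell : (W.map (Int.castRingHom k)).IsElliptic := s58g_isElliptic_of_not_dvd W ℓ hgood
  haveI : CharP (s58g_L (W.map (Int.castRingHom k))) ℓ := s58g_charP _ ℓ
  have key := s58g_core_aux (W.map (Int.castRingHom k)) hℓ φ hφ hW
    (s58g_frob ℓ (s58g_L (W.map (Int.castRingHom k))) hℓ)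
    (s58g_frob_apply ℓ (s58g_L (W.map (Int.castRingHom k))) hℓ)
    (s58g_baseChange_int_map W (s58g_L (W.map (Int.castRingHom k))) _) (W.apOfModel ℓ)
    (fun r t h1 hht1 hw hspec => s58a_trace_eq W ℓ k φ hφ hW r t h1 hht1 hw hspec) T
  rw [← natCast_zsmul]
  exact key

/-- **the core theorem** `s58o_FrobCore` (helper2's literal, `ORed.lean`). -/
theorem s58g_frobCore : s58o_FrobCore := s58o_frobCore_of_sigma s58g_frobCoreSigma

end Fermat.Agent.Lib.S58
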