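/-
S58 wave, leaf [HRES] (helper6), part 1: **the algebra core** — absolute irreducibility is
detected by the trace function, in dimension two, in the presence of an "odd" involution.

`r₁ : Γ → End_{k₀} V₁`, `r₂ : Γ → End_k V₂` two-dimensional, `k₀ → k`, `tr r₂ = tr r₁`,
`c ∈ Γ` with `c² = 1`, `det r₁(c) = -1`, `2 ≠ 0`, `r₁` irreducible over `k₀`.  Then `r₂ ⊗ K` is
irreducible for EVERY field extension `K / k` (`s58h_absIrred_of_trace_eq`).

Proof (no Burnside, no Brauer–Nesbitt): the form
`B_r(g, g') := tr ((r g · r c - r c · r g)(r g' · r c - r c · r g'))`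
is a `ℤ`-combination of traces of group elements, so `B_{r₂ ⊗ K} = B_{r₁}` (mapped to `K`).
If `r₂ ⊗ K` has a stable line `L`, every commutator maps `V → L → 0`, so `B_{r₂ ⊗ K} ≡ 0`.
In a `±1`-eigenbasis of `r₁(c)`, `B_{r₁}(g, g') = -4 (β γ' + γ β')` (off-diagonal entries); the
two eigenlines are not stable, which gives `g₁, g₂` with `B_{r₁}(g₂, g₁) ≠ 0` or `B_{r₁}(g₁, g₁) ≠ 0`.
-/
import Mathlib

set_option autoImplicit false
set_option linter.unusedSectionVars false
set_option linter.style.haveILetI false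

namespace Fermat.Agent.Lib.S58

open scoped TensorProduct

/-! ### Lemma A: a stable line kills products of commutators -/

section LemmaA

variable {K : Type*} [Field K] {V : Type*} [AddCommGroup V] [Module K V]

/-- endomorphisms of a one-dimensional space commute. -/
theorem s58h_comm_of_finrank_one (h : Module.finrank K V = 1) (f g : V →ₗ[K] V) (x : V) :
    f (g x) = g (f x) := by
  obtain ⟨v₀, -, hv₀⟩ := finrank_eq_one_iff'.mp h
  obtain ⟨a, ha⟩ := hv₀ (f v₀)
  obtain ⟨b, hb⟩ := hv₀ (g v₀)
  obtain ⟨c, rfl⟩ := hv₀ x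
  have e1 : f (g (c • v₀)) = (c * b * a) • v₀ := by
    rw [map_smul, map_smul, ← hb, map_smul, ← ha, smul_smul, smul_smul]
  have e2 : g (f (c • v₀)) = (c * a * b) • v₀ := by
    rw [map_smul, map_smul, ← ha, map_smul, ← hb, smul_smul, smul_smul]
  rw [e1, e2]
  congr 1
  ring

/-- **Lemma A.** In dimension two, if a proper nonzero subspace `W` is stable under `A, C, A', C'`,
then `[A, C] · [A', C'] = 0`. -/
theorem s58h_comm_mul_comm_eq_zero (h2 : Module.finrank K V = 2) (W : Submodule K V)
    (hW0 : W ≠ ⊥) (hW1 : W ≠ ⊤) (A C A' C' : Module.End K V)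
    (hA : ∀ x ∈ W, A x ∈ W) (hC : ∀ x ∈ W, C x ∈ W)
    (hA' : ∀ x ∈ W, A' x ∈ W) (hC' : ∀ x ∈ W, C' x ∈ W) :
    (A * C - C * A) * (A' * C' - C' * A') = 0 := by
  haveI : FiniteDimensional K V := Module.finite_of_finrank_pos (by omega)
  have hW : Module.finrank K W = 1 := by
    have h1 := Submodule.finrank_lt hW1
    have h0 : Module.finrank K W ≠ 0 := fun h => hW0 (Submodule.finrank_eq_zero.mp h)
    omega
  have hQ : Module.finrank K (V ⧸ W) = 1 := by
    have := Submodule.finrank_quotient_add_finrank W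
    omega
  -- a commutator of stable maps sends `V` into `W`
  have key1 : ∀ (P Q : Module.End K V), (∀ x ∈ W, P x ∈ W) → (∀ x ∈ W, Q x ∈ W) →
      ∀ v, (P * Q - Q * P) v ∈ W := by
    intro P Q hP hQ' v
    rw [← Submodule.Quotient.mk_eq_zero W]
    have e := s58h_comm_of_finrank_one hQ (W.mapQ W P hP) (W.mapQ W Q hQ')
      (Submodule.Quotient.mk v)
    rw [Submodule.mapQ_apply, Submodule.mapQ_apply, Submodule.mapQ_apply,
      Submodule.mapQ_apply] at e
    rw [LinearMap.sub_apply, Module.End.mul_apply, Module.End.mul_apply,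
      Submodule.Quotient.mk_sub, e, sub_self]
  -- and kills `W`
  have key2 : ∀ (P Q : Module.End K V) (hP : ∀ x ∈ W, P x ∈ W) (hQ' : ∀ x ∈ W, Q x ∈ W),
      ∀ w ∈ W, (P * Q - Q * P) w = 0 := by
    intro P Q hP hQ' w hw
    have e := s58h_comm_of_finrank_one hW (P.restrict hP) (Q.restrict hQ') ⟨w, hw⟩
    have e' := congrArg (Subtype.val) e
    rw [LinearMap.coe_restrict_apply, LinearMap.coe_restrict_apply,
      LinearMap.coe_restrict_apply, LinearMap.coe_restrict_apply] at e'
    rw [LinearMap.sub_apply, Module.End.mul_apply, Module.End.mul_apply, e', sub_self]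
  refine LinearMap.ext fun v => ?_
  rw [Module.End.mul_apply, LinearMap.zero_apply]
  exact key2 A C hA hC _ (key1 A' C' hA' hC' v)

end LemmaA

/-! ### Lemma B: the form `B` in an eigenbasis of the involution -/

section LemmaB

variable {k : Type*} [Field k] {V : Type*} [AddCommGroup V] [Module k V]

/-- an involution of determinant `-1` of a plane (`2 ≠ 0`) has an eigenbasis with eigenvalues
`1, -1`. -/
theorem s58h_exists_eigenbasis (h2 : Module.finrank k V = 2) (h2k : (2 : k) ≠ 0)
    (C : Module.End k V) (hCC : C * C = 1) (hdet : LinearMap.det C = -1) :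
    ∃ b : Module.Basis (Fin 2) k V, C (b 0) = b 0 ∧ C (b 1) = - b 1 := by
  haveI : FiniteDimensional k V := Module.finite_of_finrank_pos (by omega)
  have hCCv : ∀ v, C (C v) = v := fun v => by
    have := congrArg (fun f : Module.End k V => f v) hCC
    simpa using this
  have hne : (1 : k) ≠ -1 := fun h => h2k (by linear_combination h)
  have hC1 : C ≠ 1 := by
    intro h
    rw [h, map_one] at hdet
    exact hne hdet
  have hC2 : C ≠ -1 := by
    intro h
    have e : (-1 : Module.End k V) = (-1 : k) • (1 : Module.End k V) := by simp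
    rw [h, e, LinearMap.det_smul, h2, map_one] at hdet
    exact hne (by linear_combination hdet)
  obtain ⟨v, hv⟩ : ∃ v, C v ≠ v := by
    by_contra hcon
    simp only [not_exists, not_not] at hcon
    exact hC1 (LinearMap.ext fun v => by rw [hcon v]; rfl)
  obtain ⟨v', hv'⟩ : ∃ v, C v ≠ -v := by
    by_contra hcon
    simp only [not_exists, not_not] at hcon
    exact hC2 (LinearMap.ext fun v => by rw [hcon v]; rfl)
  have he₁0 : v' + C v' ≠ 0 := fun h => hv' (by rw [eq_neg_iff_add_eq_zero, add_comm]; exact h)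
  have he₂0 : v - C v ≠ 0 := fun h => hv (by rw [sub_eq_zero] at h; exact h.symm)
  have hCe₁ : C (v' + C v') = v' + C v' := by rw [map_add, hCCv, add_comm]
  have hCe₂ : C (v - C v) = -(v - C v) := by rw [map_sub, hCCv, neg_sub]
  have hli : LinearIndependent k ![v' + C v', v - C v] := by
    rw [LinearIndependent.pair_iff]
    intro s t hst
    have h1 := congrArg C hst
    rw [map_add, map_smul, map_smul, hCe₁, hCe₂, map_zero, smul_neg] at h1
    have hs : (2 * s) • (v' + C v') = 0 := by
      have := congrArg₂ (· + ·) hst h1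
      simp only [add_zero] at this
      rw [← this, mul_smul, two_smul]
      abel
    have ht : (2 * t) • (v - C v) = 0 := by
      have := congrArg₂ (· - ·) hst h1
      simp only [sub_zero] at this
      rw [← this, mul_smul, two_smul]
      abel
    constructor
    · rcases smul_eq_zero.mp hs with h | h
      · exact (mul_eq_zero.mp h).resolve_left h2k
      · exact absurd h he₁0
    · rcases smul_eq_zero.mp ht with h | h
      · exact (mul_eq_zero.mp h).resolve_left h2k
      · exact absurd h he₂0
  refine ⟨basisOfLinearIndependentOfCardEqFinrank hli (by rw [h2, Fintype.card_fin]), ?_, ?_⟩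
  · rw [coe_basisOfLinearIndependentOfCardEqFinrank]
    exact hCe₁
  · rw [coe_basisOfLinearIndependentOfCardEqFinrank]
    exact hCe₂

/-- the form `B` in the eigenbasis: `tr ([A, C][A', C']) = -4 (β γ' + γ β')`. -/
theorem s58h_trace_comm_eigenbasis (b : Module.Basis (Fin 2) k V) (C : Module.End k V)
    (h0 : C (b 0) = b 0) (h1 : C (b 1) = - b 1) (A A' : Module.End k V) :
    LinearMap.trace k V ((A * C - C * A) * (A' * C - C * A')) =
      -4 * (LinearMap.toMatrix b b A 0 1 * LinearMap.toMatrix b b A' 1 0 +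
        LinearMap.toMatrix b b A 1 0 * LinearMap.toMatrix b b A' 0 1) := by
  have hC00 : LinearMap.toMatrix b b C 0 0 = 1 := by
    rw [LinearMap.toMatrix_apply, h0, Module.Basis.repr_self, Finsupp.single_eq_same]
  have hC10 : LinearMap.toMatrix b b C 1 0 = 0 := by
    rw [LinearMap.toMatrix_apply, h0, Module.Basis.repr_self,
      Finsupp.single_eq_of_ne (by decide)]
  have hC01 : LinearMap.toMatrix b b C 0 1 = 0 := by
    rw [LinearMap.toMatrix_apply, h1, map_neg, Module.Basis.repr_self, Finsupp.neg_apply,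
      Finsupp.single_eq_of_ne (by decide), neg_zero]
  have hC11 : LinearMap.toMatrix b b C 1 1 = -1 := by
    rw [LinearMap.toMatrix_apply, h1, map_neg, Module.Basis.repr_self, Finsupp.neg_apply,
      Finsupp.single_eq_same]
  rw [LinearMap.trace_eq_matrix_trace k b, LinearMap.toMatrix_mul, map_sub, map_sub,
    LinearMap.toMatrix_mul, LinearMap.toMatrix_mul, LinearMap.toMatrix_mul,
    LinearMap.toMatrix_mul, Matrix.trace_fin_two]
  simp only [Matrix.mul_apply, Matrix.sub_apply, Fin.sum_univ_two, hC00, hC10, hC01, hC11]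
  ring

end LemmaB

/-! ### The form `B` as a combination of traces of group elements -/

section Main

variable {Γ : Type*} [Group Γ]

/-- `B_r(g, g') = T(g c g' c) - T(g c c g') - T(c g g' c) + T(c g c g')`, `T = tr ∘ r`. -/
noncomputable def s58h_B {k : Type*} [Field k] {V : Type*} [AddCommGroup V] [Module k V]
    (r : Γ →* Module.End k V) (c g g' : Γ) : k :=
  LinearMap.trace k V (r (g * c * g' * c)) - LinearMap.trace k V (r (g * c * c * g')) -
    LinearMap.trace k V (r (c * g * g' * c)) + LinearMap.trace k V (r (c * g * c * g'))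

theorem s58h_B_eq {k : Type*} [Field k] {V : Type*} [AddCommGroup V] [Module k V]
    (r : Γ →* Module.End k V) (c g g' : Γ) :
    LinearMap.trace k V ((r g * r c - r c * r g) * (r g' * r c - r c * r g')) =
      s58h_B r c g g' := by
  have e : (r g * r c - r c * r g) * (r g' * r c - r c * r g') =
      r (g * c * g' * c) - r (g * c * c * g') - r (c * g * g' * c) + r (c * g * c * g') := by
    simp only [map_mul]
    noncomm_ring
  rw [e, map_add, map_sub, map_sub]
  rfl

/-- **Absolute irreducibility from the trace function** (dimension two, odd involution). -/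
theorem s58h_absIrred_of_trace_eq {k₀ k : Type*} [Field k₀] [Field k] [Algebra k₀ k]
    {V₁ V₂ : Type*} [AddCommGroup V₁] [Module k₀ V₁] [AddCommGroup V₂] [Module k V₂]
    (h₁ : Module.finrank k₀ V₁ = 2) (h₂ : Module.finrank k V₂ = 2)
    (r₁ : Γ →* Module.End k₀ V₁) (r₂ : Γ →* Module.End k V₂) (h2 : (2 : k) ≠ 0)
    (htr : ∀ g, LinearMap.trace k V₂ (r₂ g) = algebraMap k₀ k (LinearMap.trace k₀ V₁ (r₁ g)))
    (c : Γ) (hc : c * c = 1) (hdet : LinearMap.det (r₁ c) = -1)
    (hirr : ∀ W : Submodule k₀ V₁, (∀ g, ∀ x ∈ W, r₁ g x ∈ W) → W = ⊥ ∨ W = ⊤)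
    (K : Type*) [Field K] [Algebra k K] (W : Submodule K (K ⊗[k] V₂))
    (hW : ∀ g, ∀ x ∈ W, (r₂ g).baseChange K x ∈ W) : W = ⊥ ∨ W = ⊤ := by
  by_contra hcon
  rw [not_or] at hcon
  obtain ⟨hW0, hW1⟩ := hcon
  haveI : FiniteDimensional k V₂ := Module.finite_of_finrank_pos (by omega)
  haveI : FiniteDimensional k₀ V₁ := Module.finite_of_finrank_pos (by omega)
  have h2k₀ : (2 : k₀) ≠ 0 := fun h => h2 (by
    have e := congrArg (algebraMap k₀ k) h
    rw [map_ofNat, map_zero] at e
    exact e)
  -- `B` vanishes for `r₂`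
  have hB2 : ∀ g g', s58h_B r₂ c g g' = 0 := by
    intro g g'
    have hK2 : Module.finrank K (K ⊗[k] V₂) = 2 := by rw [Module.finrank_baseChange, h₂]
    have hz := s58h_comm_mul_comm_eq_zero hK2 W hW0 hW1 ((r₂ g).baseChange K)
      ((r₂ c).baseChange K) ((r₂ g').baseChange K) ((r₂ c).baseChange K) (hW g) (hW c) (hW g')
      (hW c)
    have e : ((r₂ g).baseChange K * (r₂ c).baseChange K -
        (r₂ c).baseChange K * (r₂ g).baseChange K) *
        ((r₂ g').baseChange K * (r₂ c).baseChange K -
          (r₂ c).baseChange K * (r₂ g').baseChange K) =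
        ((r₂ g * r₂ c - r₂ c * r₂ g) * (r₂ g' * r₂ c - r₂ c * r₂ g')).baseChange K := by
      simp only [LinearMap.baseChange_mul, LinearMap.baseChange_sub]
    rw [e] at hz
    have ht := congrArg (LinearMap.trace K (K ⊗[k] V₂)) hz
    rw [LinearMap.trace_baseChange, map_zero, s58h_B_eq] at ht
    exact (map_eq_zero_iff (algebraMap k K) (algebraMap k K).injective).mp ht
  -- hence for `r₁`
  have hB1 : ∀ g g', s58h_B r₁ c g g' = 0 := by
    intro g g'
    have e : s58h_B r₂ c g g' = algebraMap k₀ k (s58h_B r₁ c g g') := by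
      unfold s58h_B
      rw [htr, htr, htr, htr, map_add, map_sub, map_sub]
    have := hB2 g g'
    rw [e] at this
    exact (map_eq_zero_iff (algebraMap k₀ k) (algebraMap k₀ k).injective).mp this
  -- the eigenbasis
  have hCC : r₁ c * r₁ c = 1 := by rw [← map_mul, hc, map_one]
  obtain ⟨b, hb0, hb1⟩ := s58h_exists_eigenbasis h₁ h2k₀ (r₁ c) hCC hdet
  have hform : ∀ g g', LinearMap.toMatrix b b (r₁ g) 0 1 * LinearMap.toMatrix b b (r₁ g') 1 0 +
      LinearMap.toMatrix b b (r₁ g) 1 0 * LinearMap.toMatrix b b (r₁ g') 0 1 = 0 := by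
    intro g g'
    have := s58h_trace_comm_eigenbasis b (r₁ c) hb0 hb1 (r₁ g) (r₁ g')
    rw [s58h_B_eq, hB1] at this
    have h4 : (-4 : k₀) ≠ 0 := by
      intro h
      apply h2k₀
      have : (2 : k₀) * 2 = 0 := by linear_combination -h
      exact (mul_self_eq_zero.mp this)
    exact (mul_eq_zero.mp this.symm).resolve_left h4
  -- expansion of a vector in the basis
  have hexp : ∀ (A : Module.End k₀ V₁) (j : Fin 2),
      A (b j) = LinearMap.toMatrix b b A 0 j • b 0 + LinearMap.toMatrix b b A 1 j • b 1 := by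
    intro A j
    conv_lhs => rw [← b.sum_repr (A (b j))]
    rw [Fin.sum_univ_two, LinearMap.toMatrix_apply, LinearMap.toMatrix_apply]
  have hb01 : b 1 ∉ Submodule.span k₀ {b 0} := by
    intro h
    obtain ⟨s, hs⟩ := Submodule.mem_span_singleton.mp h
    have := congrArg (fun v => b.repr v 1) hs
    simp only [map_smul, Module.Basis.repr_self, Finsupp.smul_apply,
      Finsupp.single_eq_same, smul_eq_mul] at this
    rw [Finsupp.single_eq_of_ne (by decide), mul_zero] at this
    exact zero_ne_one this
  have hb10 : b 0 ∉ Submodule.span k₀ {b 1} := by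
    intro h
    obtain ⟨s, hs⟩ := Submodule.mem_span_singleton.mp h
    have := congrArg (fun v => b.repr v 0) hs
    simp only [map_smul, Module.Basis.repr_self, Finsupp.smul_apply,
      Finsupp.single_eq_same, smul_eq_mul] at this
    rw [Finsupp.single_eq_of_ne (by decide), mul_zero] at this
    exact zero_ne_one this
  -- the eigenline of `1` is not stable
  obtain ⟨g₁, hg₁⟩ : ∃ g, LinearMap.toMatrix b b (r₁ g) 1 0 ≠ 0 := by
    by_contra hno
    simp only [not_exists, not_not] at hno
    rcases hirr (Submodule.span k₀ {b 0}) (fun g x hx => by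
      obtain ⟨s, rfl⟩ := Submodule.mem_span_singleton.mp hx
      rw [map_smul, hexp (r₁ g) 0, hno g, zero_smul, add_zero]
      exact Submodule.smul_mem _ _ (Submodule.smul_mem _ _ (Submodule.mem_span_singleton_self _)))
      with h | h
    · exact b.ne_zero 0 ((Submodule.span_singleton_eq_bot).mp h)
    · exact hb01 (h ▸ Submodule.mem_top)
  -- the eigenline of `-1` is not stable
  obtain ⟨g₂, hg₂⟩ : ∃ g, LinearMap.toMatrix b b (r₁ g) 0 1 ≠ 0 := by
    by_contra hno
    simp only [not_exists, not_not] at hno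
    rcases hirr (Submodule.span k₀ {b 1}) (fun g x hx => by
      obtain ⟨s, rfl⟩ := Submodule.mem_span_singleton.mp hx
      rw [map_smul, hexp (r₁ g) 1, hno g, zero_smul, zero_add]
      exact Submodule.smul_mem _ _ (Submodule.smul_mem _ _ (Submodule.mem_span_singleton_self _)))
      with h | h
    · exact b.ne_zero 1 ((Submodule.span_singleton_eq_bot).mp h)
    · exact hb10 (h ▸ Submodule.mem_top)
  -- contradiction
  have e1 := hform g₁ g₁
  have hβ₁ : LinearMap.toMatrix b b (r₁ g₁) 0 1 = 0 := by
    have : (2 : k₀) * (LinearMap.toMatrix b b (r₁ g₁) 0 1 * LinearMap.toMatrix b b (r₁ g₁) 1 0)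
        = 0 := by linear_combination e1
    exact ((mul_eq_zero.mp ((mul_eq_zero.mp this).resolve_left h2k₀))).resolve_right hg₁
  have e2 := hform g₂ g₁
  rw [hβ₁, mul_zero, add_zero] at e2
  rcases mul_eq_zero.mp e2 with h | h
  · exact hg₂ h
  · exact hg₁ h

end Main

end Fermat.Agent.Lib.S58
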