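/-
S58 wave, leaf [ODD-CYC] (helper6): **`s58_InvolutionCyc`** — a non-trivial involution `c` of
`G_ℚ` inverts every root of unity of odd order (Artin–Schreier, elementary form).

`Ω` algebraically closed of characteristic zero, `c` a ring endomorphism with `c ∘ c = id`, `c ≠ id`,
`F := Fix(c)`, `i² = -1`:
* `c i = -i` (`s58h_inv_i`): `z = y - c y ≠ 0`, `x² = z`; `c i = i` would give `c (c x) = -x`;
* a sum of two squares of `F` is a square of `F` (`s58h_sum_two_sq`): `a² + b² = N(w)²`,
  `w² = a + b i`, `N(w) = w · c w`; hence every sum of squares of `F` is a square of `F`;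
* `η := ζ · c ζ ∈ F` has odd order `m`; if `η ≠ 1` then `-1 = η + ⋯ + η^{m-1}` is a sum of squares
  of `F` (`η^k = (η^{k (m+1)/2})²`), so `-1 = t²` with `t ∈ F`, `t = ± i`, `c i = i`: contradiction.
-/
import Fermat.Agent.Lib.S58.Iface

set_option autoImplicit false
set_option linter.unusedSectionVars false
set_option linter.style.haveILetI false

namespace Fermat.Agent.Lib.S58

section Abs

variable {Ω : Type*} [Field Ω] [IsAlgClosed Ω] [CharZero Ω]
  {F : Type*} [FunLike F Ω Ω] [RingHomClass F Ω Ω] (c : F)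

/-- `c i = -i`. -/
theorem s58h_inv_i (hcc : ∀ x, c (c x) = x) (hne : ∃ y, c y ≠ y) (i : Ω) (hi : i ^ 2 = -1) :
    c i = -i := by
  obtain ⟨y, hy⟩ := hne
  have hz : c (y - c y) = -(y - c y) := by rw [map_sub, hcc]; ring
  obtain ⟨x, hx⟩ := IsAlgClosed.exists_pow_nat_eq (y - c y) (n := 2) (by norm_num)
  have hz0 : y - c y ≠ 0 := sub_ne_zero.mpr (Ne.symm hy)
  have hx0 : x ≠ 0 := by
    rintro rfl
    apply hz0
    rw [← hx]
    ring
  have hcx2 : (c x) ^ 2 = -(x ^ 2) := by rw [← map_pow, hx, hz]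
  have hci2 : (c i) ^ 2 = -1 := by rw [← map_pow, hi, map_neg, map_one]
  have h1 : (c i - i) * (c i + i) = 0 := by
    have : (c i - i) * (c i + i) = (c i) ^ 2 - i ^ 2 := by ring
    rw [this, hci2, hi]
    ring
  rcases mul_eq_zero.mp h1 with h | h
  · exfalso
    have hci : c i = i := sub_eq_zero.mp h
    have h2 : (c x - i * x) * (c x + i * x) = 0 := by
      have : (c x - i * x) * (c x + i * x) = (c x) ^ 2 - i ^ 2 * x ^ 2 := by ring
      rw [this, hcx2, hi]
      ring
    have hxx : x = -x := by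
      rcases mul_eq_zero.mp h2 with h3 | h3
      · have e : c x = i * x := sub_eq_zero.mp h3
        have e2 : c (c x) = -x := by
          rw [e, map_mul, hci, e, ← mul_assoc, ← sq, hi]
          ring
        rw [hcc] at e2
        exact e2
      · have e : c x = -(i * x) := eq_neg_of_add_eq_zero_left h3
        have e2 : c (c x) = -x := by
          rw [e, map_neg, map_mul, hci, e]
          have : -(i * -(i * x)) = i ^ 2 * x := by ring
          rw [this, hi]
          ring
        rw [hcc] at e2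
        exact e2
    have h2x : (2 : Ω) * x = 0 := by linear_combination hxx
    rcases mul_eq_zero.mp h2x with h4 | h4
    · exact two_ne_zero h4
    · exact hx0 h4
  · exact eq_neg_of_add_eq_zero_left h

/-- a sum of two squares of fixed elements is the square of a fixed element. -/
theorem s58h_sum_two_sq (hcc : ∀ x, c (c x) = x) (i : Ω) (hi : i ^ 2 = -1) (hci : c i = -i)
    (a b : Ω) (ha : c a = a) (hb : c b = b) : ∃ t : Ω, c t = t ∧ t ^ 2 = a ^ 2 + b ^ 2 := by
  obtain ⟨w, hw⟩ := IsAlgClosed.exists_pow_nat_eq (a + b * i) (n := 2) (by norm_num)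
  refine ⟨w * c w, ?_, ?_⟩
  · rw [map_mul, hcc, mul_comm]
  · have e : (c w) ^ 2 = a - b * i := by
      rw [← map_pow, hw, map_add, map_mul, ha, hb, hci]
      ring
    rw [mul_pow, hw, e]
    have : (a + b * i) * (a - b * i) = a ^ 2 - b ^ 2 * i ^ 2 := by ring
    rw [this, hi]
    ring

/-- a sum of squares of fixed elements is the square of a fixed element. -/
theorem s58h_sum_sq (hcc : ∀ x, c (c x) = x) (i : Ω) (hi : i ^ 2 = -1) (hci : c i = -i)
    {ι : Type*} (s : Finset ι) (f : ι → Ω) (hf : ∀ j ∈ s, c (f j) = f j) :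
    ∃ t : Ω, c t = t ∧ t ^ 2 = ∑ j ∈ s, (f j) ^ 2 := by
  classical
  induction s using Finset.induction_on with
  | empty => exact ⟨0, map_zero c, by simp⟩
  | insert j s hj ih =>
    obtain ⟨t, ht, ht2⟩ := ih fun l hl => hf l (Finset.mem_insert_of_mem hl)
    obtain ⟨t', ht', ht'2⟩ := s58h_sum_two_sq c hcc i hi hci (f j) t
      (hf j (Finset.mem_insert_self j s)) ht
    exact ⟨t', ht', by rw [Finset.sum_insert hj, ht'2, ht2]⟩

/-- **an involution `≠ id` inverts the roots of unity of odd order.** -/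
theorem s58h_inv_root (hcc : ∀ x, c (c x) = x) (hne : ∃ y, c y ≠ y) (m : ℕ) (hm : Odd m)
    (ζ : Ω) (hζ : ζ ^ m = 1) : c ζ = ζ⁻¹ := by
  obtain ⟨i, hi⟩ := IsAlgClosed.exists_pow_nat_eq (-1 : Ω) (n := 2) (by norm_num)
  have hci := s58h_inv_i c hcc hne i hi
  have hζ0 : ζ ≠ 0 := by
    rintro rfl
    obtain ⟨r, rfl⟩ := hm
    rw [zero_pow (by omega)] at hζ
    exact zero_ne_one hζ
  by_contra hcon
  have hη1 : ζ * c ζ ≠ 1 := fun h => hcon (eq_inv_of_mul_eq_one_right h)
  have hcη : c (ζ * c ζ) = ζ * c ζ := by rw [map_mul, hcc, mul_comm]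
  have hηm : (ζ * c ζ) ^ m = 1 := by rw [mul_pow, ← map_pow, hζ, map_one, one_mul]
  obtain ⟨r, hr⟩ := hm
  -- geometric sum
  have hgeom : ∑ k ∈ Finset.range m, (ζ * c ζ) ^ k = 0 := by
    have h := geom_sum_mul (ζ * c ζ) m
    rw [hηm, sub_self] at h
    exact (mul_eq_zero.mp h).resolve_right (sub_ne_zero.mpr hη1)
  have hsum : ∑ k ∈ Finset.range (2 * r), (ζ * c ζ) ^ (k + 1) = -1 := by
    rw [hr, Finset.sum_range_succ', pow_zero] at hgeom
    exact eq_neg_of_add_eq_zero_left hgeom
  -- each term is the square of a fixed element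
  have hsq : ∀ k, ((ζ * c ζ) ^ ((k + 1) * (r + 1))) ^ 2 = (ζ * c ζ) ^ (k + 1) := by
    intro k
    rw [← pow_mul]
    have e : (k + 1) * (r + 1) * 2 = m * (k + 1) + (k + 1) := by rw [hr]; ring
    rw [e, pow_add, pow_mul, hηm, one_pow, one_mul]
  obtain ⟨t, ht, ht2⟩ := s58h_sum_sq c hcc i hi hci (Finset.range (2 * r))
    (fun k => (ζ * c ζ) ^ ((k + 1) * (r + 1))) (fun k _ => by rw [map_pow, hcη])
  rw [Finset.sum_congr rfl (fun k _ => hsq k), hsum] at ht2
  -- `t = ± i`
  have h1 : (t - i) * (t + i) = 0 := by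
    have : (t - i) * (t + i) = t ^ 2 - i ^ 2 := by ring
    rw [this, ht2, hi]
    ring
  have hcii : c i = i := by
    rcases mul_eq_zero.mp h1 with h | h
    · have e : t = i := sub_eq_zero.mp h
      rw [← e, ht]
    · have e : i = -t := by rw [eq_neg_iff_add_eq_zero, add_comm]; exact h
      rw [e, map_neg, ht]
  have h2i : (2 : Ω) * i = 0 := by
    rw [hci] at hcii
    linear_combination -hcii
  have hi0 : i = 0 := (mul_eq_zero.mp h2i).resolve_left two_ne_zero
  rw [hi0] at hi
  norm_num at hi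

end Abs

/-- **[ODD-CYC]** the contract `s58_InvolutionCyc`. -/
theorem s58h_involutionCyc : s58_InvolutionCyc := by
  intro c hc hc1 m hm ζ hζ
  have hcc : ∀ x, c (c x) = x := fun x => by
    have := congrArg (fun f : s58_G => f x) hc
    simpa [AlgEquiv.mul_apply] using this
  have hne : ∃ y, c y ≠ y := by
    by_contra hcon
    simp only [not_exists, not_not] at hcon
    exact hc1 (AlgEquiv.ext fun y => by rw [hcon y]; rfl)
  exact s58h_inv_root c hcc hne m hm ζ hζ

end Fermat.Agent.Lib.S58
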