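/-
S58 wave, leaf [R3-a] (helper6): **`s58_AbsIrredTransfer`** — transfer of absolute irreducibility
along equal quadratic relations `g + ε(g) g⁻¹ = s(g)`.

Reduction to the trace form `s58h_absIrred_of_trace_eq` (`HAlg.lean`):
* `C := r(c)` satisfies `C² = 1`; substituting the relation of `g` into the relation of `c g` gives
  `C A + A C - s(g) C = s(c g)` (`A := r(g)`);
* if `r₁(c) = ±1` then `2 r₁(g) = s(g) ± s(c g)` is scalar for every `g`, and `U` is reducible; so
  `r₁(c) ≠ ±1`, and `r₁(c)` has a `±1`-eigenbasis: `det r₁(c) = -1`, `tr r₁(c) = 0`;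
* taking traces (with `tr C = 0`): `tr r(c g) = s(c g)`, hence `tr r(g) = s(g)` on both sides.
-/
import Fermat.Agent.Lib.S58.HAlg
import Fermat.Agent.Lib.S58.Iface

set_option autoImplicit false
set_option linter.unusedSectionVars false
set_option linter.style.haveILetI false

namespace Fermat.Agent.Lib.S58

open scoped TensorProduct

section Eigen

variable {k : Type*} [Field k] {V : Type*} [AddCommGroup V] [Module k V]

/-- an involution `≠ ±1` of a plane (`2 ≠ 0`) has an eigenbasis with eigenvalues `1, -1`. -/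
theorem s58h_exists_eigenbasis_of_ne (h2 : Module.finrank k V = 2) (h2k : (2 : k) ≠ 0)
    (C : Module.End k V) (hCC : C * C = 1) (hC1 : C ≠ 1) (hC2 : C ≠ -1) :
    ∃ b : Module.Basis (Fin 2) k V, C (b 0) = b 0 ∧ C (b 1) = - b 1 := by
  haveI : FiniteDimensional k V := Module.finite_of_finrank_pos (by omega)
  have hCCv : ∀ v, C (C v) = v := fun v => by
    have := congrArg (fun f : Module.End k V => f v) hCC
    simpa using this
  obtain ⟨v, hv⟩ : ∃ v, C v ≠ v := by
    by_contra hcon
    simp only [not_exists, not_not] at hcon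
    exact hC1 (LinearMap.ext fun v => by rw [hcon v]; rfl)
  obtain ⟨v', hv'⟩ : ∃ v, C v ≠ -v := by
    by_contra hcon
    simp only [not_exists, not_not] at hcon
    exact hC2 (LinearMap.ext fun v => by rw [hcon v]; rfl)
  have he₁0 : v' + C v' ≠ 0 := fun h => hv' (by rw [eq_neg_iff_add_eq_zero, add_comm]; exact h)
  have he₂0 : v - C v ≠ 0 := fun h => hv (by rw [sub_eq_zero] at h; exact h.symm)
  have hCe₁ : C (v' + C v') = v' + C v' := by rw [map_add, hCCv, add_comm]
  have hCe₂ : C (v - C v) = -(v - C v) := by rw [map_sub, hCCv, neg_sub]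
  have hli : LinearIndependent k ![v' + C v', v - C v] := by
    rw [LinearIndependent.pair_iff]
    intro s t hst
    have h1 := congrArg C hst
    rw [map_add, map_smul, map_smul, hCe₁, hCe₂, map_zero, smul_neg] at h1
    have hs : (2 * s) • (v' + C v') = 0 := by
      have := congrArg₂ (· + ·) hst h1
      simp only [add_zero] at this
      rw [← this, mul_smul, two_smul]
      abel
    have ht : (2 * t) • (v - C v) = 0 := by
      have := congrArg₂ (· - ·) hst h1
      simp only [sub_zero] at this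
      rw [← this, mul_smul, two_smul]
      abel
    constructor
    · rcases smul_eq_zero.mp hs with h | h
      · exact (mul_eq_zero.mp h).resolve_left h2k
      · exact absurd h he₁0
    · rcases smul_eq_zero.mp ht with h | h
      · exact (mul_eq_zero.mp h).resolve_left h2k
      · exact absurd h he₂0
  refine ⟨basisOfLinearIndependentOfCardEqFinrank hli (by rw [h2, Fintype.card_fin]), ?_, ?_⟩
  · rw [coe_basisOfLinearIndependentOfCardEqFinrank]
    exact hCe₁
  · rw [coe_basisOfLinearIndependentOfCardEqFinrank]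
    exact hCe₂

/-- trace and determinant of an endomorphism with a `±1`-eigenbasis. -/
theorem s58h_trace_det_of_eigenbasis (b : Module.Basis (Fin 2) k V) (C : Module.End k V)
    (h0 : C (b 0) = b 0) (h1 : C (b 1) = - b 1) :
    LinearMap.trace k V C = 0 ∧ LinearMap.det C = -1 := by
  have hC00 : LinearMap.toMatrix b b C 0 0 = 1 := by
    rw [LinearMap.toMatrix_apply, h0, Module.Basis.repr_self, Finsupp.single_eq_same]
  have hC10 : LinearMap.toMatrix b b C 1 0 = 0 := by
    rw [LinearMap.toMatrix_apply, h0, Module.Basis.repr_self,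
      Finsupp.single_eq_of_ne (by decide)]
  have hC01 : LinearMap.toMatrix b b C 0 1 = 0 := by
    rw [LinearMap.toMatrix_apply, h1, map_neg, Module.Basis.repr_self, Finsupp.neg_apply,
      Finsupp.single_eq_of_ne (by decide), neg_zero]
  have hC11 : LinearMap.toMatrix b b C 1 1 = -1 := by
    rw [LinearMap.toMatrix_apply, h1, map_neg, Module.Basis.repr_self, Finsupp.neg_apply,
      Finsupp.single_eq_same]
  constructor
  · rw [LinearMap.trace_eq_matrix_trace k b, Matrix.trace_fin_two, hC00, hC11]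
    ring
  · rw [← LinearMap.det_toMatrix b, Matrix.det_fin_two, hC00, hC11, hC01, hC10]
    ring

end Eigen

section Rel

variable {Γ : Type*} [Group Γ] {k : Type*} [Field k] {V : Type*} [AddCommGroup V] [Module k V]

/-- the relation of `g` substituted into the relation of `c g`:
`C A + A C - s(g) C = s(c g)`. -/
theorem s58h_rel_cg (r : Γ →* Module.End k V) (c g : Γ) (hc : c * c = 1) (e s s' : k)
    (h : r g + e • r g⁻¹ = s • (1 : Module.End k V))
    (h' : r (c * g) + (-e) • r (c * g)⁻¹ = s' • (1 : Module.End k V)) :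
    r c * r g + r g * r c - s • r c = s' • (1 : Module.End k V) := by
  have hcinv : c⁻¹ = c := inv_eq_of_mul_eq_one_right hc
  have e1 : e • r g⁻¹ = s • (1 : Module.End k V) - r g := by rw [← h]; abel
  rw [mul_inv_rev, hcinv, map_mul, map_mul, neg_smul, ← smul_mul_assoc, e1] at h'
  rw [← h', sub_mul, smul_mul_assoc, one_mul]
  abel

/-- with `tr r(c) = 0` and `2 ≠ 0`: `tr r(c g) = s(c g)`. -/
theorem s58h_trace_cg [Module.Finite k V] (r : Γ →* Module.End k V) (c g : Γ) (hc : c * c = 1)
    (h2k : (2 : k) ≠ 0) (htrc : LinearMap.trace k V (r c) = 0)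
    (hfr : Module.finrank k V = 2) (e s s' : k)
    (h : r g + e • r g⁻¹ = s • (1 : Module.End k V))
    (h' : r (c * g) + (-e) • r (c * g)⁻¹ = s' • (1 : Module.End k V)) :
    LinearMap.trace k V (r (c * g)) = s' := by
  have hrel := s58h_rel_cg r c g hc e s s' h h'
  have ht := congrArg (LinearMap.trace k V) hrel
  rw [map_sub, map_add, map_smul, map_smul, htrc, smul_zero, sub_zero,
    LinearMap.trace_mul_comm k (r g) (r c), LinearMap.trace_one, hfr, smul_eq_mul,
    ← map_mul] at ht
  have : (2 : k) * LinearMap.trace k V (r (c * g)) = 2 * s' := by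
    rw [two_mul, ht]
    push_cast
    ring
  exact mul_left_cancel₀ h2k this

end Rel

/-- **[R3-a]** the contract `s58_AbsIrredTransfer`. -/
theorem s58h_absIrredTransfer : s58_AbsIrredTransfer := by
  intro Γ _ k₀ k _ _ _ U V _ _ _ _ hU hV r₁ r₂ ε h2 c hc hεc hdet₂ H hirr
  haveI : FiniteDimensional k₀ U := Module.finite_of_finrank_pos (by omega)
  haveI : FiniteDimensional k V := Module.finite_of_finrank_pos (by omega)
  have h2k₀ : (2 : k₀) ≠ 0 := fun h => h2 (by
    have e := congrArg (algebraMap k₀ k) h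
    rw [map_ofNat, map_zero] at e
    exact e)
  choose s hs using H
  have hcinv : c⁻¹ = c := inv_eq_of_mul_eq_one_right hc
  have hεcg : ∀ g, ((ε (c * g) : k₀ˣ) : k₀) = -((ε g : k₀ˣ) : k₀) := by
    intro g
    rw [map_mul, hεc, Units.val_mul, Units.val_neg, Units.val_one, neg_one_mul]
  have hccg : ∀ g, c * (c * g) = g := fun g => by rw [← mul_assoc, hc, one_mul]
  have hCC₁ : r₁ c * r₁ c = 1 := by rw [← map_mul, hc, map_one]
  have hCC₂ : r₂ c * r₂ c = 1 := by rw [← map_mul, hc, map_one]
  -- the relations of `c g` in the shape of `s58h_rel_cg`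
  have hrel₁ : ∀ g, r₁ (c * g) + (-((ε g : k₀ˣ) : k₀)) • r₁ (c * g)⁻¹ =
      s (c * g) • (1 : Module.End k₀ U) := by
    intro g
    have := (hs (c * g)).1
    rwa [hεcg] at this
  have hrel₂ : ∀ g, r₂ (c * g) + (-(algebraMap k₀ k ((ε g : k₀ˣ) : k₀))) • r₂ (c * g)⁻¹ =
      algebraMap k₀ k (s (c * g)) • (1 : Module.End k V) := by
    intro g
    have := (hs (c * g)).2
    rwa [hεcg, map_neg] at this
  -- `r₁ c` is not scalar
  have hscal : ∀ (a : k₀), r₁ c = a • (1 : Module.End k₀ U) → False := by
    intro a ha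
    have ha2 : a * a = 1 := by
      have h1 := hCC₁
      rw [ha, smul_mul_smul_comm, one_mul] at h1
      have := congrArg (LinearMap.trace k₀ U) h1
      rw [map_smul, LinearMap.trace_one, hU, smul_eq_mul] at this
      have h2' : (a * a) * 2 = 1 * 2 := by
        rw [one_mul]; exact_mod_cast this
      exact mul_right_cancel₀ h2k₀ h2'
    have ha0 : a ≠ 0 := fun h => by rw [h, mul_zero] at ha2; exact zero_ne_one ha2
    -- every `r₁ g` is scalar
    have hall : ∀ g, ∃ t : k₀, r₁ g = t • (1 : Module.End k₀ U) := by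
      intro g
      have hrel := s58h_rel_cg r₁ c g hc _ _ _ (hs g).1 (hrel₁ g)
      rw [ha, smul_mul_assoc, one_mul, mul_smul_comm, mul_one, ← two_smul k₀ (a • r₁ g),
        smul_smul, smul_smul] at hrel
      refine ⟨(2 * a)⁻¹ * (s (c * g) + s g * a), ?_⟩
      have h2a : (2 * a) ≠ 0 := mul_ne_zero h2k₀ ha0
      have : (2 * a) • r₁ g = (s (c * g) + s g * a) • (1 : Module.End k₀ U) := by
        rw [add_smul, ← hrel]
        abel
      rw [mul_smul, ← this, smul_smul, inv_mul_cancel₀ h2a, one_smul]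
    -- a line is stable
    obtain ⟨u, hu⟩ : ∃ u : U, u ≠ 0 := by
      haveI : Nontrivial U := Module.nontrivial_of_finrank_pos (R := k₀) (by omega)
      exact exists_ne 0
    rcases hirr (Submodule.span k₀ {u}) (fun g x hx => by
      obtain ⟨t, ht⟩ := hall g
      rw [ht, LinearMap.smul_apply, Module.End.one_apply]
      exact Submodule.smul_mem _ _ hx) with h | h
    · exact hu ((Submodule.span_singleton_eq_bot).mp h)
    · have h1 : Module.finrank k₀ (Submodule.span k₀ {u}) = 1 := finrank_span_singleton hu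
      rw [h, finrank_top, hU] at h1
      omega
  have hC1 : r₁ c ≠ 1 := fun h => hscal 1 (by rw [h, one_smul])
  have hC2 : r₁ c ≠ -1 := fun h => hscal (-1) (by rw [h, neg_smul, one_smul])
  obtain ⟨b₁, hb0, hb1⟩ := s58h_exists_eigenbasis_of_ne hU h2k₀ (r₁ c) hCC₁ hC1 hC2
  obtain ⟨htr₁, hdet₁⟩ := s58h_trace_det_of_eigenbasis b₁ (r₁ c) hb0 hb1
  obtain ⟨b₂, hb0', hb1'⟩ := s58h_exists_eigenbasis hV h2 (r₂ c) hCC₂ hdet₂
  obtain ⟨htr₂, -⟩ := s58h_trace_det_of_eigenbasis b₂ (r₂ c) hb0' hb1'
  -- traces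
  have hT₁ : ∀ g, LinearMap.trace k₀ U (r₁ g) = s g := by
    intro g
    have hx := s58h_trace_cg r₁ c (c * g) hc h2k₀ htr₁ hU _ _ _ (hs (c * g)).1 (hrel₁ (c * g))
    rw [hccg] at hx
    exact hx
  have hT₂ : ∀ g, LinearMap.trace k V (r₂ g) = algebraMap k₀ k (s g) := by
    intro g
    have hx := s58h_trace_cg r₂ c (c * g) hc h2 htr₂ hV _ _ _ (hs (c * g)).2 (hrel₂ (c * g))
    rw [hccg] at hx
    exact hx
  intro N hN
  exact s58h_absIrred_of_trace_eq hU hV r₁ r₂ h2 (fun g => by rw [hT₂, hT₁]) c hc hdet₁ hirr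
    (AlgebraicClosure k) N hN

end Fermat.Agent.Lib.S58
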