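/-
S58 [MULT-FIX], module 5a (assembly core, Prelude frame `s58e_EK W = W_ℚ ⁄ ℚ̄`): `A` a valuation
subring of `ℚ̄` over `q`, `lam ≠ q` an odd prime, `m = lam^(n+1)`.  From
* `R` a point with `A`-integral coordinates and non-singular reduction, with `lam^n • R ∉ E₁`
  (module 3: reduction to a point of exact order `m` of the special fibre; there also `m • R ∈ E₁`),
* `S ∈ E₁` with `m • S = m • R` (module 4: `E₁` is `m`-divisible),
the point `P₀ = R - S` has exact order `m` and is fixed by the inertia group of `A`: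
`τ P₀ - P₀ = (τR - R) - (τS - S) ∈ E₁` is killed by `m`, and `E₁` has no `lam`-power torsion.
-/
import Mathlib
import Fermat.Agent.Lib.S58.E1Inertia

set_option autoImplicit false
set_option linter.unusedSectionVars false

namespace Fermat.Agent.Lib.S58

open WeierstrassCurve WeierstrassCurve.Affine Fermat.Agent.Lib.Frey Fermat.Agent.Lib.EN
  Fermat.Agent.Lib.S41

local notation "Kb" => AlgebraicClosure ℚ
local notation "Gal" => (AlgebraicClosure ℚ ≃ₐ[ℚ] AlgebraicClosure ℚ)

section general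

variable {K : Type*} [Field K] [DecidableEq K] (W : WeierstrassCurve K)
variable {Γ₀ : Type*} [LinearOrderedCommGroupWithZero Γ₀] (v : Valuation K Γ₀)

/-- `E₁` is closed under multiples. -/
theorem s58m_E1_nsmul (hb2 : v W.b₂ ≤ 1) (hb4 : v W.b₄ ≤ 1) (hb6 : v W.b₆ ≤ 1)
    (hb8 : v W.b₈ ≤ 1) {P : W.toAffine.Point} (hP : fe1_E1 v P) (k : ℕ) : fe1_E1 v (k • P) := by
  induction k with
  | zero => rw [zero_nsmul]; exact fe1_E1_zero v
  | succ k ihk =>
    rw [succ_nsmul]
    exact s58e_E1_add W v hb2 hb4 hb6 hb8 ihk hP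

end general

section galois

variable {W : WeierstrassCurve ℤ} {A : ValuationSubring Kb}

/-- the inertia group preserves `E₁`. -/
theorem s58m_inertia_E1 {σ : Gal} (hσ : σ ∈ A.inertiaSubgroupIn ℚ) {S : (s58e_EK W).Point}
    (hS : fe1_E1 A.valuation S) : fe1_E1 A.valuation (σ • S) := by
  rcases S with _ | ⟨x, y, h⟩
  · exact Or.inl rfl
  · have hx : 1 < A.valuation x := hS.resolve_left (Point.some_ne_zero _)
    obtain ⟨h', e⟩ : ∃ h', σ • (Point.some x y h : (s58e_EK W).Point) =
        Point.some (σ x) (σ y) h' := ⟨_, rfl⟩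
    rw [e]
    refine Or.inr ?_
    show 1 < A.valuation (σ x)
    by_contra hcon
    rw [not_lt] at hcon
    have hinv : σ⁻¹ ∈ A.inertiaSubgroupIn ℚ := inv_mem hσ
    have := (s58e_inertia_mem hinv hcon).1
    have e2 : σ⁻¹ (σ x) = x := by
      show σ.symm (σ x) = x
      exact σ.symm_apply_apply x
    rw [e2] at this
    exact absurd this (not_le.mpr hx)

/-- for a point `R` with integral coordinates and non-singular reduction, `σ R - R ∈ E₁` for
`σ` in the inertia group. -/
theorem s58m_inertia_sub_mem {σ : Gal} (hσ : σ ∈ A.inertiaSubgroupIn ℚ)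
    {x y : Kb} (h : (s58e_EK W).Nonsingular x y) (hx : A.valuation x ≤ 1) (hy : A.valuation y ≤ 1)
    (hns : A.valuation ((s58e_EK W).polynomialX.evalEval x y) = 1 ∨
      A.valuation ((s58e_EK W).polynomialY.evalEval x y) = 1) :
    fe1_E1 A.valuation (σ • (Point.some x y h : (s58e_EK W).Point) - Point.some x y h) := by
  obtain ⟨hσx, hσx'⟩ := s58e_inertia_mem hσ hx
  obtain ⟨hσy, hσy'⟩ := s58e_inertia_mem hσ hy
  have hW := s58e_integral W A
  obtain ⟨h', e⟩ : ∃ h', σ • (Point.some x y h : (s58e_EK W).Point) =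
      Point.some (σ x) (σ y) h' := ⟨_, rfl⟩
  have hd := frd_sub_mem_E1 (v := A.valuation) (W := s58e_EK W) hW h h' hx hy
    (by rw [Valuation.map_sub_swap]; exact hσx') (by rw [Valuation.map_sub_swap]; exact hσy') hns
  rw [← e] at hd
  have hd' : fe1_E1 A.valuation
      ((Point.some x y h : (s58e_EK W).Point) - σ • (Point.some x y h : (s58e_EK W).Point)) :=
    (s58e_E1_iff A.valuation (s58e_EK W) _).mp hd
  have := fe1_E1_neg A.valuation hd'
  rwa [neg_sub] at this

/-- **Assembly core of [MULT-FIX].** -/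
theorem s58m_multFix_core {q : ℕ} (hq : q.Prime) (hA : A.LiesOverPrime q) {lam : ℕ}
    (hlam : lam.Prime) (hlam2 : lam ≠ 2) (hlamq : lam ≠ q) (n : ℕ)
    {x y : Kb} (h : (s58e_EK W).Nonsingular x y) (hx : A.valuation x ≤ 1) (hy : A.valuation y ≤ 1)
    (hns : A.valuation ((s58e_EK W).polynomialX.evalEval x y) = 1 ∨
      A.valuation ((s58e_EK W).polynomialY.evalEval x y) = 1)
    (hnR : ¬ fe1_E1 A.valuation (lam ^ n • (Point.some x y h : (s58e_EK W).Point)))
    {S : (s58e_EK W).Point} (hS : fe1_E1 A.valuation S)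
    (hmS : lam ^ (n + 1) • S = lam ^ (n + 1) • (Point.some x y h : (s58e_EK W).Point)) :
    ∃ P₀ : (s58e_EK W).Point, lam ^ (n + 1) • P₀ = 0 ∧ lam ^ n • P₀ ≠ 0 ∧
      ∀ τ ∈ A.inertiaSubgroupIn ℚ, τ • P₀ = P₀ := by
  have hW := s58e_integral W A
  obtain ⟨hb2, hb4, hb6, hb8⟩ := s58e_b_integral A.valuation (s58e_EK W) hW
  have hvp : A.valuation (lam : Kb) = 1 :=
    s41a_valuation_natCast_eq_one A hq hA (fun hd =>
      hlamq ((Nat.prime_dvd_prime_iff_eq hq hlam).mp hd).symm)
  set R : (s58e_EK W).Point := Point.some x y h with hR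
  refine ⟨R - S, ?_, ?_, ?_⟩
  · rw [nsmul_sub, hmS, sub_self]
  · intro h0
    rw [nsmul_sub, sub_eq_zero] at h0
    apply hnR
    rw [h0]
    exact s58m_E1_nsmul (s58e_EK W) A.valuation hb2 hb4 hb6 hb8 hS _
  · intro τ hτ
    have h1 : fe1_E1 A.valuation (τ • R - R) := s58m_inertia_sub_mem hτ h hx hy hns
    have h2 : fe1_E1 A.valuation (τ • S - S) :=
      s58e_E1_sub (s58e_EK W) A.valuation hb2 hb4 hb6 hb8 (s58m_inertia_E1 hτ hS) hS
    have h3 : fe1_E1 A.valuation (τ • (R - S) - (R - S)) := by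
      have e : τ • (R - S) - (R - S) = (τ • R - R) - (τ • S - S) := by
        rw [smul_sub]; abel
      rw [e]
      exact s58e_E1_sub (s58e_EK W) A.valuation hb2 hb4 hb6 hb8 h1 h2
    have h4 : lam ^ (n + 1) • (τ • (R - S) - (R - S)) = 0 := by
      have hz : lam ^ (n + 1) • (R - S) = 0 := by rw [nsmul_sub, hmS, sub_self]
      have hτz : lam ^ (n + 1) • (τ • (R - S)) = 0 := by
        have := map_nsmul (DistribSMul.toAddMonoidHom (s58e_EK W).Point τ) (lam ^ (n + 1)) (R - S)
        rw [hz, map_zero] at this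
        exact this.symm
      rw [nsmul_sub, hz, hτz, sub_zero]
    have h0 := s58e_E1_torsion_free_pow (s58e_EK W) A.valuation hb2 hb4 hb6 hb8 hlam hlam2 hvp
      (n + 1) h3 h4
    exact sub_eq_zero.mp h0

end galois

end Fermat.Agent.Lib.S58
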