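/-
S58 [MULT-FIX], module 5b (final wiring): `W / ℤ`, `q ∣ Δ`, `q ∤ c₄` (multiplicative reduction at
`q`), `A` a valuation subring of `ℚ̄` over `q`, `lam ≠ q` an odd prime.  The special fibre over the
(algebraically closed) residue field of `A` is a nodal cubic, so it has a non-singular point `R̃`
of exact order `m = lam^(n+1)` (`MultNodePt.lean`); lift it to `R` (`GRed.lean`, helper6); then
`k • R` reduces to `k • R̃` for `0 < k < m`, `m • R ∈ E₁`, `lam^n • R ∉ E₁`; divide `m • R` by `m`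
inside `E₁` (hypothesis `hdiv` = module 4) and conclude by `MultFixCore.lean`.
-/
import Mathlib
import Fermat.Agent.Lib.S58.MultFixCore
import Fermat.Agent.Lib.S58.MultNodePt
import Fermat.Agent.Lib.S58.GRed
import Fermat.Agent.Lib.S41.ALocal
import Fermat.Agent.Lib.Frey.Abstract

set_option autoImplicit false
set_option linter.unusedSectionVars false

namespace Fermat.Agent.Lib.S58

open WeierstrassCurve WeierstrassCurve.Affine Fermat.Agent.Lib.Frey Fermat.Agent.Lib.EN
  Fermat.Agent.Lib.S41 IsLocalRing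

local notation "Kb" => AlgebraicClosure ℚ
local notation "Gal" => (AlgebraicClosure ℚ ≃ₐ[ℚ] AlgebraicClosure ℚ)

section transport

variable {K : Type*} [Field K] [DecidableEq K] {Γ₀ : Type*} [LinearOrderedCommGroupWithZero Γ₀]
  (v : Valuation K Γ₀)

theorem s58m_congr_E1 {W₁ W₂ : WeierstrassCurve K} (h : W₁ = W₂) (P : W₁.toAffine.Point) :
    fe1_E1 v (fab_congr h P) ↔ fe1_E1 v P := by
  subst h; rfl

theorem s58m_congr_polyX {W₁ W₂ : WeierstrassCurve K} (h : W₁ = W₂) (x y : K) :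
    W₁.toAffine.polynomialX.evalEval x y = W₂.toAffine.polynomialX.evalEval x y := by
  subst h; rfl

theorem s58m_congr_polyY {W₁ W₂ : WeierstrassCurve K} (h : W₁ = W₂) (x y : K) :
    W₁.toAffine.polynomialY.evalEval x y = W₂.toAffine.polynomialY.evalEval x y := by
  subst h; rfl

end transport

variable (W : WeierstrassCurve ℤ) (A : ValuationSubring Kb)

/-- the generic fibre of the model over `A` is the Prelude curve. -/
theorem s58m_curve_eq : s41a_WK A (s41a_WA W A) = s58e_EK W := by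
  rw [s41a_WK_eq]
  show W.map (Int.castRingHom Kb) = (W.map (Int.castRingHom ℚ)).map (algebraMap ℚ Kb)
  rw [WeierstrassCurve.map_map]
  congr 1

variable {W A}

/-- the special fibre has a point of exact order `lam^(n+1)`. -/
theorem s58m_special_exact [DecidableEq (ResidueField A)] {q : ℕ} (hq : q.Prime)
    (hA : A.LiesOverPrime q) (hbad : (q : ℤ) ∣ W.Δ) (hc4 : ¬ (q : ℤ) ∣ W.c₄) {lam : ℕ}
    (hlam : lam.Prime) (hlamq : lam ≠ q) (n : ℕ) :
    ∃ Rt : (s41a_Wk A (s41a_WA W A)).toAffine.Point, lam ^ (n + 1) • Rt = 0 ∧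
      lam ^ n • Rt ≠ 0 := by
  have hch : CharP (ResidueField A) q := s41a_charP_residueField A hq hA
  have hac : IsAlgClosed (ResidueField A) := s41a_isAlgClosed_residueField A
  apply s58m_exact_order (s41a_Wk A (s41a_WA W A)) ?_ ?_ hlam ?_ n
  · rw [s41a_Wk_eq, map_Δ, eq_intCast]
    exact (CharP.intCast_eq_zero_iff (ResidueField A) q W.Δ).mpr hbad
  · rw [s41a_Wk_eq, map_c₄, eq_intCast]
    intro h0
    exact hc4 ((CharP.intCast_eq_zero_iff (ResidueField A) q W.c₄).mp h0)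
  · intro h0
    have := (CharP.cast_eq_zero_iff (ResidueField A) q lam).mp h0
    exact hlamq ((Nat.prime_dvd_prime_iff_eq hq hlam).mp this).symm

/-- **[MULT-FIX] from the divisibility of `E₁`.** -/
theorem s58m_multFix_of_div {q : ℕ} (hq : q.Prime) (hA : A.LiesOverPrime q)
    (hbad : (q : ℤ) ∣ W.Δ) (hc4 : ¬ (q : ℤ) ∣ W.c₄) {lam : ℕ}
    (hlam : lam.Prime) (hlam2 : lam ≠ 2) (hlamq : lam ≠ q) (n : ℕ)
    (hdiv : ∀ Q : (s58e_EK W).Point, fe1_E1 A.valuation Q →
      ∃ S : (s58e_EK W).Point, fe1_E1 A.valuation S ∧ lam ^ (n + 1) • S = Q) :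
    ∃ P₀ : (s58e_EK W).Point, lam ^ (n + 1) • P₀ = 0 ∧ lam ^ n • P₀ ≠ 0 ∧
      ∀ τ ∈ A.inertiaSubgroupIn ℚ, τ • P₀ = P₀ := by
  classical
  obtain ⟨Rt, hRt1, hRt2⟩ := s58m_special_exact hq hA hbad hc4 hlam hlamq n
  set m := lam ^ (n + 1) with hm
  have hm2 : 2 ≤ m := by
    calc 2 ≤ lam := hlam.two_le
      _ = lam ^ 1 := (pow_one lam).symm
      _ ≤ lam ^ (n + 1) := Nat.pow_le_pow_right hlam.pos (by omega)
  have hlt : lam ^ n < m := Nat.pow_lt_pow_right hlam.one_lt (Nat.lt_succ_self n)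
  have hfact : Fact lam.Prime := ⟨hlam⟩
  have hord : addOrderOf Rt = m := addOrderOf_eq_prime_pow hRt2 hRt1
  have hordk : ∀ k, 0 < k → k < m → k • Rt ≠ 0 := by
    intro k hk0 hkm h0
    have := addOrderOf_dvd_of_nsmul_eq_zero h0
    rw [hord] at this
    exact absurd (Nat.le_of_dvd hk0 this) (not_le.mpr hkm)
  have hRt0 : Rt ≠ 0 := by
    intro h0
    apply hRt2
    rw [h0, nsmul_zero]
  -- lift
  obtain ⟨xt, yt, ht, rfl⟩ : ∃ (xt yt : ResidueField A)
      (ht : (s41a_Wk A (s41a_WA W A)).toAffine.Nonsingular xt yt), Rt = Point.some xt yt ht := by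
    rcases Rt with _ | ⟨xt, yt, ht⟩
    · exact absurd rfl hRt0
    · exact ⟨xt, yt, ht, rfl⟩
  obtain ⟨R, hR⟩ := s58g_exists_lift (A := A) (W := s41a_WA W A) ht
  have hmul := s58g_red_nsmul hR m hordk
  -- `m • R ∈ E₁`
  have hmR : frd_E1 A.valuation (s41a_WK A (s41a_WA W A)).toAffine (m • R) := by
    have h1 := hmul (m - 1) (by omega) (by omega)
    have e1 : (m - 1) • (Point.some xt yt ht : (s41a_Wk A (s41a_WA W A)).toAffine.Point) =
        -Point.some xt yt ht := by
      rw [eq_neg_iff_add_eq_zero, ← succ_nsmul, show m - 1 + 1 = m by omega]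
      exact hRt1
    rw [e1] at h1
    have h2 := s58g_sub_mem_E1 h1 (s58g_red_neg hR)
    have e2 : (m - 1) • R - -R = m • R := by
      rw [sub_neg_eq_add, ← succ_nsmul, show m - 1 + 1 = m by omega]
    rwa [e2] at h2
  -- `lam ^ n • R` is integral
  obtain ⟨a', b', hns', hns'', e', -⟩ := hmul (lam ^ n) (pow_pos hlam.pos n) hlt
  -- coordinates of `R`
  obtain ⟨a, b, h₁, h₁', rfl, -⟩ := hR
  -- transport to the Prelude frame
  have heq := s58m_curve_eq W A
  set Φ := fab_congr heq with hΦ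
  have hΦR : Φ (Point.some (a : Kb) (b : Kb) h₁) = Point.some (a : Kb) (b : Kb) (heq ▸ h₁) :=
    fab_congr_some heq h₁
  have hns : A.valuation ((s58e_EK W).polynomialX.evalEval (a : Kb) (b : Kb)) = 1 ∨
      A.valuation ((s58e_EK W).polynomialY.evalEval (a : Kb) (b : Kb)) = 1 := by
    have := s58g_red_hns (A := A) (W := s41a_WA W A) h₁'
    rw [s58m_congr_polyX heq, s58m_congr_polyY heq] at this
    exact this
  have hmR' : fe1_E1 A.valuation
      (m • (Point.some (a : Kb) (b : Kb) (heq ▸ h₁) : (s58e_EK W).Point)) := by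
    rw [← hΦR, ← map_nsmul, s58m_congr_E1]
    exact (s58e_E1_iff A.valuation _ _).mp hmR
  have hnR' : ¬ fe1_E1 A.valuation
      (lam ^ n • (Point.some (a : Kb) (b : Kb) (heq ▸ h₁) : (s58e_EK W).Point)) := by
    rw [← hΦR, ← map_nsmul, s58m_congr_E1, e']
    rintro (h0 | h0)
    · exact Point.some_ne_zero _ h0
    · exact absurd (A.valuation_le_one a') (not_le.mpr h0)
  obtain ⟨S, hS, hmS⟩ := hdiv _ hmR'
  exact s58m_multFix_core hq hA hlam hlam2 hlamq n (heq ▸ h₁) (A.valuation_le_one a)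
    (A.valuation_le_one b) hns hnR' hS hmS

end Fermat.Agent.Lib.S58
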