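/-
S58 wave, leaf `s58_EllBound` (helper2, prefix `s58o_`): THE TRIVIAL POINT COUNT
`1 ≤ #W(𝔽_q) ≤ 2 q + 1`, hence `a_q(W) ≠ ±(q + 1)`.

`#W(𝔽_q)` counts the point at infinity and the nonsingular affine points; for every `x` the Weierstrass
equation is a monic quadratic in `y`, so it has at most two roots.
-/
import Fermat.Agent.Lib.S58.Iface

set_option autoImplicit false
set_option linter.unusedSectionVars false
set_option linter.style.haveILetI false

noncomputable section

namespace Fermat.Agent.Lib.S58

open WeierstrassCurve Polynomial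

section Count

variable {F : Type*} [Field F] [Fintype F] (W : WeierstrassCurve.Affine F)

/-- for fixed `x`, at most two `y` satisfy the Weierstrass equation. -/
theorem s58o_card_y_le (x : F) :
    Nat.card {y : F // W.Equation x y} ≤ 2 := by
  classical
  set p : F[X] := X ^ 2 + C (W.a₁ * x + W.a₃) * X - C (x ^ 3 + W.a₂ * x ^ 2 + W.a₄ * x + W.a₆)
    with hp
  have hdeg : p.natDegree = 2 := by
    rw [hp, sub_eq_add_neg, ← C_neg, add_assoc]
    have : (C (W.a₁ * x + W.a₃) * X + C (-(x ^ 3 + W.a₂ * x ^ 2 + W.a₄ * x + W.a₆))).degree <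
        ((X : F[X]) ^ 2).degree := by
      rw [degree_X_pow]
      refine lt_of_le_of_lt (degree_add_le _ _) (max_lt ?_ ?_)
      · exact lt_of_le_of_lt (degree_C_mul_X_le _) (by norm_num)
      · exact lt_of_le_of_lt degree_C_le (by norm_num)
    rw [natDegree_add_eq_left_of_degree_lt this, natDegree_X_pow]
  have hp0 : p ≠ 0 := by
    intro h0
    rw [h0, natDegree_zero] at hdeg
    exact absurd hdeg (by norm_num)
  have hsub : ∀ y : F, W.Equation x y → y ∈ p.roots.toFinset := by
    intro y hy
    rw [Multiset.mem_toFinset, mem_roots hp0, IsRoot.def, hp]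
    rw [WeierstrassCurve.Affine.equation_iff] at hy
    simp only [eval_sub, eval_add, eval_pow, eval_X, eval_mul, eval_C]
    linear_combination hy
  calc Nat.card {y : F // W.Equation x y}
      = Fintype.card {y : F // W.Equation x y} := Nat.card_eq_fintype_card
    _ ≤ Fintype.card {y : F // y ∈ p.roots.toFinset} :=
        Fintype.card_subtype_mono _ _ (fun y hy => hsub y hy)
    _ = p.roots.toFinset.card := Fintype.card_coe _
    _ ≤ Multiset.card p.roots := Multiset.toFinset_card_le _
    _ ≤ p.natDegree := card_roots' p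
    _ = 2 := hdeg

/-- `#W(F) ≤ 2 #F + 1`. -/
theorem s58o_card_point_le : Nat.card W.Point ≤ 2 * Fintype.card F + 1 := by
  classical
  -- the affine points inject into the pairs `(x, y)` on the curve
  let f : W.Point → Option (Σ x : F, {y : F // W.Equation x y}) := fun P =>
    match P with
    | .zero => none
    | .some x y h => some ⟨x, y, h.1⟩
  have hf : Function.Injective f := by
    rintro (_ | ⟨x₁, y₁, h₁⟩) (_ | ⟨x₂, y₂, h₂⟩) h
    · rfl
    · simp [f] at h
    · simp [f] at h
    · simp only [f, Option.some.injEq, Sigma.mk.injEq] at h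
      obtain ⟨rfl, h2⟩ := h
      have := eq_of_heq h2
      have hy : y₁ = y₂ := congrArg Subtype.val this
      subst hy
      rfl
  have h1 : Nat.card W.Point ≤ Nat.card (Option (Σ x : F, {y : F // W.Equation x y})) :=
    Nat.card_le_card_of_injective f hf
  have h2 : Nat.card (Option (Σ x : F, {y : F // W.Equation x y})) =
      Fintype.card (Σ x : F, {y : F // W.Equation x y}) + 1 := by
    rw [Nat.card_eq_fintype_card, Fintype.card_option]
  have h3 : Fintype.card (Σ x : F, {y : F // W.Equation x y}) ≤ 2 * Fintype.card F := by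
    rw [Fintype.card_sigma]
    calc ∑ x : F, Fintype.card {y : F // W.Equation x y}
        ≤ ∑ _x : F, 2 := Finset.sum_le_sum fun x _ => by
          rw [← Nat.card_eq_fintype_card]
          exact s58o_card_y_le W x
      _ = 2 * Fintype.card F := by
          rw [Finset.sum_const, Finset.card_univ, smul_eq_mul, mul_comm]
  omega

/-- `1 ≤ #W(F)`. -/
theorem s58o_one_le_card_point : 1 ≤ Nat.card W.Point := by
  haveI : Finite W.Point := WeierstrassCurve.Affine.Point.instFinite
  exact Nat.card_pos_iff.mpr ⟨⟨0⟩, inferInstance⟩ |> Nat.succ_le_of_lt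

end Count

/-- **`s58_EllBound`.** -/
theorem s58o_ellBound : s58_EllBound := by
  intro W q hq
  haveI : Fact q.Prime := ⟨hq⟩
  have hcardF : Nat.card (ZMod q) = q := Nat.card_zmod q
  have hle := s58o_card_point_le (W.reductionMod q).toAffine
  have hge := s58o_one_le_card_point (W.reductionMod q).toAffine
  rw [ZMod.card] at hle
  have hdef : W.apOfModel q = (q : ℤ) + 1 - (Nat.card (W.reductionMod q).toAffine.Point : ℤ) := by
    show ((Nat.card (ZMod q) : ℤ) + 1 - ((W.reductionMod q).card : ℤ)) = _
    rw [hcardF]
    rfl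
  constructor
  · rw [hdef]
    intro h
    have : (Nat.card (W.reductionMod q).toAffine.Point : ℤ) = 0 := by linarith
    have h0 : Nat.card (W.reductionMod q).toAffine.Point = 0 := by exact_mod_cast this
    omega
  · rw [hdef]
    intro h
    have : (Nat.card (W.reductionMod q).toAffine.Point : ℤ) = 2 * (q : ℤ) + 2 := by linarith
    have h0 : Nat.card (W.reductionMod q).toAffine.Point = 2 * q + 2 := by exact_mod_cast this
    omega

end Fermat.Agent.Lib.S58
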