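/-
S58 wave, EC-FROB, [EC-TOP] glue (helper2, prefix `s58o_`): IDENTIFICATION OF THE TRACE IN THE
FUNCTION-FIELD FRAME.

`W / ℤ`, `ℓ` prime, `k` algebraically closed of characteristic `ℓ`, `E := W.map (Int.castRingHom k)`
elliptic, `L := s58g_L E` (helper6), `(Λ, ξ, P₀, Fr)` = helper4's `LLambdaFF.lean`.  If the height of
`P₀ − Fr P₀` is `1 + ℓ − t ≥ 1` (the output of helper3's `s58a_main`), then `a_ℓ(W) = t`:

* `s58o_minus_ne`, `s58o_minus_hsub` : `P₀ − Fr P₀ ≠ 0` and it is the affine point with abscissa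
  `algebraMap (RatFunc k) L (ξ (P₀ − Fr P₀))`;
* `s58o_minus_Phi` : `r := ξ (P₀ − Fr P₀)` is a root of `Φ(Z; X, X ^ ℓ)` (hence separable by [SEP]);
* `s58o_trace_ff` : `W.apOfModel ℓ = t`  (= `s58a_trace_eq` + [SEP] + [SPEC]).
-/
import Mathlib
import Fermat.Agent.Lib.S58.LLambdaFF
import Fermat.Agent.Lib.S58.AHtSep
import Fermat.Agent.Lib.S58.AFrobTrace
import Fermat.Agent.Lib.S58.OSpecFrame

set_option autoImplicit false
set_option linter.unusedSectionVars false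

namespace Fermat.Agent.Lib.S58

open WeierstrassCurve WeierstrassCurve.Affine Fermat.Agent.Lib.Frey Fermat.Agent.Lib.EN
open Polynomial

section minus

variable {k : Type*} [Field k] (E : WeierstrassCurve k) [E.IsElliptic]
  [DecidableEq (s58g_L E)]
  {ℓ : ℕ} (φ : s58g_L E →+* s58g_L E) (hφ : ∀ z, φ z = z ^ ℓ)
  (hφE : (E.baseChange (s58g_L E)).map φ = E.baseChange (s58g_L E))

/-- `X ≠ X ^ ℓ` in `k(X)`. -/
theorem s58o_ratFunc_X_ne_pow (hℓ : 2 ≤ ℓ) : (RatFunc.X : RatFunc k) ≠ RatFunc.X ^ ℓ := by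
  intro h
  rw [← RatFunc.algebraMap_X, ← map_pow] at h
  have h2 := IsFractionRing.injective k[X] (RatFunc k) h
  have h3 := congrArg Polynomial.natDegree h2
  rw [natDegree_X_pow, natDegree_X] at h3
  omega

/-- `r = ξ (P₀ − Fr P₀)` is a root of `Φ(Z; X, X ^ ℓ)`. -/
theorem s58o_minus_Phi (hℓ : 2 ≤ ℓ) :
    ent_Phi E (s58l_xiFF E (s58l_P0 E - s58l_FrFF E φ hφ hφE (s58l_P0 E)))
      (RatFunc.X : RatFunc k) (RatFunc.X ^ ℓ) = 0 := by
  have hP0 := s58l_P0_ne E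
  have hF0 := s58l_FrFF_ne E φ hφ hφE hP0
  have e0 := s58l_xi_P0 E
  have e1 : s58l_xiFF E (s58l_FrFF E φ hφ hφE (s58l_P0 E)) = RatFunc.X ^ ℓ := by
    rw [s58l_xi_FrFF E φ hφ hφE hP0, e0]
  have hne : s58l_xiFF E (s58l_P0 E) ≠ s58l_xiFF E (s58l_FrFF E φ hφ hφE (s58l_P0 E)) := by
    rw [e0, e1]
    exact s58o_ratFunc_X_ne_pow hℓ
  obtain ⟨-, -, hV, hW⟩ := (s58l_xLawsFF E).addsub _ _ hP0 hF0 hne
  rw [e0, e1] at hV hW
  unfold ent_Phi
  linear_combination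
    (s58l_xiFF E (s58l_P0 E - s58l_FrFF E φ hφ hφE (s58l_P0 E))) * hV - hW

/-- the point `P₀ − Fr P₀` upstairs, as an affine point with abscissa in `k(X)`. -/
theorem s58o_minus_hsub (hne : s58l_P0 E - s58l_FrFF E φ hφ hφE (s58l_P0 E) ≠ 0) :
    ∃ (y' : s58g_L E) (h' : (E.baseChange (s58g_L E)).toAffine.Nonsingular
        (algebraMap (RatFunc k) (s58g_L E)
          (s58l_xiFF E (s58l_P0 E - s58l_FrFF E φ hφ hφE (s58l_P0 E)))) y'),
      s58g_P0 E - fab_sigma φ (E.baseChange (s58g_L E)) hφE (s58g_P0 E) = Point.some _ y' h' := by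
  obtain ⟨y', h', e⟩ := s58l_hasXFF E hne
  exact ⟨y', h', e⟩

/-- the rational function `r = ξ (P₀ − Fr P₀)` with all the inputs of `s58a_trace_eq`. -/
theorem s58o_minus_data [DecidableEq k] [CharP k ℓ] (hℓ : 2 ≤ ℓ)
    (φk : k →+* k) (hφk : ∀ a, φk a = a ^ ℓ) (hWk : E.map φk = E) (t : ℤ)
    (hminus : s58a_h (s58l_xiFF E) (s58l_P0 E - s58l_FrFF E φ hφ hφE (s58l_P0 E)) =
      1 + (ℓ : ℤ) - t)
    (h1 : 1 ≤ 1 + (ℓ : ℤ) - t) :
    ∃ r : RatFunc k, (ent_ht r : ℤ) = 1 + (ℓ : ℤ) - t ∧ 1 ≤ ent_ht r ∧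
      derivative r.num * r.denom - r.num * derivative r.denom ≠ 0 ∧
      ∀ (x₀ y₀ : k) (h₀ : E.toAffine.Nonsingular x₀ y₀), x₀ ^ ℓ ≠ x₀ → r.denom.eval x₀ ≠ 0 →
        ∃ (y₁ : k) (h₁ : E.toAffine.Nonsingular (r.num.eval x₀ / r.denom.eval x₀) y₁),
          Point.some x₀ y₀ h₀ - fab_sigma φk E hWk (Point.some x₀ y₀ h₀) =
            Point.some (r.num.eval x₀ / r.denom.eval x₀) y₁ h₁ := by
  have hPne : s58l_P0 E - s58l_FrFF E φ hφ hφE (s58l_P0 E) ≠ 0 := by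
    intro h0
    rw [h0, s58a_h_zero] at hminus
    omega
  rw [s58a_h_of_ne _ hPne] at hminus
  have h1' : 1 ≤ ent_ht (s58l_xiFF E (s58l_P0 E - s58l_FrFF E φ hφ hφE (s58l_P0 E))) := by
    have : (1 : ℤ) ≤
        (ent_ht (s58l_xiFF E (s58l_P0 E - s58l_FrFF E φ hφ hφE (s58l_P0 E))) : ℤ) := by
      rw [hminus]; exact h1
    exact_mod_cast this
  have hrc : ¬ ∃ c, s58l_xiFF E (s58l_P0 E - s58l_FrFF E φ hφ hφE (s58l_P0 E)) = RatFunc.C c := by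
    intro hc
    have := (s58a_ht_eq_zero_iff _).mpr hc
    omega
  have hℓ0 : ℓ ≠ 0 := by omega
  have hw := s58a_sep E (ℓ := ℓ) hℓ0 hrc (s58o_minus_Phi E φ hφ hφE hℓ)
  obtain ⟨y', h', hsub⟩ := s58o_minus_hsub E φ hφ hφE hPne
  refine ⟨_, hminus, h1', hw, ?_⟩
  intro x₀ y₀ h₀ hx₀ hD
  exact s58o_spec_frame E ℓ φk hφk hWk φ hφ hφE hℓ _ hsub h₀ hx₀ hD

end minus

section trace

variable (W : WeierstrassCurve ℤ) (ℓ : ℕ) [hℓ : Fact ℓ.Prime] (k : Type*) [Field k]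
  [DecidableEq k] [IsAlgClosed k] [CharP k ℓ] [hE : (W.map (Int.castRingHom k)).IsElliptic]
  [DecidableEq (s58g_L (W.map (Int.castRingHom k)))]
  (φk : k →+* k) (hφk : ∀ a, φk a = a ^ ℓ)
  (hWk : (W.map (Int.castRingHom k)).map φk = W.map (Int.castRingHom k))
  (φL : s58g_L (W.map (Int.castRingHom k)) →+* s58g_L (W.map (Int.castRingHom k)))
  (hφL : ∀ z, φL z = z ^ ℓ)
  (hWL : ((W.map (Int.castRingHom k)).baseChange (s58g_L (W.map (Int.castRingHom k)))).map φL =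
    (W.map (Int.castRingHom k)).baseChange (s58g_L (W.map (Int.castRingHom k))))

include hφk hWk in
/-- **`a_ℓ(W) = t`** from the height of `P₀ − Fr P₀`. -/
theorem s58o_trace_ff (t : ℤ)
    (hminus : s58a_h (s58l_xiFF (W.map (Int.castRingHom k)))
      (s58l_P0 (W.map (Int.castRingHom k)) -
        s58l_FrFF (W.map (Int.castRingHom k)) φL hφL hWL (s58l_P0 (W.map (Int.castRingHom k)))) =
      1 + (ℓ : ℤ) - t)
    (h1 : 1 ≤ 1 + (ℓ : ℤ) - t) : W.apOfModel ℓ = t := by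
  obtain ⟨r, hht, h1', hw, hspec⟩ := s58o_minus_data (W.map (Int.castRingHom k)) φL hφL hWL
    hℓ.out.two_le φk hφk hWk t hminus h1
  exact s58a_trace_eq W ℓ k φk hφk hWk r t hht h1' hw hspec

end trace

end Fermat.Agent.Lib.S58
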