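/-
S58 wave, block (R4-a) (helper5): the degeneracy operator `V_q` on weight-2 cusp forms,
`(V_q f)(z) = f(q z)`, as a map `CuspForm Γ₀(M) 2 → CuspForm Γ₀(M q) 2`, the inclusion
`CuspForm Γ₀(M) 2 → CuspForm Γ₀(M q) 2`, and their `q`-expansions.
-/
import Mathlib
import Fermat.Prelude.Def_FLTPrelim_Modularity
import Fermat.Prelude.Def_ModularForm_HeckeOperator
import Fermat.Prelude.Thm_UpperHalfPlane_qCoeff_heckeT
import Fermat.Agent.Lib.M2.EisDef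
import Fermat.Agent.Lib.Hecke.QCoeff

set_option autoImplicit false

open UpperHalfPlane ModularForm ModularFormClass CongruenceSubgroup Matrix.SpecialLinearGroup
open scoped MatrixGroups ModularForm Manifold

namespace Fermat.Agent.Lib.S58

open Fermat.Agent.Lib.M2 Fermat.Agent.Lib.QCoeff

/-- For `γ ∈ Γ₀(M q)` the conjugate `diag(q,1) γ diag(q,1)⁻¹` lies in `Γ₀(M)`. -/
theorem s58q_conj_mem {M q : ℕ} (hq : q ≠ 0) {γ : SL(2, ℤ)} (hγ : γ ∈ Gamma0 (M * q))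
    (h : (q : ℤ) ∣ γ 1 0) : m2e_conj q γ h ∈ Gamma0 M := by
  rw [Gamma0_mem]
  have h1 : ((M * q : ℕ) : ℤ) ∣ γ 1 0 := m2e_dvd_of_mem_Gamma0 hγ
  have e10 : (m2e_conj q γ h) 1 0 = γ 1 0 / (q : ℤ) := rfl
  rw [e10, ZMod.intCast_zmod_eq_zero_iff_dvd]
  obtain ⟨t, ht⟩ := h1
  refine ⟨t, ?_⟩
  have hq' : (q : ℤ) ≠ 0 := by exact_mod_cast hq
  rw [ht]
  push_cast
  rw [mul_comm (M : ℤ) (q : ℤ), mul_assoc, Int.mul_ediv_cancel_left _ hq']

theorem s58q_dvd_of_mem {M q : ℕ} {γ : SL(2, ℤ)} (hγ : γ ∈ Gamma0 (M * q)) :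
    (q : ℤ) ∣ γ 1 0 :=
  dvd_trans ⟨(M : ℤ), by push_cast; ring⟩ (m2e_dvd_of_mem_Gamma0 hγ)

/-- `f ∣[2] diag(q,1)` (`= q · f(q z)`) as a cusp form of level `M q`. -/
noncomputable def s58q_slashDiag (M q : ℕ) [NeZero M] [NeZero q] (f : CuspForm (Gamma0 M) 2) :
    CuspForm (Gamma0 (M * q)) 2 where
  toFun := (f : ℍ → ℂ) ∣[(2 : ℤ)] heckeDiagMatrix q
  slash_action_eq' := by
    intro γ hγ
    obtain ⟨γ₀, hγ₀, rfl⟩ := hγ
    have hq : q ≠ 0 := NeZero.ne q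
    have hdvd : (q : ℤ) ∣ γ₀ 1 0 := s58q_dvd_of_mem hγ₀
    rw [← SlashAction.slash_mul, m2e_diag_mul hq γ₀ hdvd, SlashAction.slash_mul]
    congr 1
    exact SlashInvariantFormClass.slash_action_eq f _ ⟨_, s58q_conj_mem hq hγ₀ hdvd, rfl⟩
  holo' := (CuspFormClass.holo f).slash 2 _
  zero_at_cusps' := by
    intro c hc
    obtain ⟨g, hg⟩ := m2e_heckeDiagMatrix_eq_map q
    have hc1 : IsCusp c 𝒮ℒ := (Subgroup.IsArithmetic.isCusp_iff_isCusp_SL2Z _).mp hc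
    have hc2 := m2e_isCusp_rat_smul hc1 g
    rw [← hg] at hc2
    have hc3 : IsCusp (heckeDiagMatrix q • c) ((Gamma0 M).map (mapGL ℝ)) :=
      (Subgroup.IsArithmetic.isCusp_iff_isCusp_SL2Z _).mpr hc2
    exact OnePoint.IsZeroAt.smul_iff.mp (CuspFormClass.zero_at_cusps f hc3)

@[simp] theorem s58q_slashDiag_coe (M q : ℕ) [NeZero M] [NeZero q] (f : CuspForm (Gamma0 M) 2) :
    (s58q_slashDiag M q f : ℍ → ℂ) = (f : ℍ → ℂ) ∣[(2 : ℤ)] heckeDiagMatrix q := rfl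

/-- The `q`-expansion of `f ∣[2] diag(q,1)`. -/
theorem s58q_qCoeff_slashDiag (M q : ℕ) [NeZero M] [NeZero q] (f : CuspForm (Gamma0 M) 2)
    (n : ℕ) :
    qCoeff (s58q_slashDiag M q f) n = if q ∣ n then (q : ℂ) * qCoeff f (n / q) else 0 := by
  have hq : q ≠ 0 := NeZero.ne q
  have hper := SlashInvariantFormClass.periodic_comp_ofComplex f (one_mem_strictPeriods M)
  have hhol := CuspFormClass.holo f
  have hbdd : IsBoundedAtImInfty (f : ℍ → ℂ) := ModularFormClass.bdd_at_infty f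
  have hs := P2MW.S_UpperHalfPlane_qCoeff_heckeT.M4cP1W2.hasSum_diag hq hper hhol hbdd 2
  have hu := P2MW.S_UpperHalfPlane_qCoeff_heckeT.M4cP1W2.qExpansion_coeff_unique'
    (g := (s58q_slashDiag M q f : ℍ → ℂ))
    (ModularFormClass.continuous (s58q_slashDiag M q f))
    (c := fun n => if q ∣ n then (q : ℂ) * qCoeff f (n / q) else 0)
    (ModularFormClass.analyticAt_cuspFunction_zero (s58q_slashDiag M q f) one_pos
      (one_mem_strictPeriods (M * q)))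
    (fun τ => by
      have h1 := hs τ
      rw [s58q_slashDiag_coe, slash_heckeDiagMatrix_apply 2 hq]
      convert h1 using 1
      funext m
      split_ifs
      · simp only [smul_eq_mul]
        norm_num
      · simp) n
  exact hu.symm

/-- The degeneracy operator `V_q`: `(V_q f)(z) = f(q z)`. -/
noncomputable def s58q_V (M q : ℕ) [NeZero M] [NeZero q] (f : CuspForm (Gamma0 M) 2) :
    CuspForm (Gamma0 (M * q)) 2 :=
  ((q : ℂ)⁻¹) • s58q_slashDiag M q f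

theorem s58q_qCoeff_V (M q : ℕ) [NeZero M] [NeZero q] (f : CuspForm (Gamma0 M) 2) (n : ℕ) :
    qCoeff (s58q_V M q f) n = if q ∣ n then qCoeff f (n / q) else 0 := by
  have hq : (q : ℂ) ≠ 0 := by exact_mod_cast NeZero.ne q
  rw [s58q_V, qCoeff_smul, s58q_qCoeff_slashDiag]
  split_ifs
  · rw [← mul_assoc, inv_mul_cancel₀ hq, one_mul]
  · rw [mul_zero]

theorem s58q_V_apply (M q : ℕ) [NeZero M] [NeZero q] (f : CuspForm (Gamma0 M) 2) (τ : ℍ) :
    s58q_V M q f τ = f (heckeDiagMatrix q • τ) := by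
  have hq : (q : ℂ) ≠ 0 := by exact_mod_cast NeZero.ne q
  have h1 : s58q_V M q f τ = (q : ℂ)⁻¹ * ((f : ℍ → ℂ) ∣[(2 : ℤ)] heckeDiagMatrix q) τ := rfl
  rw [h1, slash_heckeDiagMatrix_apply 2 (NeZero.ne q)]
  norm_num
  rw [← mul_assoc, inv_mul_cancel₀ hq, one_mul]

theorem s58q_Gamma0_le (M q : ℕ) : Gamma0 (M * q) ≤ Gamma0 M := by
  intro γ hγ
  rw [Gamma0_mem, ZMod.intCast_zmod_eq_zero_iff_dvd] at hγ ⊢
  exact dvd_trans ⟨(q : ℤ), by push_cast; ring⟩ hγ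

/-- The inclusion `S₂(Γ₀(M)) → S₂(Γ₀(M q))`. -/
noncomputable def s58q_incl (M q : ℕ) [NeZero M] [NeZero q] (f : CuspForm (Gamma0 M) 2) :
    CuspForm (Gamma0 (M * q)) 2 where
  toFun := f
  slash_action_eq' := by
    intro γ hγ
    obtain ⟨γ₀, hγ₀, rfl⟩ := hγ
    exact SlashInvariantFormClass.slash_action_eq f _ ⟨γ₀, s58q_Gamma0_le M q hγ₀, rfl⟩
  holo' := CuspFormClass.holo f
  zero_at_cusps' := by
    intro c hc
    exact CuspFormClass.zero_at_cusps f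
      (hc.mono (Subgroup.map_mono (s58q_Gamma0_le M q)))

@[simp] theorem s58q_incl_coe (M q : ℕ) [NeZero M] [NeZero q] (f : CuspForm (Gamma0 M) 2) :
    (s58q_incl M q f : ℍ → ℂ) = (f : ℍ → ℂ) := rfl

theorem s58q_qCoeff_incl (M q : ℕ) [NeZero M] [NeZero q] (f : CuspForm (Gamma0 M) 2) (n : ℕ) :
    qCoeff (s58q_incl M q f) n = qCoeff f n := rfl

end Fermat.Agent.Lib.S58
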