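/-
S58 wave, blocks (R4-b), (R4-c) (helper5): the `q`-stabilisation `g − β · V_q g` of a normalized
eigenform `g` of level `M` (`q ∤ M`, `β` a root of `X² − a_q X + q`) is a normalized eigenform of
level `M q` with the same coefficients at the primes `ℓ ≠ q`; iterating, a normalized eigenform of
level `M ∣ R`, `R` squarefree, lifts to level `R`: the contract `s58_OldLift`.
-/
import Mathlib
import Fermat.Agent.Lib.S58.QStabV
import Fermat.Agent.Lib.S58.Iface

set_option autoImplicit false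

open UpperHalfPlane ModularForm ModularFormClass CongruenceSubgroup
open scoped MatrixGroups ModularForm

namespace Fermat.Agent.Lib.S58

open Fermat.Agent.Lib.QCoeff

/-- The `q`-stabilisation `g − β · V_q g`. -/
noncomputable def s58q_stabForm (M q : ℕ) [NeZero M] [NeZero q] (g : CuspForm (Gamma0 M) 2)
    (β : ℂ) : CuspForm (Gamma0 (M * q)) 2 :=
  s58q_incl M q g - β • s58q_V M q g

theorem s58q_qCoeff_stabForm (M q : ℕ) [NeZero M] [NeZero q] (g : CuspForm (Gamma0 M) 2)
    (β : ℂ) (n : ℕ) :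
    qCoeff (s58q_stabForm M q g β) n =
      qCoeff g n - β * (if q ∣ n then qCoeff g (n / q) else 0) := by
  rw [s58q_stabForm, qCoeff_sub, qCoeff_smul, s58q_qCoeff_incl, s58q_qCoeff_V]

/-- **(R4-b)** the `q`-stabilisation of a normalized eigenform is a normalized eigenform of level
`M q`, with unchanged coefficients at the primes `ℓ ≠ q`. -/
theorem s58q_stab {M q : ℕ} [NeZero M] [NeZero q] (hq : q.Prime) (hqM : ¬ q ∣ M)
    (g : CuspForm (Gamma0 M) 2) (hg : g.IsNormalizedEigenform) (β : ℂ)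
    (hβ : β ^ 2 - qCoeff g q * β + q = 0) :
    (s58q_stabForm M q g β).IsNormalizedEigenform ∧
      ∀ ℓ : ℕ, ℓ.Prime → ℓ ≠ q → qCoeff (s58q_stabForm M q g β) ℓ = qCoeff g ℓ := by
  have hb0 : ∀ n, ¬ q ∣ n → qCoeff (s58q_stabForm M q g β) n = qCoeff g n := by
    intro n hn
    rw [s58q_qCoeff_stabForm, if_neg hn, mul_zero, sub_zero]
  have hb1 : ∀ m, qCoeff (s58q_stabForm M q g β) (q * m) =
      qCoeff g (q * m) - β * qCoeff g m := by
    intro m
    rw [s58q_qCoeff_stabForm, if_pos (dvd_mul_right q m), Nat.mul_div_cancel_left _ hq.pos]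
  have hpow : ∀ p k : ℕ, p.Prime → p ≠ q → ¬ q ∣ p ^ k := by
    intro p k hp hpq h
    exact hpq ((Nat.prime_dvd_prime_iff_eq hq hp).mp (hq.dvd_of_dvd_pow h)).symm
  have hprime : ∀ p : ℕ, p.Prime → p ≠ q → ¬ q ∣ p := by
    intro p hp hpq h
    exact hpq ((Nat.prime_dvd_prime_iff_eq hq hp).mp h).symm
  refine ⟨⟨?_, ?_, ?_, ?_⟩, ?_⟩
  · rw [hb0 1 hq.not_dvd_one]
    exact hg.qCoeff_one
  · intro m n hmn
    by_cases hm : q ∣ m
    · obtain ⟨m', rfl⟩ := hm
      have hqn : q.Coprime n := Nat.Coprime.coprime_dvd_left (dvd_mul_right q m') hmn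
      have hn : ¬ q ∣ n := (Nat.Prime.coprime_iff_not_dvd hq).mp hqn
      have hm'n : m'.Coprime n := Nat.Coprime.coprime_dvd_left (dvd_mul_left m' q) hmn
      rw [mul_assoc, hb1, hb1, hb0 n hn, ← mul_assoc,
        hg.qCoeff_mul_of_coprime _ _ hmn, hg.qCoeff_mul_of_coprime _ _ hm'n]
      ring
    · by_cases hn : q ∣ n
      · obtain ⟨n', rfl⟩ := hn
        have hmn' : m.Coprime n' := Nat.Coprime.coprime_dvd_right (dvd_mul_left n' q) hmn
        rw [show m * (q * n') = q * (m * n') by ring, hb1, hb1, hb0 m hm,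
          show q * (m * n') = m * (q * n') by ring,
          hg.qCoeff_mul_of_coprime _ _ hmn, hg.qCoeff_mul_of_coprime _ _ hmn']
        ring
      · have hmn' : ¬ q ∣ m * n := fun h => (hq.dvd_mul.mp h).elim hm hn
        rw [hb0 _ hmn', hb0 _ hm, hb0 _ hn]
        exact hg.qCoeff_mul_of_coprime m n hmn
  · intro p r hp hpN
    have hpq : p ≠ q := fun h => hpN (h ▸ dvd_mul_left p M)
    have hpM : ¬ p ∣ M := fun h => hpN (dvd_mul_of_dvd_left h q)
    rw [hb0 _ (hpow p (r + 2) hp hpq), hb0 _ (hpow p (r + 1) hp hpq), hb0 _ (hpow p r hp hpq),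
      hb0 p (hprime p hp hpq)]
    exact hg.qCoeff_prime_pow_of_not_dvd p r hp hpM
  · intro p r hp hpN
    by_cases hpq : p = q
    · rw [hpq]
      have e2 := hb1 (q ^ (r + 1))
      rw [← pow_succ'] at e2
      have e1 := hb1 (q ^ r)
      rw [← pow_succ'] at e1
      have e0 := hb1 1
      rw [mul_one, hg.qCoeff_one, mul_one] at e0
      have hrec := hg.qCoeff_prime_pow_of_not_dvd q r hq hqM
      rw [e2, e1, e0, hrec]
      linear_combination (-(qCoeff g (q ^ r))) * hβ
    · have hpM : p ∣ M := (hp.dvd_mul.mp hpN).resolve_right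
        (fun h => hpq ((Nat.prime_dvd_prime_iff_eq hp hq).mp h))
      rw [hb0 _ (hpow p (r + 2) hp hpq), hb0 _ (hpow p (r + 1) hp hpq), hb0 p (hprime p hp hpq)]
      exact hg.qCoeff_prime_pow_of_dvd p r hp hpM
  · intro ℓ hℓ hℓq
    exact hb0 ℓ (hprime ℓ hℓ hℓq)

/-- A root of `X² − a X + b` in `ℂ`. -/
theorem s58q_exists_root (a b : ℂ) : ∃ β : ℂ, β ^ 2 - a * β + b = 0 := by
  obtain ⟨s, hs⟩ := IsAlgClosed.exists_eq_mul_self (discrim 1 (-a) b)
  obtain ⟨β, hβ⟩ := exists_quadratic_eq_zero (one_ne_zero (α := ℂ)) ⟨s, hs⟩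
  exact ⟨β, by linear_combination hβ⟩

/-- **(R4-c)**, inductive form. -/
theorem s58q_lift_aux : ∀ (k M R : ℕ), R = M * k → Squarefree R →
    ∀ g : CuspForm (Gamma0 M) 2, g.IsNormalizedEigenform →
      ∃ h : CuspForm (Gamma0 R) 2, h.IsNormalizedEigenform ∧
        ∀ ℓ : ℕ, ℓ.Prime → ¬ ℓ ∣ R → qCoeff h ℓ = qCoeff g ℓ := by
  intro k
  induction k using Nat.strong_induction_on with
  | _ k ih =>
    intro M R hR hsq g hg
    by_cases hk : k = 1
    · subst hk
      rw [mul_one] at hR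
      subst hR
      exact ⟨g, hg, fun _ _ _ => rfl⟩
    · obtain ⟨q, hq, k', rfl⟩ := Nat.exists_prime_and_dvd hk
      have hR0 : R ≠ 0 := hsq.ne_zero
      have hM0 : M ≠ 0 := by
        rintro rfl
        exact hR0 (by rw [hR, zero_mul])
      have hk'0 : k' ≠ 0 := by
        rintro rfl
        exact hR0 (by rw [hR, mul_zero, mul_zero])
      have : NeZero M := ⟨hM0⟩
      have : NeZero q := ⟨hq.ne_zero⟩
      have hqM : ¬ q ∣ M := by
        rintro ⟨M', rfl⟩
        have hdvd : q * q ∣ R := ⟨M' * k', by rw [hR]; ring⟩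
        exact hq.one_lt.ne' (Nat.isUnit_iff.mp (hsq q hdvd))
      obtain ⟨β, hβ⟩ := s58q_exists_root (qCoeff g q) (q : ℂ)
      obtain ⟨h1, h2⟩ := s58q_stab hq hqM g hg β hβ
      have hlt : k' < q * k' := by
        have := hq.two_le
        have hk'pos : 0 < k' := Nat.pos_of_ne_zero hk'0
        nlinarith
      obtain ⟨h, hh, hcoef⟩ := ih k' hlt (M * q) R (by rw [hR]; ring) hsq
        (s58q_stabForm M q g β) h1
      refine ⟨h, hh, fun ℓ hℓ hℓR => ?_⟩
      rw [hcoef ℓ hℓ hℓR]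
      refine h2 ℓ hℓ ?_
      rintro rfl
      exact hℓR ⟨M * k', by rw [hR]; ring⟩

/-- **(R4-c) = contract [OLD]**: a normalized eigenform of level `M ∣ R`, `R` squarefree, lifts to
a normalized eigenform of level `R` with the same coefficients at the primes `ℓ ∤ R`. -/
theorem s58q_oldLift : s58_OldLift := by
  intro M R hMR hsq g hg
  obtain ⟨k, rfl⟩ := hMR
  exact s58q_lift_aux k M _ rfl hsq g hg

end Fermat.Agent.Lib.S58
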