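/-
S58 wave (helper9, prefix `s58r_`): **(R3-a) THE ALGEBRA CORE OF `hres`.**

Two-dimensional representations `r₁` over `k₀`, `r₂` over `k ⊇ k₀` of a group `Γ` with the same
trace function.  If `r₁` is irreducible and there is `c ∈ Γ` with `c² = 1`, `det r₁(c) = -1`
(`2 ≠ 0`), then `r₂` is ABSOLUTELY irreducible.

Proof (no Brauer–Nesbitt): `Q(g, g') := tr (([r g, r c]) ([r g', r c]))` is a `ℤ`-combination of
traces of group elements.  It vanishes identically for a representation with a stable line, and in
an eigenbasis of `r₁(c) = diag(1, -1)` it equals `-4 (β γ' + γ β')`, which cannot vanish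
identically for an irreducible `r₁`.
-/
import Mathlib

set_option autoImplicit false

noncomputable section

namespace Fermat.Agent.Lib.S58

open Matrix LinearMap Module

section Mat

variable {K : Type*} [Field K]

/-- the commutator-product trace vanishes for upper triangular `2 × 2` matrices. -/
theorem s58r_trace_comm_upper (A C A' : Matrix (Fin 2) (Fin 2) K) (hA : A 1 0 = 0)
    (hC : C 1 0 = 0) (hA' : A' 1 0 = 0) :
    Matrix.trace ((A * C - C * A) * (A' * C - C * A')) = 0 := by
  simp only [Matrix.trace_fin_two, Matrix.mul_apply, Matrix.sub_apply, Fin.sum_univ_two, hA, hC,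
    hA']
  ring

/-- the commutator-product trace for `C = diag(1, -1)`. -/
theorem s58r_trace_comm_diag (G C G' : Matrix (Fin 2) (Fin 2) K) (h00 : C 0 0 = 1)
    (h01 : C 0 1 = 0) (h10 : C 1 0 = 0) (h11 : C 1 1 = -1) :
    Matrix.trace ((G * C - C * G) * (G' * C - C * G')) =
      -4 * (G 0 1 * G' 1 0 + G 1 0 * G' 0 1) := by
  simp only [Matrix.trace_fin_two, Matrix.mul_apply, Matrix.sub_apply, Fin.sum_univ_two, h00, h01,
    h10, h11]
  ring

end Mat

section Lin

variable {K : Type*} [Field K] {V : Type*} [AddCommGroup V] [Module K V]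

/-- the commutator-product trace. -/
def s58r_Q (f c f' : Module.End K V) : K :=
  LinearMap.trace K V ((f * c - c * f) * (f' * c - c * f'))

theorem s58r_Q_eq_matrix (B : Basis (Fin 2) K V) (f c f' : Module.End K V) :
    s58r_Q f c f' =
      Matrix.trace ((toMatrix B B f * toMatrix B B c - toMatrix B B c * toMatrix B B f) *
        (toMatrix B B f' * toMatrix B B c - toMatrix B B c * toMatrix B B f')) := by
  unfold s58r_Q
  rw [LinearMap.trace_eq_matrix_trace K B, LinearMap.toMatrix_mul, map_sub, map_sub,
    LinearMap.toMatrix_mul, LinearMap.toMatrix_mul, LinearMap.toMatrix_mul, LinearMap.toMatrix_mul]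

/-- `Q` in terms of the trace function of a representation. -/
theorem s58r_Q_expand {Γ : Type*} [Monoid Γ] (R : Γ →* Module.End K V) (g c g' : Γ) :
    s58r_Q (R g) (R c) (R g') =
      LinearMap.trace K V (R (g * c * g' * c)) - LinearMap.trace K V (R (g * c * c * g')) -
        LinearMap.trace K V (R (c * g * g' * c)) + LinearMap.trace K V (R (c * g * c * g')) := by
  unfold s58r_Q
  simp only [map_mul]
  rw [← map_sub, ← map_sub, ← map_add]
  congr 1
  noncomm_ring

/-- a basis `(w, v)` from `w ≠ 0`, `w ∈ W`, `v ∉ W`. -/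
theorem s58r_pair_li (W : Submodule K V) (w v : V) (hw : w ∈ W) (hw0 : w ≠ 0) (hv : v ∉ W) :
    LinearIndependent K ![w, v] := by
  rw [LinearIndependent.pair_iff]
  intro s t h
  have ht : t = 0 := by
    by_contra ht
    apply hv
    have : v = (-(t⁻¹ * s)) • w := by
      have h1 : t • v = -(s • w) := by
        rw [eq_neg_iff_add_eq_zero, add_comm]; exact h
      calc v = t⁻¹ • (t • v) := by rw [smul_smul, inv_mul_cancel₀ ht, one_smul]
        _ = (-(t⁻¹ * s)) • w := by rw [h1, smul_neg, smul_smul, neg_smul]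
    rw [this]
    exact W.smul_mem _ hw
  refine ⟨?_, ht⟩
  rw [ht, zero_smul, add_zero] at h
  exact (smul_eq_zero.mp h).resolve_right hw0

/-- **`Q` vanishes identically for a representation with a stable line.** -/
theorem s58r_Q_eq_zero_of_stable (h2 : Module.finrank K V = 2) {Γ : Type*} [Monoid Γ]
    (R : Γ →* Module.End K V) (W : Submodule K V) (hW : ∀ g, ∀ x ∈ W, R g x ∈ W)
    (hbot : W ≠ ⊥) (htop : W ≠ ⊤) (g c g' : Γ) :
    s58r_Q (R g) (R c) (R g') = 0 := by
  obtain ⟨w, hw, hw0⟩ := Submodule.exists_mem_ne_zero_of_ne_bot hbot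
  obtain ⟨v, hv⟩ : ∃ v, v ∉ W := by
    by_contra h
    push Not at h
    exact htop (Submodule.eq_top_iff'.mpr h)
  have hli := s58r_pair_li W w v hw hw0 hv
  have hcard : Fintype.card (Fin 2) = Module.finrank K V := by rw [h2]; rfl
  set B : Basis (Fin 2) K V := basisOfLinearIndependentOfCardEqFinrank hli hcard with hB
  have hB0 : B 0 = w := by
    rw [hB, coe_basisOfLinearIndependentOfCardEqFinrank]; rfl
  have hB1 : B 1 = v := by
    rw [hB, coe_basisOfLinearIndependentOfCardEqFinrank]; rfl
  have hlow : ∀ h : Γ, toMatrix B B (R h) 1 0 = 0 := by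
    intro h
    rw [LinearMap.toMatrix_apply, hB0]
    by_contra hne
    apply hv
    have hs := B.sum_repr (R h w)
    rw [Fin.sum_univ_two, hB0, hB1] at hs
    set a := B.repr (R h w) 0
    set b := B.repr (R h w) 1
    have : v = b⁻¹ • (R h w - a • w) := by
      rw [← hs, add_sub_cancel_left, smul_smul, inv_mul_cancel₀ hne, one_smul]
    rw [this]
    exact W.smul_mem _ (W.sub_mem (hW h w hw) (W.smul_mem _ hw))
  rw [s58r_Q_eq_matrix B]
  exact s58r_trace_comm_upper _ _ _ (hlow g) (hlow c) (hlow g')

/-- **Eigenbasis of an involution of determinant `-1`.** -/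
theorem s58r_exists_eigenbasis (h2 : Module.finrank K V = 2) (h2K : (2 : K) ≠ 0)
    (C : Module.End K V) (hCC : C * C = 1) (hdet : LinearMap.det C = -1) :
    ∃ B : Basis (Fin 2) K V, C (B 0) = B 0 ∧ C (B 1) = -B 1 := by
  have hne : (1 : K) ≠ -1 := by
    intro h
    apply h2K
    have : (2 : K) = 1 + 1 := by norm_num
    rw [this]
    nth_rewrite 2 [h]
    ring
  have hC1 : C ≠ 1 := by
    intro h
    rw [h, map_one] at hdet
    exact hne hdet
  have hCm1 : C ≠ -1 := by
    intro h
    have : LinearMap.det (-1 : Module.End K V) = 1 := by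
      have e : (-1 : Module.End K V) = (-1 : K) • (1 : Module.End K V) := by
        rw [neg_smul, one_smul]
      rw [e, LinearMap.det_smul, h2, map_one]
      norm_num
    rw [h, this] at hdet
    exact hne hdet
  have hCCv : ∀ v, C (C v) = v := fun v => by
    have := congrArg (fun f : Module.End K V => f v) hCC
    simpa using this
  obtain ⟨v₁, hv₁⟩ : ∃ v, C v ≠ -v := by
    by_contra h
    push Not at h
    apply hCm1
    ext v
    simpa using h v
  obtain ⟨v₂, hv₂⟩ : ∃ v, C v ≠ v := by
    by_contra h
    push Not at h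
    apply hC1
    ext v
    simpa using h v
  set ep := v₁ + C v₁ with hep
  set em := v₂ - C v₂ with hem
  have hep0 : ep ≠ 0 := by
    intro h
    apply hv₁
    rw [hep, add_comm] at h
    exact eq_neg_of_add_eq_zero_left h
  have hem0 : em ≠ 0 := by
    intro h
    apply hv₂
    rw [hem, sub_eq_zero] at h
    exact h.symm
  have hCp : C ep = ep := by
    rw [hep, map_add, hCCv, add_comm]
  have hCm : C em = -em := by
    rw [hem, map_sub, hCCv, neg_sub]
  have hli : LinearIndependent K ![ep, em] := by
    rw [LinearIndependent.pair_iff]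
    intro s t h
    have h' := congrArg C h
    rw [map_add, map_smul, map_smul, hCp, hCm, map_zero, smul_neg] at h'
    have hs : (2 * s) • ep = 0 := by
      have := congrArg₂ (· + ·) h h'
      simp only [add_zero] at this
      rw [← this, mul_smul, two_smul]
      abel
    have ht : (2 * t) • em = 0 := by
      have := congrArg₂ (· - ·) h h'
      simp only [sub_zero] at this
      rw [← this, mul_smul, two_smul]
      abel
    refine ⟨?_, ?_⟩
    · rcases smul_eq_zero.mp hs with h0 | h0
      · exact (mul_eq_zero.mp h0).resolve_left h2K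
      · exact absurd h0 hep0
    · rcases smul_eq_zero.mp ht with h0 | h0
      · exact (mul_eq_zero.mp h0).resolve_left h2K
      · exact absurd h0 hem0
  have hcard : Fintype.card (Fin 2) = Module.finrank K V := by rw [h2]; rfl
  refine ⟨basisOfLinearIndependentOfCardEqFinrank hli hcard, ?_, ?_⟩
  · rw [coe_basisOfLinearIndependentOfCardEqFinrank]
    exact hCp
  · rw [coe_basisOfLinearIndependentOfCardEqFinrank]
    exact hCm

/-- **`Q` does not vanish identically for an irreducible representation with an "odd"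
involution.** -/
theorem s58r_exists_Q_ne_zero (h2 : Module.finrank K V = 2) (h2K : (2 : K) ≠ 0)
    {Γ : Type*} [Monoid Γ] (R : Γ →* Module.End K V) (c : Γ) (hc : c * c = 1)
    (hdet : LinearMap.det (R c) = -1)
    (hirr : ∀ W : Submodule K V, (∀ g, ∀ x ∈ W, R g x ∈ W) → W = ⊥ ∨ W = ⊤) :
    ∃ g g' : Γ, s58r_Q (R g) (R c) (R g') ≠ 0 := by
  have hCC : R c * R c = 1 := by rw [← map_mul, hc, map_one]
  obtain ⟨B, hB0, hB1⟩ := s58r_exists_eigenbasis h2 h2K (R c) hCC hdet
  have hrepr : ∀ (i j : Fin 2), B.repr (B j) i = if i = j then 1 else 0 := by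
    intro i j
    rw [B.repr_self, Finsupp.single_apply]
    by_cases h : i = j
    · rw [if_pos h, if_pos h.symm]
    · rw [if_neg h, if_neg (Ne.symm h)]
  have c00 : toMatrix B B (R c) 0 0 = 1 := by
    rw [LinearMap.toMatrix_apply, hB0, hrepr]; rfl
  have c10 : toMatrix B B (R c) 1 0 = 0 := by
    rw [LinearMap.toMatrix_apply, hB0, hrepr]; rfl
  have c01 : toMatrix B B (R c) 0 1 = 0 := by
    rw [LinearMap.toMatrix_apply, hB1, map_neg, Finsupp.neg_apply, hrepr]; simp
  have c11 : toMatrix B B (R c) 1 1 = -1 := by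
    rw [LinearMap.toMatrix_apply, hB1, map_neg, Finsupp.neg_apply, hrepr]; rfl
  have hli := B.linearIndependent
  have hB01 : B 0 ∉ Submodule.span K {B 1} := by
    intro h
    obtain ⟨a, ha⟩ := Submodule.mem_span_singleton.mp h
    have := congrArg (fun x => B.repr x 0) ha
    simp only [map_smul, Finsupp.smul_apply, hrepr] at this
    simp at this
  have hB10 : B 1 ∉ Submodule.span K {B 0} := by
    intro h
    obtain ⟨a, ha⟩ := Submodule.mem_span_singleton.mp h
    have := congrArg (fun x => B.repr x 1) ha
    simp only [map_smul, Finsupp.smul_apply, hrepr] at this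
    simp at this
  -- some `g` has a nonzero lower-left entry
  obtain ⟨g, hg⟩ : ∃ g, toMatrix B B (R g) 1 0 ≠ 0 := by
    by_contra h
    push Not at h
    have hst : ∀ g, ∀ x ∈ Submodule.span K {B 0}, R g x ∈ Submodule.span K {B 0} := by
      intro g x hx
      obtain ⟨a, rfl⟩ := Submodule.mem_span_singleton.mp hx
      rw [map_smul]
      apply Submodule.smul_mem
      have hs := B.sum_repr (R g (B 0))
      rw [Fin.sum_univ_two] at hs
      have h10 := h g
      rw [LinearMap.toMatrix_apply] at h10
      rw [h10, zero_smul, add_zero] at hs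
      rw [← hs]
      exact Submodule.smul_mem _ _ (Submodule.mem_span_singleton_self _)
    rcases hirr _ hst with h0 | h0
    · exact B.ne_zero 0 ((Submodule.span_singleton_eq_bot).mp h0)
    · exact hB10 (h0 ▸ Submodule.mem_top)
  obtain ⟨g', hg'⟩ : ∃ g, toMatrix B B (R g) 0 1 ≠ 0 := by
    by_contra h
    push Not at h
    have hst : ∀ g, ∀ x ∈ Submodule.span K {B 1}, R g x ∈ Submodule.span K {B 1} := by
      intro g x hx
      obtain ⟨a, rfl⟩ := Submodule.mem_span_singleton.mp hx
      rw [map_smul]
      apply Submodule.smul_mem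
      have hs := B.sum_repr (R g (B 1))
      rw [Fin.sum_univ_two] at hs
      have h01 := h g
      rw [LinearMap.toMatrix_apply] at h01
      rw [h01, zero_smul, zero_add] at hs
      rw [← hs]
      exact Submodule.smul_mem _ _ (Submodule.mem_span_singleton_self _)
    rcases hirr _ hst with h0 | h0
    · exact B.ne_zero 1 ((Submodule.span_singleton_eq_bot).mp h0)
    · exact hB01 (h0 ▸ Submodule.mem_top)
  have h4 : (4 : K) ≠ 0 := by
    have : (4 : K) = 2 * 2 := by norm_num
    rw [this]
    exact mul_ne_zero h2K h2K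
  have hQ : ∀ a b : Γ, s58r_Q (R a) (R c) (R b) =
      -4 * (toMatrix B B (R a) 0 1 * toMatrix B B (R b) 1 0 +
        toMatrix B B (R a) 1 0 * toMatrix B B (R b) 0 1) := fun a b => by
    rw [s58r_Q_eq_matrix B]
    exact s58r_trace_comm_diag _ _ _ c00 c01 c10 c11
  by_contra hall
  push Not at hall
  have hz : ∀ a b : Γ, toMatrix B B (R a) 0 1 * toMatrix B B (R b) 1 0 +
      toMatrix B B (R a) 1 0 * toMatrix B B (R b) 0 1 = 0 := by
    intro a b
    have := hall a b
    rw [hQ] at this
    exact (mul_eq_zero.mp this).resolve_left (neg_ne_zero.mpr h4)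
  -- `β γ = 0` for every element
  have hgg : toMatrix B B (R g) 0 1 = 0 := by
    have := hz g g
    rw [mul_comm (toMatrix B B (R g) 1 0), ← two_mul] at this
    have h' := (mul_eq_zero.mp this).resolve_left h2K
    exact (mul_eq_zero.mp h').resolve_right hg
  have hg'g' : toMatrix B B (R g') 1 0 = 0 := by
    have := hz g' g'
    rw [mul_comm (toMatrix B B (R g') 1 0), ← two_mul] at this
    have h' := (mul_eq_zero.mp this).resolve_left h2K
    exact (mul_eq_zero.mp h').resolve_left hg'
  have := hz g g'
  rw [hgg, zero_mul, zero_add] at this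
  exact (mul_ne_zero hg hg') this

end Lin

/-! ### The theorem -/

section Main

open TensorProduct

variable {Γ : Type*} [Group Γ] {k₀ k : Type*} [Field k₀] [Field k] [Algebra k₀ k]
  {V₁ V₂ : Type*} [AddCommGroup V₁] [Module k₀ V₁] [AddCommGroup V₂] [Module k V₂]

/-- **(R3-a)** equal trace functions, `r₁` irreducible with an odd involution ⇒ `r₂` absolutely
irreducible (for every extension field `K` of `k`). -/
theorem s58r_absIrred_of_trace_eq (K : Type*) [Field K] [Algebra k K]
    (h₁ : Module.finrank k₀ V₁ = 2) (h₂ : Module.finrank k V₂ = 2)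
    (r₁ : Γ →* Module.End k₀ V₁) (r₂ : Γ →* Module.End k V₂) (h2 : (2 : k) ≠ 0)
    (htr : ∀ g, LinearMap.trace k V₂ (r₂ g) = algebraMap k₀ k (LinearMap.trace k₀ V₁ (r₁ g)))
    (c : Γ) (hc : c * c = 1) (hdet : LinearMap.det (r₁ c) = -1)
    (hirr : ∀ W : Submodule k₀ V₁, (∀ g, ∀ x ∈ W, r₁ g x ∈ W) → W = ⊥ ∨ W = ⊤)
    (W : Submodule K (K ⊗[k] V₂))
    (hW : ∀ g, ∀ x ∈ W, (r₂ g).baseChange K x ∈ W) : W = ⊥ ∨ W = ⊤ := by
  by_contra hcon
  push Not at hcon
  obtain ⟨hbot, htop⟩ := hcon
  have h2k₀ : (2 : k₀) ≠ 0 := by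
    intro h
    apply h2
    have := congrArg (algebraMap k₀ k) h
    rw [map_ofNat, map_zero] at this
    exact this
  -- the base-changed representation
  let R : Γ →* Module.End K (K ⊗[k] V₂) :=
    { toFun := fun g => (r₂ g).baseChange K
      map_one' := by rw [map_one, LinearMap.baseChange_one]
      map_mul' := fun a b => by rw [map_mul, LinearMap.baseChange_mul] }
  have hRfin : Module.finrank K (K ⊗[k] V₂) = 2 := by
    rw [Module.finrank_baseChange, h₂]
  have : Module.Finite k V₂ := Module.finite_of_finrank_eq_succ h₂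
  have : Module.Free k V₂ := Module.Free.of_divisionRing k V₂
  have htrR : ∀ g, LinearMap.trace K _ (R g) =
      algebraMap k K (algebraMap k₀ k (LinearMap.trace k₀ V₁ (r₁ g))) := by
    intro g
    show LinearMap.trace K _ ((r₂ g).baseChange K) = _
    rw [LinearMap.trace_baseChange, htr]
  obtain ⟨g, g', hne⟩ := s58r_exists_Q_ne_zero h₁ h2k₀ r₁ c hc hdet hirr
  have hzero := s58r_Q_eq_zero_of_stable hRfin R W hW hbot htop g c g'
  rw [s58r_Q_expand, htrR, htrR, htrR, htrR, ← map_sub, ← map_sub, ← map_add, ← map_sub, ← map_sub,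
    ← map_add, ← s58r_Q_expand] at hzero
  apply hne
  have hinj : Function.Injective ((algebraMap k K).comp (algebraMap k₀ k)) :=
    RingHom.injective _
  apply hinj
  rw [map_zero]
  exact hzero

end Main

end Fermat.Agent.Lib.S58
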