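/-
S58 wave (helper9, prefix `s58r_`): **the contract `s58_AbsIrredTransfer` [R3-a] CLOSED**, by
reduction to the trace version `s58r_absIrred_of_trace_eq` (`RHresCore.lean`).

Lemma T (`s58r_trace_of_rel`): a two-dimensional representation `r` with the quadratic relations
`r g + ε(g) r g⁻¹ = s(g)`, an involution `c` with `ε c = -1` and `r c` NOT a scalar satisfies
`tr r(g) = s(g)` for ALL `g`, and `det r(c) = -1`.  (Cayley–Hamilton: `(tr G - s) G = det G - ε`; a
scalar `G = μ` has `c G` non-scalar, whence `μ² = ε(g)` and `s(g) = 2 μ`.)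
-/
import Fermat.Agent.Lib.S58.Iface
import Fermat.Agent.Lib.S58.RHresCore

set_option autoImplicit false
set_option linter.unusedSectionVars false

noncomputable section

namespace Fermat.Agent.Lib.S58

open Matrix LinearMap Module

section Mat

variable {K : Type*} [Field K]

/-- Cayley–Hamilton for `2 × 2` matrices. -/
theorem s58r_cayley (A : Matrix (Fin 2) (Fin 2) K) :
    A * A - A.trace • A + A.det • (1 : Matrix (Fin 2) (Fin 2) K) = 0 := by
  ext i j
  fin_cases i <;> fin_cases j <;>
    simp [Matrix.mul_apply, Fin.sum_univ_two, Matrix.trace_fin_two, Matrix.det_fin_two] <;> ring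

/-- the dichotomy: a matrix with `A² + e = s A` is scalar or has trace `s` and determinant `e`. -/
theorem s58r_rel_dichotomy (A : Matrix (Fin 2) (Fin 2) K) (s e : K)
    (h : A * A + e • (1 : Matrix (Fin 2) (Fin 2) K) = s • A)
    (hns : ∀ μ : K, A ≠ μ • (1 : Matrix (Fin 2) (Fin 2) K)) : A.trace = s ∧ A.det = e := by
  have hCH := s58r_cayley A
  have h1 : (A.trace - s) • A = (A.det - e) • (1 : Matrix (Fin 2) (Fin 2) K) := by
    have hAA : A * A = s • A - e • (1 : Matrix (Fin 2) (Fin 2) K) := by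
      rw [← h]; abel
    rw [hAA] at hCH
    rw [sub_smul, sub_smul]
    have : A.trace • A - s • A - (A.det • (1 : Matrix (Fin 2) (Fin 2) K) - e • 1) =
        -(s • A - e • (1 : Matrix (Fin 2) (Fin 2) K) - A.trace • A + A.det • 1) := by abel
    rw [← sub_eq_zero, this, hCH, neg_zero]
  have htr : A.trace = s := by
    by_contra hne
    have hne' : A.trace - s ≠ 0 := sub_ne_zero.mpr hne
    apply hns ((A.trace - s)⁻¹ * (A.det - e))
    calc A = (A.trace - s)⁻¹ • ((A.trace - s) • A) := by
          rw [smul_smul, inv_mul_cancel₀ hne', one_smul]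
      _ = ((A.trace - s)⁻¹ * (A.det - e)) • 1 := by rw [h1, smul_smul]
  refine ⟨htr, ?_⟩
  rw [htr, sub_self, zero_smul] at h1
  have h2 := congrFun (congrFun h1 0) 0
  simp at h2
  exact sub_eq_zero.mp h2.symm

end Mat

section Rel

variable {K : Type*} [Field K] {V : Type*} [AddCommGroup V] [Module K V]
  {Γ : Type*} [Group Γ] (r : Γ →* Module.End K V) (e : Γ →* Kˣ) (s : Γ → K)

/-- the relation multiplied by `r g`. -/
theorem s58r_rel_mul (H : ∀ g, r g + ((e g : Kˣ) : K) • r g⁻¹ = s g • (1 : Module.End K V))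
    (g : Γ) : r g * r g + ((e g : Kˣ) : K) • (1 : Module.End K V) = s g • r g := by
  have h := congrArg (fun f => f * r g) (H g)
  simp only [add_mul, smul_mul_assoc, one_mul] at h
  have h1 : r g⁻¹ * r g = 1 := by rw [← map_mul, inv_mul_cancel, map_one]
  rw [h1] at h
  exact h

/-- **Lemma T.** -/
theorem s58r_trace_of_rel (h2 : Module.finrank K V = 2) (_h2K : (2 : K) ≠ 0)
    (H : ∀ g, r g + ((e g : Kˣ) : K) • r g⁻¹ = s g • (1 : Module.End K V))
    (c : Γ) (hc : c * c = 1) (hec : e c = -1)
    (hns : ∀ μ : K, r c ≠ μ • (1 : Module.End K V)) :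
    (∀ g, LinearMap.trace K V (r g) = s g) ∧ LinearMap.det (r c) = -1 := by
  have : Module.Finite K V := Module.finite_of_finrank_eq_succ h2
  let B : Basis (Fin 2) K V := Module.finBasisOfFinrankEq K V h2
  set M : Γ → Matrix (Fin 2) (Fin 2) K := fun g => toMatrix B B (r g) with hM
  have hMmul : ∀ a b, M (a * b) = M a * M b := fun a b => by
    rw [hM]; simp only; rw [map_mul, LinearMap.toMatrix_mul]
  have hMone : M 1 = 1 := by
    rw [hM]; simp only; rw [map_one, LinearMap.toMatrix_one]
  have hscal : ∀ (g : Γ) (μ : K), M g = μ • 1 ↔ r g = μ • 1 := by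
    intro g μ
    constructor
    · intro h
      apply (toMatrix B B).injective
      rw [map_smul, LinearMap.toMatrix_one]
      exact h
    · intro h
      rw [hM]; simp only
      rw [h, map_smul, LinearMap.toMatrix_one]
  have hrel : ∀ g, M g * M g + ((e g : Kˣ) : K) • (1 : Matrix (Fin 2) (Fin 2) K) = s g • M g := by
    intro g
    have h := congrArg (toMatrix B B) (s58r_rel_mul r e s H g)
    rw [map_add, LinearMap.toMatrix_mul, map_smul, LinearMap.toMatrix_one, map_smul] at h
    exact h
  have hnsM : ∀ μ : K, M c ≠ μ • 1 := fun μ h => hns μ ((hscal c μ).mp h)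
  obtain ⟨htrc, hdetc⟩ := s58r_rel_dichotomy (M c) (s c) _ (hrel c) hnsM
  have hecK : ((e c : Kˣ) : K) = -1 := by rw [hec]; simp
  have hdetc' : (M c).det = -1 := by rw [hdetc, hecK]
  have hCC : M c * M c = 1 := by rw [← hMmul, hc, hMone]
  refine ⟨fun g => ?_, ?_⟩
  · rw [LinearMap.trace_eq_matrix_trace K B]
    show (M g).trace = s g
    by_cases hg : ∀ μ : K, M g ≠ μ • 1
    · exact (s58r_rel_dichotomy (M g) (s g) _ (hrel g) hg).1
    · push Not at hg
      obtain ⟨μ, hμ⟩ := hg
      have hμ0 : μ ≠ 0 := by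
        rintro rfl
        rw [zero_smul] at hμ
        have h1 : M g * M g⁻¹ = 1 := by rw [← hMmul, mul_inv_cancel, hMone]
        rw [hμ, zero_mul] at h1
        exact zero_ne_one h1
      -- `M (c g) = μ • M c` is not scalar
      have hcg : M (c * g) = μ • M c := by rw [hMmul, hμ, mul_smul_comm, mul_one]
      have hcgns : ∀ ν : K, M (c * g) ≠ ν • 1 := by
        intro ν h
        apply hnsM (μ⁻¹ * ν)
        calc M c = μ⁻¹ • (μ • M c) := by rw [smul_smul, inv_mul_cancel₀ hμ0, one_smul]
          _ = (μ⁻¹ * ν) • 1 := by rw [← hcg, h, smul_smul]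
      obtain ⟨-, hdetcg⟩ := s58r_rel_dichotomy (M (c * g)) (s (c * g)) _ (hrel (c * g)) hcgns
      rw [hcg, Matrix.det_smul, Fintype.card_fin, hdetc', map_mul, Units.val_mul, hecK] at hdetcg
      have hμ2 : μ ^ 2 = ((e g : Kˣ) : K) := by linear_combination -hdetcg
      have h3 := hrel g
      rw [hμ, smul_mul_smul_comm, mul_one, smul_smul, ← add_smul] at h3
      have h4 := congrFun (congrFun h3 0) 0
      simp only [Matrix.smul_apply, Matrix.one_apply_eq, smul_eq_mul, mul_one] at h4
      rw [hμ, Matrix.trace_smul, Matrix.trace_one, Fintype.card_fin]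
      have h5 : μ * (2 * μ - s g) = 0 := by
        rw [← hμ2] at h4
        linear_combination h4
      have h6 := (mul_eq_zero.mp h5).resolve_left hμ0
      simp only [smul_eq_mul, Nat.cast_ofNat]
      linear_combination h6
  · rw [← LinearMap.det_toMatrix B]
    exact hdetc'

end Rel

/-! ### The contract -/

/-- **[R3-a]** -/
theorem s58r_absIrredTransfer : s58_AbsIrredTransfer := by
  intro Γ _ k₀ k _ _ _ U V _ _ _ _ h₁ h₂ r₁ r₂ ε h2 c hc hεc hdet₂ H hirr N hN
  choose s hs₁ hs₂ using H
  have h2k₀ : (2 : k₀) ≠ 0 := by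
    intro h
    apply h2
    have := congrArg (algebraMap k₀ k) h
    rw [map_ofNat, map_zero] at this
    exact this
  have hne : (1 : k) ≠ -1 := by
    intro h
    apply h2
    have : (2 : k) = 1 + 1 := by norm_num
    rw [this]
    nth_rewrite 2 [h]
    ring
  -- `r₂ c` is not a scalar
  have hCC₂ : r₂ c * r₂ c = 1 := by rw [← map_mul, hc, map_one]
  have hns₂ : ∀ μ : k, r₂ c ≠ μ • (1 : Module.End k V) := by
    intro μ h
    have hμ2 : μ ^ 2 = 1 := by
      have h3 := hCC₂
      rw [h, smul_mul_smul_comm, mul_one] at h3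
      have : Nontrivial V := Module.nontrivial_of_finrank_pos (R := k) (by rw [h₂]; norm_num)
      obtain ⟨v, hv⟩ := exists_ne (0 : V)
      have h4 := congrArg (fun f : Module.End k V => f v) h3
      simp only [LinearMap.smul_apply, Module.End.one_apply] at h4
      have h5 : (μ * μ - 1) • v = 0 := by rw [sub_smul, h4, one_smul, sub_self]
      have h6 := (smul_eq_zero.mp h5).resolve_right hv
      linear_combination h6
    rw [h, LinearMap.det_smul, h₂, map_one, mul_one, hμ2] at hdet₂
    exact hne hdet₂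
  let ε₂ : Γ →* kˣ := (Units.map (algebraMap k₀ k : k₀ →* k)).comp ε
  have hε₂ : ∀ g, ((ε₂ g : kˣ) : k) = algebraMap k₀ k ((ε g : k₀ˣ) : k₀) := fun g => rfl
  have hε₂c : ε₂ c = -1 := by
    apply Units.ext
    rw [hε₂, hεc]
    simp
  obtain ⟨htr₂, -⟩ := s58r_trace_of_rel r₂ ε₂ (fun g => algebraMap k₀ k (s g)) h₂ h2
    (fun g => by rw [hε₂]; exact hs₂ g) c hc hε₂c hns₂
  -- `r₁ c` is not a scalar
  have hns₁ : ∀ μ : k₀, r₁ c ≠ μ • (1 : Module.End k₀ U) := by
    intro μ hμ
    have : Nontrivial U := Module.nontrivial_of_finrank_pos (R := k₀) (by rw [h₁]; norm_num)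
    obtain ⟨u, hu⟩ := exists_ne (0 : U)
    have hCC₁ : r₁ c * r₁ c = 1 := by rw [← map_mul, hc, map_one]
    have hμ2 : μ * μ = 1 := by
      have h3 := hCC₁
      rw [hμ, smul_mul_smul_comm, mul_one] at h3
      have h4 := congrArg (fun f : Module.End k₀ U => f u) h3
      simp only [LinearMap.smul_apply, Module.End.one_apply] at h4
      have h5 : (μ * μ - 1) • u = 0 := by rw [sub_smul, h4, one_smul, sub_self]
      have h6 := (smul_eq_zero.mp h5).resolve_right hu
      linear_combination h6
    -- every `r₁ g` is a scalar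
    have hall : ∀ g, ∃ ν : k₀, r₁ g = ν • (1 : Module.End k₀ U) := by
      intro g
      have e1 := s58r_rel_mul r₁ ε s hs₁ g
      have e2 := s58r_rel_mul r₁ ε s hs₁ (c * g)
      rw [map_mul r₁ c g, hμ, smul_mul_assoc, one_mul, smul_mul_smul_comm, hμ2, one_smul, map_mul,
        hεc, smul_smul] at e2
      have hεneg : (((-1 : k₀ˣ) * ε g : k₀ˣ) : k₀) = -((ε g : k₀ˣ) : k₀) := by simp
      rw [hεneg, neg_smul] at e2
      have e3 : (2 * ((ε g : k₀ˣ) : k₀)) • (1 : Module.End k₀ U) =
          (s g - s (c * g) * μ) • r₁ g := by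
        have := congrArg₂ (· - ·) e1 e2
        rw [sub_smul, ← this, two_mul, add_smul]
        abel
      have hcoef : s g - s (c * g) * μ ≠ 0 := by
        intro h0
        rw [h0, zero_smul] at e3
        have h4 := congrArg (fun f : Module.End k₀ U => f u) e3
        simp only [LinearMap.smul_apply, Module.End.one_apply, LinearMap.zero_apply] at h4
        have h5 := (smul_eq_zero.mp h4).resolve_right hu
        exact (mul_ne_zero h2k₀ (ε g).ne_zero) h5
      refine ⟨(s g - s (c * g) * μ)⁻¹ * (2 * ((ε g : k₀ˣ) : k₀)), ?_⟩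
      calc r₁ g = (s g - s (c * g) * μ)⁻¹ • ((s g - s (c * g) * μ) • r₁ g) := by
            rw [smul_smul, inv_mul_cancel₀ hcoef, one_smul]
        _ = _ := by rw [← e3, smul_smul]
    -- hence the line through `u` is stable
    have hst : ∀ g, ∀ x ∈ Submodule.span k₀ {u}, r₁ g x ∈ Submodule.span k₀ {u} := by
      intro g x hx
      obtain ⟨ν, hν⟩ := hall g
      rw [hν, LinearMap.smul_apply, Module.End.one_apply]
      exact Submodule.smul_mem _ _ hx
    rcases hirr _ hst with h0 | h0
    · exact hu ((Submodule.span_singleton_eq_bot).mp h0)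
    · have h7 : Module.finrank k₀ (Submodule.span k₀ {u}) = 1 := finrank_span_singleton hu
      rw [h0, finrank_top, h₁] at h7
      norm_num at h7
  obtain ⟨htr₁, hdet₁⟩ := s58r_trace_of_rel r₁ ε s h₁ h2k₀ hs₁ c hc hεc hns₁
  exact s58r_absIrred_of_trace_eq (AlgebraicClosure k) h₁ h₂ r₁ r₂ h2
    (fun g => by rw [htr₂, htr₁]) c hc hdet₁ hirr N hN

end Fermat.Agent.Lib.S58
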