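/-
S58 wave (helper9, prefix `s58r_`): **(R3-b.1) INVOLUTIONS OF AN ALGEBRAICALLY CLOSED FIELD MOVE THE
ROOTS OF UNITY OF ODD ORDER** (the elementary half of Artin–Schreier).

`K` algebraically closed, `2 ≠ 0`, `c : K →+* K` an involution `≠ id`.  Then
* `c i = -i` for `i² = -1`;
* a sum of two squares of `c`-fixed elements is the square of a `c`-fixed element, and `-1` is not
  the square of a `c`-fixed element;
* hence a `c`-fixed `ζ` with `ζ ^ p = 1`, `p` odd, is `1` (`s58r_fixed_root_eq_one`): all powers of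
  `ζ` are nonzero squares of fixed elements, so `1 + ζ + … + ζ^(p-1)` is a nonzero square.
-/
import Mathlib

set_option autoImplicit false
set_option linter.unusedSectionVars false

namespace Fermat.Agent.Lib.S58

section Field

variable {K : Type*} [Field K] [IsAlgClosed K] (c : K →+* K)

/-- `c i ≠ i`. -/
theorem s58r_inv_I_ne (h2 : (2 : K) ≠ 0) (hcc : ∀ x, c (c x) = x) (hc1 : ∃ x, c x ≠ x)
    (i : K) (hi : i ^ 2 = -1) : c i ≠ i := by
  intro hfi
  obtain ⟨θ, hθ⟩ := hc1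
  set α := θ - c θ with hα
  have hα0 : α ≠ 0 := sub_ne_zero.mpr (Ne.symm hθ)
  have hcα : c α = -α := by rw [hα, map_sub, hcc, neg_sub]
  obtain ⟨β, hβ⟩ := IsAlgClosed.exists_pow_nat_eq α (n := 2) (by norm_num)
  set n := β * c β with hn
  have hcn : c n = n := by rw [hn, map_mul, hcc, mul_comm]
  have hn2 : n ^ 2 = -α ^ 2 := by
    calc n ^ 2 = β ^ 2 * (c β) ^ 2 := by rw [hn]; ring
      _ = α * c α := by rw [hβ, ← map_pow, hβ]
      _ = -α ^ 2 := by rw [hcα]; ring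
  have h3 : (i * n) ^ 2 = α ^ 2 := by rw [mul_pow, hi, hn2]; ring
  have hfix : c (i * n) = i * n := by rw [map_mul, hfi, hcn]
  have hαfix : c α = α := by
    rcases sq_eq_sq_iff_eq_or_eq_neg.mp h3 with h | h
    · rw [← h]; exact hfix
    · have : α = -(i * n) := by rw [h, neg_neg]
      rw [this, map_neg, hfix]
  rw [hcα] at hαfix
  have : (2 : K) * α = 0 := by
    have h4 : α + α = 0 := by
      nth_rewrite 1 [← hαfix]
      exact neg_add_cancel α
    rw [two_mul]; exact h4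
  exact hα0 ((mul_eq_zero.mp this).resolve_left h2)

/-- a sum of two squares of fixed elements is the square of a fixed element. -/
theorem s58r_inv_sum_sq (h2 : (2 : K) ≠ 0) (hcc : ∀ x, c (c x) = x) (hc1 : ∃ x, c x ≠ x)
    (a b : K) (ha : c a = a) (hb : c b = b) : ∃ w, c w = w ∧ a ^ 2 + b ^ 2 = w ^ 2 := by
  obtain ⟨i, hi⟩ := IsAlgClosed.exists_pow_nat_eq (-1 : K) (n := 2) (by norm_num)
  have hci : c i = -i := by
    have h1 : (c i) ^ 2 = i ^ 2 := by rw [← map_pow, hi, map_neg, map_one]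
    rcases sq_eq_sq_iff_eq_or_eq_neg.mp h1 with h | h
    · exact absurd h (s58r_inv_I_ne c h2 hcc hc1 i hi)
    · exact h
  obtain ⟨s, hs⟩ := IsAlgClosed.exists_pow_nat_eq (a + b * i) (n := 2) (by norm_num)
  refine ⟨s * c s, by rw [map_mul, hcc, mul_comm], ?_⟩
  calc a ^ 2 + b ^ 2 = (a + b * i) * (a - b * i) := by
        have : i * i = -1 := by rw [← sq]; exact hi
        ring_nf
        rw [hi]
        ring
    _ = s ^ 2 * c (s ^ 2) := by rw [hs, map_add, map_mul, ha, hb, hci]; ring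
    _ = (s * c s) ^ 2 := by rw [map_pow]; ring

/-- `-1` is not the square of a fixed element. -/
theorem s58r_inv_neg_one_not_sq (h2 : (2 : K) ≠ 0) (hcc : ∀ x, c (c x) = x)
    (hc1 : ∃ x, c x ≠ x) (w : K) (hw : c w = w) : w ^ 2 ≠ -1 := by
  intro h
  exact s58r_inv_I_ne c h2 hcc hc1 w h hw

/-- "positive" elements: nonzero squares of fixed elements. -/
def s58r_Pos (x : K) : Prop := ∃ y, c y = y ∧ y ≠ 0 ∧ x = y ^ 2

theorem s58r_pos_add (h2 : (2 : K) ≠ 0) (hcc : ∀ x, c (c x) = x) (hc1 : ∃ x, c x ≠ x)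
    (x x' : K) (hx : s58r_Pos c x) (hx' : s58r_Pos c x') : s58r_Pos c (x + x') := by
  obtain ⟨y, hy, hy0, rfl⟩ := hx
  obtain ⟨y', hy', hy'0, rfl⟩ := hx'
  obtain ⟨w, hw, hsum⟩ := s58r_inv_sum_sq c h2 hcc hc1 y y' hy hy'
  refine ⟨w, hw, ?_, hsum⟩
  rintro rfl
  apply s58r_inv_neg_one_not_sq c h2 hcc hc1 (y / y') (by rw [map_div₀, hy, hy'])
  rw [div_pow, div_eq_iff (pow_ne_zero 2 hy'0)]
  have : y ^ 2 + y' ^ 2 = 0 := by rw [hsum]; ring
  linear_combination this

theorem s58r_pos_ne_zero (x : K) (hx : s58r_Pos c x) : x ≠ 0 := by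
  obtain ⟨y, -, hy0, rfl⟩ := hx
  exact pow_ne_zero 2 hy0

/-- **A fixed root of unity of odd order is `1`.** -/
theorem s58r_fixed_root_eq_one (h2 : (2 : K) ≠ 0) (hcc : ∀ x, c (c x) = x)
    (hc1 : ∃ x, c x ≠ x) (p : ℕ) (hp : Odd p) (ζ : K) (hζ : ζ ^ p = 1) (hfix : c ζ = ζ) :
    ζ = 1 := by
  by_contra hne
  obtain ⟨m, hm⟩ := hp
  have hζ0 : ζ ≠ 0 := by
    rintro rfl
    rw [zero_pow (by omega)] at hζ
    exact zero_ne_one hζ
  have hpos : ∀ k : ℕ, s58r_Pos c (ζ ^ k) := by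
    intro k
    refine ⟨ζ ^ (k * (m + 1)), by rw [map_pow, hfix], pow_ne_zero _ hζ0, ?_⟩
    rw [← pow_mul]
    have : k * (m + 1) * 2 = p * k + k := by rw [hm]; ring
    rw [this, pow_add, pow_mul, hζ, one_pow, one_mul]
  have hsum : ∀ n : ℕ, s58r_Pos c (∑ k ∈ Finset.range (n + 1), ζ ^ k) := by
    intro n
    induction n with
    | zero => simpa using hpos 0
    | succ n ih =>
      rw [Finset.sum_range_succ]
      exact s58r_pos_add c h2 hcc hc1 _ _ ih (hpos _)
  have h1 := s58r_pos_ne_zero c _ (hsum (2 * m))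
  apply h1
  have h3 : (∑ k ∈ Finset.range (2 * m + 1), ζ ^ k) * (ζ - 1) = 0 := by
    rw [geom_sum_mul, ← hm, hζ, sub_self]
  exact (mul_eq_zero.mp h3).resolve_right (sub_ne_zero.mpr hne)

end Field

end Fermat.Agent.Lib.S58
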