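/-
S58 wave (helper9, prefix `s58r_`): **the contract `s58_InvolutionCyc` [ODD-CYC] CLOSED**:
a non-trivial involution of `G_ℚ` inverts the roots of unity of odd order
(`RHresOdd.lean`: `η := ζ · c ζ` is a `c`-fixed root of unity of odd order, hence `1`).
-/
import Fermat.Agent.Lib.S58.Iface
import Fermat.Agent.Lib.S58.RHresOdd

set_option autoImplicit false

namespace Fermat.Agent.Lib.S58

/-- **[ODD-CYC]** -/
theorem s58r_involutionCyc : s58_InvolutionCyc := by
  intro c hcc hc1 m hm ζ hζ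
  have h2 : (2 : AlgebraicClosure ℚ) ≠ 0 := two_ne_zero
  have hcc' : ∀ x : AlgebraicClosure ℚ, (c : AlgebraicClosure ℚ →+* AlgebraicClosure ℚ)
      ((c : AlgebraicClosure ℚ →+* AlgebraicClosure ℚ) x) = x := by
    intro x
    have := congrArg (fun f : s58_G => f x) hcc
    simpa using this
  have hne : ∃ x : AlgebraicClosure ℚ, (c : AlgebraicClosure ℚ →+* AlgebraicClosure ℚ) x ≠ x := by
    by_contra h
    push Not at h
    apply hc1
    ext x
    exact h x
  have hη : (ζ * c ζ) ^ m = 1 := by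
    rw [mul_pow, ← map_pow, hζ, map_one, one_mul]
  have hfix : (c : AlgebraicClosure ℚ →+* AlgebraicClosure ℚ) (ζ * c ζ) = ζ * c ζ := by
    have h1 : c (c ζ) = ζ := hcc' ζ
    show c (ζ * c ζ) = ζ * c ζ
    rw [map_mul, h1, mul_comm]
  have h1 := s58r_fixed_root_eq_one (c : AlgebraicClosure ℚ →+* AlgebraicClosure ℚ) h2 hcc' hne m hm
    (ζ * c ζ) hη hfix
  exact eq_inv_of_mul_eq_one_right h1

end Fermat.Agent.Lib.S58
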