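/-
S58 wave (lead, prefix `s58t_`): NEWFORM EXTRACTION in the Prelude's eigenvalue sense.

`CuspForm.IsNewform g` := `g` is a normalised eigenform whose good eigensystem occurs at no proper
divisor of its level.  Hence for a normalised eigenform `f` of level `N` the least `M ∣ N` at which
the good eigensystem of `f` (away from `N`) occurs carries a NEWFORM `g` with
`a_ℓ(g) = a_ℓ(f)` for all primes `ℓ ∤ N` — a pure minimality argument (no Atkin–Lehner theory).
-/
import Fermat.Prelude.Def_CuspForm_Newforms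

set_option autoImplicit false

namespace Fermat.Agent.Lib.S58

open CuspForm ModularFormClass

/-- **Newform extraction.** -/
theorem s58t_exists_newform {N : ℕ} (hN : N ≠ 0) (f : CuspForm (CongruenceSubgroup.Gamma0 N) 2)
    (hf : f.IsNormalizedEigenform) :
    ∃ (M : ℕ) (_ : M ∣ N) (g : CuspForm (CongruenceSubgroup.Gamma0 M) 2), g.IsNewform ∧
      ∀ ℓ : ℕ, ℓ.Prime → ¬ ℓ ∣ N → qCoeff g ℓ = qCoeff f ℓ := by
  classical
  -- the set of levels at which the good eigensystem of `f` occurs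
  have hex : ∃ M : ℕ, M ∣ N ∧ GoodEigensystemOccursAt f M :=
    ⟨N, dvd_rfl, GoodEigensystemOccursAt.refl hf⟩
  obtain ⟨hMN, g, hg, hgf⟩ := Nat.find_spec hex
  have hmin : ∀ M' : ℕ, M' < Nat.find hex → ¬ (M' ∣ N ∧ GoodEigensystemOccursAt f M') :=
    fun M' h => Nat.find_min hex h
  refine ⟨Nat.find hex, hMN, g, ⟨hg, ?_⟩, hgf⟩
  intro M' hM' hne hocc
  obtain ⟨g', hg', hgg'⟩ := hocc
  -- `M' ∣ M`, `M' ≠ M`, `M ≠ 0`: then `M' < M`
  have hM'N : M' ∣ N := hM'.trans hMN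
  have h0 : Nat.find hex ≠ 0 := fun h => hN (Nat.eq_zero_of_zero_dvd (h ▸ hMN))
  have hlt : M' < Nat.find hex :=
    lt_of_le_of_ne (Nat.le_of_dvd (Nat.pos_of_ne_zero h0) hM') hne
  refine hmin M' hlt ⟨hM'N, g', hg', ?_⟩
  intro ℓ hℓ hℓN
  have hℓM : ¬ ℓ ∣ Nat.find hex := fun h => hℓN (h.trans hMN)
  rw [hgg' ℓ hℓ hℓM, hgf ℓ hℓ hℓN]

end Fermat.Agent.Lib.S58
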