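/-
S58 wave, wiring (helper8): the integral Lucas sequence and the two places where it is used
(points of an abelian group with a group action; endomorphisms of a module).
-/
import Mathlib

set_option autoImplicit false

namespace Fermat.Agent.Lib.S58

/-- `V_0 = 2`, `V_1 = a`, `V_{j+2} = a V_{j+1} - c V_j`. -/
def s58w_luc (a c : ℤ) : ℕ → ℤ
  | 0 => 2
  | 1 => a
  | (j + 2) => a * s58w_luc a c (j + 1) - c * s58w_luc a c j

/-- power sums of two elements of a ring with integral sum and product. -/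
theorem s58w_luc_ring {E : Type*} [Ring E] {A B : E} {a c : ℤ} (hsum : A + B = (a : E))
    (hAB : A * B = (c : E)) (hBA : B * A = (c : E)) (j : ℕ) :
    A ^ j + B ^ j = ((s58w_luc a c j : ℤ) : E) := by
  induction j using Nat.strong_induction_on with
  | _ j ih =>
    match j, ih with
    | 0, _ =>
      rw [pow_zero, pow_zero, s58w_luc, one_add_one_eq_two]
      norm_num
    | 1, _ =>
      rw [pow_one, pow_one, s58w_luc]
      exact hsum
    | (j + 2), ih =>
      have h1 := ih (j + 1) (by omega)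
      have h0 := ih j (by omega)
      have key : A ^ (j + 2) + B ^ (j + 2) =
          (A + B) * (A ^ (j + 1) + B ^ (j + 1)) - (B * A) * A ^ j - (A * B) * B ^ j := by
        have e1 : B * A ^ (j + 1) = (B * A) * A ^ j := by rw [pow_succ', mul_assoc]
        have e2 : A * B ^ (j + 1) = (A * B) * B ^ j := by rw [pow_succ', mul_assoc]
        rw [add_mul, mul_add, mul_add, e1, e2, ← pow_succ', ← pow_succ']
        abel
      rw [key, hsum, h1, hAB, hBA, sub_sub, ← mul_add, h0, s58w_luc]
      push_cast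
      rfl

/-- **points**: a group element `σ` acting on an abelian group `T` with
`σ² − a σ + c = 0` satisfies `σ^j + c^j σ^{-j} = V_j(a, c)`. -/
theorem s58w_pt_pow {G T : Type*} [Group G] [AddCommGroup T] [DistribMulAction G T]
    (σ : G) (a c : ℤ) (h : ∀ P : T, σ • σ • P - a • σ • P + c • P = 0) (j : ℕ) (P : T) :
    (σ ^ j) • P + c ^ j • (σ ^ j)⁻¹ • P = s58w_luc a c j • P := by
  let r : G →* Module.End ℤ T := DistribMulAction.toModuleEnd ℤ T
  have hr : ∀ (g : G) (Q : T), r g Q = g • Q := fun g Q => rfl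
  have hinv : r σ * r σ⁻¹ = 1 := by rw [← map_mul, mul_inv_cancel, map_one]
  have hinv' : r σ⁻¹ * r σ = 1 := by rw [← map_mul, inv_mul_cancel, map_one]
  have hsum : r σ + c • r σ⁻¹ = ((a : ℤ) : Module.End ℤ T) := by
    apply LinearMap.ext
    intro Q
    have hQ := h (σ⁻¹ • Q)
    rw [smul_inv_smul] at hQ
    rw [LinearMap.add_apply, LinearMap.smul_apply, hr, hr, Module.End.intCast_apply]
    have : σ • Q + c • σ⁻¹ • Q - a • Q = 0 := by rw [← hQ]; abel
    exact sub_eq_zero.mp this
  have hAB : r σ * (c • r σ⁻¹) = ((c : ℤ) : Module.End ℤ T) := by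
    rw [mul_smul_comm, hinv]
    apply LinearMap.ext
    intro Q
    rw [LinearMap.smul_apply, Module.End.one_apply, Module.End.intCast_apply]
  have hBA : (c • r σ⁻¹) * r σ = ((c : ℤ) : Module.End ℤ T) := by
    rw [smul_mul_assoc, hinv']
    apply LinearMap.ext
    intro Q
    rw [LinearMap.smul_apply, Module.End.one_apply, Module.End.intCast_apply]
  have hmain := s58w_luc_ring hsum hAB hBA j
  have := congrArg (fun f : Module.End ℤ T => f P) hmain
  simp only [LinearMap.add_apply, Module.End.intCast_apply] at this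
  rw [← this, smul_pow, ← map_pow, ← map_pow, inv_pow, LinearMap.smul_apply, hr, hr]

/-- **endomorphisms**: a representation `ρ` on a module with `ρ(σ)² − a ρ(σ) + c = 0`. -/
theorem s58w_end_pow {G R V : Type*} [Group G] [CommRing R] [AddCommGroup V] [Module R V]
    (ρ : G →* Module.End R V) (σ : G) (a c : ℤ)
    (h : ρ σ * ρ σ - a • ρ σ + c • (1 : Module.End R V) = 0) (j : ℕ) :
    ρ (σ ^ j) + c ^ j • ρ (σ ^ j)⁻¹ = s58w_luc a c j • (1 : Module.End R V) := by
  have hinv : ρ σ * ρ σ⁻¹ = 1 := by rw [← map_mul, mul_inv_cancel, map_one]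
  have hinv' : ρ σ⁻¹ * ρ σ = 1 := by rw [← map_mul, inv_mul_cancel, map_one]
  have hsum : ρ σ + c • ρ σ⁻¹ = ((a : ℤ) : Module.End R V) := by
    have h1 : (ρ σ * ρ σ - a • ρ σ + c • (1 : Module.End R V)) * ρ σ⁻¹ = 0 := by
      rw [h, zero_mul]
    rw [add_mul, sub_mul, mul_assoc, hinv, mul_one, smul_mul_assoc, hinv, smul_mul_assoc,
      one_mul] at h1
    have h2 : ρ σ + c • ρ σ⁻¹ - a • (1 : Module.End R V) = 0 := by
      rw [← h1]; abel
    rw [sub_eq_zero.mp h2, zsmul_eq_mul, mul_one]
  have hAB : ρ σ * (c • ρ σ⁻¹) = ((c : ℤ) : Module.End R V) := by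
    rw [mul_smul_comm, hinv, zsmul_eq_mul, mul_one]
  have hBA : (c • ρ σ⁻¹) * ρ σ = ((c : ℤ) : Module.End R V) := by
    rw [smul_mul_assoc, hinv', zsmul_eq_mul, mul_one]
  have hmain := s58w_luc_ring hsum hAB hBA j
  have e : s58w_luc a c j • (1 : Module.End R V) = ((s58w_luc a c j : ℤ) : Module.End R V) := by
    rw [zsmul_eq_mul, mul_one]
  rw [e, ← hmain, smul_pow, ← map_pow, ← map_pow, inv_pow]

end Fermat.Agent.Lib.S58
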