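/-
S58 wave, wiring (helper8): **[CMP]** the comparison lemma.

`ρ : GaloisRepAdic 𝒪` (`𝒪` ANY local ring with `λ ∈ 𝔪`; a field is allowed) with Frobenius
characteristic polynomials `X² − a_ℓ X + ℓ` for `ℓ ∉ S₀`; `T` an abelian group with an action of
`G_ℚ`, killed by `λⁿ`, faithful as a `ℤ/λⁿ`-module, fixed by an open subgroup, on which the
Frobenius elements at `ℓ ∉ S₀` satisfy `σ² − a_ℓ σ + ℓ = 0`.  Then for every `g ∈ G_ℚ` and every
integer `u ≡ ε_λ(g) mod λⁿ` there is an integer `s` with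
* `g + u g⁻¹ = s` on `T`,
* `ρ(g) + u ρ(g⁻¹) ≡ s` modulo `𝔪ⁿ`,
* `det ρ(g) ≡ u` modulo `𝔪ⁿ`.
(Frobenius density `s29d_frobDensity` + the Lucas sequence.)
-/
import Mathlib
import Fermat.Agent.Lib.S58.Iface
import Fermat.Agent.Lib.S58.WLucas
import Fermat.Agent.Lib.S30.CycB
import Fermat.Agent.Lib.S30.Dens
import Fermat.Agent.Lib.S29.FDPlace
import Fermat.Agent.Lib.S35.ELevelT

set_option autoImplicit false
set_option linter.unusedSectionVars false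

open Polynomial IsLocalRing

namespace Fermat.Agent.Lib.S58

open Fermat.Agent.Lib.S29 Fermat.Agent.Lib.S30 Fermat.Agent.Lib.S35

local notation "Qbar" => AlgebraicClosure ℚ

section Algebra

variable {R : Type*} [CommRing R] {M : Type*} [AddCommGroup M] [Module R M]

/-- Cayley–Hamilton with integral coefficients. -/
theorem s58w_quad_of_charpoly [Module.Free R M] [Module.Finite R M] (f : Module.End R M)
    (a c : ℤ) (h : LinearMap.charpoly f = X ^ 2 - C ((a : ℤ) : R) * X + C ((c : ℤ) : R)) :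
    f * f - a • f + c • (1 : Module.End R M) = 0 := by
  have h0 := LinearMap.aeval_self_charpoly f
  rw [h] at h0
  simp only [map_add, map_sub, map_pow, map_mul, aeval_X, aeval_C,
    Algebra.algebraMap_eq_smul_one] at h0
  rw [pow_two] at h0
  rw [← h0, smul_mul_assoc, one_mul, Int.cast_smul_eq_zsmul, Int.cast_smul_eq_zsmul]

/-- an endomorphism of a finite free module congruent to `1` modulo `I` has determinant
congruent to `1` modulo `I`. -/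
theorem s58w_det_sub_one_mem [Module.Free R M] [Module.Finite R M] (I : Ideal R)
    (f : Module.End R M) (hf : ∀ v : M, f v - v ∈ I • (⊤ : Submodule R M)) :
    LinearMap.det f - 1 ∈ I := by
  classical
  set b := Module.Free.chooseBasis R M with hb
  rw [← LinearMap.det_toMatrix b f]
  have hmap : (LinearMap.toMatrix b b f).map (Ideal.Quotient.mk I) = 1 := by
    ext i j
    rw [Matrix.map_apply, LinearMap.toMatrix_apply, Matrix.one_apply]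
    have h1 := s30d_repr_mem_of_mem_smul_top b I (hf (b j)) i
    rw [map_sub, Finsupp.sub_apply, Module.Basis.repr_self, Finsupp.single_apply] at h1
    have h2 : Ideal.Quotient.mk I (b.repr (f (b j)) i) =
        Ideal.Quotient.mk I (if j = i then (1 : R) else 0) :=
      Ideal.Quotient.eq.mpr h1
    rw [h2]
    by_cases hij : i = j
    · rw [if_pos hij, if_pos hij.symm, map_one]
    · rw [if_neg hij, if_neg (Ne.symm hij), map_zero]
  have h3 : Ideal.Quotient.mk I (LinearMap.toMatrix b b f).det = 1 := by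
    rw [RingHom.map_det, RingHom.mapMatrix_apply, hmap, Matrix.det_one]
  rw [← Ideal.Quotient.eq_zero_iff_mem, map_sub, h3, map_one, sub_self]

end Algebra

section Main

variable {𝒪 : Type} [CommRing 𝒪] [IsLocalRing 𝒪] (ρ : GaloisRepAdic 𝒪)
  (lam : ℕ) [Fact lam.Prime]
  {T : Type} [AddCommGroup T] [DistribMulAction s58_G T]

/-- **[CMP]** -/
theorem s58w_cmp (hlam : (lam : 𝒪) ∈ maximalIdeal 𝒪) (n : ℕ)
    (hkill : ∀ P : T, lam ^ n • P = 0)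
    (hlevel : ∃ L : IntermediateField ℚ Qbar, FiniteDimensional ℚ L ∧
      ∀ σ : s58_G, (∀ x ∈ L, σ x = x) → ∀ P : T, σ • P = P)
    (S₀ : Finset ℕ) (hlamS : lam ∈ S₀) (a : ℕ → ℤ)
    (hF : ∀ ℓ : ℕ, ℓ.Prime → ℓ ∉ S₀ → ∀ A : ValuationSubring Qbar, A.LiesOverPrime ℓ →
      ∀ σ : s58_G, A.IsFrobeniusAt σ ℓ →
        LinearMap.charpoly (ρ.ρ σ) = X ^ 2 - C ((a ℓ : ℤ) : 𝒪) * X + C ((ℓ : 𝒪)))
    (hE : ∀ ℓ : ℕ, ℓ.Prime → ℓ ∉ S₀ → ∀ A : ValuationSubring Qbar, A.LiesOverPrime ℓ →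
      ∀ σ : s58_G, A.IsFrobeniusAt σ ℓ →
        ∀ P : T, σ • σ • P - a ℓ • σ • P + ℓ • P = 0)
    (g : s58_G) (u : ℤ)
    (hu : PadicInt.toZModPow n ((s30y_eps lam g : ℤ_[lam]ˣ) : ℤ_[lam]) = ((u : ℤ) : ZMod (lam ^ n))) :
    ∃ s : ℤ, (∀ P : T, g • P + u • g⁻¹ • P = s • P) ∧
      (∀ v : ρ.V, ρ.ρ g v + u • ρ.ρ g⁻¹ v - s • v ∈
        (maximalIdeal 𝒪 ^ n) • (⊤ : Submodule 𝒪 ρ.V)) ∧
      LinearMap.det (ρ.ρ g) - ((u : ℤ) : 𝒪) ∈ maximalIdeal 𝒪 ^ n := by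
  -- the common level
  obtain ⟨L₁, hfd₁, hρ⟩ := ρ.isAdicContinuous n
  obtain ⟨L₂, hfd₂, hT⟩ := hlevel
  obtain ⟨L₃, hfd₃, -, hε⟩ := s30y_cont lam n
  have hfd₁₂ : FiniteDimensional ℚ (L₁ ⊔ L₂ : IntermediateField ℚ Qbar) :=
    IntermediateField.finiteDimensional_sup L₁ L₂
  have hfd₀ : FiniteDimensional ℚ (L₁ ⊔ L₂ ⊔ L₃ : IntermediateField ℚ Qbar) :=
    IntermediateField.finiteDimensional_sup (L₁ ⊔ L₂) L₃
  obtain ⟨L, hLfd, hLst, hle⟩ := s35el_exists_stable (L₁ ⊔ L₂ ⊔ L₃) hfd₀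
  have hle₁ : L₁ ≤ L := le_trans (le_trans le_sup_left le_sup_left) hle
  have hle₂ : L₂ ≤ L := le_trans (le_trans le_sup_right le_sup_left) hle
  have hle₃ : L₃ ≤ L := le_trans le_sup_right hle
  -- Frobenius density
  obtain ⟨ℓ, A, σ, j, hℓ, hℓS, hA, hFr, hj⟩ := s29d_frobDensity L hLfd hLst S₀ g
  have hℓlam : ℓ ≠ lam := fun h => hℓS (h ▸ hlamS)
  obtain ⟨τ, hτ⟩ : ∃ τ : s58_G, τ = σ ^ j := ⟨_, rfl⟩
  rw [← hτ] at hj
  obtain ⟨h, hg, hfix⟩ : ∃ h : s58_G, g = τ * h ∧ ∀ x ∈ L, h x = x := by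
    refine ⟨τ⁻¹ * g, by rw [mul_inv_cancel_left], fun x hx => ?_⟩
    rw [AlgEquiv.mul_apply, ← hj x hx]
    exact τ.symm_apply_apply x
  have hfix' : ∀ x ∈ L, h⁻¹ x = x := by
    intro x hx
    conv_lhs => rw [← hfix x hx]
    exact h.symm_apply_apply x
  have hginv : g⁻¹ = h⁻¹ * τ⁻¹ := by rw [hg, mul_inv_rev]
  -- `u ≡ ℓ ^ j` modulo `λⁿ`
  have hεσ := s30y_frob lam ℓ hℓ hℓlam A hA σ hFr
  obtain ⟨w, hw⟩ := hε h (fun x hx => hfix x (hle₃ hx))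
  have hεh : PadicInt.toZModPow n ((s30y_eps lam h : ℤ_[lam]ˣ) : ℤ_[lam]) = 1 := by
    have : ((s30y_eps lam h : ℤ_[lam]ˣ) : ℤ_[lam]) = 1 + (lam : ℤ_[lam]) ^ n * w := by
      rw [← hw]; ring
    rw [this, map_add, map_one, map_mul, map_pow, map_natCast]
    have h0 : ((lam : ZMod (lam ^ n))) ^ n = 0 := by
      rw [← Nat.cast_pow]; exact ZMod.natCast_self _
    rw [h0, zero_mul, add_zero]
  have hεg : PadicInt.toZModPow n ((s30y_eps lam g : ℤ_[lam]ˣ) : ℤ_[lam]) =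
      (((ℓ : ℤ) ^ j : ℤ) : ZMod (lam ^ n)) := by
    rw [hg, map_mul, Units.val_mul, map_mul, hεh, mul_one, hτ, map_pow, Units.val_pow_eq_pow_val,
      map_pow, hεσ, map_natCast]
    push_cast
    rfl
  have hdvd : ((lam ^ n : ℕ) : ℤ) ∣ u - (ℓ : ℤ) ^ j := by
    rw [hu] at hεg
    exact (ZMod.intCast_eq_intCast_iff_dvd_sub ((ℓ : ℤ) ^ j) u (lam ^ n)).mp hεg.symm
  obtain ⟨k, hk⟩ := hdvd
  -- the scalar
  refine ⟨s58w_luc (a ℓ) (ℓ : ℤ) j, ?_, ?_, ?_⟩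
  · -- the `T`-side
    intro P
    have hrel : ∀ Q : T, σ • σ • Q - a ℓ • σ • Q + (ℓ : ℤ) • Q = 0 := by
      intro Q
      rw [natCast_zsmul]
      exact hE ℓ hℓ hℓS A hA σ hFr Q
    have hmain := s58w_pt_pow σ (a ℓ) (ℓ : ℤ) hrel j
    rw [← hτ] at hmain
    have hhP : ∀ Q : T, h • Q = Q := fun Q => hT h (fun x hx => hfix x (hle₂ hx)) Q
    have hhP' : ∀ Q : T, h⁻¹ • Q = Q := fun Q => hT h⁻¹ (fun x hx => hfix' x (hle₂ hx)) Q
    have e1 : g • P = τ • P := by rw [hg, mul_smul, hhP]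
    have e2 : g⁻¹ • P = τ⁻¹ • P := by rw [hginv, mul_smul, hhP']
    have e3 : u • τ⁻¹ • P = (ℓ : ℤ) ^ j • τ⁻¹ • P := by
      have : u = (ℓ : ℤ) ^ j + ((lam ^ n : ℕ) : ℤ) * k := by rw [← hk]; ring
      rw [this, add_smul, mul_comm, mul_smul, natCast_zsmul, hkill, smul_zero, add_zero]
    rw [e1, e2, e3]
    exact hmain P
  · -- the `ρ`-side
    intro v
    have hchar := hF ℓ hℓ hℓS A hA σ hFr
    have hcast : ((ℓ : ℕ) : 𝒪) = (((ℓ : ℤ) : ℤ) : 𝒪) := by rw [Int.cast_natCast]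
    rw [hcast] at hchar
    have hquad := s58w_quad_of_charpoly (ρ.ρ σ) (a ℓ) (ℓ : ℤ) hchar
    have hmain := s58w_end_pow ρ.ρ σ (a ℓ) (ℓ : ℤ) hquad j
    rw [← hτ] at hmain
    have hsv : s58w_luc (a ℓ) (ℓ : ℤ) j • v = ρ.ρ τ v + (ℓ : ℤ) ^ j • ρ.ρ τ⁻¹ v := by
      have := congrArg (fun f : Module.End 𝒪 ρ.V => f v) hmain
      simp only [LinearMap.add_apply, LinearMap.smul_apply, Module.End.one_apply] at this
      exact this.symm
    have h1 := hρ h (fun x hx => hfix x (hle₁ hx))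
    have h2 := hρ h⁻¹ (fun x hx => hfix' x (hle₁ hx))
    have key : ρ.ρ g v + u • ρ.ρ g⁻¹ v - s58w_luc (a ℓ) (ℓ : ℤ) j • v =
        ρ.ρ τ (ρ.ρ h v - v) + u • (ρ.ρ h⁻¹ (ρ.ρ τ⁻¹ v) - ρ.ρ τ⁻¹ v) +
          (u - (ℓ : ℤ) ^ j) • ρ.ρ τ⁻¹ v := by
      rw [hsv, hg, map_mul, mul_inv_rev, map_mul]
      simp only [Module.End.mul_apply, map_sub, smul_sub, sub_smul]
      abel
    rw [key]
    refine Submodule.add_mem _ (Submodule.add_mem _ (s35el_map_mem_smul_top _ _ (h1 v))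
      (zsmul_mem (h2 _) _)) ?_
    rw [hk, mul_comm, mul_smul, natCast_zsmul, ← Nat.cast_smul_eq_nsmul 𝒪, Nat.cast_pow]
    exact zsmul_mem (Submodule.smul_mem_smul (Ideal.pow_mem_pow hlam n) Submodule.mem_top) _
  · -- the determinant
    have hchar := hF ℓ hℓ hℓS A hA σ hFr
    obtain ⟨-, hdet⟩ := s35el_trace_det_of_charpoly ρ.finrank_eq (ρ.ρ σ) _ _ hchar
    have h1 := s58w_det_sub_one_mem (maximalIdeal 𝒪 ^ n) (ρ.ρ h)
      (hρ h (fun x hx => hfix x (hle₁ hx)))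
    have hdg : LinearMap.det (ρ.ρ g) = (ℓ : 𝒪) ^ j * LinearMap.det (ρ.ρ h) := by
      rw [hg, map_mul, map_mul, hτ, map_pow, map_pow, hdet]
    have e : LinearMap.det (ρ.ρ g) - ((u : ℤ) : 𝒪) =
        (ℓ : 𝒪) ^ j * (LinearMap.det (ρ.ρ h) - 1) -
          (((lam ^ n : ℕ) : ℤ) : 𝒪) * ((k : ℤ) : 𝒪) := by
      have hu' : ((u : ℤ) : 𝒪) = (ℓ : 𝒪) ^ j + (((lam ^ n : ℕ) : ℤ) : 𝒪) * ((k : ℤ) : 𝒪) := by
        have : u = (ℓ : ℤ) ^ j + ((lam ^ n : ℕ) : ℤ) * k := by rw [← hk]; ring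
        rw [this]; push_cast; ring
      rw [hdg, hu']; ring
    rw [e]
    refine Ideal.sub_mem _ (Ideal.mul_mem_left _ _ h1) (Ideal.mul_mem_right _ _ ?_)
    rw [Int.cast_natCast, Nat.cast_pow]
    exact Ideal.pow_mem_pow hlam n

end Main

end Fermat.Agent.Lib.S58
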