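/-
S58 wave, wiring (helper8): **[CMP] for the curve** and its consequences.

* `s58w_cmpW`    : `s58w_cmp` with `T := W[λⁿ](ℚ̄)` (Prelude action), from `s58_EllLevel`;
* `s58w_cmp_at`  : if the relation `g + u g⁻¹ = s'` is known at ONE point `P₀` of exact order
  `λ^(n+1)`, then `ρ(g) + u ρ(g⁻¹) ≡ s'` modulo `𝔪^(n+1)` (and `det ρ(g) ≡ u`);
* `s58w_unipotent` (U) : an inertia-fixed point of exact order `λ^(n+1)` for every `n` ⇒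
  `charpoly ρ(τ) = (X − 1)²`;
* `s58w_frob_quad` (F) : at a good prime `q ≠ λ`, `ρ(σ)² − a_q(W) ρ(σ) + q = 0` for Frobenius
  elements `σ`; `s58w_frob_coeff` : hence `t = a_q(W)` if `charpoly ρ(σ) = X² − t X + q`.
-/
import Mathlib
import Fermat.Agent.Lib.S58.WCmp

set_option autoImplicit false
set_option linter.unusedSectionVars false
set_option linter.style.haveILetI false

open Polynomial IsLocalRing

namespace Fermat.Agent.Lib.S58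

open Fermat.Agent.Lib.S29 Fermat.Agent.Lib.S30 Fermat.Agent.Lib.S35

local notation "Qbar" => AlgebraicClosure ℚ

section Sep

variable {R : Type*} [CommRing R] [IsLocalRing R] [IsNoetherianRing R]
  {M : Type*} [AddCommGroup M] [Module R M] [Module.Finite R M]

/-- Krull: an element of a finite module over a Noetherian local ring lying in all `𝔪ⁿ M` is `0`. -/
theorem s58w_eq_zero_of_forall_mem {x : M}
    (h : ∀ n : ℕ, x ∈ (maximalIdeal R ^ n) • (⊤ : Submodule R M)) : x = 0 := by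
  have h1 : x ∈ ⨅ n : ℕ, (maximalIdeal R ^ n) • (⊤ : Submodule R M) :=
    (Submodule.mem_iInf _).mpr h
  rw [Ideal.iInf_pow_smul_eq_bot_of_isLocalRing (maximalIdeal R)
    (Ideal.IsMaximal.ne_top inferInstance)] at h1
  exact (Submodule.mem_bot R).mp h1

end Sep

section Order

variable {T : Type*} [AddCommGroup T]

/-- a point killed by `λ^(n+1)` and not by `λ^n` has exact order `λ^(n+1)`. -/
theorem s58w_dvd_of_zsmul_eq_zero {lam : ℕ} (hlam : lam.Prime) {n : ℕ} {P : T}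
    (h1 : lam ^ (n + 1) • P = 0) (h2 : lam ^ n • P ≠ 0) {z : ℤ} (hz : z • P = 0) :
    ((lam ^ (n + 1) : ℕ) : ℤ) ∣ z := by
  have hdvd : addOrderOf P ∣ lam ^ (n + 1) := addOrderOf_dvd_of_nsmul_eq_zero h1
  obtain ⟨k, hk, hk'⟩ := (Nat.dvd_prime_pow hlam).mp hdvd
  have hkn : k = n + 1 := by
    by_contra hne
    have hkn : k ≤ n := by omega
    apply h2
    have : addOrderOf P ∣ lam ^ n := by rw [hk']; exact pow_dvd_pow lam hkn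
    exact addOrderOf_dvd_iff_nsmul_eq_zero.mp this
  rw [← hkn, ← hk']
  exact addOrderOf_dvd_iff_zsmul_eq_zero.mpr hz

end Order

section Concrete

variable (W : WeierstrassCurve ℤ) {𝒪 : Type} [CommRing 𝒪] [IsLocalRing 𝒪] (ρ : GaloisRepAdic 𝒪)
  (lam : ℕ) [Fact lam.Prime]

/-- the hypotheses on `ρ` and on the curve used throughout. -/
structure s58w_Setup (S₀ : Finset ℕ) : Prop where
  hlam : (lam : 𝒪) ∈ maximalIdeal 𝒪
  hlamS : lam ∈ S₀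
  hΔ : W.Δ ≠ 0
  hF : ∀ ℓ : ℕ, ℓ.Prime → ℓ ∉ S₀ → ∀ A : ValuationSubring Qbar, A.LiesOverPrime ℓ →
    ∀ σ : s58_G, A.IsFrobeniusAt σ ℓ →
      LinearMap.charpoly (ρ.ρ σ) = X ^ 2 - C ((W.apOfModel ℓ : ℤ) : 𝒪) * X + C ((ℓ : 𝒪))
  hE : ∀ ℓ : ℕ, ℓ.Prime → ℓ ∉ S₀ → ∀ A : ValuationSubring Qbar, A.LiesOverPrime ℓ →
    ∀ σ : s58_G, A.IsFrobeniusAt σ ℓ → ∀ (n : ℕ) (P : s58_Pt W), lam ^ n • P = 0 →
      σ • σ • P - W.apOfModel ℓ • σ • P + ℓ • P = 0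

variable {W ρ lam}

/-- **[CMP] for the curve.** -/
theorem s58w_cmpW (hLevel : s58_EllLevel) {S₀ : Finset ℕ} (H : s58w_Setup W ρ lam S₀)
    (n : ℕ) (g : s58_G) (u : ℤ)
    (hu : PadicInt.toZModPow n ((s30y_eps lam g : ℤ_[lam]ˣ) : ℤ_[lam]) =
      ((u : ℤ) : ZMod (lam ^ n))) :
    ∃ s : ℤ, (∀ P : s58_Pt W, lam ^ n • P = 0 → g • P + u • g⁻¹ • P = s • P) ∧
      (∀ v : ρ.V, ρ.ρ g v + u • ρ.ρ g⁻¹ v - s • v ∈
        (maximalIdeal 𝒪 ^ n) • (⊤ : Submodule 𝒪 ρ.V)) ∧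
      LinearMap.det (ρ.ρ g) - ((u : ℤ) : 𝒪) ∈ maximalIdeal 𝒪 ^ n := by
  have hmem : ∀ P : s58_Pt W, P ∈ Submodule.torsionBy ℤ (s58_Pt W) ((lam ^ n : ℕ) : ℤ) ↔
      lam ^ n • P = 0 := by
    intro P
    rw [Submodule.mem_torsionBy_iff, natCast_zsmul]
  have hlampos : 0 < lam ^ n := pow_pos (Fact.out : lam.Prime).pos n
  obtain ⟨L, hLfd, hL⟩ := hLevel W H.hΔ (lam ^ n) hlampos
  obtain ⟨s, hs1, hs2, hs3⟩ := s58w_cmp ρ lam
    (T := Submodule.torsionBy ℤ (s58_Pt W) ((lam ^ n : ℕ) : ℤ)) H.hlam n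
    (fun P => Subtype.ext ((hmem P.1).mp P.2))
    ⟨L, hLfd, fun σ hσ P => Subtype.ext (hL σ hσ P.1 ((hmem P.1).mp P.2))⟩
    S₀ H.hlamS (fun ℓ => W.apOfModel ℓ) H.hF
    (fun ℓ hℓ hℓS A hA σ hσ P => Subtype.ext
      (H.hE ℓ hℓ hℓS A hA σ hσ n P.1 ((hmem P.1).mp P.2)))
    g u hu
  refine ⟨s, fun P hP => ?_, hs2, hs3⟩
  exact congrArg Subtype.val (hs1 ⟨P, (hmem P).mpr hP⟩)

/-- **[CMP] at one point of exact order.** -/
theorem s58w_cmp_at (hLevel : s58_EllLevel) {S₀ : Finset ℕ} (H : s58w_Setup W ρ lam S₀)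
    (n : ℕ) (P₀ : s58_Pt W) (h1 : lam ^ (n + 1) • P₀ = 0) (h2 : lam ^ n • P₀ ≠ 0)
    (g : s58_G) (u : ℤ)
    (hu : PadicInt.toZModPow (n + 1) ((s30y_eps lam g : ℤ_[lam]ˣ) : ℤ_[lam]) =
      ((u : ℤ) : ZMod (lam ^ (n + 1))))
    (s' : ℤ) (h3 : g • P₀ + u • g⁻¹ • P₀ = s' • P₀) :
    (∀ v : ρ.V, ρ.ρ g v + u • ρ.ρ g⁻¹ v - s' • v ∈
        (maximalIdeal 𝒪 ^ (n + 1)) • (⊤ : Submodule 𝒪 ρ.V)) ∧
      LinearMap.det (ρ.ρ g) - ((u : ℤ) : 𝒪) ∈ maximalIdeal 𝒪 ^ (n + 1) := by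
  obtain ⟨s, hs1, hs2, hs3⟩ := s58w_cmpW hLevel H (n + 1) g u hu
  refine ⟨fun v => ?_, hs3⟩
  have hz : (s - s') • P₀ = 0 := by
    rw [sub_smul, ← hs1 P₀ h1, h3, sub_self]
  obtain ⟨k, hk⟩ := s58w_dvd_of_zsmul_eq_zero (Fact.out : lam.Prime) h1 h2 hz
  have e : ρ.ρ g v + u • ρ.ρ g⁻¹ v - s' • v =
      (ρ.ρ g v + u • ρ.ρ g⁻¹ v - s • v) + (s - s') • v := by
    rw [sub_smul]; abel
  rw [e]
  refine Submodule.add_mem _ (hs2 v) ?_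
  rw [hk, mul_comm, mul_smul, natCast_zsmul, ← Nat.cast_smul_eq_nsmul 𝒪, Nat.cast_pow]
  exact zsmul_mem (Submodule.smul_mem_smul (Ideal.pow_mem_pow H.hlam (n + 1)) Submodule.mem_top) _

end Concrete

section Consequences

variable {W : WeierstrassCurve ℤ} {𝒪 : Type} [CommRing 𝒪] [IsLocalRing 𝒪] [IsNoetherianRing 𝒪]
  {ρ : GaloisRepAdic 𝒪} {lam : ℕ} [Fact lam.Prime]

/-- the relation `ρ(g) + u ρ(g⁻¹) = s'` from the relation at points of exact order `λ^(n+1)` for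
every `n`. -/
theorem s58w_rel_of_points (hLevel : s58_EllLevel) {S₀ : Finset ℕ} (H : s58w_Setup W ρ lam S₀)
    (g : s58_G) (u s' : ℤ)
    (hu : ((s30y_eps lam g : ℤ_[lam]ˣ) : ℤ_[lam]) = ((u : ℤ) : ℤ_[lam]))
    (hP : ∀ n : ℕ, ∃ P₀ : s58_Pt W, lam ^ (n + 1) • P₀ = 0 ∧ lam ^ n • P₀ ≠ 0 ∧
      g • P₀ + u • g⁻¹ • P₀ = s' • P₀) :
    ρ.ρ g + u • ρ.ρ g⁻¹ = s' • (1 : Module.End 𝒪 ρ.V) ∧
      LinearMap.det (ρ.ρ g) = ((u : ℤ) : 𝒪) := by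
  have hu' : ∀ n : ℕ, PadicInt.toZModPow n ((s30y_eps lam g : ℤ_[lam]ˣ) : ℤ_[lam]) =
      ((u : ℤ) : ZMod (lam ^ n)) := fun n => by rw [hu, map_intCast]
  have hall : ∀ n : ℕ, (∀ v : ρ.V, ρ.ρ g v + u • ρ.ρ g⁻¹ v - s' • v ∈
        (maximalIdeal 𝒪 ^ n) • (⊤ : Submodule 𝒪 ρ.V)) ∧
      LinearMap.det (ρ.ρ g) - ((u : ℤ) : 𝒪) ∈ maximalIdeal 𝒪 ^ n := by
    intro n
    cases n with
    | zero =>
      refine ⟨fun v => ?_, ?_⟩
      · rw [pow_zero, Ideal.one_eq_top, Submodule.top_smul]; exact Submodule.mem_top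
      · rw [pow_zero, Ideal.one_eq_top]; exact Submodule.mem_top
    | succ n =>
      obtain ⟨P₀, h1, h2, h3⟩ := hP n
      exact s58w_cmp_at hLevel H n P₀ h1 h2 g u (hu' (n + 1)) s' h3
  constructor
  · apply LinearMap.ext
    intro v
    have := s58w_eq_zero_of_forall_mem (R := 𝒪) (fun n => (hall n).1 v)
    rw [LinearMap.add_apply, LinearMap.smul_apply, LinearMap.smul_apply, Module.End.one_apply]
    exact sub_eq_zero.mp this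
  · have h0 : ∀ n : ℕ, LinearMap.det (ρ.ρ g) - ((u : ℤ) : 𝒪) ∈
        (maximalIdeal 𝒪 ^ n) • (⊤ : Submodule 𝒪 𝒪) := by
      intro n
      rw [smul_eq_mul, Ideal.mul_top]
      exact (hall n).2
    exact sub_eq_zero.mp (s58w_eq_zero_of_forall_mem (R := 𝒪) h0)

/-- **(U)** unipotent inertia. -/
theorem s58w_unipotent (hLevel : s58_EllLevel) {S₀ : Finset ℕ} (H : s58w_Setup W ρ lam S₀)
    (q : ℕ) (hq : q.Prime) (hqlam : q ≠ lam) (A : ValuationSubring Qbar) (hA : A.LiesOverPrime q)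
    (hfix : ∀ n : ℕ, ∃ P₀ : s58_Pt W, lam ^ (n + 1) • P₀ = 0 ∧ lam ^ n • P₀ ≠ 0 ∧
      ∀ τ ∈ A.inertiaSubgroupIn ℚ, τ • P₀ = P₀)
    (τ : s58_G) (hτ : τ ∈ A.inertiaSubgroupIn ℚ) :
    LinearMap.charpoly (ρ.ρ τ) = (X - 1) ^ 2 := by
  have hε : s30y_eps lam τ = 1 := s30y_unram lam q hq hqlam A hA τ hτ
  have hτinv : τ⁻¹ ∈ A.inertiaSubgroupIn ℚ := Subgroup.inv_mem _ hτ
  obtain ⟨hrel, hdet⟩ := s58w_rel_of_points hLevel H τ 1 2
    (by rw [hε, Units.val_one, Int.cast_one])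
    (fun n => by
      obtain ⟨P₀, h1, h2, h3⟩ := hfix n
      refine ⟨P₀, h1, h2, ?_⟩
      rw [h3 τ hτ, h3 τ⁻¹ hτinv, one_smul]
      exact (two_zsmul P₀).symm)
  rw [Int.cast_one] at hdet
  rw [one_smul] at hrel
  have hinv : ρ.ρ τ⁻¹ * ρ.ρ τ = 1 := by rw [← map_mul, inv_mul_cancel, map_one]
  -- `ρ τ * ρ τ = 2 ρ τ - 1`
  have hsq : ρ.ρ τ * ρ.ρ τ = (2 : ℤ) • ρ.ρ τ - 1 := by
    have := congrArg (fun f : Module.End 𝒪 ρ.V => f * ρ.ρ τ) hrel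
    simp only [add_mul, hinv, smul_mul_assoc, one_mul] at this
    rw [← this]; abel
  have hCH := s35el_sq_eq ρ.finrank_eq (ρ.ρ τ)
  rw [hdet, one_smul, hsq] at hCH
  -- `(tr - 2) • ρ τ = 0`
  have h2 : (LinearMap.trace 𝒪 ρ.V (ρ.ρ τ)) • (1 : Module.End 𝒪 ρ.V) =
      (2 : 𝒪) • (1 : Module.End 𝒪 ρ.V) := by
    have h3 : (LinearMap.trace 𝒪 ρ.V (ρ.ρ τ)) • ρ.ρ τ = (2 : 𝒪) • ρ.ρ τ := by
      have h4 : (2 : ℤ) • ρ.ρ τ = (2 : 𝒪) • ρ.ρ τ := by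
        rw [← Int.cast_smul_eq_zsmul 𝒪]; norm_num
      rw [← h4]
      have := hCH
      have h5 : (2 : ℤ) • ρ.ρ τ = LinearMap.trace 𝒪 ρ.V (ρ.ρ τ) • ρ.ρ τ := by
        have h6 : (2 : ℤ) • ρ.ρ τ - 1 + 1 = LinearMap.trace 𝒪 ρ.V (ρ.ρ τ) • ρ.ρ τ - 1 + 1 := by
          rw [this]
        simpa using h6
      exact h5.symm
    have := congrArg (fun f : Module.End 𝒪 ρ.V => f * ρ.ρ τ⁻¹) h3
    have hinv' : ρ.ρ τ * ρ.ρ τ⁻¹ = 1 := by rw [← map_mul, mul_inv_cancel, map_one]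
    simpa only [smul_mul_assoc, hinv'] using this
  haveI : Nontrivial ρ.V := Module.nontrivial_of_finrank_pos (R := 𝒪) (by rw [ρ.finrank_eq]; norm_num)
  have htr : LinearMap.trace 𝒪 ρ.V (ρ.ρ τ) = 2 := s30d_smul_one_injective h2
  rw [s35el_charpoly_eq ρ.finrank_eq, htr, hdet]
  simp only [map_ofNat, map_one]
  ring

/-- **(F)** the quadratic relation for Frobenius elements at good primes. -/
theorem s58w_frob_quad (hLevel : s58_EllLevel) (hExact : s58_EllExact) (hFrob : s58_EllFrob)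
    {S₀ : Finset ℕ} (H : s58w_Setup W ρ lam S₀) (hlam2 : lam ≠ 2)
    (q : ℕ) (hq : q.Prime) (hqlam : q ≠ lam) (hgood : ¬ (q : ℤ) ∣ W.Δ)
    (A : ValuationSubring Qbar) (hA : A.LiesOverPrime q) (σ : s58_G) (hσ : A.IsFrobeniusAt σ q) :
    ρ.ρ σ * ρ.ρ σ - W.apOfModel q • ρ.ρ σ + (q : ℤ) • (1 : Module.End 𝒪 ρ.V) = 0 := by
  have hε := s30y_frob lam q hq hqlam A hA σ hσ
  obtain ⟨hrel, -⟩ := s58w_rel_of_points hLevel H σ (q : ℤ) (W.apOfModel q)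
    (by rw [hε, Int.cast_natCast])
    (fun n => by
      obtain ⟨P₀, h1, h2⟩ := hExact W H.hΔ lam (Fact.out : lam.Prime) n
      refine ⟨P₀, h1, h2, ?_⟩
      have hQ : lam ^ (n + 1) • (σ⁻¹ • P₀) = 0 := by
        rw [← smul_zero σ⁻¹, ← h1]
        exact (map_nsmul (DistribSMul.toAddMonoidHom (s58_Pt W) σ⁻¹) _ _).symm
      have := hFrob W q hq hgood lam (Fact.out : lam.Prime) hlam2 (Ne.symm hqlam) (n + 1) A hA σ hσ
        (σ⁻¹ • P₀) hQ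
      rw [smul_inv_smul] at this
      rw [natCast_zsmul]
      have h4 : σ • P₀ + q • σ⁻¹ • P₀ - W.apOfModel q • P₀ = 0 := by rw [← this]; abel
      exact sub_eq_zero.mp h4)
  have hinv : ρ.ρ σ⁻¹ * ρ.ρ σ = 1 := by rw [← map_mul, inv_mul_cancel, map_one]
  have := congrArg (fun f : Module.End 𝒪 ρ.V => f * ρ.ρ σ) hrel
  simp only [add_mul, hinv, smul_mul_assoc, one_mul] at this
  rw [← sub_eq_zero] at this
  rw [← this]; abel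

/-- **(F')** hence the linear coefficient of the characteristic polynomial is `a_q(W)`. -/
theorem s58w_frob_coeff (hLevel : s58_EllLevel) (hExact : s58_EllExact) (hFrob : s58_EllFrob)
    {S₀ : Finset ℕ} (H : s58w_Setup W ρ lam S₀) (hlam2 : lam ≠ 2)
    (q : ℕ) (hq : q.Prime) (hqlam : q ≠ lam) (hgood : ¬ (q : ℤ) ∣ W.Δ)
    (A : ValuationSubring Qbar) (hA : A.LiesOverPrime q) (σ : s58_G) (hσ : A.IsFrobeniusAt σ q)
    (t : 𝒪) (ht : LinearMap.charpoly (ρ.ρ σ) = X ^ 2 - C t * X + C ((q : 𝒪))) :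
    t = ((W.apOfModel q : ℤ) : 𝒪) := by
  have hquad := s58w_frob_quad hLevel hExact hFrob H hlam2 q hq hqlam hgood A hA σ hσ
  have h0 := LinearMap.aeval_self_charpoly (ρ.ρ σ)
  rw [ht] at h0
  simp only [map_add, map_sub, map_pow, map_mul, aeval_X, aeval_C,
    Algebra.algebraMap_eq_smul_one] at h0
  rw [pow_two, smul_mul_assoc, one_mul] at h0
  -- subtract
  have h1 : (t - ((W.apOfModel q : ℤ) : 𝒪)) • ρ.ρ σ = 0 := by
    have e1 : W.apOfModel q • ρ.ρ σ = ((W.apOfModel q : ℤ) : 𝒪) • ρ.ρ σ := by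
      rw [Int.cast_smul_eq_zsmul]
    have e2 : (q : ℤ) • (1 : Module.End 𝒪 ρ.V) = (q : 𝒪) • (1 : Module.End 𝒪 ρ.V) := by
      rw [← Int.cast_smul_eq_zsmul 𝒪, Int.cast_natCast]
    rw [e1, e2] at hquad
    rw [sub_smul]
    have : ρ.ρ σ * ρ.ρ σ - t • ρ.ρ σ + (q : 𝒪) • (1 : Module.End 𝒪 ρ.V) -
        (ρ.ρ σ * ρ.ρ σ - ((W.apOfModel q : ℤ) : 𝒪) • ρ.ρ σ +
          (q : 𝒪) • (1 : Module.End 𝒪 ρ.V)) = 0 := by rw [h0, hquad, sub_zero]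
    rw [← neg_eq_zero, ← this]; abel
  have hinv' : ρ.ρ σ * ρ.ρ σ⁻¹ = 1 := by rw [← map_mul, mul_inv_cancel, map_one]
  have h2 := congrArg (fun f : Module.End 𝒪 ρ.V => f * ρ.ρ σ⁻¹) h1
  simp only [smul_mul_assoc, hinv', zero_mul] at h2
  haveI : Nontrivial ρ.V := Module.nontrivial_of_finrank_pos (R := 𝒪) (by rw [ρ.finrank_eq]; norm_num)
  have h3 : (t - ((W.apOfModel q : ℤ) : 𝒪)) • (1 : Module.End 𝒪 ρ.V) =
      (0 : 𝒪) • (1 : Module.End 𝒪 ρ.V) := by rw [h2, zero_smul]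
  exact sub_eq_zero.mp (s30d_smul_one_injective h3)

end Consequences

end Fermat.Agent.Lib.S58
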