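/-
S58 wave, wiring (helper8): **[CONG-E]** step (4): a normalized eigenform `g` of level `M ∣ N` with
`a_ℓ(g) = a_ℓ(W)` for all primes `ℓ ∤ N` has `a_{ℓ₀}(g) = a_{ℓ₀}(W)` at EVERY good prime `ℓ₀ ∤ M`.

Residual route (lead #1881): for every odd prime `p ≠ ℓ₀` and every `φ : ℤ̄ → k` (`char k = p`) the
residual representation of `g` (S29) is compared with `W[p]` by `s58w_frob_coeff` (`𝒪 = k` a field);
an algebraic integer killed by all these `φ` is zero.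
-/
import Mathlib
import Fermat.Agent.Lib.S58.WCons
import Fermat.Agent.Lib.S35.ESmo

set_option autoImplicit false
set_option linter.unusedSectionVars false
set_option linter.style.haveILetI false

open Polynomial IsLocalRing

namespace Fermat.Agent.Lib.S58

open Fermat.Agent.Lib.S29 Fermat.Agent.Lib.S30 Fermat.Agent.Lib.S35

local notation "Qbar" => AlgebraicClosure ℚ
local notation "Zb" => integralClosure ℤ ℂ

/-- An algebraic integer in the kernel of every `φ : ℤ̄ → k`, `char k = p ∉ {ℓ₀, 2}`, is zero. -/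
theorem s58w_eq_zero_of_forall (ℓ₀ : ℕ) (x : Zb)
    (h : ∀ (p : ℕ), p.Prime → p ≠ ℓ₀ → p ≠ 2 → ∀ (k : Type) [Field k] [CharP k p] (φ : Zb →+* k),
      φ x = 0) : x = 0 := by
  by_contra hx
  obtain ⟨P, hP0, hPx⟩ := s35e_exists_poly x hx
  obtain ⟨p, hpge, hp⟩ := Nat.exists_infinite_primes ((P.coeff 0).natAbs + ℓ₀ + 3)
  have hpℓ₀ : p ≠ ℓ₀ := by omega
  have hp2 : p ≠ 2 := by omega
  have hpc : ¬ (p : ℤ) ∣ P.coeff 0 := by
    intro hd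
    have h1 : p ∣ (P.coeff 0).natAbs := Int.natCast_dvd.mp hd
    have h2 : p ≤ (P.coeff 0).natAbs :=
      Nat.le_of_dvd (Int.natAbs_pos.mpr hP0) h1
    omega
  obtain ⟨Q, hQmax, hQ, hpQ'⟩ := s35e_exists_max p hp
  haveI := hQmax
  letI : Field (Zb ⧸ Q) := Ideal.Quotient.field Q
  have hpQ : ((p : ℕ) : Zb ⧸ Q) = 0 := by
    rw [← map_natCast (Ideal.Quotient.mk Q) p]
    exact Ideal.Quotient.eq_zero_iff_mem.mpr hpQ'
  haveI : CharP (Zb ⧸ Q) p := (CharP.charP_iff_prime_eq_zero hp).mpr hpQ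
  have hxQ : x ∈ Q :=
    Ideal.Quotient.eq_zero_iff_mem.mp (h p hp hpℓ₀ hp2 (Zb ⧸ Q) (Ideal.Quotient.mk Q))
  have hc : algebraMap ℤ Zb (P.coeff 0) ∈ Q := by
    have h1 := Polynomial.sub_dvd_eval_sub x 0 (P.map (algebraMap ℤ Zb))
    rw [sub_zero, Polynomial.eval_map, ← Polynomial.aeval_def, hPx, zero_sub,
      ← Polynomial.coeff_zero_eq_eval_zero, Polynomial.coeff_map] at h1
    obtain ⟨c, hc⟩ := h1
    have : algebraMap ℤ Zb (P.coeff 0) = x * (-c) := by rw [mul_neg, ← hc, neg_neg]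
    rw [this]
    exact Q.mul_mem_right _ hxQ
  have hc' : P.coeff 0 ∈ Q.comap (algebraMap ℤ Zb) := hc
  rw [hQ, Ideal.mem_span_singleton] at hc'
  exact hpc hc'

/-- **[CONG-E]** -/
theorem s58w_cong (hLevel : s58_EllLevel) (hExact : s58_EllExact) (hFrob : s58_EllFrob)
    (W : WeierstrassCurve ℤ) (hΔ : W.Δ ≠ 0) {M N : ℕ} (hN : N ≠ 0) (hMN : M ∣ N)
    (g : CuspForm (CongruenceSubgroup.Gamma0 M) 2) (hg : g.IsNormalizedEigenform)
    (hbad : ∀ ℓ : ℕ, ℓ.Prime → (ℓ : ℤ) ∣ W.Δ → ℓ ∣ N)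
    (hgW : ∀ ℓ : ℕ, ℓ.Prime → ¬ ℓ ∣ N → ModularFormClass.qCoeff g ℓ = (W.apOfModel ℓ : ℂ))
    (ℓ₀ : ℕ) (hℓ₀ : ℓ₀.Prime) (hℓ₀M : ¬ ℓ₀ ∣ M) (hgood : ¬ (ℓ₀ : ℤ) ∣ W.Δ) :
    ModularFormClass.qCoeff g ℓ₀ = (W.apOfModel ℓ₀ : ℂ) := by
  obtain ⟨a₀, ha₀⟩ := s35e_exists_int hg ℓ₀ hℓ₀ hℓ₀M
  have hinj : ∀ a b : Zb, (a : ℂ) = (b : ℂ) → a = b := fun a b h => Subtype.ext h
  have hx : a₀ - ((W.apOfModel ℓ₀ : ℤ) : Zb) = 0 := by
    apply s58w_eq_zero_of_forall ℓ₀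
    intro p hp hpℓ₀ hp2 k _ _ φ
    haveI : Fact p.Prime := ⟨hp⟩
    obtain ⟨ρ, hρ, -⟩ := s35e_S29 hg hp φ
    have hcast : ∀ ℓ : ℕ, ℓ.Prime → ℓ ≠ p → (ℓ : k) ≠ 0 := by
      intro ℓ hℓ hℓp h0
      rw [CharP.cast_eq_zero_iff k p] at h0
      exact hℓp ((Nat.prime_dvd_prime_iff_eq hp hℓ).mp h0).symm
    -- the setup over the field `k`
    have H : s58w_Setup W (GaloisRepAdic.ofResidualGaloisRep ρ) p (N.primeFactors ∪ {p}) := by
      refine ⟨?_, ?_, hΔ, ?_, ?_⟩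
      · rw [CharP.cast_eq_zero k p]; exact Ideal.zero_mem _
      · exact Finset.mem_union_right _ (Finset.mem_singleton_self p)
      · intro ℓ hℓ hℓS A hA σ hσ
        have hℓN : ¬ ℓ ∣ N := fun hd => hℓS (Finset.mem_union_left _
          (Nat.mem_primeFactors.mpr ⟨hℓ, hd, hN⟩))
        have hℓp : ℓ ≠ p := fun hd => hℓS (Finset.mem_union_right _
          (Finset.mem_singleton.mpr hd))
        have hℓM : ¬ ℓ ∣ M := fun hd => hℓN (hd.trans hMN)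
        obtain ⟨a, ha, hch⟩ := hρ ℓ hℓ hℓM (hcast ℓ hℓ hℓp) A hA σ hσ
        have haW : a = ((W.apOfModel ℓ : ℤ) : Zb) := by
          apply hinj
          rw [ha, hgW ℓ hℓ hℓN]
          push_cast
          rfl
        show LinearMap.charpoly (ρ.ρ σ) = _
        rw [hch, haW, map_intCast]
      · intro ℓ hℓ hℓS A hA σ hσ n P hP
        have hℓN : ¬ ℓ ∣ N := fun hd => hℓS (Finset.mem_union_left _
          (Nat.mem_primeFactors.mpr ⟨hℓ, hd, hN⟩))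
        have hℓp : ℓ ≠ p := fun hd => hℓS (Finset.mem_union_right _
          (Finset.mem_singleton.mpr hd))
        exact hFrob W ℓ hℓ (fun hd => hℓN (hbad ℓ hℓ hd)) p hp hp2 (Ne.symm hℓp) n A hA σ hσ P hP
    obtain ⟨A₀, σ₀, hA₀, hσ₀⟩ := Fermat.Agent.Lib.Frobenius.exists_isFrobeniusAt ℓ₀ hℓ₀
    obtain ⟨a', ha', hch'⟩ := hρ ℓ₀ hℓ₀ hℓ₀M (hcast ℓ₀ hℓ₀ (Ne.symm hpℓ₀)) A₀ hA₀ σ₀ hσ₀
    have haa : a' = a₀ := hinj _ _ (by rw [ha', ha₀])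
    rw [haa] at hch'
    have := s58w_frob_coeff hLevel hExact hFrob H hp2 ℓ₀ hℓ₀ (Ne.symm hpℓ₀) hgood A₀ hA₀ σ₀ hσ₀
      (φ a₀) hch'
    rw [map_sub, map_intCast, this, sub_self]
  have h1 : a₀ = ((W.apOfModel ℓ₀ : ℤ) : Zb) := sub_eq_zero.mp hx
  rw [← ha₀, h1]
  push_cast
  rfl

end Fermat.Agent.Lib.S58
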