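/-
S58 wave, wiring (helper8): **[HRES]** the `hres` hypothesis of S36 for the curve `W`.

`ρ : GaloisRepAdic 𝒪` with Frobenius characteristic polynomials `X² − a_ℓ(W) X + ℓ` (`ℓ ∉ S₀`),
`p ∈ 𝔪` odd, `W[p]` irreducible ⇒ `ρ.residual` is absolutely irreducible and odd.
(`s58w_cmpW` at level `1` + `s58_InvolutionCyc` + `s58_AbsIrredTransfer`.)
-/
import Mathlib
import Fermat.Agent.Lib.S58.WCons
import Fermat.Agent.Lib.S58.OLevel
import Fermat.Agent.Lib.S41.AGalois

set_option autoImplicit false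
set_option linter.unusedSectionVars false
set_option linter.style.haveILetI false

open Polynomial IsLocalRing
open scoped TensorProduct

namespace Fermat.Agent.Lib.S58

open Fermat.Agent.Lib.S29 Fermat.Agent.Lib.S30 Fermat.Agent.Lib.S35 Fermat.Agent.Lib.S41

local notation "Qbar" => AlgebraicClosure ℚ

section Eps

variable (p : ℕ) [Fact p.Prime]

/-- the mod `p` cyclotomic character. -/
noncomputable def s58w_epsBar : s58_G →* (ZMod p)ˣ :=
  (Units.map (PadicInt.toZMod (p := p)).toMonoidHom).comp (s30y_eps p)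

theorem s58w_epsBar_coe (g : s58_G) :
    ((s58w_epsBar p g : (ZMod p)ˣ) : ZMod p) =
      PadicInt.toZMod ((s30y_eps p g : ℤ_[p]ˣ) : ℤ_[p]) := rfl

/-- an integer representing `ε(g)` modulo `p`. -/
theorem s58w_exists_u (g : s58_G) :
    ∃ u : ℤ, PadicInt.toZModPow 1 ((s30y_eps p g : ℤ_[p]ˣ) : ℤ_[p]) = ((u : ℤ) : ZMod (p ^ 1)) ∧
      ((s58w_epsBar p g : (ZMod p)ˣ) : ZMod p) = ((u : ℤ) : ZMod p) := by
  set x : ℤ_[p] := ((s30y_eps p g : ℤ_[p]ˣ) : ℤ_[p]) with hx
  refine ⟨((PadicInt.toZModPow 1 x).cast : ℤ), (ZMod.intCast_zmod_cast _).symm, ?_⟩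
  set u : ℤ := ((PadicInt.toZModPow 1 x).cast : ℤ) with hu
  have h1 : x - (u : ℤ_[p]) ∈ RingHom.ker (PadicInt.toZModPow (p := p) 1) := by
    rw [RingHom.mem_ker, map_sub, map_intCast, hu, ZMod.intCast_zmod_cast, sub_self]
  rw [PadicInt.ker_toZModPow, Ideal.mem_span_singleton] at h1
  obtain ⟨w, hw⟩ := h1
  rw [s58w_epsBar_coe, ← hx]
  have h2 : x = (u : ℤ_[p]) + (p : ℤ_[p]) ^ 1 * w := by rw [← hw]; ring
  rw [h2, map_add, map_mul, map_pow, map_natCast, map_intCast, ZMod.natCast_self, pow_one,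
    zero_mul, add_zero]

end Eps

section Residual

section Gen

variable {𝒪 : Type} [CommRing 𝒪] [IsLocalRing 𝒪] {V : Type} [AddCommGroup V] [Module 𝒪 V]

/-- elements of `𝔪 • ⊤` die after base change to the residue field. -/
theorem s58w_tmul_eq_zero {x : V}
    (hx : x ∈ (maximalIdeal 𝒪 ^ 1) • (⊤ : Submodule 𝒪 V)) (c : ResidueField 𝒪) :
    c ⊗ₜ[𝒪] x = (0 : ResidueField 𝒪 ⊗[𝒪] V) := by
  refine Submodule.smul_induction_on
    (p := fun x => c ⊗ₜ[𝒪] x = (0 : ResidueField 𝒪 ⊗[𝒪] V)) hx ?_ ?_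
  · intro a ha w _
    rw [pow_one] at ha
    rw [TensorProduct.tmul_smul, TensorProduct.smul_tmul', Algebra.smul_def,
      IsLocalRing.ResidueField.algebraMap_eq, (IsLocalRing.residue_eq_zero_iff a).mpr ha,
      zero_mul, TensorProduct.zero_tmul]
  · intro x y hx hy
    rw [TensorProduct.tmul_add, hx, hy, add_zero]

/-- a relation modulo `𝔪` gives a relation after base change to the residue field. -/
theorem s58w_baseChange_rel (f f' : Module.End 𝒪 V) (u s : ℤ)
    (h : ∀ v : V, f v + u • f' v - s • v ∈ (maximalIdeal 𝒪 ^ 1) • (⊤ : Submodule 𝒪 V)) :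
    f.baseChange (ResidueField 𝒪) + u • f'.baseChange (ResidueField 𝒪) =
      s • (1 : Module.End (ResidueField 𝒪) (ResidueField 𝒪 ⊗[𝒪] V)) := by
  apply LinearMap.ext
  intro x
  rw [LinearMap.add_apply, LinearMap.smul_apply, LinearMap.smul_apply, Module.End.one_apply]
  induction x using TensorProduct.induction_on with
  | zero => rw [map_zero, map_zero, smul_zero, smul_zero, add_zero]
  | tmul c v =>
    rw [LinearMap.baseChange_tmul, LinearMap.baseChange_tmul, ← sub_eq_zero]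
    have h0 := s58w_tmul_eq_zero (h v) c
    rw [TensorProduct.tmul_sub, TensorProduct.tmul_add] at h0
    have e1 : c ⊗ₜ[𝒪] (u • f' v) = u • (c ⊗ₜ[𝒪] f' v) := TensorProduct.tmul_smul u c (f' v)
    have e2 : c ⊗ₜ[𝒪] (s • v) = s • (c ⊗ₜ[𝒪] v) := TensorProduct.tmul_smul s c v
    rw [e1, e2] at h0
    exact h0
  | add x y hx hy =>
    rw [map_add, map_add, smul_add, smul_add, ← hx, ← hy]
    abel

end Gen

variable {𝒪 : Type} [CommRing 𝒪] [IsLocalRing 𝒪] (ρ : GaloisRepAdic 𝒪)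

/-- a relation modulo `𝔪` gives a relation on the residual representation. -/
theorem s58w_residual_rel (g : s58_G) (u s : ℤ)
    (h : ∀ v : ρ.V, ρ.ρ g v + u • ρ.ρ g⁻¹ v - s • v ∈
      (maximalIdeal 𝒪 ^ 1) • (⊤ : Submodule 𝒪 ρ.V)) :
    ρ.residual.ρ g + u • ρ.residual.ρ g⁻¹ = s • (1 : Module.End (ResidueField 𝒪) ρ.residual.V) :=
  s58w_baseChange_rel (ρ.ρ g) (ρ.ρ g⁻¹) u s h

/-- the determinant of the residual representation. -/
theorem s58w_residual_det (g : s58_G) (u : ℤ)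
    (h : LinearMap.det (ρ.ρ g) - ((u : ℤ) : 𝒪) ∈ maximalIdeal 𝒪 ^ 1) :
    LinearMap.det (ρ.residual.ρ g) = ((u : ℤ) : ResidueField 𝒪) := by
  have e : LinearMap.det (ρ.residual.ρ g) =
      LinearMap.det ((ρ.ρ g).baseChange (ResidueField 𝒪)) := rfl
  rw [e, LinearMap.det_baseChange, IsLocalRing.ResidueField.algebraMap_eq]
  rw [pow_one] at h
  have := (IsLocalRing.residue_eq_zero_iff _).mpr h
  rw [map_sub, map_intCast, sub_eq_zero] at this
  exact this

end Residual

section Main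

variable {W : WeierstrassCurve ℤ} {𝒪 : Type} [CommRing 𝒪] [IsLocalRing 𝒪]
  {ρ : GaloisRepAdic 𝒪} {p : ℕ} [Fact p.Prime]

/-- **oddness.** -/
theorem s58w_isOdd (hLevel : s58_EllLevel) (hInv : s58_InvolutionCyc)
    {S₀ : Finset ℕ} (H : s58w_Setup W ρ p S₀) (hp2 : p ≠ 2) :
    ρ.residual.IsOdd := by
  intro c hcc hc1
  have hp : p.Prime := Fact.out
  have hodd : Odd (p ^ 1) := by
    rw [pow_one]; exact hp.odd_of_ne_two hp2
  obtain ⟨ζ, hζ⟩ := s30y_exists_primitiveRoot p 1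
  have h1 : c ζ = ζ ^ (p ^ 1 - 1) := by
    rw [hInv c hcc hc1 (p ^ 1) hodd ζ hζ.pow_eq_one]
    have hpos : 0 < p ^ 1 := pow_pos hp.pos 1
    have hζ0 : ζ ≠ 0 := hζ.ne_zero hpos.ne'
    rw [inv_eq_iff_eq_inv, ← one_div, eq_div_iff (pow_ne_zero _ hζ0), ← pow_succ',
      Nat.sub_add_cancel hpos, hζ.pow_eq_one]
  have hu : PadicInt.toZModPow 1 ((s30y_eps p c : ℤ_[p]ˣ) : ℤ_[p]) =
      (((-1 : ℤ) : ℤ) : ZMod (p ^ 1)) := by
    have hn := s30y_neZero_pow p 1
    rw [s30y_toZModPow_eq p c 1 hζ (p ^ 1 - 1) h1,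
      Nat.cast_sub (Nat.one_le_iff_ne_zero.mpr hn.ne), ZMod.natCast_self, Nat.cast_one, zero_sub,
      Int.cast_neg, Int.cast_one]
  obtain ⟨s, -, -, hdet⟩ := s58w_cmpW hLevel H 1 c (-1) hu
  rw [s58w_residual_det ρ c (-1) hdet, Int.cast_neg, Int.cast_one]

/-- **[HRES]** -/
theorem s58w_hres (hLevel : s58_EllLevel) (hInv : s58_InvolutionCyc)
    (hTr : s58_AbsIrredTransfer)
    {S₀ : Finset ℕ} (H : s58w_Setup W ρ p S₀) (hp2 : p ≠ 2) (hirr : W.ModRepIsIrreducible p) :
    ρ.residual.IsAbsolutelyIrreducible ∧ ρ.residual.IsOdd := by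
  have hodd := s58w_isOdd hLevel hInv H hp2
  refine ⟨?_, hodd⟩
  have hp : p.Prime := Fact.out
  -- the residue field has characteristic `p`
  have hpk : ((p : ℕ) : ResidueField 𝒪) = 0 := by
    rw [← map_natCast (IsLocalRing.residue 𝒪)]
    exact (IsLocalRing.residue_eq_zero_iff _).mpr H.hlam
  haveI : CharP (ResidueField 𝒪) p := (CharP.charP_iff_prime_eq_zero hp).mpr hpk
  letI : Algebra (ZMod p) (ResidueField 𝒪) := ZMod.algebra (ResidueField 𝒪) p
  have h2k : (2 : ResidueField 𝒪) ≠ 0 := by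
    intro h2
    have : ((2 : ℕ) : ResidueField 𝒪) = 0 := by exact_mod_cast h2
    rw [CharP.cast_eq_zero_iff (ResidueField 𝒪) p] at this
    exact hp2 ((Nat.prime_dvd_prime_iff_eq hp Nat.prime_two).mp this)
  haveI := s58o_isElliptic W H.hΔ
  have hfr : Module.finrank (ZMod p)
      (Submodule.torsionBy ℤ (s58_Pt W) ((p : ℕ) : ℤ)) = 2 :=
    s41a_finrank_torsion (W.map (Int.castRingHom ℚ))
  -- complex conjugation
  have hcc : complexConjugation * complexConjugation = 1 := complexConjugation_mul_self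
  have hεc : s58w_epsBar p complexConjugation = -1 := by
    apply Units.ext
    rw [s58w_epsBar_coe, s30y_conj, Units.val_neg, Units.val_one, map_neg, map_one,
      Units.val_neg, Units.val_one]
  have hc1 : complexConjugation ≠ 1 := by
    intro h1
    have h3 : s30y_eps p complexConjugation = 1 := by rw [h1, map_one]
    rw [s30y_conj] at h3
    have h4 := congrArg (fun x : ℤ_[p]ˣ => ((x : ℤ_[p]ˣ) : ℤ_[p])) h3
    simp only [Units.val_neg, Units.val_one] at h4
    have h5 : (2 : ℤ_[p]) = 0 := by linear_combination -h4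
    exact two_ne_zero h5
  have hdetc : LinearMap.det (ρ.residual.ρ complexConjugation) = -1 :=
    hodd complexConjugation hcc hc1
  -- the relations
  have hrel : ∀ g : s58_G, ∃ s : ZMod p,
      WeierstrassCurve.Affine.Point.galoisRepModuleEnd (K := Qbar) ℚ
          (W.map (Int.castRingHom ℚ)) p g +
        ((s58w_epsBar p g : (ZMod p)ˣ) : ZMod p) •
          WeierstrassCurve.Affine.Point.galoisRepModuleEnd (K := Qbar) ℚ
            (W.map (Int.castRingHom ℚ)) p g⁻¹ =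
        s • (1 : Module.End (ZMod p) (Submodule.torsionBy ℤ (s58_Pt W) ((p : ℕ) : ℤ))) ∧
      ρ.residual.ρ g + algebraMap (ZMod p) (ResidueField 𝒪)
          ((s58w_epsBar p g : (ZMod p)ˣ) : ZMod p) • ρ.residual.ρ g⁻¹ =
        algebraMap (ZMod p) (ResidueField 𝒪) s •
          (1 : Module.End (ResidueField 𝒪) ρ.residual.V) := by
    intro g
    obtain ⟨u, hu1, hu2⟩ := s58w_exists_u p g
    obtain ⟨s, hs1, hs2, -⟩ := s58w_cmpW hLevel H 1 g u hu1
    refine ⟨((s : ℤ) : ZMod p), ?_, ?_⟩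
    · apply LinearMap.ext
      intro P
      apply Subtype.ext
      have hP : p ^ 1 • (P : s58_Pt W) = 0 := by
        have := P.2
        rw [Submodule.mem_torsionBy_iff, natCast_zsmul] at this
        rw [pow_one]; exact this
      have := hs1 P.1 hP
      rw [hu2, LinearMap.add_apply, LinearMap.smul_apply, LinearMap.smul_apply,
        Module.End.one_apply, Int.cast_smul_eq_zsmul, Int.cast_smul_eq_zsmul]
      exact this
    · rw [hu2, map_intCast, map_intCast, Int.cast_smul_eq_zsmul, Int.cast_smul_eq_zsmul]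
      exact s58w_residual_rel ρ g u s hs2
  exact hTr s58_G (ZMod p) (ResidueField 𝒪)
    (Submodule.torsionBy ℤ (s58_Pt W) ((p : ℕ) : ℤ)) ρ.residual.V hfr ρ.residual.finrank_eq
    (WeierstrassCurve.Affine.Point.galoisRepModuleEnd (K := Qbar) ℚ
      (W.map (Int.castRingHom ℚ)) p)
    ρ.residual.ρ (s58w_epsBar p) h2k complexConjugation hcc hεc hdetc hrel
    (fun N hN => hirr.2 N (fun σ x hx => hN σ x hx))

end Main

end Fermat.Agent.Lib.S58
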