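/-
S58 wave, TOP WIRING (helper8): the literal S58 statement from the contracts of `Iface.lean`.

`W/ℤ` semistable, modular of a cube-free level `N` divisible by all bad primes, `p` odd with `W[p]`
irreducible and `p² ∤ N`.  Steps: (1) the minimal-level newform `g` of level `M ∣ N`
(`s58t_exists_newform`); (2) `M ∣ rad Δ` by S35 (`q ∥ M` good is impossible: Frobenius trace
`±(q+1)`) and S36 (`q² ∥ M`, `q ≠ p` is impossible: unipotent inertia on the curve side);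
(3) `a_ℓ(g) = a_ℓ(W)` at all good `ℓ` (`s58w_cong`); (4) lift `g` to level `rad Δ` (`s58_OldLift`).
-/
import Mathlib
import Fermat.Agent.S35
import Fermat.Agent.S36
import Fermat.Agent.Lib.S58.WHres
import Fermat.Agent.Lib.S58.WCong
import Fermat.Agent.Lib.S58.TNewform

set_option autoImplicit false
set_option linter.unusedSectionVars false
set_option linter.style.haveILetI false

open Polynomial IsLocalRing

namespace Fermat.Agent.Lib.S58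

open Fermat.Agent.Lib.S29 Fermat.Agent.Lib.S30 Fermat.Agent.Lib.S35

local notation "Qbar" => AlgebraicClosure ℚ

section Padic

variable (lam : ℕ) [Fact lam.Prime]

theorem s58w_finite_residueField : Finite (IsLocalRing.ResidueField ℤ_[lam]) :=
  Finite.of_equiv (ZMod lam) PadicInt.residueField.symm.toEquiv

theorem s58w_lam_mem : (lam : ℤ_[lam]) ∈ IsLocalRing.maximalIdeal ℤ_[lam] := by
  rw [PadicInt.maximalIdeal_eq_span_p]
  exact Ideal.mem_span_singleton_self _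

end Padic

section Setup

variable {W : WeierstrassCurve ℤ} {N M : ℕ} [NeZero M]

/-- the `s58w_Setup` of a representation with the Frobenius characteristic polynomials of S35/S36
(in the weaker shape of the `hres` hypothesis of S36). -/
theorem s58w_setup (hFrob : s58_EllFrob) (hΔ : W.Δ ≠ 0)
    (hbad : ∀ ℓ : ℕ, ℓ.Prime → (ℓ : ℤ) ∣ W.Δ → ℓ ∣ N) (hMN : M ∣ N)
    (lam : ℕ) [Fact lam.Prime] (hlam2 : lam ≠ 2) (S : Finset ℕ) (hlamS : lam ∈ S)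
    (hNS : ∀ q : ℕ, q.Prime → q ∣ N → q ∈ S)
    (chig : CuspForm.heckeAlgebra M 2 (↑S : Set ℕ) →+* ℂ) (iota : chig.range →+* ℤ_[lam])
    (hiota : ∀ (ℓ : ℕ) (hℓ : ℓ.Prime) (hℓM : ¬ ℓ ∣ M) (hℓS : ℓ ∉ (↑S : Set ℕ)),
      (iota.comp chig.rangeRestrict) (CuspForm.heckeAlgebra.T hℓ hℓM hℓS) =
        (W.apOfModel ℓ : ℤ_[lam]))
    {O'' : Type} [CommRing O''] [IsLocalRing O''] [Algebra ℤ_[lam] O'']
    [IsLocalHom (algebraMap ℤ_[lam] O'')] (ρ : GaloisRepAdic O'')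
    (hFr : ∀ (ℓ : ℕ) (hℓ : ℓ.Prime) (_ : ℓ ≠ lam) (hℓM : ¬ ℓ ∣ M) (hℓS : ℓ ∉ (↑S : Set ℕ)),
      ∀ A : ValuationSubring Qbar, A.LiesOverPrime ℓ →
        ∀ σ : Qbar ≃ₐ[ℚ] Qbar, A.IsFrobeniusAt σ ℓ →
          LinearMap.charpoly (ρ.ρ σ) =
            X ^ 2 - C (algebraMap ℤ_[lam] O'' ((iota.comp chig.rangeRestrict)
              (CuspForm.heckeAlgebra.T hℓ hℓM hℓS))) * X + C ((ℓ : O''))) :
    s58w_Setup W ρ lam S := by
  have hlam : lam.Prime := Fact.out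
  refine ⟨?_, hlamS, hΔ, ?_, ?_⟩
  · have h1 : ¬ IsUnit (lam : ℤ_[lam]) := (IsLocalRing.mem_maximalIdeal _).mp (s58w_lam_mem lam)
    have h2 : ¬ IsUnit (algebraMap ℤ_[lam] O'' (lam : ℤ_[lam])) := fun h => h1 (isUnit_of_map_unit _ _ h)
    rw [map_natCast] at h2
    exact (IsLocalRing.mem_maximalIdeal _).mpr h2
  · intro ℓ hℓ hℓS A hA σ hσ
    have hℓlam : ℓ ≠ lam := fun h => hℓS (h ▸ hlamS)
    have hℓN : ¬ ℓ ∣ N := fun hd => hℓS (hNS ℓ hℓ hd)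
    have hℓM : ¬ ℓ ∣ M := fun hd => hℓN (hd.trans hMN)
    have hℓS' : ℓ ∉ (↑S : Set ℕ) := fun h => hℓS (Finset.mem_coe.mp h)
    rw [hFr ℓ hℓ hℓlam hℓM hℓS' A hA σ hσ, hiota ℓ hℓ hℓM hℓS', map_intCast]
  · intro ℓ hℓ hℓS A hA σ hσ n P hP
    have hℓlam : ℓ ≠ lam := fun h => hℓS (h ▸ hlamS)
    have hℓN : ¬ ℓ ∣ N := fun hd => hℓS (hNS ℓ hℓ hd)
    exact hFrob W ℓ hℓ (fun hd => hℓN (hbad ℓ hℓ hd)) lam hlam hlam2 (Ne.symm hℓlam) n A hA σ hσ P hP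

end Setup

section Steps

variable {W : WeierstrassCurve ℤ} {N M : ℕ} [NeZero M]

/-- **(B1)** a good prime cannot divide the level of the newform exactly once. -/
theorem s58w_step_good (hLevel : s58_EllLevel) (hExact : s58_EllExact) (hFrob : s58_EllFrob)
    (hBound : s58_EllBound) (hChar : s58_EigenCharZ)
    (hΔ : W.Δ ≠ 0) (hN : N ≠ 0) (hbad : ∀ ℓ : ℕ, ℓ.Prime → (ℓ : ℤ) ∣ W.Δ → ℓ ∣ N) (hMN : M ∣ N)
    {g : CuspForm (CongruenceSubgroup.Gamma0 M) 2} (hg : g.IsNewform)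
    (hgW : ∀ ℓ : ℕ, ℓ.Prime → ¬ ℓ ∣ N → ModularFormClass.qCoeff g ℓ = (W.apOfModel ℓ : ℂ))
    (q : ℕ) (hq : q.Prime) (hqM : q ∣ M) (hq2 : ¬ q ^ 2 ∣ M) (hgood : ¬ (q : ℤ) ∣ W.Δ) :
    False := by
  obtain ⟨lam, hlam, hlam2, hlamq⟩ : ∃ lam : ℕ, lam.Prime ∧ lam ≠ 2 ∧ lam ≠ q := by
    by_cases h3 : q = 3
    · exact ⟨5, by norm_num, by norm_num, by omega⟩
    · exact ⟨3, by norm_num, by norm_num, fun h => h3 h.symm⟩
  haveI : Fact lam.Prime := ⟨hlam⟩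
  obtain ⟨S, hS⟩ : ∃ S : Finset ℕ, S = N.primeFactors ∪ {lam} := ⟨_, rfl⟩
  have hlamS : lam ∈ S := by
    rw [hS]; exact Finset.mem_union_right _ (Finset.mem_singleton_self lam)
  have hNS : ∀ r : ℕ, r.Prime → r ∣ N → r ∈ S := fun r hr hd => by
    rw [hS]; exact Finset.mem_union_left _ (Nat.mem_primeFactors.mpr ⟨hr, hd, hN⟩)
  have hMS : ∀ r : ℕ, r.Prime → r ∣ M → r ∈ S := fun r hr hd => hNS r hr (hd.trans hMN)
  obtain ⟨chig, iota, hchig, hiota⟩ := hChar M g hg.1 S hMS (fun ℓ => W.apOfModel ℓ)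
    (fun ℓ hℓ _ hℓS => hgW ℓ hℓ (fun hd => hℓS (hNS ℓ hℓ hd))) lam
  haveI := s58w_finite_residueField lam
  obtain ⟨O'', i1, i2, i3, i4, i5, i6, i7, i8, i9, -, ρ, hFr, h2⟩ :=
    Fermat.Agent.S35.result hg lam S ℤ_[lam] (s58w_lam_mem lam) chig hchig iota hlamS hMS
  have H := s58w_setup hFrob hΔ hbad hMN lam hlam2 S hlamS hNS chig iota hiota ρ
    (fun ℓ hℓ _ hℓM hℓS => hFr ℓ hℓ hℓM hℓS)
  obtain ⟨A, σ, hA, hσ⟩ := Fermat.Agent.Lib.Frobenius.exists_isFrobeniusAt q hq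
  rcases h2 q hq (Ne.symm hlamq) hqM hq2 A hA σ hσ with h | h
  · have h3 := s58w_frob_coeff hLevel hExact hFrob H hlam2 q hq (Ne.symm hlamq) hgood A hA σ hσ
      ((q : O'') + 1) h
    have h4 : ((W.apOfModel q : ℤ) : O'') = ((((q : ℤ) + 1 : ℤ)) : O'') := by
      rw [← h3]; push_cast; rfl
    exact (hBound W q hq).1 (Int.cast_injective h4)
  · have h' : LinearMap.charpoly (ρ.ρ σ) =
        X ^ 2 - C (-((q : O'') + 1)) * X + C ((q : O'')) := by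
      rw [h, map_neg]; ring
    have h3 := s58w_frob_coeff hLevel hExact hFrob H hlam2 q hq (Ne.symm hlamq) hgood A hA σ hσ
      (-((q : O'') + 1)) h'
    have h4 : ((W.apOfModel q : ℤ) : O'') = (((-((q : ℤ) + 1) : ℤ)) : O'') := by
      rw [← h3]; push_cast; rfl
    exact (hBound W q hq).2 (Int.cast_injective h4)

/-- **(B2/B3)** the square of a prime `q ≠ p` cannot divide the level of the newform. -/
theorem s58w_step_sq (hLevel : s58_EllLevel) (hExact : s58_EllExact) (hFrob : s58_EllFrob)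
    (hUnram : s58_EllUnram) (hMult : s58_EllMultFix) (hChar : s58_EigenCharZ)
    (hInv : s58_InvolutionCyc) (hTr : s58_AbsIrredTransfer)
    (hss : W.IsSemistableModel) (hΔ : W.Δ ≠ 0) (hN : N ≠ 0)
    (hbad : ∀ ℓ : ℕ, ℓ.Prime → (ℓ : ℤ) ∣ W.Δ → ℓ ∣ N)
    (hN3 : ∀ q : ℕ, q.Prime → ¬ q ^ 3 ∣ N) (hMN : M ∣ N)
    {g : CuspForm (CongruenceSubgroup.Gamma0 M) 2} (hg : g.IsNewform)
    (hgW : ∀ ℓ : ℕ, ℓ.Prime → ¬ ℓ ∣ N → ModularFormClass.qCoeff g ℓ = (W.apOfModel ℓ : ℂ))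
    (p : ℕ) [Fact p.Prime] (hp2 : p ≠ 2) (hirr : W.ModRepIsIrreducible p)
    (q : ℕ) (hq : q.Prime) (hq2 : q ^ 2 ∣ M) (hqp : q ≠ p) : False := by
  have hp : p.Prime := Fact.out
  have hM0 : M ≠ 0 := NeZero.ne M
  have hfac : M.factorization q = 2 := by
    have h2 : 2 ≤ M.factorization q := (hq.pow_dvd_iff_le_factorization hM0).mp hq2
    have h3 : ¬ 3 ≤ M.factorization q := fun h =>
      hN3 q hq (((hq.pow_dvd_iff_le_factorization hM0).mpr h).trans hMN)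
    omega
  obtain ⟨S, hS⟩ : ∃ S : Finset ℕ, S = N.primeFactors ∪ {p} := ⟨_, rfl⟩
  have hlamS : p ∈ S := by
    rw [hS]; exact Finset.mem_union_right _ (Finset.mem_singleton_self p)
  have hNS : ∀ r : ℕ, r.Prime → r ∣ N → r ∈ S := fun r hr hd => by
    rw [hS]; exact Finset.mem_union_left _ (Nat.mem_primeFactors.mpr ⟨hr, hd, hN⟩)
  have hMS : ∀ r : ℕ, r.Prime → r ∣ M → r ∈ S := fun r hr hd => hNS r hr (hd.trans hMN)
  obtain ⟨chig, iota, hchig, hiota⟩ := hChar M g hg.1 S hMS (fun ℓ => W.apOfModel ℓ)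
    (fun ℓ hℓ _ hℓS => hgW ℓ hℓ (fun hd => hℓS (hNS ℓ hℓ hd))) p
  haveI := s58w_finite_residueField p
  obtain ⟨O'', i1, i2, i3, i4, i5, i6, i7, i8, i9, -, ρ, hFr, h2⟩ :=
    Fermat.Agent.S36.result hg p S ℤ_[p] (s58w_lam_mem p) hp2 chig hchig iota hlamS hMS
      (fun O'' _ _ _ _ _ _ _ _ _ _ ρ hFr =>
        s58w_hres hLevel hInv hTr
          (s58w_setup hFrob hΔ hbad hMN p hp2 S hlamS hNS chig iota hiota ρ hFr) hp2 hirr)
  have H := s58w_setup hFrob hΔ hbad hMN p hp2 S hlamS hNS chig iota hiota ρ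
    (fun ℓ hℓ _ hℓM hℓS => hFr ℓ hℓ hℓM hℓS)
  apply h2 q hq hqp hfac
  intro P hP τ hτ
  refine s58w_unipotent hLevel H q hq hqp P hP (fun n => ?_) τ hτ
  by_cases hqΔ : (q : ℤ) ∣ W.Δ
  · exact hMult W hΔ q hq hqΔ (hss q hq hqΔ) p hp hp2 (Ne.symm hqp) n P hP
  · obtain ⟨P₀, h1, h2'⟩ := hExact W hΔ p hp n
    exact ⟨P₀, h1, h2', fun τ' hτ' =>
      hUnram W q hq hqΔ p hp hp2 (Ne.symm hqp) (n + 1) P hP τ' hτ' P₀ h1⟩

end Steps

section Main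

/-- **S58 from the contracts.** -/
theorem s58w_main (hLevel : s58_EllLevel) (hExact : s58_EllExact) (hFrob : s58_EllFrob)
    (hUnram : s58_EllUnram) (hMult : s58_EllMultFix) (hBound : s58_EllBound)
    (hChar : s58_EigenCharZ) (hOld : s58_OldLift)
    (hInv : s58_InvolutionCyc) (hTr : s58_AbsIrredTransfer)
    (W : WeierstrassCurve ℤ) (hss : W.IsSemistableModel) (N : ℕ)
    (p : ℕ) [Fact p.Prime] (hp2 : p ≠ 2) (hirr : W.ModRepIsIrreducible p)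
    (hp2N : ¬ p ^ 2 ∣ N)
    (hN : W.IsModularModelOfLevel N) (hbad : ∀ ℓ : ℕ, ℓ.Prime → (ℓ : ℤ) ∣ W.Δ → ℓ ∣ N)
    (hN3 : ∀ q : ℕ, q.Prime → ¬ q ^ 3 ∣ N) :
    W.IsModularModelOfLevel W.conductorLevel := by
  have hN0 : N ≠ 0 := by
    rintro rfl
    exact hN3 2 Nat.prime_two (dvd_zero _)
  have hΔ : W.Δ ≠ 0 := by
    intro h0
    obtain ⟨ℓ, hge, hℓ⟩ := Nat.exists_infinite_primes (N + 1)
    have h1 := hbad ℓ hℓ (by rw [h0]; exact dvd_zero _)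
    have h2 := Nat.le_of_dvd (Nat.pos_of_ne_zero hN0) h1
    omega
  obtain ⟨f, hf, hfW⟩ := hN
  obtain ⟨M, hMN, g, hg, hgf⟩ := s58t_exists_newform hN0 f hf
  have hM0 : M ≠ 0 := ne_zero_of_dvd_ne_zero hN0 hMN
  haveI : NeZero M := ⟨hM0⟩
  have hgW : ∀ ℓ : ℕ, ℓ.Prime → ¬ ℓ ∣ N →
      ModularFormClass.qCoeff g ℓ = (W.apOfModel ℓ : ℂ) := fun ℓ hℓ hℓN => by
    rw [hgf ℓ hℓ hℓN]
    exact hfW ℓ hℓ (fun hd => hℓN (hbad ℓ hℓ hd)) hℓN
  have key : ∀ q : ℕ, q.Prime → q ∣ M → (q : ℤ) ∣ W.Δ ∧ ¬ q ^ 2 ∣ M := by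
    intro q hq hqM
    have hq2 : ¬ q ^ 2 ∣ M := fun h2 => by
      have hqp : q ≠ p := by
        rintro rfl
        exact hp2N (h2.trans hMN)
      exact s58w_step_sq hLevel hExact hFrob hUnram hMult hChar hInv hTr hss hΔ hN0 hbad hN3 hMN
        hg hgW p hp2 hirr q hq h2 hqp
    refine ⟨?_, hq2⟩
    by_contra hgood
    exact s58w_step_good hLevel hExact hFrob hBound hChar hΔ hN0 hbad hMN hg hgW q hq hqM hq2
      hgood
  have hMsq : Squarefree M := by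
    rw [Nat.squarefree_iff_prime_squarefree]
    intro q hq hqq
    exact (key q hq (Dvd.dvd.trans (Dvd.intro _ rfl) hqq)).2 (by rw [sq]; exact hqq)
  have hMR : M ∣ W.conductorLevel := by
    rw [← Nat.prod_primeFactors_of_squarefree hMsq]
    refine Finset.prod_primes_dvd _ (fun q hq => (Nat.prime_of_mem_primeFactors hq).prime)
      (fun q hq => ?_)
    have hqp := Nat.prime_of_mem_primeFactors hq
    exact (W.prime_dvd_conductorLevel_iff hΔ hqp).mpr (key q hqp (Nat.dvd_of_mem_primeFactors hq)).1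
  obtain ⟨h, hh, hhg⟩ := hOld M W.conductorLevel hMR W.squarefree_conductorLevel g hg.1
  refine ⟨h, hh, fun ℓ hℓ hgood hℓR => ?_⟩
  rw [hhg ℓ hℓ hℓR]
  exact s58w_cong hLevel hExact hFrob W hΔ hN0 hMN g hg.1 hbad hgW ℓ hℓ
    (fun hd => hℓR (hd.trans hMR)) hgood

end Main

end Fermat.Agent.Lib.S58
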