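/-
S58 wave, leaf [CHI-Z] (helper1): the eigencharacter of a normalized eigenform on the Hecke algebra
away from `S` (all primes of the level in `S`), when the eigenvalues outside `S` are integers, with
the induced `iota : chig.range →+* ℤ_[λ]`.

* `s58x_eigen_int`    : every `t` of the Hecke algebra has `g` as an eigenvector with an INTEGER
                        eigenvalue;
* `s58x_eigenCharZ`   : the contract `s58_EigenCharZ` of `Lib/S58/Iface.lean`.
-/
import Fermat.Agent.Lib.S58.Iface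
import Fermat.Agent.Lib.Hecke.CommEigen
import Fermat.Agent.Lib.S29.DSPeriod

set_option autoImplicit false

noncomputable section

namespace Fermat.Agent.Lib.S58

open CuspForm Fermat.Agent.Lib.S29

/-- Every element of the Hecke algebra away from `S ⊇ primes(M)` has the normalized eigenform `g`
(with integer eigenvalues `a ℓ` outside `S`) as an eigenvector with an integer eigenvalue. -/
theorem s58x_eigen_int {M : ℕ} [NeZero M] {g : CuspForm (CongruenceSubgroup.Gamma0 M) 2}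
    (hg : g.IsNormalizedEigenform) {S : Finset ℕ} (hMS : ∀ q : ℕ, q.Prime → q ∣ M → q ∈ S)
    {a : ℕ → ℤ}
    (ha : ∀ ℓ : ℕ, ℓ.Prime → ¬ ℓ ∣ M → ℓ ∉ S → ModularFormClass.qCoeff g ℓ = (a ℓ : ℂ))
    (t : Module.End ℂ (CuspForm (CongruenceSubgroup.Gamma0 M) 2))
    (ht : t ∈ CuspForm.heckeAlgebra M 2 (↑S : Set ℕ)) :
    ∃ n : ℤ, t g = (n : ℂ) • g := by
  induction ht using Algebra.adjoin_induction with
  | mem x hx =>
    rcases hx with ⟨ℓ, hℓ, hℓM, hℓS, rfl⟩ | ⟨q, hqM, hq, hqS, rfl⟩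
    · refine ⟨a ℓ, ?_⟩
      rw [s29s_heckeT_eigen hg hℓ hℓM, ha ℓ hℓ hℓM (by simpa using hℓS)]
    · exact absurd (by simpa using hMS q hq hqM) hqS
  | algebraMap r =>
    refine ⟨r, ?_⟩
    rw [Algebra.algebraMap_eq_smul_one, LinearMap.smul_apply, Module.End.one_apply]
    exact (Int.cast_smul_eq_zsmul ℂ r g).symm
  | add x y _ _ hx hy =>
    obtain ⟨m, hm⟩ := hx
    obtain ⟨n, hn⟩ := hy
    refine ⟨m + n, ?_⟩
    rw [LinearMap.add_apply, hm, hn, Int.cast_add, add_smul]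
  | mul x y _ _ hx hy =>
    obtain ⟨m, hm⟩ := hx
    obtain ⟨n, hn⟩ := hy
    refine ⟨m * n, ?_⟩
    rw [Module.End.mul_apply, hn, map_smul, hm, smul_smul, Int.cast_mul, mul_comm]

/-- **[CHI-Z]**, the contract of `Lib/S58/Iface.lean`. -/
theorem s58x_eigenCharZ : s58_EigenCharZ := by
  intro M _ g hg S hMS a ha lam _
  have hg0 : g ≠ 0 := hg.ne_zero
  -- the representation of the Hecke algebra
  let ρ : CuspForm.heckeAlgebra M 2 (↑S : Set ℕ) →+*
      Module.End ℂ (CuspForm (CongruenceSubgroup.Gamma0 M) 2) :=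
    (CuspForm.heckeAlgebra M 2 (↑S : Set ℕ)).val.toRingHom
  have hρ : ∀ t : CuspForm.heckeAlgebra M 2 (↑S : Set ℕ),
      ρ t = (t : Module.End ℂ (CuspForm (CongruenceSubgroup.Gamma0 M) 2)) := fun _ => rfl
  have hint : ∀ t : CuspForm.heckeAlgebra M 2 (↑S : Set ℕ), ∃ n : ℤ, ρ t g = (n : ℂ) • g :=
    fun t => s58x_eigen_int hg hMS ha t.1 t.2
  obtain ⟨chig, hchig⟩ := Fermat.Agent.Lib.CommEigen.exists_eigencharacter ρ g hg0
    (fun t => by obtain ⟨n, hn⟩ := hint t; exact ⟨(n : ℂ), hn⟩)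
  have huniq : ∀ {x y : ℂ}, x • g = y • g → x = y := fun {x y} hxy =>
    smul_left_injective ℂ hg0 hxy
  -- the values of `chig` are integers
  have hZ : ∀ t, ∃ n : ℤ, chig t = (n : ℂ) := by
    intro t
    obtain ⟨n, hn⟩ := hint t
    exact ⟨n, huniq ((hchig t).symm.trans hn)⟩
  have hT : ∀ (ℓ : ℕ) (hℓ : ℓ.Prime) (hℓM : ¬ ℓ ∣ M) (hℓS : ℓ ∉ (↑S : Set ℕ)),
      chig (CuspForm.heckeAlgebra.T hℓ hℓM hℓS) = ModularFormClass.qCoeff g ℓ := by
    intro ℓ hℓ hℓM hℓS
    apply huniq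
    rw [← hchig, hρ, CuspForm.heckeAlgebra.coe_T, s29s_heckeT_eigen hg hℓ hℓM]
  -- the range of `chig` lies in the image of `ℤ`
  have hle : chig.range ≤ (Int.castRingHom ℂ).range := by
    rintro _ ⟨t, rfl⟩
    obtain ⟨n, hn⟩ := hZ t
    exact ⟨n, by rw [hn]; rfl⟩
  let e : ℤ ≃+* (Int.castRingHom ℂ).range :=
    RingEquiv.ofBijective (Int.castRingHom ℂ).rangeRestrict
      ⟨fun x y h => RingHom.injective_int (Int.castRingHom ℂ) (congrArg Subtype.val h),
        (Int.castRingHom ℂ).rangeRestrict_surjective⟩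
  let iota : chig.range →+* ℤ_[lam] :=
    (Int.castRingHom ℤ_[lam]).comp (e.symm.toRingHom.comp (Subring.inclusion hle))
  refine ⟨chig, iota, hT, ?_⟩
  intro ℓ hℓ hℓM hℓS
  have h1 : Subring.inclusion hle (chig.rangeRestrict (CuspForm.heckeAlgebra.T hℓ hℓM hℓS)) =
      e (a ℓ) := by
    apply Subtype.ext
    show chig (CuspForm.heckeAlgebra.T hℓ hℓM hℓS) = ((a ℓ : ℤ) : ℂ)
    rw [hT, ha ℓ hℓ hℓM (by simpa using hℓS)]
  show (Int.castRingHom ℤ_[lam]) (e.symm (Subring.inclusion hle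
    (chig.rangeRestrict (CuspForm.heckeAlgebra.T hℓ hℓM hℓS)))) = (a ℓ : ℤ_[lam])
  rw [h1, RingEquiv.symm_apply_apply]
  rfl

end Fermat.Agent.Lib.S58

end
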